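/-
S52 block [Mod] (helper17): integral Weierstrass models with prescribed invariants `(c₄, c₆)`
congruent to a given model, and transfer of the data relevant for S52
(`apOfModel`, divisibility of `Δ` and `c₄`) along coefficientwise congruences.

* `exists_model`: if `C4 ≡ c₄(W) mod 41472·N` and `C6 ≡ c₆(W) mod 864·N` then there is an integral
  model `W'` with the same `a₁, a₂, a₃`, with `a₄, a₆` congruent to those of `W` mod `N`, and with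
  `c₄(W') = C4`, `c₆(W') = C6`.
* `Congr N W W'`: coefficientwise congruence mod `N`; for a prime `ℓ ∣ N` it gives equal
  reductions mod `ℓ`, hence equal `apOfModel ℓ`, and `ℓ ∣ Δ(W') ↔ ℓ ∣ Δ(W)`, `ℓ ∣ c₄(W') ↔ ℓ ∣ c₄(W)`.
-/
import Mathlib
import Fermat.Prelude.Def_FLTPrelim_Modularity

set_option autoImplicit false

namespace Fermat.Agent.S52.Model

open WeierstrassCurve

/-- Coefficientwise congruence of two integral Weierstrass models modulo `N`. -/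
def Congr (N : ℤ) (W W' : WeierstrassCurve ℤ) : Prop :=
  N ∣ W'.a₁ - W.a₁ ∧ N ∣ W'.a₂ - W.a₂ ∧ N ∣ W'.a₃ - W.a₃ ∧ N ∣ W'.a₄ - W.a₄ ∧ N ∣ W'.a₆ - W.a₆

lemma Congr.of_dvd {N M : ℤ} {W W' : WeierstrassCurve ℤ} (h : Congr N W W') (hMN : M ∣ N) :
    Congr M W W' :=
  ⟨hMN.trans h.1, hMN.trans h.2.1, hMN.trans h.2.2.1, hMN.trans h.2.2.2.1, hMN.trans h.2.2.2.2⟩

/-- An integral model with prescribed `c₄, c₆` close to those of `W`. -/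
theorem exists_model (W : WeierstrassCurve ℤ) (N C4 C6 : ℤ)
    (h4 : 41472 * N ∣ C4 - W.c₄) (h6 : 864 * N ∣ C6 - W.c₆) :
    ∃ W' : WeierstrassCurve ℤ, W'.a₁ = W.a₁ ∧ W'.a₂ = W.a₂ ∧ W'.a₃ = W.a₃ ∧
      N ∣ W'.a₄ - W.a₄ ∧ N ∣ W'.a₆ - W.a₆ ∧ W'.c₄ = C4 ∧ W'.c₆ = C6 := by
  obtain ⟨u, hu⟩ := h4
  obtain ⟨v, hv⟩ := h6
  -- `C4 = c₄ + 41472 N u`, `C6 = c₆ + 864 N v`; take `δ₄ = -864 N u`, `δ₆ = -N (72 b₂ u + v)`.
  refine ⟨⟨W.a₁, W.a₂, W.a₃, W.a₄ - 864 * N * u, W.a₆ - N * (72 * W.b₂ * u + v)⟩,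
    rfl, rfl, rfl, ⟨-864 * u, by ring⟩, ⟨-(72 * W.b₂ * u + v), by ring⟩, ?_, ?_⟩
  · have : C4 = W.c₄ + 41472 * N * u := by linarith
    rw [this]
    simp only [c₄, b₂, b₄]
    ring
  · have : C6 = W.c₆ + 864 * N * v := by linarith
    rw [this]
    simp only [c₆, b₂, b₄, b₆]
    ring

lemma exists_model_congr (W : WeierstrassCurve ℤ) (N C4 C6 : ℤ)
    (h4 : 41472 * N ∣ C4 - W.c₄) (h6 : 864 * N ∣ C6 - W.c₆) :
    ∃ W' : WeierstrassCurve ℤ, Congr N W W' ∧ W'.b₂ = W.b₂ ∧ W'.c₄ = C4 ∧ W'.c₆ = C6 := by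
  obtain ⟨W', h1, h2, h3, h4', h6', hc4, hc6⟩ := exists_model W N C4 C6 h4 h6
  refine ⟨W', ⟨by simp [h1], by simp [h2], by simp [h3], h4', h6'⟩, ?_, hc4, hc6⟩
  simp only [b₂, h1, h2]

section Transfer

variable {W W' : WeierstrassCurve ℤ}

/-- Congruent models have the same reduction. -/
theorem reductionMod_eq {ℓ : ℕ} (h : Congr (ℓ : ℤ) W W') :
    W'.reductionMod ℓ = W.reductionMod ℓ := by
  have key : ∀ a b : ℤ, (ℓ : ℤ) ∣ b - a → ((b : ℤ) : ZMod ℓ) = ((a : ℤ) : ZMod ℓ) := by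
    intro a b hab
    have : ((b - a : ℤ) : ZMod ℓ) = 0 := (ZMod.intCast_zmod_eq_zero_iff_dvd _ _).mpr hab
    push_cast at this
    exact sub_eq_zero.mp this
  obtain ⟨h1, h2, h3, h4, h6⟩ := h
  unfold WeierstrassCurve.reductionMod
  ext
  · exact key _ _ h1
  · exact key _ _ h2
  · exact key _ _ h3
  · exact key _ _ h4
  · exact key _ _ h6

/-- Congruent models have the same `a_ℓ`. -/
theorem apOfModel_eq {ℓ : ℕ} (h : Congr (ℓ : ℤ) W W') :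
    W'.apOfModel ℓ = W.apOfModel ℓ := by
  unfold WeierstrassCurve.apOfModel
  rw [reductionMod_eq h]

/-- A polynomial expression in the coefficients is congruent for congruent models. -/
private lemma sub_dvd_of_congr {N : ℤ} (h : Congr N W W') :
    N ∣ W'.b₂ - W.b₂ ∧ N ∣ W'.b₄ - W.b₄ ∧ N ∣ W'.b₆ - W.b₆ ∧ N ∣ W'.b₈ - W.b₈ := by
  obtain ⟨⟨e1, h1⟩, ⟨e2, h2⟩, ⟨e3, h3⟩, ⟨e4, h4⟩, ⟨e6, h6⟩⟩ := h
  have h1' : W'.a₁ = W.a₁ + N * e1 := by linarith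
  have h2' : W'.a₂ = W.a₂ + N * e2 := by linarith
  have h3' : W'.a₃ = W.a₃ + N * e3 := by linarith
  have h4' : W'.a₄ = W.a₄ + N * e4 := by linarith
  have h6' : W'.a₆ = W.a₆ + N * e6 := by linarith
  refine ⟨?_, ?_, ?_, ?_⟩
  · simp only [b₂, h1', h2']
    exact ⟨2 * W.a₁ * e1 + N * e1 ^ 2 + 4 * e2, by ring⟩
  · simp only [b₄, h1', h3', h4']
    exact ⟨2 * e4 + W.a₁ * e3 + e1 * W.a₃ + N * e1 * e3, by ring⟩
  · simp only [b₆, h3', h6']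
    exact ⟨2 * W.a₃ * e3 + N * e3 ^ 2 + 4 * e6, by ring⟩
  · simp only [b₈, h1', h2', h3', h4', h6']
    exact ⟨(W.a₁ + N * e1) ^ 2 * e6 + (2 * W.a₁ * e1 + N * e1 ^ 2) * W.a₆
      + 4 * (W.a₂ + N * e2) * e6 + 4 * e2 * W.a₆
      - ((W.a₁ + N * e1) * (W.a₃ + N * e3) * e4 + (W.a₁ + N * e1) * e3 * W.a₄
        + e1 * W.a₃ * W.a₄)
      + ((W.a₂ + N * e2) * (2 * W.a₃ * e3 + N * e3 ^ 2) + e2 * W.a₃ ^ 2)
      - (2 * W.a₄ * e4 + N * e4 ^ 2), by ring⟩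

theorem c₄_sub_dvd {N : ℤ} (h : Congr N W W') : N ∣ W'.c₄ - W.c₄ := by
  obtain ⟨⟨f2, hb2⟩, ⟨f4, hb4⟩, -, -⟩ := sub_dvd_of_congr h
  have hb2' : W'.b₂ = W.b₂ + N * f2 := by linarith
  have hb4' : W'.b₄ = W.b₄ + N * f4 := by linarith
  simp only [c₄, hb2', hb4']
  exact ⟨2 * W.b₂ * f2 + N * f2 ^ 2 - 24 * f4, by ring⟩

theorem Δ_sub_dvd {N : ℤ} (h : Congr N W W') : N ∣ W'.Δ - W.Δ := by
  obtain ⟨⟨f2, hb2⟩, ⟨f4, hb4⟩, ⟨f6, hb6⟩, ⟨f8, hb8⟩⟩ := sub_dvd_of_congr h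
  have hb2' : W'.b₂ = W.b₂ + N * f2 := by linarith
  have hb4' : W'.b₄ = W.b₄ + N * f4 := by linarith
  have hb6' : W'.b₆ = W.b₆ + N * f6 := by linarith
  have hb8' : W'.b₈ = W.b₈ + N * f8 := by linarith
  simp only [WeierstrassCurve.Δ, hb2', hb4', hb6', hb8']
  exact ⟨-((W.b₂ + N * f2) ^ 2 * f8 + (2 * W.b₂ * f2 + N * f2 ^ 2) * W.b₈)
    - 8 * (3 * W.b₄ ^ 2 * f4 + 3 * W.b₄ * N * f4 ^ 2 + N ^ 2 * f4 ^ 3)
    - 27 * (2 * W.b₆ * f6 + N * f6 ^ 2)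
    + 9 * ((W.b₂ + N * f2) * (W.b₄ + N * f4) * f6 + (W.b₂ + N * f2) * f4 * W.b₆
      + f2 * W.b₄ * W.b₆), by ring⟩

theorem dvd_Δ_iff {ℓ : ℤ} (h : Congr ℓ W W') : ℓ ∣ W'.Δ ↔ ℓ ∣ W.Δ := by
  have h1 := Δ_sub_dvd h
  constructor
  · intro h2
    have := dvd_sub h2 h1
    simpa using this
  · intro h2
    have := dvd_add h1 h2
    simpa using this

theorem dvd_c₄_iff {ℓ : ℤ} (h : Congr ℓ W W') : ℓ ∣ W'.c₄ ↔ ℓ ∣ W.c₄ := by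
  have h1 := c₄_sub_dvd h
  constructor
  · intro h2
    have := dvd_sub h2 h1
    simpa using this
  · intro h2
    have := dvd_add h1 h2
    simpa using this

/-- Good primes agree for congruent models. -/
theorem isGoodPrimeFor_iff {ℓ : ℕ} (h : Congr (ℓ : ℤ) W W') :
    W'.IsGoodPrimeFor ℓ ↔ W.IsGoodPrimeFor ℓ := by
  unfold WeierstrassCurve.IsGoodPrimeFor
  rw [dvd_Δ_iff h]

end Transfer

/-- **[Mod]** packaged for the S52 assembly.  Given a semistable `W`, a modulus `N` and target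
invariants `C4 ≡ c₄(W) mod 41472·N`, `C6 ≡ c₆(W) mod 864·N`, there is an integral model `W'` with
invariants `(C4, C6)`, the same `b₂`, such that for every prime `ℓ ∣ N`:
`a_ℓ(W') = a_ℓ(W)`, `W'` is good at `ℓ` iff `W` is, and `W'` satisfies the semistability
condition at `ℓ`. -/
theorem exists_model_package (W : WeierstrassCurve ℤ) (hW : W.IsSemistableModel) (N C4 C6 : ℤ)
    (h4 : 41472 * N ∣ C4 - W.c₄) (h6 : 864 * N ∣ C6 - W.c₆) :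
    ∃ W' : WeierstrassCurve ℤ, W'.b₂ = W.b₂ ∧ W'.c₄ = C4 ∧ W'.c₆ = C6 ∧
      1728 * W'.Δ = C4 ^ 3 - C6 ^ 2 ∧
      ∀ ℓ : ℕ, ℓ.Prime → (ℓ : ℤ) ∣ N →
        W'.apOfModel ℓ = W.apOfModel ℓ ∧ (W'.IsGoodPrimeFor ℓ ↔ W.IsGoodPrimeFor ℓ) ∧
        ((ℓ : ℤ) ∣ W'.Δ → ¬ (ℓ : ℤ) ∣ W'.c₄) := by
  obtain ⟨W', hcongr, hb2, hc4, hc6⟩ := exists_model_congr W N C4 C6 h4 h6
  refine ⟨W', hb2, hc4, hc6, ?_, ?_⟩
  · rw [← hc4, ← hc6]
    exact W'.c_relation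
  · intro ℓ hℓ hℓN
    have hc := hcongr.of_dvd hℓN
    refine ⟨apOfModel_eq hc, isGoodPrimeFor_iff hc, ?_⟩
    intro hΔ hc4'
    exact hW ℓ hℓ ((dvd_Δ_iff hc).mp hΔ) ((dvd_c₄_iff hc).mp hc4')

end Fermat.Agent.S52.Model
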