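/-
S52 block [Glue], part 1 (owner: helper32): the end-to-end deduction of the conclusion of the
frozen statement S52 (the 3–5 switch) from the exports of the other blocks, for an arbitrary
target pair of invariants `(C4, C6)` congruent to `(c₄(W), c₆(W))` modulo `41472 · 30 · Δ(W)`.

* `exists_switch_of_invariants`: given
  - `[Irr3Asm]`: every model with invariants `(C4, C6)` (and the `b₂` of `W`) has `Δ ≠ 0` and
    irreducible mod-3 representation,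
  - `[SS]`: every such model satisfies the semistability condition at the primes not dividing
    `30 Δ(W)`,
  - `[X5Fl] + [Frob]` (via `GlueD`): for every such model and every prime `ℓ ≥ 7` of good reduction
    for both, `5 ∣ a_ℓ(W') - a_ℓ(W)`,
  the conclusion of S52 holds.  The primes dividing `30 Δ(W)` are handled here through the
  congruent model of `Model.exists_model_package`.
-/
import Mathlib
import Fermat.Prelude.Def_FLTPrelim_Modularity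
import Fermat.Prelude.Def_FLTPrelim_ModularRep
import Fermat.Agent.S52.Model

set_option autoImplicit false

namespace Fermat.Agent.S52.Glue

open WeierstrassCurve

/-- A prime not dividing `30` is at least `7`. -/
theorem seven_le_of_prime_of_not_dvd_thirty {ℓ : ℕ} (hℓ : ℓ.Prime) (h : ¬ (ℓ : ℤ) ∣ 30) :
    7 ≤ ℓ := by
  by_contra hlt
  have hlt' : ℓ < 7 := Nat.lt_of_not_ge hlt
  have h2 := hℓ.two_le
  interval_cases ℓ
  · exact h ⟨15, by norm_num⟩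
  · exact h ⟨10, by norm_num⟩
  · exact absurd hℓ (by decide)
  · exact h ⟨6, by norm_num⟩
  · exact absurd hℓ (by decide)

/-- **[Glue], core.**  The conclusion of the frozen statement S52 for a model with prescribed
invariants `(C4, C6)` close to those of `W`, from the block exports (as hypotheses). -/
theorem exists_switch_of_invariants (W : WeierstrassCurve ℤ) (hW : W.IsSemistableModel)
    (C4 C6 : ℤ)
    (h4 : 41472 * (30 * W.Δ) ∣ C4 - W.c₄) (h6 : 41472 * (30 * W.Δ) ∣ C6 - W.c₆)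
    (hIrr : ∀ W' : WeierstrassCurve ℤ, W'.b₂ = W.b₂ → W'.c₄ = C4 → W'.c₆ = C6 →
      W'.Δ ≠ 0 ∧ W'.ModRepIsIrreducible 3)
    (hSS : ∀ W' : WeierstrassCurve ℤ, W'.c₄ = C4 → W'.c₆ = C6 →
      ∀ ℓ : ℕ, ℓ.Prime → ¬ (ℓ : ℤ) ∣ 30 * W.Δ → (ℓ : ℤ) ∣ W'.Δ → ¬ (ℓ : ℤ) ∣ W'.c₄)
    (hD : ∀ W' : WeierstrassCurve ℤ, W'.c₄ = C4 → W'.c₆ = C6 →
      ∀ ℓ : ℕ, ℓ.Prime → 7 ≤ ℓ → ¬ (ℓ : ℤ) ∣ W.Δ → ¬ (ℓ : ℤ) ∣ W'.Δ →
        (5 : ℤ) ∣ W'.apOfModel ℓ - W.apOfModel ℓ) :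
    ∃ W' : WeierstrassCurve ℤ, W'.Δ ≠ 0 ∧ W'.IsSemistableModel ∧ W'.ModRepIsIrreducible 3 ∧
      ∀ ℓ : ℕ, ℓ.Prime → W.IsGoodPrimeFor ℓ → W'.IsGoodPrimeFor ℓ → ℓ ≠ 5 →
        (5 : ℤ) ∣ (W'.apOfModel ℓ - W.apOfModel ℓ) := by
  have h6' : 864 * (30 * W.Δ) ∣ C6 - W.c₆ :=
    Dvd.dvd.trans ⟨48, by ring⟩ h6
  obtain ⟨W', hb2, hc4, hc6, -, hpack⟩ :=
    Model.exists_model_package W hW (30 * W.Δ) C4 C6 h4 h6'
  obtain ⟨hΔ', hirr⟩ := hIrr W' hb2 hc4 hc6
  refine ⟨W', hΔ', ?_, hirr, ?_⟩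
  · -- semistability
    intro p hp hpΔ
    by_cases hpN : (p : ℤ) ∣ 30 * W.Δ
    · exact (hpack p hp hpN).2.2 hpΔ
    · exact hSS W' hc4 hc6 p hp hpN hpΔ
  · -- the congruence of traces
    intro ℓ hℓ hgood hgood' _
    by_cases hℓN : (ℓ : ℤ) ∣ 30 * W.Δ
    · rw [(hpack ℓ hℓ hℓN).1, sub_self]
      exact dvd_zero _
    · have h30 : ¬ (ℓ : ℤ) ∣ 30 := fun h => hℓN (Dvd.dvd.mul_right h _)
      exact hD W' hc4 hc6 ℓ hℓ (seven_le_of_prime_of_not_dvd_thirty hℓ h30) hgood hgood'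

end Fermat.Agent.S52.Glue
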