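import Mathlib

/-!
# S52 / Tate-normal-form realisation of the 5-congruent family (data + core identities)

`fam4 c4 c6 s`, `fam6 c4 c6 s` : the invariants of the member with parameter `s` of the
family of curves 5-congruent to the curve with invariants `(c4, c6)` (integral coefficients).
`famN d s`, `famD d s` : numerator / denominator of the Tate parameter of the
member, when the base curve is the Tate normal form curve with parameter `d`.
This file contains the DEFINITIONS only (cheap to build).  The identities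
`fam4 (c4T d) (c6T d) s = C4form (famN d s) (famD d s)` and its `c6`-analogue live in a separate
file.
-/

set_option autoImplicit false

namespace Fermat.Agent.S52.Tate

variable {R : Type*} [CommRing R]

/-- `c4` of the Tate normal form `y² + (1-d)xy - dy = x³ - dx²`. -/
def c4T (d : R) : R := d^4 - 12*d^3 + 14*d^2 + 12*d + 1

/-- `c6` of the Tate normal form. -/
def c6T (d : R) : R := -(d^6 - 18*d^5 + 75*d^4 + 75*d^2 + 18*d + 1)

/-- homogeneous `c4`-form. -/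
def C4form (n m : R) : R := n^4 - 12*n^3*m + 14*n^2*m^2 + 12*n*m^3 + m^4

/-- homogeneous `c6`-form. -/
def C6form (n m : R) : R := -(n^6 - 18*n^5*m + 75*n^4*m^2 + 75*n^2*m^4 + 18*n*m^5 + m^6)

/-- coefficient of `s^0` in `famN`. -/
def famNc0 (d : R) : R := d

/-- coefficient of `s^1` in `famN`. -/
def famNc1 (d : R) : R := 7*d + 66*d^2 - 5*d^3

/-- coefficient of `s^2` in `famN`. -/
def famNc2 (d : R) : R := -38*d - 264*d^2 + 1772*d^3 - 264*d^4 + 10*d^5

/-- coefficient of `s^3` in `famN`. -/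
def famNc3 (d : R) : R := 62*d + 396*d^2 - 966*d^3 + 24552*d^4 - 5358*d^5 + 396*d^6 - 10*d^7

/-- coefficient of `s^4` in `famN`. -/
def famNc4 (d : R) : R := -43*d - 264*d^2 - 3364*d^3 - 48312*d^4 + 164046*d^5 - 48312*d^6 + 5372*d^7 - 264*d^8 + 5*d^9

/-- coefficient of `s^5` in `famN`. -/
def famNc5 (d : R) : R := 11*d + 66*d^2 + 2563*d^3 + 24024*d^4 - 80938*d^5 + 475596*d^6 - 163042*d^7 + 24024*d^8 - 1793*d^9 + 66*d^10 - d^11

/-- coefficient of `s^0` in `famD`. -/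
def famDc0 (_d : R) : R := 1

/-- coefficient of `s^1` in `famD`. -/
def famDc1 (d : R) : R := -5 - 66*d + 7*d^2

/-- coefficient of `s^2` in `famD`. -/
def famDc2 (d : R) : R := 10 + 264*d + 1772*d^2 + 264*d^3 - 38*d^4

/-- coefficient of `s^3` in `famD`. -/
def famDc3 (d : R) : R := -10 - 396*d - 5358*d^2 - 24552*d^3 - 966*d^4 - 396*d^5 + 62*d^6

/-- coefficient of `s^4` in `famD`. -/
def famDc4 (d : R) : R := 5 + 264*d + 5372*d^2 + 48312*d^3 + 164046*d^4 + 48312*d^5 - 3364*d^6 + 264*d^7 - 43*d^8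

/-- coefficient of `s^5` in `famD`. -/
def famDc5 (d : R) : R := -1 - 66*d - 1793*d^2 - 24024*d^3 - 163042*d^4 - 475596*d^5 - 80938*d^6 - 24024*d^7 + 2563*d^8 - 66*d^9 + 11*d^10

/-- coefficient of `s^0` in `fam4`. -/
def fam4c0 (c4 _c6 : R) : R := c4

/-- coefficient of `s^1` in `fam4`. -/
def fam4c1 (_c4 c6 : R) : R := 20*c6

/-- coefficient of `s^2` in `fam4`. -/
def fam4c2 (c4 _c6 : R) : R := 190*c4^2

/-- coefficient of `s^3` in `fam4`. -/
def fam4c3 (c4 c6 : R) : R := 1140*c4*c6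

/-- coefficient of `s^4` in `fam4`. -/
def fam4c4 (c4 c6 : R) : R := 5700*c6^2 - 855*c4^3

/-- coefficient of `s^5` in `fam4`. -/
def fam4c5 (c4 c6 : R) : R := 15504*c4^2*c6

/-- coefficient of `s^6` in `fam4`. -/
def fam4c6 (c4 c6 : R) : R := -63840*c4*c6^2 + 102600*c4^4

/-- coefficient of `s^7` in `fam4`. -/
def fam4c7 (c4 c6 : R) : R := -182400*c6^3 + 259920*c4^3*c6

/-- coefficient of `s^8` in `fam4`. -/
def fam4c8 (c4 c6 : R) : R := 1126320*c4^2*c6^2 - 1000350*c4^5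

/-- coefficient of `s^9` in `fam4`. -/
def fam4c9 (c4 c6 : R) : R := 7904000*c4*c6^3 - 7736040*c4^4*c6

/-- coefficient of `s^10` in `fam4`. -/
def fam4c10 (c4 c6 : R) : R := 15808000*c6^4 - 5619744*c4^3*c6^2 - 10003500*c4^6

/-- coefficient of `s^11` in `fam4`. -/
def fam4c11 (c4 c6 : R) : R := 54853760*c4^2*c6^3 - 54685800*c4^5*c6

/-- coefficient of `s^12` in `fam4`. -/
def fam4c12 (c4 c6 : R) : R := 37939200*c4*c6^4 + 7202520*c4^4*c6^2 - 45015750*c4^7

/-- coefficient of `s^13` in `fam4`. -/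
def fam4c13 (c4 c6 : R) : R := 58368000*c6^5 - 23201280*c4^3*c6^3 - 35089200*c4^6*c6

/-- coefficient of `s^14` in `fam4`. -/
def fam4c14 (c4 c6 : R) : R := 287462400*c4^2*c6^4 - 495188640*c4^5*c6^2 + 207765000*c4^8

/-- coefficient of `s^15` in `fam4`. -/
def fam4c15 (c4 c6 : R) : R := 466944000*c4*c6^5 - 882458496*c4^4*c6^3 + 415530000*c4^7*c6

/-- coefficient of `s^16` in `fam4`. -/
def fam4c16 (c4 c6 : R) : R := 583680000*c6^6 - 1220474880*c4^3*c6^4 + 714711600*c4^6*c6^2 - 77911875*c4^9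

/-- coefficient of `s^17` in `fam4`. -/
def fam4c17 (c4 c6 : R) : R := 361881600*c4^2*c6^5 - 715080960*c4^5*c6^3 + 353200500*c4^8*c6

/-- coefficient of `s^18` in `fam4`. -/
def fam4c18 (c4 c6 : R) : R := -622592000*c4*c6^6 + 2026391040*c4^4*c6^4 - 2182917600*c4^7*c6^2 + 779118750*c4^10

/-- coefficient of `s^19` in `fam4`. -/
def fam4c19 (c4 c6 : R) : R := -655360000*c6^7 + 2005401600*c4^3*c6^5 - 2044414080*c4^6*c6^3 + 694372500*c4^9*c6

/-- coefficient of `s^20` in `fam4`. -/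
def fam4c20 (c4 c6 : R) : R := -180224000*c4^2*c6^6 + 544997376*c4^5*c6^4 - 549301500*c4^8*c6^2 + 184528125*c4^11

/-- coefficient of `s^0` in `fam6`. -/
def fam6c0 (_c4 c6 : R) : R := c6

/-- coefficient of `s^1` in `fam6`. -/
def fam6c1 (c4 _c6 : R) : R := 30*c4^2

/-- coefficient of `s^2` in `fam6`. -/
def fam6c2 (c4 c6 : R) : R := 435*c4*c6

/-- coefficient of `s^3` in `fam6`. -/
def fam6c3 (c4 c6 : R) : R := 2900*c6^2 + 1160*c4^3

/-- coefficient of `s^4` in `fam6`. -/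
def fam6c4 (c4 c6 : R) : R := 27405*c4^2*c6

/-- coefficient of `s^5` in `fam6`. -/
def fam6c5 (c4 c6 : R) : R := 46980*c4*c6^2 + 95526*c4^4

/-- coefficient of `s^6` in `fam6`. -/
def fam6c6 (c4 c6 : R) : R := 156600*c6^3 + 437175*c4^3*c6

/-- coefficient of `s^7` in `fam6`. -/
def fam6c7 (c4 c6 : R) : R := 3915000*c4^2*c6^2 - 1879200*c4^5

/-- coefficient of `s^8` in `fam6`. -/
def fam6c8 (c4 c6 : R) : R := 14407200*c4*c6^3 - 8554275*c4^4*c6

/-- coefficient of `s^9` in `fam6`. -/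
def fam6c9 (c4 c6 : R) : R := 32016000*c6^4 - 42021000*c4^3*c6^2 + 24312150*c4^6

/-- coefficient of `s^10` in `fam6`. -/
def fam6c10 (c4 c6 : R) : R := -216588240*c4^2*c6^3 + 246633255*c4^5*c6

/-- coefficient of `s^11` in `fam6`. -/
def fam6c11 (c4 c6 : R) : R := -1459929600*c4*c6^4 + 1352475900*c4^4*c6^2 + 162081000*c4^7

/-- coefficient of `s^12` in `fam6`. -/
def fam6c12 (c4 c6 : R) : R := -2433216000*c6^5 - 1612005600*c4^3*c6^3 + 4131714825*c4^6*c6

/-- coefficient of `s^13` in `fam6`. -/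
def fam6c13 (c4 c6 : R) : R := -12044419200*c4^2*c6^4 + 5235216300*c4^5*c6^2 + 6928962750*c4^8

/-- coefficient of `s^14` in `fam6`. -/
def fam6c14 (c4 c6 : R) : R := -43045111800*c4^4*c6^3 + 43190534475*c4^7*c6

/-- coefficient of `s^15` in `fam6`. -/
def fam6c15 (c4 c6 : R) : R := -79420170240*c4^3*c6^4 + 79575287760*c4^6*c6^2

/-- coefficient of `s^16` in `fam6`. -/
def fam6c16 (c4 c6 : R) : R := -297825638400*c4^2*c6^5 + 474659611200*c4^5*c6^3 - 176688550125*c4^8*c6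

/-- coefficient of `s^17` in `fam6`. -/
def fam6c17 (c4 c6 : R) : R := -700766208000*c4*c6^6 + 935084908800*c4^4*c6^4 + 77604382800*c4^7*c6^2 - 311803323750*c4^10

/-- coefficient of `s^18` in `fam6`. -/
def fam6c18 (c4 c6 : R) : R := -778629120000*c6^7 - 303665356800*c4^3*c6^5 + 2776512362400*c4^6*c6^3 - 1694131392375*c4^9*c6

/-- coefficient of `s^19` in `fam6`. -/
def fam6c19 (c4 c6 : R) : R := -4290656256000*c4^2*c6^6 + 8100765158400*c4^5*c6^4 - 3481840250100*c4^8*c6^2 - 328214025000*c4^11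

/-- coefficient of `s^20` in `fam6`. -/
def fam6c20 (c4 c6 : R) : R := -3442360320000*c4*c6^7 + 3892110842880*c4^4*c6^5 + 2424887357760*c4^7*c6^3 - 2874607835625*c4^10*c6

/-- coefficient of `s^21` in `fam6`. -/
def fam6c21 (c4 c6 : R) : R := -3278438400000*c6^8 + 5125838438400*c4^3*c6^6 - 2709129888000*c4^6*c6^4 + 3077188825500*c4^9*c6^2 - 2215444668750*c4^12

/-- coefficient of `s^22` in `fam6`. -/
def fam6c22 (c4 c6 : R) : R := -4573421568000*c4^2*c6^7 + 7701051801600*c4^5*c6^5 - 1724509423800*c4^8*c6^3 - 1403114956875*c4^11*c6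

/-- coefficient of `s^23` in `fam6`. -/
def fam6c23 (c4 c6 : R) : R := 6157762560000*c4*c6^8 - 30337884979200*c4^4*c6^6 + 49888700928000*c4^7*c6^4 - 33414470973000*c4^10*c6^2 + 7705894500000*c4^13

/-- coefficient of `s^24` in `fam6`. -/
def fam6c24 (c4 c6 : R) : R := 5131468800000*c6^9 - 22779445248000*c4^3*c6^7 + 35246094796800*c4^6*c6^5 - 22687218914400*c4^9*c6^3 + 5089101159375*c4^12*c6

/-- coefficient of `s^25` in `fam6`. -/
def fam6c25 (c4 c6 : R) : R := -18216714240000*c4^2*c6^8 + 71274600677376*c4^5*c6^6 - 105528606261120*c4^8*c6^4 + 70097953635000*c4^11*c6^2 - 17627233668750*c4^14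

/-- coefficient of `s^26` in `fam6`. -/
def fam6c26 (c4 c6 : R) : R := -41051750400000*c4*c6^9 + 163803539865600*c4^4*c6^7 - 245438120632320*c4^7*c6^5 + 163672057566000*c4^10*c6^3 - 40985726371875*c4^13*c6

/-- coefficient of `s^27` in `fam6`. -/
def fam6c27 (c4 c6 : R) : R := -30408704000000*c6^10 + 111934439424000*c4^3*c6^8 - 143803576074240*c4^6*c6^6 + 63806176396800*c4^9*c6^4 + 8104032382500*c4^12*c6^2 - 9632368125000*c4^15

/-- coefficient of `s^28` in `fam6`. -/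
def fam6c28 (c4 c6 : R) : R := -21438136320000*c4^2*c6^9 + 85731449241600*c4^5*c6^7 - 128580522647040*c4^8*c6^5 + 85719228804000*c4^11*c6^3 - 21432019078125*c4^14*c6

/-- coefficient of `s^29` in `fam6`. -/
def fam6c29 (c4 c6 : R) : R := 5033164800000*c4*c6^10 - 31344427008000*c4^4*c6^8 + 75042714746880*c4^7*c6^6 - 87394892457600*c4^10*c6^4 + 49873523512500*c4^13*c6^2 - 11210083593750*c4^16

/-- coefficient of `s^30` in `fam6`. -/
def fam6c30 (c4 c6 : R) : R := 3355443200000*c6^11 - 17532190720000*c4^3*c6^9 + 36574189977600*c4^6*c6^7 - 38083944628224*c4^9*c6^5 + 19796866155000*c4^12*c6^3 - 4110363984375*c4^15*c6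

/-- numerator of the Tate parameter along the family. -/
def famN (d s : R) : R :=
  famNc0 d + famNc1 d * s + famNc2 d * s^2 + famNc3 d * s^3 + famNc4 d * s^4 + famNc5 d * s^5

/-- denominator of the Tate parameter along the family. -/
def famD (d s : R) : R :=
  famDc0 d + famDc1 d * s + famDc2 d * s^2 + famDc3 d * s^3 + famDc4 d * s^4 + famDc5 d * s^5

/-- `c4` of the family member. -/
def fam4 (c4 c6 s : R) : R :=
  fam4c0 c4 c6 + fam4c1 c4 c6 * s + fam4c2 c4 c6 * s^2 + fam4c3 c4 c6 * s^3 + fam4c4 c4 c6 * s^4 + fam4c5 c4 c6 * s^5 + fam4c6 c4 c6 * s^6 + fam4c7 c4 c6 * s^7 + fam4c8 c4 c6 * s^8 + fam4c9 c4 c6 * s^9 + fam4c10 c4 c6 * s^10 + fam4c11 c4 c6 * s^11 + fam4c12 c4 c6 * s^12 + fam4c13 c4 c6 * s^13 + fam4c14 c4 c6 * s^14 + fam4c15 c4 c6 * s^15 + fam4c16 c4 c6 * s^16 + fam4c17 c4 c6 * s^17 + fam4c18 c4 c6 * s^18 + fam4c19 c4 c6 * s^19 + fam4c20 c4 c6 * s^20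

/-- `c6` of the family member. -/
def fam6 (c4 c6 s : R) : R :=
  fam6c0 c4 c6 + fam6c1 c4 c6 * s + fam6c2 c4 c6 * s^2 + fam6c3 c4 c6 * s^3 + fam6c4 c4 c6 * s^4 + fam6c5 c4 c6 * s^5 + fam6c6 c4 c6 * s^6 + fam6c7 c4 c6 * s^7 + fam6c8 c4 c6 * s^8 + fam6c9 c4 c6 * s^9 + fam6c10 c4 c6 * s^10 + fam6c11 c4 c6 * s^11 + fam6c12 c4 c6 * s^12 + fam6c13 c4 c6 * s^13 + fam6c14 c4 c6 * s^14 + fam6c15 c4 c6 * s^15 + fam6c16 c4 c6 * s^16 + fam6c17 c4 c6 * s^17 + fam6c18 c4 c6 * s^18 + fam6c19 c4 c6 * s^19 + fam6c20 c4 c6 * s^20 + fam6c21 c4 c6 * s^21 + fam6c22 c4 c6 * s^22 + fam6c23 c4 c6 * s^23 + fam6c24 c4 c6 * s^24 + fam6c25 c4 c6 * s^25 + fam6c26 c4 c6 * s^26 + fam6c27 c4 c6 * s^27 + fam6c28 c4 c6 * s^28 + fam6c29 c4 c6 * s^29 + fam6c30 c4 c6 * s^30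

end Fermat.Agent.S52.Tate
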