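/-
T3 / S52, block [GlueArith] (owner: helper2).

Small arithmetic facts about the family `Tate.fam4`, `Tate.fam6` (file `S52/TateFam.lean`) that the
final assembly needs:

* `map_fam4`, `map_fam6`, `map_famN`, `map_famD`, `map_c4T`, `map_c6T`, `map_C4form`, `map_C6form` :
  compatibility with ring homomorphisms (casts `ℤ → ZMod ℓ`, Frobenius, `algebraMap`, evaluation);
* `intCast_fam4`, `intCast_fam6` : the cast form used with `ShortCount.apOfModel_eq_short`;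
* `fam4_zero`, `fam6_zero`, `dvd_fam4_sub`, `dvd_fam6_sub` : the member at `s = 0` is the base curve,
  and `s ∣ fam4 c4 c6 s - c4`, `s ∣ fam6 c4 c6 s - c6`;
* `disc_of_fam`, `dvd_disc_iff`, `disc_ne_zero_iff` : for an integral model `W'` with invariants
  `(fam4 c₄ c₆ s, fam6 c₄ c₆ s)` and any `D` with `fam4³ - fam6² = (c₄³ - c₆²) D⁵`:
  `Δ(W') = Δ(W) D⁵`.
-/
import Fermat.Agent.S52.TateFam

set_option autoImplicit false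
set_option linter.unusedSimpArgs false

namespace Fermat.Agent.S52.GlueArith

open Fermat.Agent.S52

section map

variable {R S : Type*} [CommRing R] [CommRing S] (f : R →+* S)

theorem map_c4T (d : R) : f (Tate.c4T d) = Tate.c4T (f d) := by
  simp only [Tate.c4T, map_add, map_sub, map_mul, map_pow, map_neg, map_one, map_ofNat]

theorem map_c6T (d : R) : f (Tate.c6T d) = Tate.c6T (f d) := by
  simp only [Tate.c6T, map_add, map_sub, map_mul, map_pow, map_neg, map_one, map_ofNat]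

theorem map_C4form (n m : R) : f (Tate.C4form n m) = Tate.C4form (f n) (f m) := by
  simp only [Tate.C4form, map_add, map_sub, map_mul, map_pow, map_neg, map_one, map_ofNat]

theorem map_C6form (n m : R) : f (Tate.C6form n m) = Tate.C6form (f n) (f m) := by
  simp only [Tate.C6form, map_add, map_sub, map_mul, map_pow, map_neg, map_one, map_ofNat]

theorem map_famN (d s : R) : f (Tate.famN d s) = Tate.famN (f d) (f s) := by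
  simp only [Tate.famN, Tate.famNc0, Tate.famNc1, Tate.famNc2, Tate.famNc3, Tate.famNc4, Tate.famNc5,
    map_add, map_sub, map_mul, map_pow, map_neg, map_one, map_ofNat]

theorem map_famD (d s : R) : f (Tate.famD d s) = Tate.famD (f d) (f s) := by
  simp only [Tate.famD, Tate.famDc0, Tate.famDc1, Tate.famDc2, Tate.famDc3, Tate.famDc4, Tate.famDc5,
    map_add, map_sub, map_mul, map_pow, map_neg, map_one, map_ofNat]

theorem map_fam4 (c4 c6 s : R) : f (Tate.fam4 c4 c6 s) = Tate.fam4 (f c4) (f c6) (f s) := by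
  simp only [Tate.fam4, Tate.fam4c0, Tate.fam4c1, Tate.fam4c2, Tate.fam4c3, Tate.fam4c4, Tate.fam4c5, Tate.fam4c6, Tate.fam4c7, Tate.fam4c8, Tate.fam4c9, Tate.fam4c10, Tate.fam4c11, Tate.fam4c12, Tate.fam4c13, Tate.fam4c14, Tate.fam4c15, Tate.fam4c16, Tate.fam4c17, Tate.fam4c18, Tate.fam4c19, Tate.fam4c20,
    map_add, map_sub, map_mul, map_pow, map_neg, map_one, map_ofNat]

theorem map_fam6 (c4 c6 s : R) : f (Tate.fam6 c4 c6 s) = Tate.fam6 (f c4) (f c6) (f s) := by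
  simp only [Tate.fam6, Tate.fam6c0, Tate.fam6c1, Tate.fam6c2, Tate.fam6c3, Tate.fam6c4, Tate.fam6c5, Tate.fam6c6, Tate.fam6c7, Tate.fam6c8, Tate.fam6c9, Tate.fam6c10, Tate.fam6c11, Tate.fam6c12, Tate.fam6c13, Tate.fam6c14, Tate.fam6c15, Tate.fam6c16, Tate.fam6c17, Tate.fam6c18, Tate.fam6c19, Tate.fam6c20, Tate.fam6c21, Tate.fam6c22, Tate.fam6c23, Tate.fam6c24, Tate.fam6c25, Tate.fam6c26, Tate.fam6c27, Tate.fam6c28, Tate.fam6c29, Tate.fam6c30,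
    map_add, map_sub, map_mul, map_pow, map_neg, map_one, map_ofNat]

end map

section cast

/-- Cast form of `map_fam4` for `ℤ → ZMod ℓ`. -/
theorem intCast_fam4 (ℓ : ℕ) (c4 c6 s : ℤ) :
    ((Tate.fam4 c4 c6 s : ℤ) : ZMod ℓ) = Tate.fam4 (c4 : ZMod ℓ) (c6 : ZMod ℓ) (s : ZMod ℓ) :=
  map_fam4 (Int.castRingHom (ZMod ℓ)) c4 c6 s

/-- Cast form of `map_fam6` for `ℤ → ZMod ℓ`. -/
theorem intCast_fam6 (ℓ : ℕ) (c4 c6 s : ℤ) :
    ((Tate.fam6 c4 c6 s : ℤ) : ZMod ℓ) = Tate.fam6 (c4 : ZMod ℓ) (c6 : ZMod ℓ) (s : ZMod ℓ) :=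
  map_fam6 (Int.castRingHom (ZMod ℓ)) c4 c6 s

end cast

section dvd

variable {R : Type*} [CommRing R]

/-- `fam4 c4 c6 s - c4` is `s` times an explicit cofactor. -/
theorem fam4_sub_eq (c4 c6 s : R) :
    Tate.fam4 c4 c6 s - c4 = s * (Tate.fam4c1 c4 c6 + Tate.fam4c2 c4 c6 * s + Tate.fam4c3 c4 c6 * s ^ 2 + Tate.fam4c4 c4 c6 * s ^ 3 + Tate.fam4c5 c4 c6 * s ^ 4 + Tate.fam4c6 c4 c6 * s ^ 5 + Tate.fam4c7 c4 c6 * s ^ 6 + Tate.fam4c8 c4 c6 * s ^ 7 + Tate.fam4c9 c4 c6 * s ^ 8 + Tate.fam4c10 c4 c6 * s ^ 9 + Tate.fam4c11 c4 c6 * s ^ 10 + Tate.fam4c12 c4 c6 * s ^ 11 + Tate.fam4c13 c4 c6 * s ^ 12 + Tate.fam4c14 c4 c6 * s ^ 13 + Tate.fam4c15 c4 c6 * s ^ 14 + Tate.fam4c16 c4 c6 * s ^ 15 + Tate.fam4c17 c4 c6 * s ^ 16 + Tate.fam4c18 c4 c6 * s ^ 17 + Tate.fam4c19 c4 c6 * s ^ 18 + Tate.fam4c20 c4 c6 * s ^ 19) := by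
  simp only [Tate.fam4, Tate.fam4c0]
  ring

/-- `fam6 c4 c6 s - c6` is `s` times an explicit cofactor. -/
theorem fam6_sub_eq (c4 c6 s : R) :
    Tate.fam6 c4 c6 s - c6 = s * (Tate.fam6c1 c4 c6 + Tate.fam6c2 c4 c6 * s + Tate.fam6c3 c4 c6 * s ^ 2 + Tate.fam6c4 c4 c6 * s ^ 3 + Tate.fam6c5 c4 c6 * s ^ 4 + Tate.fam6c6 c4 c6 * s ^ 5 + Tate.fam6c7 c4 c6 * s ^ 6 + Tate.fam6c8 c4 c6 * s ^ 7 + Tate.fam6c9 c4 c6 * s ^ 8 + Tate.fam6c10 c4 c6 * s ^ 9 + Tate.fam6c11 c4 c6 * s ^ 10 + Tate.fam6c12 c4 c6 * s ^ 11 + Tate.fam6c13 c4 c6 * s ^ 12 + Tate.fam6c14 c4 c6 * s ^ 13 + Tate.fam6c15 c4 c6 * s ^ 14 + Tate.fam6c16 c4 c6 * s ^ 15 + Tate.fam6c17 c4 c6 * s ^ 16 + Tate.fam6c18 c4 c6 * s ^ 17 + Tate.fam6c19 c4 c6 * s ^ 18 + Tate.fam6c20 c4 c6 * s ^ 19 + Tate.fam6c21 c4 c6 * s ^ 20 + Tate.fam6c22 c4 c6 * s ^ 21 + Tate.fam6c23 c4 c6 * s ^ 22 + Tate.fam6c24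 c4 c6 * s ^ 23 + Tate.fam6c25 c4 c6 * s ^ 24 + Tate.fam6c26 c4 c6 * s ^ 25 + Tate.fam6c27 c4 c6 * s ^ 26 + Tate.fam6c28 c4 c6 * s ^ 27 + Tate.fam6c29 c4 c6 * s ^ 28 + Tate.fam6c30 c4 c6 * s ^ 29) := by
  simp only [Tate.fam6, Tate.fam6c0]
  ring

theorem dvd_fam4_sub (c4 c6 s : R) : s ∣ Tate.fam4 c4 c6 s - c4 :=
  ⟨_, fam4_sub_eq c4 c6 s⟩

theorem dvd_fam6_sub (c4 c6 s : R) : s ∣ Tate.fam6 c4 c6 s - c6 :=
  ⟨_, fam6_sub_eq c4 c6 s⟩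

/-- The member at `s = 0` has `c₄ = c4`. -/
theorem fam4_zero (c4 c6 : R) : Tate.fam4 c4 c6 0 = c4 := by
  have h := fam4_sub_eq c4 c6 0
  rw [zero_mul] at h
  exact sub_eq_zero.mp h

/-- The member at `s = 0` has `c₆ = c6`. -/
theorem fam6_zero (c4 c6 : R) : Tate.fam6 c4 c6 0 = c6 := by
  have h := fam6_sub_eq c4 c6 0
  rw [zero_mul] at h
  exact sub_eq_zero.mp h

theorem dvd_fam4_sub_of_dvd {M c4 c6 s : R} (h : M ∣ s) : M ∣ Tate.fam4 c4 c6 s - c4 :=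
  h.trans (dvd_fam4_sub c4 c6 s)

theorem dvd_fam6_sub_of_dvd {M c4 c6 s : R} (h : M ∣ s) : M ∣ Tate.fam6 c4 c6 s - c6 :=
  h.trans (dvd_fam6_sub c4 c6 s)

end dvd

section disc

open WeierstrassCurve

/-- The discriminant of an integral model of the member: `Δ(W') = Δ(W) · D⁵` as soon as
`fam4³ - fam6² = (c₄³ - c₆²) · D⁵`. -/
theorem disc_of_fam (W W' : WeierstrassCurve ℤ) (s D : ℤ)
    (h4 : W'.c₄ = Tate.fam4 W.c₄ W.c₆ s) (h6 : W'.c₆ = Tate.fam6 W.c₄ W.c₆ s)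
    (hdisc : Tate.fam4 W.c₄ W.c₆ s ^ 3 - Tate.fam6 W.c₄ W.c₆ s ^ 2
      = (W.c₄ ^ 3 - W.c₆ ^ 2) * D ^ 5) :
    W'.Δ = W.Δ * D ^ 5 := by
  have h1 : 1728 * W'.Δ = W'.c₄ ^ 3 - W'.c₆ ^ 2 := W'.c_relation
  have h2 : 1728 * W.Δ = W.c₄ ^ 3 - W.c₆ ^ 2 := W.c_relation
  have h3 : (1728 : ℤ) * W'.Δ = 1728 * (W.Δ * D ^ 5) := by
    rw [h1, h4, h6, hdisc, ← h2]
    ring
  exact mul_left_cancel₀ (by norm_num) h3

/-- For a prime `ℓ` of good reduction of `W`: `ℓ ∣ Δ(W')` iff `ℓ ∣ D`. -/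
theorem dvd_disc_iff (W W' : WeierstrassCurve ℤ) (s D : ℤ)
    (h4 : W'.c₄ = Tate.fam4 W.c₄ W.c₆ s) (h6 : W'.c₆ = Tate.fam6 W.c₄ W.c₆ s)
    (hdisc : Tate.fam4 W.c₄ W.c₆ s ^ 3 - Tate.fam6 W.c₄ W.c₆ s ^ 2
      = (W.c₄ ^ 3 - W.c₆ ^ 2) * D ^ 5)
    {ℓ : ℕ} (hℓ : ℓ.Prime) (hW : ¬ (ℓ : ℤ) ∣ W.Δ) :
    (ℓ : ℤ) ∣ W'.Δ ↔ (ℓ : ℤ) ∣ D := by
  have hp : Prime (ℓ : ℤ) := Nat.prime_iff_prime_int.mp hℓ
  rw [disc_of_fam W W' s D h4 h6 hdisc]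
  constructor
  · intro h
    rcases hp.dvd_or_dvd h with h' | h'
    · exact absurd h' hW
    · exact hp.dvd_of_dvd_pow h'
  · intro h
    exact Dvd.dvd.mul_left (dvd_pow h (by norm_num)) _

/-- `Δ(W') ≠ 0` iff `D ≠ 0` (given `Δ(W) ≠ 0`). -/
theorem disc_ne_zero_iff (W W' : WeierstrassCurve ℤ) (s D : ℤ)
    (h4 : W'.c₄ = Tate.fam4 W.c₄ W.c₆ s) (h6 : W'.c₆ = Tate.fam6 W.c₄ W.c₆ s)
    (hdisc : Tate.fam4 W.c₄ W.c₆ s ^ 3 - Tate.fam6 W.c₄ W.c₆ s ^ 2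
      = (W.c₄ ^ 3 - W.c₆ ^ 2) * D ^ 5)
    (hW : W.Δ ≠ 0) : W'.Δ ≠ 0 ↔ D ≠ 0 := by
  rw [disc_of_fam W W' s D h4 h6 hdisc]
  constructor
  · intro h hD
    exact h (by rw [hD]; ring)
  · intro h
    exact mul_ne_zero hW (pow_ne_zero _ h)

/-- If `D ≡ 1` modulo `s` and `s` is divisible by some `M` which is not a unit, then `D ≠ 0`. -/
theorem ne_zero_of_dvd_sub_one {M s D : ℤ} (hM : M ∣ s) (hD : s ∣ D - 1) (hM1 : ¬ IsUnit M) :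
    D ≠ 0 := by
  rintro rfl
  apply hM1
  have h : M ∣ (0 : ℤ) - 1 := hM.trans hD
  have h' : M ∣ 1 := by
    have := (dvd_neg (a := M) (b := (0 : ℤ) - 1)).mpr h
    simpa using this
  exact isUnit_of_dvd_one h'

end disc

end Fermat.Agent.S52.GlueArith
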