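/-
S52, abstract "Corollary C" (owner: helper95).  Pure additive-group statement used by the final glue:
the Frobenius relation for `E` at `P`, the Frobenius relation for `E'` at a point `P'` of exact
order `5`, and transport of integer relations from `(φ² P, φ P, P)` to `(φ'² P', φ' P', P')` force
`5 ∣ a' - a`.  Mathlib-only.
-/
import Mathlib

set_option autoImplicit false

namespace Fermat.Agent.S52.CorC

variable {G G' : Type*} [AddCommGroup G] [AddCommGroup G']

/-- **Abstract Corollary C.**  If `φ² P - a φ P + ℓ P = 0`, `φ'² P' - a' φ' P' + ℓ P' = 0` with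
`P' ≠ 0`, `5 P' = 0`, `φ'` injective, and every integer relation among `φ² P, φ P, P` also holds for
`φ'² P', φ' P', P'`, then `5 ∣ a' - a`. -/
theorem five_dvd_of_transport (φ : G →+ G) (φ' : G' →+ G') (hφ' : Function.Injective φ')
    (P : G) (P' : G') (a a' ℓ : ℤ) (hP' : P' ≠ 0) (h5 : (5 : ℤ) • P' = 0)
    (hF : φ (φ P) - a • φ P + ℓ • P = 0)
    (hF' : φ' (φ' P') - a' • φ' P' + ℓ • P' = 0)
    (htr : ∀ u v w : ℤ, u • φ (φ P) + v • φ P + w • P = 0 →
      u • φ' (φ' P') + v • φ' P' + w • P' = 0) :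
    (5 : ℤ) ∣ a' - a := by
  have h1 : (1 : ℤ) • φ (φ P) + (-a) • φ P + ℓ • P = 0 := by
    rw [one_smul, neg_smul, ← sub_eq_add_neg]; exact hF
  have h2 := htr 1 (-a) ℓ h1
  rw [one_smul, neg_smul, ← sub_eq_add_neg] at h2
  have h3 : (a' - a) • φ' P' = 0 := by
    have : (a' - a) • φ' P' =
        (φ' (φ' P') - a • φ' P' + ℓ • P') - (φ' (φ' P') - a' • φ' P' + ℓ • P') := by
      rw [sub_smul]; abel
    rw [this, h2, hF', sub_zero]
  have hQ : φ' P' ≠ 0 := fun h => hP' (hφ' (by rw [h, map_zero]))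
  have h5Q : (5 : ℤ) • φ' P' = 0 := by rw [← map_zsmul, h5, map_zero]
  by_contra hnd
  have hcop : IsCoprime (a' - a) (5 : ℤ) := by
    have hp : Prime (5 : ℤ) := by norm_num
    exact (hp.coprime_iff_not_dvd.mpr hnd).symm
  obtain ⟨u, v, huv⟩ := hcop
  apply hQ
  have : (1 : ℤ) • φ' P' = 0 := by
    rw [← huv, add_smul, mul_smul, mul_smul, h3, h5Q, smul_zero, smul_zero, add_zero]
  rwa [one_smul] at this

/-- Variant with natural-number torsion hypothesis `5 • P' = 0` (as produced by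
`TNF.order5_of_tate_gen`). -/
theorem five_dvd_of_transport' (φ : G →+ G) (φ' : G' →+ G') (hφ' : Function.Injective φ')
    (P : G) (P' : G') (a a' ℓ : ℤ) (hP' : P' ≠ 0) (h5 : (5 : ℕ) • P' = 0)
    (hF : φ (φ P) - a • φ P + ℓ • P = 0)
    (hF' : φ' (φ' P') - a' • φ' P' + ℓ • P' = 0)
    (htr : ∀ u v w : ℤ, u • φ (φ P) + v • φ P + w • P = 0 →
      u • φ' (φ' P') + v • φ' P' + w • P' = 0) :
    (5 : ℤ) ∣ a' - a := by
  refine five_dvd_of_transport φ φ' hφ' P P' a a' ℓ hP' ?_ hF hF' htr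
  have : ((5 : ℕ) : ℤ) • P' = 0 := by rw [natCast_zsmul]; exact h5
  simpa using this

end Fermat.Agent.S52.CorC
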