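/-
Team T3 / S52, block [Fr3a] (owner: helper41).  Mathlib-only.

The two classical identities for `x(P + Q) + x(P - Q)` and `x(P + Q) * x(P - Q)` on a Weierstrass
curve in general form, together with the duplication formula.  With `s = x₁ x₂`, `t = x₁ + x₂`:

  x(P+Q) + x(P-Q) = (2 s t + b₂ s + b₄ t + b₆) / (x₁ - x₂)²
  x(P+Q) * x(P-Q) = (s² - b₄ s - b₆ t - b₈) / (x₁ - x₂)²
  x(2P)           = (x⁴ - b₄ x² - 2 b₆ x - b₈) / (4x³ + b₂ x² + 2 b₄ x + b₆).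

These are the inputs of the exact parallelogram law for the degree of the `x`-coordinate.
-/
import Mathlib

set_option autoImplicit false

namespace Fermat.Agent.S52.AddSub

open WeierstrassCurve

variable {F : Type*} [Field F] (W : WeierstrassCurve.Affine F)

/-- Numerator of `x(P+Q) + x(P-Q)` in terms of the abscissae. -/
def sumNum (x₁ x₂ : F) : F :=
  2 * (x₁ * x₂) * (x₁ + x₂) + W.b₂ * (x₁ * x₂) + W.b₄ * (x₁ + x₂) + W.b₆

/-- Numerator of `x(P+Q) * x(P-Q)` in terms of the abscissae. -/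
def prodNum (x₁ x₂ : F) : F :=
  (x₁ * x₂) ^ 2 - W.b₄ * (x₁ * x₂) - W.b₆ * (x₁ + x₂) - W.b₈

/-- Numerator of `x(2P)`. -/
def dblNum (x : F) : F := x ^ 4 - W.b₄ * x ^ 2 - 2 * W.b₆ * x - W.b₈

/-- Denominator of `x(2P)`: the square of `2y + a₁x + a₃`, as a cubic in `x`. -/
def dblDen (x : F) : F := 4 * x ^ 3 + W.b₂ * x ^ 2 + 2 * W.b₄ * x + W.b₆

lemma prodNum_self (x : F) : prodNum W x x = dblNum W x := by
  simp only [prodNum, dblNum]; ring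

lemma sumNum_self (x : F) : sumNum W x x = dblDen W x := by
  simp only [sumNum, dblDen]; ring

/-- `(2y + a₁x + a₃)² = 4x³ + b₂x² + 2b₄x + b₆` on the curve. -/
lemma dblDen_eq {x y : F} (h : W.Equation x y) :
    dblDen W x = (y - W.negY x y) ^ 2 := by
  rw [Affine.equation_iff] at h
  simp only [dblDen, Affine.negY, WeierstrassCurve.b₂, WeierstrassCurve.b₄, WeierstrassCurve.b₆]
  linear_combination (-4 : F) * h

variable [DecidableEq F]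

/-- `x(P+Q) + x(P-Q)` for `x₁ ≠ x₂`, in terms of Mathlib's `addX` and `slope`. -/
theorem addX_add_addX {x₁ x₂ y₁ y₂ : F} (h₁ : W.Equation x₁ y₁) (h₂ : W.Equation x₂ y₂)
    (hx : x₁ ≠ x₂) :
    W.addX x₁ x₂ (W.slope x₁ x₂ y₁ y₂) + W.addX x₁ x₂ (W.slope x₁ x₂ y₁ (W.negY x₂ y₂)) =
      sumNum W x₁ x₂ / (x₁ - x₂) ^ 2 := by
  rw [Affine.equation_iff] at h₁ h₂
  have hD : x₁ - x₂ ≠ 0 := sub_ne_zero.mpr hx
  rw [Affine.slope_of_X_ne hx, Affine.slope_of_X_ne hx]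
  simp only [Affine.addX, Affine.negY, sumNum, WeierstrassCurve.b₂, WeierstrassCurve.b₄,
    WeierstrassCurve.b₆]
  field_simp
  linear_combination (2 : F) * h₁ + (2 : F) * h₂

/-- `x(P+Q) * x(P-Q)` for `x₁ ≠ x₂`, in terms of Mathlib's `addX` and `slope`. -/
theorem addX_mul_addX {x₁ x₂ y₁ y₂ : F} (h₁ : W.Equation x₁ y₁) (h₂ : W.Equation x₂ y₂)
    (hx : x₁ ≠ x₂) :
    W.addX x₁ x₂ (W.slope x₁ x₂ y₁ y₂) * W.addX x₁ x₂ (W.slope x₁ x₂ y₁ (W.negY x₂ y₂)) =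
      prodNum W x₁ x₂ / (x₁ - x₂) ^ 2 := by
  rw [Affine.equation_iff] at h₁ h₂
  have hD : x₁ - x₂ ≠ 0 := sub_ne_zero.mpr hx
  rw [Affine.slope_of_X_ne hx, Affine.slope_of_X_ne hx]
  simp only [Affine.addX, Affine.negY, prodNum, WeierstrassCurve.b₄,
    WeierstrassCurve.b₆, WeierstrassCurve.b₈]
  field_simp
  linear_combination
    (W.a₁ ^ 2 * x₁ * x₂ - W.a₁ ^ 2 * x₂ ^ 2 + W.a₁ * W.a₃ * x₁ - W.a₁ * W.a₃ * x₂ + W.a₁ * x₁ * y₁
      - 2 * W.a₁ * x₂ * y₂ - W.a₂ * x₁ ^ 2 + 4 * W.a₂ * x₁ * x₂ - 2 * W.a₂ * x₂ ^ 2 + W.a₃ * y₁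
      - 2 * W.a₃ * y₂ + W.a₄ * x₁ + W.a₆ - x₁ ^ 3 + 2 * x₁ ^ 2 * x₂ + 2 * x₁ * x₂ ^ 2 - 2 * x₂ ^ 3
      + y₁ ^ 2 - 2 * y₂ ^ 2) * h₁
    + (-W.a₁ ^ 2 * x₁ ^ 2 + W.a₁ ^ 2 * x₁ * x₂ - W.a₁ * W.a₃ * x₁ + W.a₁ * W.a₃ * x₂
      + W.a₁ * x₂ * y₂ - 4 * W.a₂ * x₁ ^ 2 + 4 * W.a₂ * x₁ * x₂ - W.a₂ * x₂ ^ 2 + W.a₃ * y₂
      - 2 * W.a₄ * x₁ + W.a₄ * x₂ - W.a₆ - 4 * x₁ ^ 3 + 2 * x₁ ^ 2 * x₂ + 2 * x₁ * x₂ ^ 2 - x₂ ^ 3
      + y₂ ^ 2) * h₂

/-- The duplication formula: `x(2P) * (4x³ + b₂x² + 2b₄x + b₆) = x⁴ - b₄x² - 2b₆x - b₈`. -/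
theorem addX_self {x y : F} (h : W.Equation x y) (hy : y ≠ W.negY x y) :
    W.addX x x (W.slope x x y y) = dblNum W x / dblDen W x := by
  have hd : y - W.negY x y ≠ 0 := sub_ne_zero.mpr hy
  have hd2 : dblDen W x ≠ 0 := by rw [dblDen_eq W h]; exact pow_ne_zero 2 hd
  rw [eq_div_iff hd2, dblDen_eq W h, Affine.slope_of_Y_ne rfl hy]
  rw [Affine.equation_iff] at h
  simp only [Affine.addX, dblNum, WeierstrassCurve.b₄, WeierstrassCurve.b₆, WeierstrassCurve.b₈]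
  have key : ∀ d n : F, d ≠ 0 →
      ((n / d) ^ 2 + W.a₁ * (n / d) - W.a₂ - x - x) * d ^ 2 =
        n ^ 2 + W.a₁ * n * d - (W.a₂ + 2 * x) * d ^ 2 := by
    intro d n hd
    field_simp
    ring
  rw [key _ _ hd]
  simp only [Affine.negY]
  linear_combination (-W.a₁ ^ 2 - 4 * W.a₂ - 8 * x) * h

omit [DecidableEq F] in
/-- `dblDen` vanishes exactly at the `2`-torsion abscissae. -/
lemma dblDen_eq_zero_iff {x y : F} (h : W.Equation x y) : dblDen W x = 0 ↔ y = W.negY x y := by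
  rw [dblDen_eq W h, sq_eq_zero_iff, sub_eq_zero]

open WeierstrassCurve.Affine in
/-- Point-level form: for affine points with distinct abscissae, `P + Q` and `P - Q` are affine
and their abscissae have the classical sum and product. -/
theorem exists_add_sub {x₁ x₂ y₁ y₂ : F} (h₁ : W.Nonsingular x₁ y₁) (h₂ : W.Nonsingular x₂ y₂)
    (hx : x₁ ≠ x₂) :
    ∃ (x₃ y₃ x₄ y₄ : F) (h₃ : W.Nonsingular x₃ y₃) (h₄ : W.Nonsingular x₄ y₄),
      Point.some x₁ y₁ h₁ + Point.some x₂ y₂ h₂ = Point.some x₃ y₃ h₃ ∧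
      Point.some x₁ y₁ h₁ - Point.some x₂ y₂ h₂ = Point.some x₄ y₄ h₄ ∧
      x₃ + x₄ = sumNum W x₁ x₂ / (x₁ - x₂) ^ 2 ∧
      x₃ * x₄ = prodNum W x₁ x₂ / (x₁ - x₂) ^ 2 := by
  have h₂' : W.Nonsingular x₂ (W.negY x₂ y₂) := (Affine.nonsingular_neg ..).mpr h₂
  refine ⟨_, _, _, _, Affine.nonsingular_add h₁ h₂ fun hxy => hx hxy.left,
    Affine.nonsingular_add h₁ h₂' fun hxy => hx hxy.left, Point.add_of_X_ne hx, ?_,
    addX_add_addX W h₁.left h₂.left hx, addX_mul_addX W h₁.left h₂.left hx⟩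
  rw [sub_eq_add_neg, Point.neg_some, Point.add_of_X_ne hx]

open WeierstrassCurve.Affine in
/-- Point-level duplication formula. -/
theorem exists_add_self {x y : F} (h : W.Nonsingular x y) (hy : y ≠ W.negY x y) :
    ∃ (x₃ y₃ : F) (h₃ : W.Nonsingular x₃ y₃),
      Point.some x y h + Point.some x y h = Point.some x₃ y₃ h₃ ∧
      x₃ = dblNum W x / dblDen W x :=
  ⟨_, _, Affine.nonsingular_add h h fun hxy => hy hxy.right, Point.add_self_of_Y_ne hy,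
    addX_self W h.left hy⟩

end Fermat.Agent.S52.AddSub
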