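/-
S52 / [Frob] / Manin's count, polynomial core (helper68).

For an odd prime `ℓ` and a Weierstrass curve `W` over `ZMod ℓ` with `Δ ≠ 0`, put
`D = 4x³ + b₂x² + 2b₄x + b₆` and
`N = D (D^((ℓ-1)/2) + 1)² - (4x^ℓ + 4x + b₂)(x^ℓ - x)²`.
Then `x(Frob(G) - G) = N / (4 (x^ℓ - x)²)` for the generic point `G = (x, y)`, and the
fraction in lowest terms has numerator of degree `#W(F_ℓ)` and denominator of degree
`#W(F_ℓ) - 1` (`#W(F_ℓ) = WeierstrassCurve.card`, the point at infinity included).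
-/
import Mathlib
import Fermat.Prelude.Def_FLTPrelim_Modularity

set_option autoImplicit false

namespace Fermat.Agent.S52.Frob.Count

open Polynomial

variable {ℓ : ℕ} [Fact ℓ.Prime]

/-- `D(x) = 4x³ + b₂x² + 2b₄x + b₆ = (2y + a₁x + a₃)²` on the curve. -/
noncomputable def Dp (W : WeierstrassCurve (ZMod ℓ)) : (ZMod ℓ)[X] :=
  C 4 * X ^ 3 + C W.b₂ * X ^ 2 + C (2 * W.b₄) * X + C W.b₆

/-- Numerator of `x(Frob(G) - G)` over the denominator `4 (x^ℓ - x)²`. -/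
noncomputable def maninNum (W : WeierstrassCurve (ZMod ℓ)) : (ZMod ℓ)[X] :=
  Dp W * (Dp W ^ ((ℓ - 1) / 2) + 1) ^ 2 - (C 4 * X ^ ℓ + C 4 * X + C W.b₂) * (X ^ ℓ - X) ^ 2

/-- The denominator `4 (x^ℓ - x)²`. -/
noncomputable def maninDen (ℓ : ℕ) [Fact ℓ.Prime] : (ZMod ℓ)[X] := C 4 * (X ^ ℓ - X) ^ 2

theorem eval_Dp (W : WeierstrassCurve (ZMod ℓ)) (c : ZMod ℓ) :
    (Dp W).eval c = 4 * c ^ 3 + W.b₂ * c ^ 2 + 2 * W.b₄ * c + W.b₆ := by
  simp [Dp]

theorem Dp_pow_card (W : WeierstrassCurve (ZMod ℓ)) :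
    Dp W ^ ℓ = C 4 * X ^ (3 * ℓ) + C W.b₂ * X ^ (2 * ℓ) + C (2 * W.b₄) * X ^ ℓ + C W.b₆ := by
  rw [← ZMod.expand_card]
  simp only [Dp, map_add, map_mul, expand_C, map_pow, expand_X]
  ring


theorem odd_card (hℓ : ℓ ≠ 2) : 2 * ((ℓ - 1) / 2) + 1 = ℓ := by
  have hp : ℓ.Prime := Fact.out
  have := hp.eq_one_or_self_of_dvd 2
  rcases Nat.even_or_odd ℓ with h | h
  · exact absurd ((hp.eq_one_or_self_of_dvd 2 h.two_dvd).resolve_left (by norm_num)).symm hℓ
  · obtain ⟨k, hk⟩ := h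
    omega

theorem three_le (hℓ : ℓ ≠ 2) : 3 ≤ ℓ := by
  have hp : ℓ.Prime := Fact.out
  have := hp.two_le
  omega

theorem four_ne_zero (hℓ : ℓ ≠ 2) : (4 : ZMod ℓ) ≠ 0 := by
  have hp : ℓ.Prime := Fact.out
  have h4 : ((4 : ℕ) : ZMod ℓ) ≠ 0 := by
    rw [Ne, ZMod.natCast_eq_zero_iff]
    intro h
    have h2 : ℓ ∣ 2 ^ 2 := by norm_num; exact h
    have := (Nat.prime_dvd_prime_iff_eq hp Nat.prime_two).mp (hp.dvd_of_dvd_pow h2)
    exact hℓ this
  exact_mod_cast h4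

theorem two_ne_zero' (hℓ : ℓ ≠ 2) : (2 : ZMod ℓ) ≠ 0 := by
  intro h
  apply four_ne_zero hℓ
  have : (4 : ZMod ℓ) = 2 * 2 := by norm_num
  rw [this, h, zero_mul]

/-- The expansion of the numerator showing the cancellation of the terms of degree `3ℓ`. -/
theorem maninNum_eq (hℓ : ℓ ≠ 2) (W : WeierstrassCurve (ZMod ℓ)) :
    maninNum W = C 4 * X ^ (2 * ℓ + 1) + (2 * Dp W ^ ((ℓ - 1) / 2 + 1) +
      (C 4 * X ^ (ℓ + 2) + C (2 * W.b₂) * X ^ (ℓ + 1) + C (2 * W.b₄) * X ^ ℓ + C W.b₆ + Dp W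
        - C 4 * X ^ 3 - C W.b₂ * X ^ 2)) := by
  have h1 := Dp_pow_card W
  have hodd := odd_card hℓ
  set m := (ℓ - 1) / 2 with hm
  have h2 : Dp W * (Dp W ^ m + 1) ^ 2 = Dp W ^ ℓ + 2 * Dp W ^ (m + 1) + Dp W := by
    have h3 : Dp W ^ ℓ = Dp W ^ (2 * m + 1) := congrArg (fun n => Dp W ^ n) hodd.symm
    rw [h3]
    ring
  rw [maninNum, h2, h1]
  simp only [map_mul, map_ofNat]
  ring

theorem natDegree_Dp_le (W : WeierstrassCurve (ZMod ℓ)) : (Dp W).natDegree ≤ 3 := by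
  unfold Dp
  compute_degree

theorem natDegree_maninNum (hℓ : ℓ ≠ 2) (W : WeierstrassCurve (ZMod ℓ)) :
    (maninNum W).natDegree = 2 * ℓ + 1 := by
  have h3 := three_le hℓ
  have hodd := odd_card hℓ
  rw [maninNum_eq hℓ]
  set m := (ℓ - 1) / 2 with hm
  have hlow : (2 * Dp W ^ (m + 1) +
      (C 4 * X ^ (ℓ + 2) + C (2 * W.b₂) * X ^ (ℓ + 1) + C (2 * W.b₄) * X ^ ℓ + C W.b₆ + Dp W
        - C 4 * X ^ 3 - C W.b₂ * X ^ 2)).natDegree < 2 * ℓ + 1 := by
    have hD := natDegree_Dp_le W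
    have hDp : (Dp W ^ (m + 1)).natDegree ≤ 3 * (m + 1) := by
      refine (natDegree_pow_le).trans ?_
      nlinarith
    have e1 : (2 * Dp W ^ (m + 1)).natDegree ≤ 2 * ℓ := by
      refine (natDegree_mul_le).trans ?_
      have : (2 : (ZMod ℓ)[X]).natDegree = 0 := natDegree_ofNat 2
      omega
    have e2 : (C 4 * X ^ (ℓ + 2) + C (2 * W.b₂) * X ^ (ℓ + 1) + C (2 * W.b₄) * X ^ ℓ + C W.b₆
        + Dp W - C 4 * X ^ 3 - C W.b₂ * X ^ 2 : (ZMod ℓ)[X]).natDegree ≤ 2 * ℓ := by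
      unfold Dp
      compute_degree
      omega
    exact lt_of_le_of_lt (natDegree_add_le_of_degree_le e1 e2) (Nat.lt_succ_self _)
  have hlead : (C (4 : ZMod ℓ) * X ^ (2 * ℓ + 1)).natDegree = 2 * ℓ + 1 :=
    natDegree_C_mul_X_pow _ _ (four_ne_zero hℓ)
  rw [natDegree_add_eq_left_of_natDegree_lt (by rw [hlead]; exact hlow), hlead]


/-! ### Values of the quadratic character and the number of `y` above a given `x` -/

theorem half_card (hℓ : ℓ ≠ 2) : ℓ / 2 = (ℓ - 1) / 2 := by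
  have := odd_card hℓ
  omega

theorem ringChar_ne_two (hℓ : ℓ ≠ 2) : ringChar (ZMod ℓ) ≠ 2 := by
  rw [ZMod.ringChar_zmod_n]; exact hℓ

/-- Trichotomy for `a : ZMod ℓ` in terms of Euler's criterion. -/
theorem trichotomy (hℓ : ℓ ≠ 2) (a : ZMod ℓ) :
    (a = 0 ∧ quadraticChar (ZMod ℓ) a = 0) ∨
    (a ≠ 0 ∧ quadraticChar (ZMod ℓ) a = 1 ∧ a ^ ((ℓ - 1) / 2) = 1) ∨
    (a ≠ 0 ∧ quadraticChar (ZMod ℓ) a = -1 ∧ a ^ ((ℓ - 1) / 2) = -1) := by
  have hpow := quadraticChar_eq_pow_of_char_ne_two' (ringChar_ne_two hℓ) a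
  rw [ZMod.card, half_card hℓ] at hpow
  by_cases ha : a = 0
  · left; exact ⟨ha, quadraticChar_eq_zero_iff.mpr ha⟩
  · right
    rcases quadraticChar_dichotomy ha with h | h
    · left; refine ⟨ha, h, ?_⟩; rw [← hpow, h]; simp
    · right; refine ⟨ha, h, ?_⟩; rw [← hpow, h]; simp

/-- The number of `y` with `(c, y)` on the curve. -/
noncomputable def ny (W : WeierstrassCurve (ZMod ℓ)) (c : ZMod ℓ) : ℕ :=
  Nat.card {y : ZMod ℓ // W.toAffine.Equation c y}

theorem equation_iff_sq (hℓ : ℓ ≠ 2) (W : WeierstrassCurve (ZMod ℓ)) (c y : ZMod ℓ) :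
    W.toAffine.Equation c y ↔ (2 * y + W.a₁ * c + W.a₃) ^ 2 = (Dp W).eval c := by
  rw [WeierstrassCurve.Affine.equation_iff, eval_Dp]
  simp only [WeierstrassCurve.b₂, WeierstrassCurve.b₄, WeierstrassCurve.b₆]
  have h4 := four_ne_zero hℓ
  constructor
  · intro h
    linear_combination 4 * h
  · intro h
    have : (4 : ZMod ℓ) * (y ^ 2 + W.a₁ * c * y + W.a₃ * y) =
        4 * (c ^ 3 + W.a₂ * c ^ 2 + W.a₄ * c + W.a₆) := by linear_combination h
    exact mul_left_cancel₀ h4 this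

theorem ny_eq (hℓ : ℓ ≠ 2) (W : WeierstrassCurve (ZMod ℓ)) (c : ZMod ℓ) :
    (ny W c : ℤ) = quadraticChar (ZMod ℓ) ((Dp W).eval c) + 1 := by
  classical
  have h2 := two_ne_zero' hℓ
  rw [← quadraticChar_card_sqrts (ringChar_ne_two hℓ)]
  congr 1
  rw [ny, Set.toFinset_card, ← Nat.card_eq_fintype_card]
  refine Nat.card_congr ?_
  refine
    { toFun := fun y => ⟨2 * y.1 + W.a₁ * c + W.a₃, (equation_iff_sq hℓ W c y.1).mp y.2⟩
      invFun := fun z => ⟨(z.1 - W.a₁ * c - W.a₃) / 2, ?_⟩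
      left_inv := ?_
      right_inv := ?_ }
  · rw [equation_iff_sq hℓ]
    have hz : z.1 ^ 2 = (Dp W).eval c := z.2
    have e : 2 * ((z.1 - W.a₁ * c - W.a₃) / 2) + W.a₁ * c + W.a₃ = z.1 := by
      field_simp
      ring
    rw [e, hz]
  · intro y
    apply Subtype.ext
    simp only
    field_simp
    ring
  · intro z
    apply Subtype.ext
    simp only
    field_simp
    ring

theorem ny_cases (hℓ : ℓ ≠ 2) (W : WeierstrassCurve (ZMod ℓ)) (c : ZMod ℓ) :
    ((Dp W).eval c = 0 ∧ ny W c = 1) ∨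
    ((Dp W).eval c ≠ 0 ∧ (Dp W).eval c ^ ((ℓ - 1) / 2) = 1 ∧ ny W c = 2) ∨
    ((Dp W).eval c ^ ((ℓ - 1) / 2) = -1 ∧ ny W c = 0) := by
  have h := ny_eq hℓ W c
  rcases trichotomy hℓ ((Dp W).eval c) with ⟨h0, hχ⟩ | ⟨h0, hχ, hp⟩ | ⟨h0, hχ, hp⟩
  · left; refine ⟨h0, ?_⟩; rw [hχ] at h; omega
  · right; left; refine ⟨h0, hp, ?_⟩; rw [hχ] at h; omega
  · right; right; refine ⟨hp, ?_⟩; rw [hχ] at h; omega

theorem ny_le_two (hℓ : ℓ ≠ 2) (W : WeierstrassCurve (ZMod ℓ)) (c : ZMod ℓ) : ny W c ≤ 2 := by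
  rcases ny_cases hℓ W c with h | h | h <;> omega

/-- The point count in terms of the fibres over the `x`-line. -/
theorem card_eq (W : WeierstrassCurve (ZMod ℓ)) (hΔ : W.Δ ≠ 0) :
    W.card = 1 + ∑ c : ZMod ℓ, ny W c := by
  classical
  rw [WeierstrassCurve.card, Nat.card_congr W.toAffine.nonsingularPointEquiv]
  have e1 : Nat.card (WithZero {xy : ZMod ℓ × ZMod ℓ // W.toAffine.Nonsingular xy.1 xy.2}) =
      Nat.card {xy : ZMod ℓ × ZMod ℓ // W.toAffine.Nonsingular xy.1 xy.2} + 1 := by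
    exact Finite.card_option
  have e2 : Nat.card {xy : ZMod ℓ × ZMod ℓ // W.toAffine.Nonsingular xy.1 xy.2} =
      Nat.card (Σ c : ZMod ℓ, {y : ZMod ℓ // W.toAffine.Equation c y}) := by
    refine Nat.card_congr ?_
    refine
      { toFun := fun p => ⟨p.1.1, p.1.2,
          (WeierstrassCurve.Affine.equation_iff_nonsingular_of_Δ_ne_zero hΔ).mpr p.2⟩
        invFun := fun q => ⟨(q.1, q.2.1),
          (WeierstrassCurve.Affine.equation_iff_nonsingular_of_Δ_ne_zero hΔ).mp q.2.2⟩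
        left_inv := fun p => rfl
        right_inv := fun q => rfl }
  rw [e1, e2, Nat.card_sigma, add_comm]
  rfl


/-! ### Local behaviour of the numerator at the points of `F_ℓ` -/

theorem eval_frob_sub (c : ZMod ℓ) : (X ^ ℓ - X : (ZMod ℓ)[X]).eval c = 0 := by
  simp [ZMod.pow_card]

theorem X_sub_C_dvd_frob (c : ZMod ℓ) : (X - C c) ∣ (X ^ ℓ - X : (ZMod ℓ)[X]) :=
  dvd_iff_isRoot.mpr (eval_frob_sub c)

theorem eval_maninNum (W : WeierstrassCurve (ZMod ℓ)) (c : ZMod ℓ) :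
    (maninNum W).eval c = (Dp W).eval c * ((Dp W).eval c ^ ((ℓ - 1) / 2) + 1) ^ 2 := by
  have h := eval_frob_sub (ℓ := ℓ) c
  simp only [eval_sub, eval_pow, eval_X] at h
  simp only [maninNum, eval_sub, eval_mul, eval_pow, eval_add, eval_one, eval_X, eval_C, h]
  ring

/-- Over a point with two `y`-values the numerator does not vanish. -/
theorem eval_maninNum_ne_zero (hℓ : ℓ ≠ 2) (W : WeierstrassCurve (ZMod ℓ)) (c : ZMod ℓ)
    (h0 : (Dp W).eval c ≠ 0) (h1 : (Dp W).eval c ^ ((ℓ - 1) / 2) = 1) :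
    (maninNum W).eval c ≠ 0 := by
  rw [eval_maninNum, h1]
  have h4 := four_ne_zero hℓ
  have : ((1 : ZMod ℓ) + 1) ^ 2 = 4 := by norm_num
  rw [this]
  exact mul_ne_zero h0 h4

/-- Over a point with no `y`-value the numerator vanishes to order at least two. -/
theorem sq_dvd_maninNum (W : WeierstrassCurve (ZMod ℓ)) (c : ZMod ℓ)
    (h1 : (Dp W).eval c ^ ((ℓ - 1) / 2) = -1) : (X - C c) ^ 2 ∣ maninNum W := by
  have ha : (X - C c) ∣ (Dp W ^ ((ℓ - 1) / 2) + 1) := by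
    rw [dvd_iff_isRoot, IsRoot.def]
    simp [h1]
  exact dvd_sub (dvd_mul_of_dvd_right (pow_dvd_pow_of_dvd ha 2) _)
    (dvd_mul_of_dvd_right (pow_dvd_pow_of_dvd (X_sub_C_dvd_frob c) 2) _)

/-- Over a `2`-torsion point the numerator vanishes. -/
theorem dvd_maninNum (W : WeierstrassCurve (ZMod ℓ)) (c : ZMod ℓ)
    (h0 : (Dp W).eval c = 0) : (X - C c) ∣ maninNum W := by
  rw [dvd_iff_isRoot, IsRoot.def, eval_maninNum, h0, zero_mul]

theorem eval_derivative_Dp (W : WeierstrassCurve (ZMod ℓ)) (c : ZMod ℓ) :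
    (derivative (Dp W)).eval c = 12 * c ^ 2 + 2 * W.b₂ * c + 2 * W.b₄ := by
  simp only [Dp, derivative_add, derivative_mul, derivative_C, zero_mul, derivative_X_pow,
    derivative_X, zero_add, mul_one, eval_add, eval_mul, eval_C, eval_pow, eval_X, add_zero,
    map_natCast, eval_natCast]
  push_cast
  ring

/-- `D` has only simple roots when `Δ ≠ 0`. -/
theorem eval_derivative_Dp_ne_zero (hℓ : ℓ ≠ 2) (W : WeierstrassCurve (ZMod ℓ)) (hΔ : W.Δ ≠ 0)
    (c : ZMod ℓ) (h0 : (Dp W).eval c = 0) : (derivative (Dp W)).eval c ≠ 0 := by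
  have h2 := two_ne_zero' hℓ
  set y : ZMod ℓ := -(W.a₁ * c + W.a₃) / 2 with hy
  have hy2 : 2 * y + W.a₁ * c + W.a₃ = 0 := by
    rw [hy]; field_simp; ring
  have heq : W.toAffine.Equation c y := by
    rw [equation_iff_sq hℓ, hy2, h0]; ring
  have hns := (WeierstrassCurve.Affine.equation_iff_nonsingular_of_Δ_ne_zero hΔ).mp heq
  rw [WeierstrassCurve.Affine.nonsingular_iff'] at hns
  rcases hns.2 with h | h
  · intro hd
    apply h
    rw [eval_derivative_Dp] at hd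
    simp only [WeierstrassCurve.b₂, WeierstrassCurve.b₄] at hd
    have h4 := four_ne_zero hℓ
    have : (4 : ZMod ℓ) * (W.a₁ * y - (3 * c ^ 2 + 2 * W.a₂ * c + W.a₄)) = 0 := by
      linear_combination (-1 : ZMod ℓ) * hd + 2 * W.a₁ * hy2
    rcases mul_eq_zero.mp this with h' | h'
    · exact absurd h' h4
    · exact h'
  · exact absurd hy2 h

/-- Over a `2`-torsion point the numerator vanishes to order exactly one. -/
theorem eval_derivative_maninNum (hℓ : ℓ ≠ 2) (W : WeierstrassCurve (ZMod ℓ)) (c : ZMod ℓ)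
    (h0 : (Dp W).eval c = 0) :
    (derivative (maninNum W)).eval c = (derivative (Dp W)).eval c := by
  have h := eval_frob_sub (ℓ := ℓ) c
  have hm : (ℓ - 1) / 2 ≠ 0 := by
    have := odd_card hℓ
    have := three_le hℓ
    omega
  have hE : (X ^ ℓ - X : (ZMod ℓ)[X]).eval c = 0 := h
  rw [maninNum, derivative_sub, derivative_mul, derivative_mul, eval_sub, eval_add, eval_add,
    eval_mul, eval_mul, eval_mul, eval_mul, h0, zero_mul, add_zero]
  have e1 : ((Dp W ^ ((ℓ - 1) / 2) + 1) ^ 2).eval c = 1 := by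
    simp [h0, hm]
  have e2 : ((X ^ ℓ - X : (ZMod ℓ)[X]) ^ 2).eval c = 0 := by
    rw [eval_pow, hE]; ring
  have e3 : (derivative ((X ^ ℓ - X : (ZMod ℓ)[X]) ^ 2)).eval c = 0 := by
    rw [derivative_pow, eval_mul, eval_mul, eval_pow, hE]
    simp
  rw [e1, e2, e3]
  ring

/-! ### Assembly: the fraction in lowest terms -/

theorem frob_eq_prod : (X ^ ℓ - X : (ZMod ℓ)[X]) = ∏ c : ZMod ℓ, (X - C c) := by
  have hp : ℓ.Prime := Fact.out
  have hmonic : (X ^ ℓ - X : (ZMod ℓ)[X]).Monic := by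
    apply monic_X_pow_sub
    rw [degree_X]
    exact_mod_cast hp.one_lt
  have hroots : (X ^ ℓ - X : (ZMod ℓ)[X]).roots = Finset.univ.val := by
    have := FiniteField.roots_X_pow_card_sub_X (ZMod ℓ)
    rwa [ZMod.card] at this
  have hcard : Multiset.card (X ^ ℓ - X : (ZMod ℓ)[X]).roots =
      (X ^ ℓ - X : (ZMod ℓ)[X]).natDegree := by
    rw [hroots, FiniteField.X_pow_card_sub_X_natDegree_eq _ hp.one_lt]
    simp [ZMod.card]
  have := prod_multiset_X_sub_C_of_monic_of_roots_card_eq hmonic hcard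
  rw [hroots] at this
  exact this.symm

/-- The common factor of the numerator and the denominator. -/
noncomputable def gfac (W : WeierstrassCurve (ZMod ℓ)) : (ZMod ℓ)[X] :=
  ∏ c : ZMod ℓ, (X - C c) ^ (2 - ny W c)

/-- The reduced denominator, up to the constant `4`. -/
noncomputable def dfac (W : WeierstrassCurve (ZMod ℓ)) : (ZMod ℓ)[X] :=
  ∏ c : ZMod ℓ, (X - C c) ^ ny W c

theorem gfac_mul_dfac (hℓ : ℓ ≠ 2) (W : WeierstrassCurve (ZMod ℓ)) :
    gfac W * dfac W = (X ^ ℓ - X) ^ 2 := by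
  rw [frob_eq_prod, gfac, dfac, ← Finset.prod_mul_distrib, ← Finset.prod_pow]
  refine Finset.prod_congr rfl fun c _ => ?_
  rw [← pow_add]
  congr 1
  have := ny_le_two hℓ W c
  omega

theorem gfac_dvd (hℓ : ℓ ≠ 2) (W : WeierstrassCurve (ZMod ℓ)) : gfac W ∣ maninNum W := by
  refine Fintype.prod_dvd_of_coprime ?_ ?_
  · intro c c' hcc'
    exact ((pairwise_coprime_X_sub_C (K := ZMod ℓ) (s := id) Function.injective_id) hcc').pow
  · intro c
    rcases ny_cases hℓ W c with ⟨h0, hn⟩ | ⟨h0, h1, hn⟩ | ⟨h1, hn⟩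
    · rw [hn]; simpa using dvd_maninNum W c h0
    · rw [hn]; simp
    · rw [hn]; exact sq_dvd_maninNum W c h1

theorem monic_gfac (W : WeierstrassCurve (ZMod ℓ)) : (gfac W).Monic :=
  monic_prod_of_monic _ _ fun c _ => (monic_X_sub_C c).pow _

theorem natDegree_gfac (W : WeierstrassCurve (ZMod ℓ)) :
    (gfac W).natDegree = ∑ c : ZMod ℓ, (2 - ny W c) := by
  rw [gfac, natDegree_prod_of_monic _ _ (fun c _ => (monic_X_sub_C c).pow _)]
  refine Finset.sum_congr rfl fun c _ => ?_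
  rw [(monic_X_sub_C c).natDegree_pow, natDegree_X_sub_C, mul_one]

theorem natDegree_dfac (W : WeierstrassCurve (ZMod ℓ)) :
    (dfac W).natDegree = ∑ c : ZMod ℓ, ny W c := by
  rw [dfac, natDegree_prod_of_monic _ _ (fun c _ => (monic_X_sub_C c).pow _)]
  refine Finset.sum_congr rfl fun c _ => ?_
  rw [(monic_X_sub_C c).natDegree_pow, natDegree_X_sub_C, mul_one]

theorem sum_two_sub_add (hℓ : ℓ ≠ 2) (W : WeierstrassCurve (ZMod ℓ)) :
    ∑ c : ZMod ℓ, (2 - ny W c) + ∑ c : ZMod ℓ, ny W c = 2 * ℓ := by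
  rw [← Finset.sum_add_distrib]
  have : ∀ c ∈ (Finset.univ : Finset (ZMod ℓ)), 2 - ny W c + ny W c = 2 := by
    intro c _
    have := ny_le_two hℓ W c
    omega
  rw [Finset.sum_congr rfl this, Finset.sum_const, Finset.card_univ, ZMod.card, smul_eq_mul,
    mul_comm]

theorem isCoprime_X_sub_C_of_eval_ne_zero (n : (ZMod ℓ)[X]) (c : ZMod ℓ) (h : n.eval c ≠ 0) :
    IsCoprime n (X - C c) := by
  refine IsCoprime.symm ((irreducible_X_sub_C c).coprime_iff_not_dvd.mpr ?_)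
  rwa [dvd_iff_isRoot]

/-- **Manin's count, polynomial form.** The fraction `maninNum W / maninDen ℓ`
(`= x(Frob G - G)` for the generic point `G`) equals `n / d` with `n`, `d` coprime,
`deg n = #W(F_ℓ)` and `deg d = #W(F_ℓ) - 1`. -/
theorem manin_count (hℓ : ℓ ≠ 2) (W : WeierstrassCurve (ZMod ℓ)) (hΔ : W.Δ ≠ 0) :
    ∃ n d : (ZMod ℓ)[X], IsCoprime n d ∧ n * maninDen ℓ = maninNum W * d ∧
      n.natDegree = W.card ∧ d.natDegree + 1 = W.card := by
  obtain ⟨n, hn⟩ := gfac_dvd hℓ W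
  have h4 := four_ne_zero hℓ
  have hdeg := natDegree_maninNum hℓ W
  have hn0 : n ≠ 0 := by
    rintro rfl
    rw [hn, mul_zero, natDegree_zero] at hdeg
    omega
  have hdegmul : (gfac W * n).natDegree = (gfac W).natDegree + n.natDegree :=
    (monic_gfac W).natDegree_mul' hn0
  rw [hn, hdegmul, natDegree_gfac] at hdeg
  have hsum := sum_two_sub_add hℓ W
  have hcard := card_eq W hΔ
  refine ⟨n, C 4 * dfac W, ?_, ?_, ?_, ?_⟩
  · have hu : IsUnit (C (4 : ZMod ℓ)) := isUnit_C.mpr (IsUnit.mk0 _ h4)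
    rw [isCoprime_mul_unit_left_right hu]
    refine IsCoprime.prod_right fun c _ => ?_
    rcases ny_cases hℓ W c with ⟨h0, hny⟩ | ⟨h0, h1, hny⟩ | ⟨h1, hny⟩
    · rw [hny, pow_one]
      apply isCoprime_X_sub_C_of_eval_ne_zero
      intro hnc
      have hg : (gfac W).eval c = 0 := by
        have hdvd : (X - C c) ^ (2 - ny W c) ∣ gfac W :=
          Finset.dvd_prod_of_mem _ (Finset.mem_univ c)
        rw [hny] at hdvd
        have : (X - C c) ∣ gfac W := by simpa using hdvd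
        exact dvd_iff_isRoot.mp this
      have hder := eval_derivative_maninNum hℓ W c h0
      rw [hn, derivative_mul, eval_add, eval_mul, eval_mul, hg, hnc, mul_zero, zero_mul,
        add_zero] at hder
      exact eval_derivative_Dp_ne_zero hℓ W hΔ c h0 hder.symm
    · rw [hny]
      apply IsCoprime.pow_right
      apply isCoprime_X_sub_C_of_eval_ne_zero
      intro hnc
      have := eval_maninNum_ne_zero hℓ W c h0 h1
      rw [hn, eval_mul, hnc, mul_zero] at this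
      exact this rfl
    · rw [hny, pow_zero]
      exact isCoprime_one_right
  · rw [maninDen, ← gfac_mul_dfac hℓ W, hn]
    ring
  · omega
  · rw [natDegree_C_mul h4, natDegree_dfac]
    omega

/-- The same statement with the point count unfolded. -/
theorem manin_count' (hℓ : ℓ ≠ 2) (W : WeierstrassCurve (ZMod ℓ)) (hΔ : W.Δ ≠ 0) :
    ∃ n d : (ZMod ℓ)[X], IsCoprime n d ∧ n * maninDen ℓ = maninNum W * d ∧
      n.natDegree = Nat.card W.toAffine.Point ∧
      d.natDegree + 1 = Nat.card W.toAffine.Point :=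
  manin_count hℓ W hΔ

/-- In terms of the trace of Frobenius: `deg n = ℓ + 1 - a_ℓ`. -/
theorem manin_count_trace (hℓ : ℓ ≠ 2) (W : WeierstrassCurve (ZMod ℓ)) (hΔ : W.Δ ≠ 0) :
    ∃ n d : (ZMod ℓ)[X], IsCoprime n d ∧ n * maninDen ℓ = maninNum W * d ∧
      (n.natDegree : ℤ) = (ℓ : ℤ) + 1 - W.traceOfFrobenius ∧
      (d.natDegree : ℤ) + 1 = (ℓ : ℤ) + 1 - W.traceOfFrobenius := by
  obtain ⟨n, d, h1, h2, h3, h4⟩ := manin_count hℓ W hΔ
  refine ⟨n, d, h1, h2, ?_, ?_⟩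
  · rw [WeierstrassCurve.traceOfFrobenius, Nat.card_eq_fintype_card, ZMod.card, h3]
    ring
  · rw [WeierstrassCurve.traceOfFrobenius, Nat.card_eq_fintype_card, ZMod.card, ← h4]
    push_cast
    ring

end Fermat.Agent.S52.Frob.Count
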