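/-
S52, step (d) of the final glue (owner: helper95).

For a prime `ℓ ≥ 5` good for two integral models `W`, `W'`: from
* the Frobenius relation `φ² - a φ + ℓ = 0` on the points of a nonsingular curve over `ZMod ℓ`
  (hypothesis `hFrob`, exactly the shape of `Frob.frob_relation`, block [Frob]), and
* the [X5Fl] export (a point `P` on the short model of `W` mod `ℓ`, a point `P'` of exact order `5`
  on the short model of `W'` mod `ℓ`, and transport of integer relations among `φ² P, φ P, P`),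
we get `5 ∣ a_ℓ(W') - a_ℓ(W)`.  Uses `CorC.five_dvd_of_transport` and `ShortCount.apOfModel_eq_short`.
The final statements `five_dvd_apOfModel` / `five_dvd_trace_short` use the landed `Frob.frob_relation`.
-/
import Mathlib
import Fermat.Prelude.Def_FLTPrelim_Modularity
import Fermat.Agent.S52.CorC
import Fermat.Agent.S52.Frob.ShortCount
import Fermat.Agent.S52.Frob.Main

set_option autoImplicit false

open WeierstrassCurve WeierstrassCurve.Affine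
open scoped WeierstrassCurve.Affine

namespace Fermat.Agent.S52.GlueD

/-- The Frobenius relation for all points over `K` of a curve `V` over `ZMod ℓ`, in the exact shape
of the [Frob] export `Frob.frob_relation` (block table #931). -/
def FrobRel (ℓ : ℕ) [Fact ℓ.Prime] (V : WeierstrassCurve (ZMod ℓ)) (K : Type*) [Field K]
    [DecidableEq K] [Algebra (ZMod ℓ) K] : Prop :=
  ∀ P : (V.toAffine⁄K).Point,
    Point.map (W' := V.toAffine) (FiniteField.frobeniusAlgHom (ZMod ℓ) K)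
        (Point.map (W' := V.toAffine) (FiniteField.frobeniusAlgHom (ZMod ℓ) K) P)
      - ((Nat.card (ZMod ℓ) : ℤ) + 1 - (Nat.card V.toAffine.Point : ℤ)) •
        Point.map (W' := V.toAffine) (FiniteField.frobeniusAlgHom (ZMod ℓ) K) P
      + (ℓ : ℤ) • P = 0

/-- **Core of step (d)**: two curves over `ZMod ℓ` satisfying the Frobenius relation over `K`, with
relation transport from a point `P` of `V` to a point `P'` of exact order `5` of `V'`, have traces of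
Frobenius congruent modulo `5`. -/
theorem five_dvd_trace (ℓ : ℕ) [Fact ℓ.Prime] (V V' : WeierstrassCurve (ZMod ℓ))
    (K : Type*) [Field K] [DecidableEq K] [Algebra (ZMod ℓ) K]
    (hF : FrobRel ℓ V K) (hF' : FrobRel ℓ V' K)
    (hX : ∃ (P : (V.toAffine⁄K).Point) (P' : (V'.toAffine⁄K).Point),
      P' ≠ 0 ∧ (5 : ℤ) • P' = 0 ∧ ∀ u v w : ℤ,
        u • Point.map (W' := V.toAffine) (FiniteField.frobeniusAlgHom (ZMod ℓ) K)
              (Point.map (W' := V.toAffine) (FiniteField.frobeniusAlgHom (ZMod ℓ) K) P)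
          + v • Point.map (W' := V.toAffine) (FiniteField.frobeniusAlgHom (ZMod ℓ) K) P
          + w • P = 0 →
        u • Point.map (W' := V'.toAffine) (FiniteField.frobeniusAlgHom (ZMod ℓ) K)
              (Point.map (W' := V'.toAffine) (FiniteField.frobeniusAlgHom (ZMod ℓ) K) P')
          + v • Point.map (W' := V'.toAffine) (FiniteField.frobeniusAlgHom (ZMod ℓ) K) P'
          + w • P' = 0) :
    (5 : ℤ) ∣ V'.traceOfFrobenius - V.traceOfFrobenius := by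
  obtain ⟨P, P', hP', h5, htr⟩ := hX
  exact CorC.five_dvd_of_transport
    (Point.map (W' := V.toAffine) (FiniteField.frobeniusAlgHom (ZMod ℓ) K))
    (Point.map (W' := V'.toAffine) (FiniteField.frobeniusAlgHom (ZMod ℓ) K))
    (Point.map_injective _) P P' V.traceOfFrobenius V'.traceOfFrobenius (ℓ : ℤ) hP' h5
    (hF P) (hF' P') htr

/-- The discriminant of the literal short curve `⟨0,0,0,-27 c4,-54 c6⟩`. -/
theorem short_Δ {R : Type*} [CommRing R] (c4 c6 : R) :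
    (⟨0, 0, 0, -27 * c4, -54 * c6⟩ : WeierstrassCurve R).Δ = 1259712 * (c4 ^ 3 - c6 ^ 2) := by
  simp only [WeierstrassCurve.Δ, WeierstrassCurve.b₂, WeierstrassCurve.b₄, WeierstrassCurve.b₆,
    WeierstrassCurve.b₈]
  ring

/-- The short model mod `ℓ ≥ 5` of an integral model with good reduction at `ℓ` is nonsingular. -/
theorem short_Δ_ne_zero (ℓ : ℕ) [Fact ℓ.Prime] (hℓ : 5 ≤ ℓ) (W : WeierstrassCurve ℤ)
    (hΔ : ¬ (ℓ : ℤ) ∣ W.Δ) :
    (⟨0, 0, 0, -27 * ((W.c₄ : ℤ) : ZMod ℓ), -54 * ((W.c₆ : ℤ) : ZMod ℓ)⟩ :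
      WeierstrassCurve (ZMod ℓ)).Δ ≠ 0 := by
  rw [short_Δ]
  have h2 := Frob.ShortCount.two_ne_zero_zmod ℓ hℓ
  have h3 := Frob.ShortCount.three_ne_zero_zmod ℓ hℓ
  have hrel : ((W.c₄ : ℤ) : ZMod ℓ) ^ 3 - ((W.c₆ : ℤ) : ZMod ℓ) ^ 2
      = 1728 * ((W.Δ : ℤ) : ZMod ℓ) := by
    have := W.c_relation
    have h' := congrArg (Int.cast : ℤ → ZMod ℓ) this
    push_cast at h'
    exact h'.symm
  rw [hrel]
  have hΔ0 : ((W.Δ : ℤ) : ZMod ℓ) ≠ 0 := by
    intro h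
    exact hΔ ((ZMod.intCast_zmod_eq_zero_iff_dvd W.Δ ℓ).mp h)
  have e1 : (1259712 : ZMod ℓ) = 2 ^ 6 * 3 ^ 9 := by norm_num
  have e2 : (1728 : ZMod ℓ) = 2 ^ 6 * 3 ^ 3 := by norm_num
  rw [e1, e2]
  exact mul_ne_zero (mul_ne_zero (pow_ne_zero _ h2) (pow_ne_zero _ h3))
    (mul_ne_zero (mul_ne_zero (pow_ne_zero _ h2) (pow_ne_zero _ h3)) hΔ0)

/-- **Step (d), hypothesis-style in [Frob]**: the exact shape called by `S52/Glue.lean` (helper32),
with the Frobenius relation for nonsingular curves over `ZMod ℓ` as hypothesis `hFrob`. -/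
theorem five_dvd_apOfModel_of_frob (ℓ : ℕ) [Fact ℓ.Prime] (hℓ : 5 ≤ ℓ) (W W' : WeierstrassCurve ℤ)
    (hΔ : ¬ (ℓ : ℤ) ∣ W.Δ) (hΔ' : ¬ (ℓ : ℤ) ∣ W'.Δ)
    (K : Type*) [Field K] [DecidableEq K] [Algebra (ZMod ℓ) K]
    (hFrob : ∀ V : WeierstrassCurve (ZMod ℓ), V.Δ ≠ 0 → FrobRel ℓ V K)
    (hX : ∃ (P : ((⟨0, 0, 0, -27 * ((W.c₄ : ℤ) : ZMod ℓ), -54 * ((W.c₆ : ℤ) : ZMod ℓ)⟩ :
              WeierstrassCurve (ZMod ℓ)).toAffine⁄K).Point)
            (P' : ((⟨0, 0, 0, -27 * ((W'.c₄ : ℤ) : ZMod ℓ), -54 * ((W'.c₆ : ℤ) : ZMod ℓ)⟩ :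
              WeierstrassCurve (ZMod ℓ)).toAffine⁄K).Point),
      P' ≠ 0 ∧ (5 : ℤ) • P' = 0 ∧ ∀ u v w : ℤ,
        u • Point.map (W' := (⟨0, 0, 0, -27 * ((W.c₄ : ℤ) : ZMod ℓ), -54 * ((W.c₆ : ℤ) : ZMod ℓ)⟩ :
                WeierstrassCurve (ZMod ℓ)).toAffine) (FiniteField.frobeniusAlgHom (ZMod ℓ) K)
              (Point.map (W' := (⟨0, 0, 0, -27 * ((W.c₄ : ℤ) : ZMod ℓ),
                -54 * ((W.c₆ : ℤ) : ZMod ℓ)⟩ : WeierstrassCurve (ZMod ℓ)).toAffine)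
                (FiniteField.frobeniusAlgHom (ZMod ℓ) K) P)
          + v • Point.map (W' := (⟨0, 0, 0, -27 * ((W.c₄ : ℤ) : ZMod ℓ),
                -54 * ((W.c₆ : ℤ) : ZMod ℓ)⟩ : WeierstrassCurve (ZMod ℓ)).toAffine)
                (FiniteField.frobeniusAlgHom (ZMod ℓ) K) P
          + w • P = 0 →
        u • Point.map (W' := (⟨0, 0, 0, -27 * ((W'.c₄ : ℤ) : ZMod ℓ),
                -54 * ((W'.c₆ : ℤ) : ZMod ℓ)⟩ : WeierstrassCurve (ZMod ℓ)).toAffine)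
                (FiniteField.frobeniusAlgHom (ZMod ℓ) K)
              (Point.map (W' := (⟨0, 0, 0, -27 * ((W'.c₄ : ℤ) : ZMod ℓ),
                -54 * ((W'.c₆ : ℤ) : ZMod ℓ)⟩ : WeierstrassCurve (ZMod ℓ)).toAffine)
                (FiniteField.frobeniusAlgHom (ZMod ℓ) K) P')
          + v • Point.map (W' := (⟨0, 0, 0, -27 * ((W'.c₄ : ℤ) : ZMod ℓ),
                -54 * ((W'.c₆ : ℤ) : ZMod ℓ)⟩ : WeierstrassCurve (ZMod ℓ)).toAffine)
                (FiniteField.frobeniusAlgHom (ZMod ℓ) K) P'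
          + w • P' = 0) :
    (5 : ℤ) ∣ W'.apOfModel ℓ - W.apOfModel ℓ := by
  rw [Frob.ShortCount.apOfModel_eq_short ℓ hℓ W, Frob.ShortCount.apOfModel_eq_short ℓ hℓ W']
  exact five_dvd_trace ℓ _ _ K (hFrob _ (short_Δ_ne_zero ℓ hℓ W hΔ))
    (hFrob _ (short_Δ_ne_zero ℓ hℓ W' hΔ')) hX

/-- The landed [Frob] theorem `Frob.frob_relation` in the form `FrobRel`. -/
theorem frobRel (ℓ : ℕ) [Fact ℓ.Prime] (hℓ : ℓ ≠ 2) (V : WeierstrassCurve (ZMod ℓ)) (hV : V.Δ ≠ 0)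
    (K : Type*) [Field K] [DecidableEq K] [Algebra (ZMod ℓ) K] : FrobRel ℓ V K :=
  fun P => Frob.frob_relation ℓ hℓ V hV K P

/-- **Step (d)**, exact shape called by `S52/Glue.lean` (helper32 #1093): for a prime `ℓ ≥ 5` good for
both integral models, the [X5Fl] export `hX` for the two short models mod `ℓ` over a field
`K ⊇ ZMod ℓ` gives `5 ∣ a_ℓ(W') - a_ℓ(W)`. -/
theorem five_dvd_apOfModel (ℓ : ℕ) [Fact ℓ.Prime] (hℓ : 5 ≤ ℓ) (W W' : WeierstrassCurve ℤ)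
    (hΔ : ¬ (ℓ : ℤ) ∣ W.Δ) (hΔ' : ¬ (ℓ : ℤ) ∣ W'.Δ)
    (K : Type*) [Field K] [DecidableEq K] [Algebra (ZMod ℓ) K]
    (hX : ∃ (P : ((⟨0, 0, 0, -27 * ((W.c₄ : ℤ) : ZMod ℓ), -54 * ((W.c₆ : ℤ) : ZMod ℓ)⟩ :
              WeierstrassCurve (ZMod ℓ)).toAffine⁄K).Point)
            (P' : ((⟨0, 0, 0, -27 * ((W'.c₄ : ℤ) : ZMod ℓ), -54 * ((W'.c₆ : ℤ) : ZMod ℓ)⟩ :
              WeierstrassCurve (ZMod ℓ)).toAffine⁄K).Point),
      P' ≠ 0 ∧ (5 : ℤ) • P' = 0 ∧ ∀ u v w : ℤ,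
        u • Point.map (W' := (⟨0, 0, 0, -27 * ((W.c₄ : ℤ) : ZMod ℓ), -54 * ((W.c₆ : ℤ) : ZMod ℓ)⟩ :
                WeierstrassCurve (ZMod ℓ)).toAffine) (FiniteField.frobeniusAlgHom (ZMod ℓ) K)
              (Point.map (W' := (⟨0, 0, 0, -27 * ((W.c₄ : ℤ) : ZMod ℓ),
                -54 * ((W.c₆ : ℤ) : ZMod ℓ)⟩ : WeierstrassCurve (ZMod ℓ)).toAffine)
                (FiniteField.frobeniusAlgHom (ZMod ℓ) K) P)
          + v • Point.map (W' := (⟨0, 0, 0, -27 * ((W.c₄ : ℤ) : ZMod ℓ),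
                -54 * ((W.c₆ : ℤ) : ZMod ℓ)⟩ : WeierstrassCurve (ZMod ℓ)).toAffine)
                (FiniteField.frobeniusAlgHom (ZMod ℓ) K) P
          + w • P = 0 →
        u • Point.map (W' := (⟨0, 0, 0, -27 * ((W'.c₄ : ℤ) : ZMod ℓ),
                -54 * ((W'.c₆ : ℤ) : ZMod ℓ)⟩ : WeierstrassCurve (ZMod ℓ)).toAffine)
                (FiniteField.frobeniusAlgHom (ZMod ℓ) K)
              (Point.map (W' := (⟨0, 0, 0, -27 * ((W'.c₄ : ℤ) : ZMod ℓ),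
                -54 * ((W'.c₆ : ℤ) : ZMod ℓ)⟩ : WeierstrassCurve (ZMod ℓ)).toAffine)
                (FiniteField.frobeniusAlgHom (ZMod ℓ) K) P')
          + v • Point.map (W' := (⟨0, 0, 0, -27 * ((W'.c₄ : ℤ) : ZMod ℓ),
                -54 * ((W'.c₆ : ℤ) : ZMod ℓ)⟩ : WeierstrassCurve (ZMod ℓ)).toAffine)
                (FiniteField.frobeniusAlgHom (ZMod ℓ) K) P'
          + w • P' = 0) :
    (5 : ℤ) ∣ W'.apOfModel ℓ - W.apOfModel ℓ :=
  five_dvd_apOfModel_of_frob ℓ hℓ W W' hΔ hΔ' K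
    (fun V hV => frobRel ℓ (by omega) V hV K) hX

/-- **Step (d), trace form** (the shape of `GlueCore.switch`'s hypothesis `Hap`, helper11 #1099): for
`c4 c6 c4' c6' : ZMod ℓ` with `c4³ ≠ c6²`, `c4'³ ≠ c6'²` (`ℓ ≥ 5`), the [X5Fl] export for the two
literal short curves over `K ⊇ ZMod ℓ` gives `5 ∣ tr' - tr`. -/
theorem five_dvd_trace_short (ℓ : ℕ) [Fact ℓ.Prime] (hℓ : 5 ≤ ℓ) (c4 c6 c4' c6' : ZMod ℓ)
    (h : c4 ^ 3 ≠ c6 ^ 2) (h' : c4' ^ 3 ≠ c6' ^ 2)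
    (K : Type*) [Field K] [DecidableEq K] [Algebra (ZMod ℓ) K]
    (hX : ∃ (P : ((⟨0, 0, 0, -27 * c4, -54 * c6⟩ : WeierstrassCurve (ZMod ℓ)).toAffine⁄K).Point)
            (P' : ((⟨0, 0, 0, -27 * c4', -54 * c6'⟩ : WeierstrassCurve (ZMod ℓ)).toAffine⁄K).Point),
      P' ≠ 0 ∧ (5 : ℤ) • P' = 0 ∧ ∀ u v w : ℤ,
        u • Point.map (W' := (⟨0, 0, 0, -27 * c4, -54 * c6⟩ : WeierstrassCurve (ZMod ℓ)).toAffine)
              (FiniteField.frobeniusAlgHom (ZMod ℓ) K)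
              (Point.map (W' := (⟨0, 0, 0, -27 * c4, -54 * c6⟩ : WeierstrassCurve (ZMod ℓ)).toAffine)
                (FiniteField.frobeniusAlgHom (ZMod ℓ) K) P)
          + v • Point.map (W' := (⟨0, 0, 0, -27 * c4, -54 * c6⟩ : WeierstrassCurve (ZMod ℓ)).toAffine)
                (FiniteField.frobeniusAlgHom (ZMod ℓ) K) P
          + w • P = 0 →
        u • Point.map (W' := (⟨0, 0, 0, -27 * c4', -54 * c6'⟩ : WeierstrassCurve (ZMod ℓ)).toAffine)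
              (FiniteField.frobeniusAlgHom (ZMod ℓ) K)
              (Point.map (W' := (⟨0, 0, 0, -27 * c4', -54 * c6'⟩ :
                WeierstrassCurve (ZMod ℓ)).toAffine) (FiniteField.frobeniusAlgHom (ZMod ℓ) K) P')
          + v • Point.map (W' := (⟨0, 0, 0, -27 * c4', -54 * c6'⟩ :
                WeierstrassCurve (ZMod ℓ)).toAffine) (FiniteField.frobeniusAlgHom (ZMod ℓ) K) P'
          + w • P' = 0) :
    (5 : ℤ) ∣ (⟨0, 0, 0, -27 * c4', -54 * c6'⟩ : WeierstrassCurve (ZMod ℓ)).traceOfFrobenius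
      - (⟨0, 0, 0, -27 * c4, -54 * c6⟩ : WeierstrassCurve (ZMod ℓ)).traceOfFrobenius := by
  have h2 := Frob.ShortCount.two_ne_zero_zmod ℓ hℓ
  have h3 := Frob.ShortCount.three_ne_zero_zmod ℓ hℓ
  have e1 : (1259712 : ZMod ℓ) = 2 ^ 6 * 3 ^ 9 := by norm_num
  have hc : (1259712 : ZMod ℓ) ≠ 0 := by
    rw [e1]; exact mul_ne_zero (pow_ne_zero _ h2) (pow_ne_zero _ h3)
  have hV : (⟨0, 0, 0, -27 * c4, -54 * c6⟩ : WeierstrassCurve (ZMod ℓ)).Δ ≠ 0 := by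
    rw [short_Δ]; exact mul_ne_zero hc (sub_ne_zero.mpr h)
  have hV' : (⟨0, 0, 0, -27 * c4', -54 * c6'⟩ : WeierstrassCurve (ZMod ℓ)).Δ ≠ 0 := by
    rw [short_Δ]; exact mul_ne_zero hc (sub_ne_zero.mpr h')
  exact five_dvd_trace ℓ _ _ K (frobRel ℓ (by omega) _ hV K) (frobRel ℓ (by omega) _ hV' K) hX

end Fermat.Agent.S52.GlueD
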