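/-
S52, last adapter of the final glue (owner: helper95).

* `X5Export` : the exact shape of the [X5Fl] export (transport of Frobenius relations from a point of
  the short model `y² = x³ - 27 c4 x - 54 c6` to a point of exact order `5` of the member
  `y² = x³ - 27 fam4(c4,c6,t) x - 54 fam6(c4,c6,t)`, over `AlgebraicClosure (ZMod ℓ)`), as a `Prop`.
* `hD_of_x5` : `X5Export` gives hypothesis `hD` of `Glue.exists_switch_of_invariants`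
  (`5 ∣ a_ℓ(W') - a_ℓ(W)` at the primes `ℓ ≥ 7` good for both models), through
  `GlueD.five_dvd_trace_short` (Frobenius relation + Corollary C) and `ShortCount.apOfModel_eq_short`.
* `switch_of` : the conclusion of the frozen statement S52 from the three block exports
  [Irr3Asm] (`Irr3A.exists_invariants`), [SS] (`SSFam.semistable_away`) and [X5Fl] (`X5Export`),
  all taken as hypotheses in their exact landed shapes.
-/
import Mathlib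
import Fermat.Prelude.Def_FLTPrelim_Modularity
import Fermat.Prelude.Def_FLTPrelim_ModularRep
import Fermat.Agent.S52.Glue
import Fermat.Agent.S52.GlueD
import Fermat.Agent.S52.GlueArith

set_option autoImplicit false

open WeierstrassCurve WeierstrassCurve.Affine
open scoped WeierstrassCurve.Affine

namespace Fermat.Agent.S52.GlueX

open Fermat.Agent.S52

/-- The [X5Fl] export: for a prime `ℓ ≥ 7`, `c4 c6 t : ZMod ℓ` with `c4³ ≠ c6²` and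
`fam4³ ≠ fam6²` at `t`, there are a point `P` of the short curve of `(c4, c6)` and a point `P'` of
exact order `5` of the short curve of `(fam4 c4 c6 t, fam6 c4 c6 t)`, over the algebraic closure of
`ZMod ℓ`, such that every integer relation among `φ² P, φ P, P` also holds for `P'`. -/
def X5Export : Prop :=
  ∀ (ℓ : ℕ) [Fact ℓ.Prime], 7 ≤ ℓ → ∀ [DecidableEq (AlgebraicClosure (ZMod ℓ))]
    (c4 c6 t : ZMod ℓ), c4 ^ 3 ≠ c6 ^ 2 → Tate.fam4 c4 c6 t ^ 3 ≠ Tate.fam6 c4 c6 t ^ 2 →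
    ∃ (P : ((⟨0, 0, 0, -27 * c4, -54 * c6⟩ : WeierstrassCurve (ZMod ℓ)).toAffine⁄
              (AlgebraicClosure (ZMod ℓ))).Point)
      (P' : ((⟨0, 0, 0, -27 * Tate.fam4 c4 c6 t, -54 * Tate.fam6 c4 c6 t⟩ :
              WeierstrassCurve (ZMod ℓ)).toAffine⁄(AlgebraicClosure (ZMod ℓ))).Point),
      P' ≠ 0 ∧ (5 : ℤ) • P' = 0 ∧ ∀ u v w : ℤ,
        u • Point.map (W' := (⟨0, 0, 0, -27 * c4, -54 * c6⟩ : WeierstrassCurve (ZMod ℓ)).toAffine)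
              (FiniteField.frobeniusAlgHom (ZMod ℓ) (AlgebraicClosure (ZMod ℓ)))
              (Point.map (W' := (⟨0, 0, 0, -27 * c4, -54 * c6⟩ : WeierstrassCurve (ZMod ℓ)).toAffine)
                (FiniteField.frobeniusAlgHom (ZMod ℓ) (AlgebraicClosure (ZMod ℓ))) P)
          + v • Point.map (W' := (⟨0, 0, 0, -27 * c4, -54 * c6⟩ : WeierstrassCurve (ZMod ℓ)).toAffine)
                (FiniteField.frobeniusAlgHom (ZMod ℓ) (AlgebraicClosure (ZMod ℓ))) P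
          + w • P = 0 →
        u • Point.map (W' := (⟨0, 0, 0, -27 * Tate.fam4 c4 c6 t, -54 * Tate.fam6 c4 c6 t⟩ :
                WeierstrassCurve (ZMod ℓ)).toAffine)
              (FiniteField.frobeniusAlgHom (ZMod ℓ) (AlgebraicClosure (ZMod ℓ)))
              (Point.map (W' := (⟨0, 0, 0, -27 * Tate.fam4 c4 c6 t, -54 * Tate.fam6 c4 c6 t⟩ :
                WeierstrassCurve (ZMod ℓ)).toAffine)
                (FiniteField.frobeniusAlgHom (ZMod ℓ) (AlgebraicClosure (ZMod ℓ))) P')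
          + v • Point.map (W' := (⟨0, 0, 0, -27 * Tate.fam4 c4 c6 t, -54 * Tate.fam6 c4 c6 t⟩ :
                WeierstrassCurve (ZMod ℓ)).toAffine)
                (FiniteField.frobeniusAlgHom (ZMod ℓ) (AlgebraicClosure (ZMod ℓ))) P'
          + w • P' = 0

/-- For a prime `ℓ ≥ 5` not dividing the discriminant of an integral model, `c₄³ ≠ c₆²` in
`ZMod ℓ`. -/
theorem c4_cube_ne_c6_sq (ℓ : ℕ) [Fact ℓ.Prime] (hℓ : 5 ≤ ℓ) (W : WeierstrassCurve ℤ)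
    (hΔ : ¬ (ℓ : ℤ) ∣ W.Δ) :
    ((W.c₄ : ℤ) : ZMod ℓ) ^ 3 ≠ ((W.c₆ : ℤ) : ZMod ℓ) ^ 2 := by
  intro h
  have h2 := Frob.ShortCount.two_ne_zero_zmod ℓ hℓ
  have h3 := Frob.ShortCount.three_ne_zero_zmod ℓ hℓ
  have hrel : (1728 : ZMod ℓ) * ((W.Δ : ℤ) : ZMod ℓ)
      = ((W.c₄ : ℤ) : ZMod ℓ) ^ 3 - ((W.c₆ : ℤ) : ZMod ℓ) ^ 2 := by
    have h' := congrArg (Int.cast : ℤ → ZMod ℓ) W.c_relation
    push_cast at h'
    exact h'
  rw [h, sub_self] at hrel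
  have e2 : (1728 : ZMod ℓ) = 2 ^ 6 * 3 ^ 3 := by norm_num
  have hc : (1728 : ZMod ℓ) ≠ 0 := by
    rw [e2]; exact mul_ne_zero (pow_ne_zero _ h2) (pow_ne_zero _ h3)
  have hΔ0 : ((W.Δ : ℤ) : ZMod ℓ) = 0 := by
    rcases mul_eq_zero.mp hrel with h0 | h0
    · exact absurd h0 hc
    · exact h0
  exact hΔ ((ZMod.intCast_zmod_eq_zero_iff_dvd W.Δ ℓ).mp hΔ0)

/-- **[X5Fl] ⟹ hypothesis `hD` of `Glue.exists_switch_of_invariants`.** -/
theorem hD_of_x5 (hx5 : X5Export) (W : WeierstrassCurve ℤ) (s : ℤ) :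
    ∀ W' : WeierstrassCurve ℤ, W'.c₄ = Tate.fam4 W.c₄ W.c₆ s → W'.c₆ = Tate.fam6 W.c₄ W.c₆ s →
      ∀ ℓ : ℕ, ℓ.Prime → 7 ≤ ℓ → ¬ (ℓ : ℤ) ∣ W.Δ → ¬ (ℓ : ℤ) ∣ W'.Δ →
        (5 : ℤ) ∣ W'.apOfModel ℓ - W.apOfModel ℓ := by
  classical
  intro W' h4 h6 ℓ hℓ h7 hΔ hΔ'
  have : Fact ℓ.Prime := ⟨hℓ⟩
  have h5 : 5 ≤ ℓ := by omega
  have h := c4_cube_ne_c6_sq ℓ h5 W hΔ
  have h' := c4_cube_ne_c6_sq ℓ h5 W' hΔ'
  rw [h4, h6, GlueArith.intCast_fam4, GlueArith.intCast_fam6] at h'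
  rw [Frob.ShortCount.apOfModel_eq_short ℓ h5 W, Frob.ShortCount.apOfModel_eq_short ℓ h5 W',
    h4, h6, GlueArith.intCast_fam4, GlueArith.intCast_fam6]
  exact GlueD.five_dvd_trace_short ℓ h5 _ _ _ _ h h' (AlgebraicClosure (ZMod ℓ))
    (hx5 ℓ h7 _ _ _ h h')

/-- **S52, final assembly in hypothesis form.**  From the exports of [Irr3Asm]
(`Irr3A.exists_invariants`), [SS] (`SSFam.semistable_away`) and [X5Fl] (`X5Export`), the conclusion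
of the frozen statement S52 (the 3–5 switch). -/
theorem switch_of
    (hirr : ∀ (W : WeierstrassCurve ℤ), W.Δ ≠ 0 → ∀ M : ℤ, M ≠ 0 →
      ∃ s : ℤ, M ∣ s ∧ M ∣ Tate.fam4 W.c₄ W.c₆ s - W.c₄ ∧ M ∣ Tate.fam6 W.c₄ W.c₆ s - W.c₆ ∧
        ∀ W' : WeierstrassCurve ℤ, W'.c₄ = Tate.fam4 W.c₄ W.c₆ s →
          W'.c₆ = Tate.fam6 W.c₄ W.c₆ s → W'.Δ ≠ 0 ∧ W'.ModRepIsIrreducible 3)
    (hss : ∀ (W W' : WeierstrassCurve ℤ) (t : ℤ), W'.c₄ = Tate.fam4 W.c₄ W.c₆ t →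
      W'.c₆ = Tate.fam6 W.c₄ W.c₆ t →
      ∀ ℓ : ℕ, ℓ.Prime → ¬ (ℓ : ℤ) ∣ 30 * W.Δ → (ℓ : ℤ) ∣ W'.Δ → ¬ (ℓ : ℤ) ∣ W'.c₄)
    (hx5 : X5Export)
    (W : WeierstrassCurve ℤ) (hΔ : W.Δ ≠ 0) (hW : W.IsSemistableModel) :
    ∃ W' : WeierstrassCurve ℤ, W'.Δ ≠ 0 ∧ W'.IsSemistableModel ∧ W'.ModRepIsIrreducible 3 ∧
      ∀ ℓ : ℕ, ℓ.Prime → W.IsGoodPrimeFor ℓ → W'.IsGoodPrimeFor ℓ → ℓ ≠ 5 →
        (5 : ℤ) ∣ (W'.apOfModel ℓ - W.apOfModel ℓ) := by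
  have hM : (41472 * (30 * W.Δ) : ℤ) ≠ 0 :=
    mul_ne_zero (by norm_num) (mul_ne_zero (by norm_num) hΔ)
  obtain ⟨s, -, h4, h6, hI⟩ := hirr W hΔ (41472 * (30 * W.Δ)) hM
  exact Glue.exists_switch_of_invariants W hW (Tate.fam4 W.c₄ W.c₆ s) (Tate.fam6 W.c₄ W.c₆ s)
    h4 h6 (fun W' _ h4' h6' => hI W' h4' h6') (fun W' h4' h6' => hss W W' s h4' h6')
    (hD_of_x5 hx5 W s)

end Fermat.Agent.S52.GlueX
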