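/-
Team S52 (T3), block [Irr3-HIT] (owner: helper23).

A p-adic Hilbert irreducibility statement for roots (Doerge style, fully elementary).

`g ∈ ℤ[T][z]` monic in `z`, `g(z,0)` squarefree (Bezout certificate), `g` without root in `ℚ[T]`.
Then for every `M ≠ 0` and every bound `B0` there is `s > B0` such that `g(z, M s)` has no
integer root.
-/
import Mathlib

set_option autoImplicit false

namespace Fermat.Agent.S52.HIT

open Polynomial

/-- Newton iteration with respect to an arbitrary ideal. -/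
theorem newton_pow {R : Type*} [CommRing R] (I : Ideal R) (f : R[X]) (a₀ u : R)
    (h0 : f.eval a₀ ∈ I) (hu : u * f.derivative.eval a₀ - 1 ∈ I) (j : ℕ) :
    ∃ a : R, f.eval a ∈ I ^ (j + 1) ∧ a - a₀ ∈ I := by
  induction j with
  | zero => exact ⟨a₀, by simpa using h0, by simp⟩
  | succ j ih =>
    obtain ⟨a, ha, haa⟩ := ih
    refine ⟨a - u * f.eval a, ?_, ?_⟩
    · obtain ⟨c, hc⟩ := Polynomial.binomExpansion f a (-(u * f.eval a))
      have hfa : f.eval a ∈ I := Ideal.pow_le_self (Nat.succ_ne_zero j) ha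
      have h1 : u * f.derivative.eval a - 1 ∈ I := by
        have h2 : f.derivative.eval a - f.derivative.eval a₀ ∈ I :=
          Ideal.mem_of_dvd I (Polynomial.sub_dvd_eval_sub a a₀ f.derivative) haa
        have h3 : u * f.derivative.eval a - 1 =
            u * (f.derivative.eval a - f.derivative.eval a₀) +
              (u * f.derivative.eval a₀ - 1) := by ring
        rw [h3]
        exact I.add_mem (I.mul_mem_left _ h2) hu
      have h4 : f.eval (a - u * f.eval a) =
          -(f.eval a * (u * f.derivative.eval a - 1)) + c * u ^ 2 * (f.eval a * f.eval a) := by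
        rw [sub_eq_add_neg, hc]; ring
      rw [h4]
      refine Ideal.add_mem _ (neg_mem ?_) (Ideal.mul_mem_left _ _ ?_)
      · rw [pow_succ (I) (j + 1)]
        exact Ideal.mul_mem_mul ha h1
      · rw [pow_succ (I) (j + 1)]
        exact Ideal.mul_mem_mul ha hfa
    · have : a - u * f.eval a - a₀ = (a - a₀) - u * f.eval a := by ring
      rw [this]
      exact I.sub_mem haa (I.mul_mem_left _ (Ideal.pow_le_self (Nat.succ_ne_zero j) ha))

/-- Membership in the ideal `(p, X)` of `ℤ[X]`. -/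
theorem mem_span_pX_iff (p : ℤ) (P : ℤ[X]) :
    P ∈ Ideal.span {C p, (X : ℤ[X])} ↔ p ∣ P.eval 0 := by
  constructor
  · intro h
    rw [Ideal.mem_span_pair] at h
    obtain ⟨a, b, rfl⟩ := h
    simp
  · rintro ⟨q, hq⟩
    rw [Ideal.mem_span_pair]
    refine ⟨C q, P.divX, ?_⟩
    have h1 := Polynomial.divX_mul_X_add P
    rw [← coeff_zero_eq_eval_zero] at hq
    conv_rhs => rw [← h1, hq]
    simp only [C_mul]
    ring

/-- Elements of a high power of `(p, X)` vanish modulo `p ^ N` at multiples of `p ^ k`. -/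
theorem dvd_eval_of_mem_pow (p : ℤ) (N d k : ℕ) (hN : N ≤ (d + 1) * k) (P : ℤ[X])
    (hP : P ∈ Ideal.span {C p, (X : ℤ[X])} ^ (N + (d + 1))) (j : ℤ) :
    p ^ N ∣ P.eval (p ^ k * j) := by
  have h1 : Ideal.span {C p, (X : ℤ[X])} = Ideal.span {C p} ⊔ Ideal.span {X} := by
    rw [← Ideal.span_union]; rfl
  rw [h1] at hP
  have h2 := Ideal.sup_pow_add_le_pow_sup_pow (I := Ideal.span {C p}) (J := Ideal.span {(X : ℤ[X])})
    (n := N) (m := d + 1) hP
  rw [Ideal.span_singleton_pow, Ideal.span_singleton_pow, Submodule.mem_sup] at h2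
  obtain ⟨y, hy, z, hz, rfl⟩ := h2
  rw [Ideal.mem_span_singleton] at hy hz
  obtain ⟨y', rfl⟩ := hy
  obtain ⟨z', rfl⟩ := hz
  simp only [eval_add, eval_mul, eval_pow, eval_C, eval_X]
  refine dvd_add (Dvd.intro _ rfl) (Dvd.dvd.mul_right ?_ _)
  rw [mul_pow, ← pow_mul]
  exact Dvd.dvd.mul_right (pow_dvd_pow p (by rw [mul_comm]; exact hN)) _

/-- Evaluating a two-variable polynomial: outer variable at a polynomial, then inner at `s`. -/
theorem eval_eval_eq {A : Type*} [CommRing A] (P : A[X][X]) (a : A[X]) (s : A) :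
    (P.eval a).eval s = (P.map (evalRingHom s)).eval (a.eval s) := by
  have h := Polynomial.eval₂_hom (p := P) (evalRingHom s) a
  rw [eval_map]
  exact h.symm

theorem evalRingHom_comp_compRingHom (M s : ℤ) :
    (evalRingHom s).comp (compRingHom (C M * X)) = evalRingHom (M * s) := by
  apply Polynomial.ringHom_ext
  · intro a; simp
  · simp

/-- `g(a(S), M S)` evaluated at `S = s`. -/
theorem eval_eval_comp (g : ℤ[X][X]) (M : ℤ) (a : ℤ[X]) (s : ℤ) :
    ((g.map (compRingHom (C M * X))).eval a).eval s =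
      (g.map (evalRingHom (M * s))).eval (a.eval s) := by
  rw [eval_eval_eq, Polynomial.map_map, evalRingHom_comp_compRingHom]

/-- Congruence of values of a two-variable polynomial. -/
theorem dvd_sub_of_dvd_sub (P : ℤ[X][X]) (p t t' y y' : ℤ) (ht : p ∣ t - t') (hy : p ∣ y - y') :
    p ∣ (P.map (evalRingHom t)).eval y - (P.map (evalRingHom t')).eval y' := by
  have h1 : (P.map (evalRingHom t)).eval y - (P.map (evalRingHom t')).eval y' =
      ((P.map (evalRingHom t)).eval y - (P.map (evalRingHom t)).eval y') +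
        ((P.eval (C y')).eval t - (P.eval (C y')).eval t') := by
    rw [eval_eval_eq, eval_eval_eq]; simp
  rw [h1]
  exact dvd_add (hy.trans (Polynomial.sub_dvd_eval_sub _ _ _))
    (ht.trans (Polynomial.sub_dvd_eval_sub _ _ _))

/-- Uniqueness of simple roots modulo `p ^ N`. -/
theorem root_unique (p : ℕ) (hp : p.Prime) (h : ℤ[X]) (N : ℕ) (z y : ℤ) (hz : h.eval z = 0)
    (hy : (p : ℤ) ^ N ∣ h.eval y) (hzy : (p : ℤ) ∣ z - y)
    (hd : ¬ (p : ℤ) ∣ h.derivative.eval y) : (p : ℤ) ^ N ∣ z - y := by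
  obtain ⟨c, hc⟩ := Polynomial.binomExpansion h y (z - y)
  rw [add_sub_cancel, hz] at hc
  have hpp : Prime (p : ℤ) := Nat.prime_iff_prime_int.mp hp
  have h1 : (z - y) * (h.derivative.eval y + c * (z - y)) = - h.eval y := by
    linear_combination -hc
  have h2 : ¬ (p : ℤ) ∣ h.derivative.eval y + c * (z - y) := by
    intro h3
    exact hd ((dvd_add_left (Dvd.dvd.mul_left hzy c)).mp h3)
  have h3 : IsCoprime ((p : ℤ) ^ N) (h.derivative.eval y + c * (z - y)) :=
    IsCoprime.pow_left (hpp.irreducible.coprime_iff_not_dvd.mpr h2)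
  have h4 : (p : ℤ) ^ N ∣ (z - y) * (h.derivative.eval y + c * (z - y)) := by
    rw [h1]; exact (dvd_neg).mpr hy
  exact h3.dvd_of_dvd_mul_right h4

/-- Hensel: near a simple root `r₀` of `g(z,0)` modulo `p`, every integer root `z ≡ r₀` of
`g(z, M p^k j)` is congruent modulo `p^((d+1)k)` to the value at `j` of one fixed integer
polynomial of degree at most `d`. -/
theorem exists_approx (g : ℤ[X][X]) (M : ℤ) (p : ℕ) (hp : p.Prime) (r₀ : ℤ)
    (h0 : (p : ℤ) ∣ (g.map (evalRingHom 0)).eval r₀)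
    (h1 : ¬ (p : ℤ) ∣ (g.map (evalRingHom 0)).derivative.eval r₀) (d k : ℕ) (hk : 1 ≤ k) :
    ∃ R : ℤ[X], R.natDegree ≤ d ∧ ∀ j z : ℤ,
      (g.map (evalRingHom (M * ((p : ℤ) ^ k * j)))).eval z = 0 → (p : ℤ) ∣ z - r₀ →
        (p : ℤ) ^ ((d + 1) * k) ∣ z - R.eval j := by
  have hpp : Prime (p : ℤ) := Nat.prime_iff_prime_int.mp hp
  obtain ⟨v, u, huv⟩ := hpp.irreducible.coprime_iff_not_dvd.mpr h1
  set I : Ideal ℤ[X] := Ideal.span {C (p : ℤ), (X : ℤ[X])} with hI
  set f : ℤ[X][X] := g.map (compRingHom (C M * X)) with hf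
  have hf0 : f.eval (C r₀) ∈ I := by
    rw [hI, mem_span_pX_iff, hf, eval_eval_comp]
    simpa using h0
  have hfu : C u * f.derivative.eval (C r₀) - 1 ∈ I := by
    rw [hI, mem_span_pX_iff, hf, Polynomial.derivative_map]
    simp only [eval_sub, eval_mul, eval_one, eval_C]
    rw [eval_eval_comp]
    simp only [mul_zero, eval_C]
    rw [← Polynomial.derivative_map]
    exact ⟨-v, by linear_combination huv⟩
  obtain ⟨a, ha, haa⟩ := newton_pow I f (C r₀) (C u) hf0 hfu ((d + 1) * k + d)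
  set tr : ℤ[X] := ∑ i ∈ Finset.range (d + 1), C (a.coeff i) * X ^ i with htr
  have htrdeg : tr.natDegree ≤ d := by
    apply Polynomial.natDegree_sum_le_of_forall_le
    intro i hi
    exact (Polynomial.natDegree_C_mul_X_pow_le _ _).trans (Nat.lt_succ_iff.mp (Finset.mem_range.mp hi))
  have hdvd : (X : ℤ[X]) ^ (d + 1) ∣ a - tr := by
    rw [Polynomial.X_pow_dvd_iff]
    intro i hi
    rw [coeff_sub, htr, Polynomial.finsetSum_coeff]
    simp only [coeff_C_mul_X_pow]
    rw [Finset.sum_eq_single i]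
    · simp
    · intro b _ hb; simp [Ne.symm hb]
    · intro hi'; exact absurd (Finset.mem_range.mpr hi) hi'
  refine ⟨tr.comp (C ((p : ℤ) ^ k) * X), ?_, ?_⟩
  · refine (Polynomial.natDegree_comp_le).trans ?_
    calc tr.natDegree * (C ((p : ℤ) ^ k) * X).natDegree ≤ d * 1 :=
          Nat.mul_le_mul htrdeg ((Polynomial.natDegree_C_mul_le _ _).trans Polynomial.natDegree_X_le)
      _ = d := mul_one d
  · intro j z hz hzr
    set y : ℤ := a.eval ((p : ℤ) ^ k * j) with hy
    have hy1 : (p : ℤ) ^ ((d + 1) * k) ∣ (g.map (evalRingHom (M * ((p : ℤ) ^ k * j)))).eval y := by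
      have := dvd_eval_of_mem_pow (p : ℤ) ((d + 1) * k) d k le_rfl (f.eval a) ha j
      rwa [hf, eval_eval_comp] at this
    have hpk : (p : ℤ) ∣ (p : ℤ) ^ k * j :=
      Dvd.dvd.mul_right (dvd_pow_self _ (by omega)) _
    have hy2 : (p : ℤ) ∣ y - r₀ := by
      have h2 : (p : ℤ) ∣ (a - C r₀).eval 0 := by
        rwa [hI, mem_span_pX_iff] at haa
      simp only [eval_sub, eval_C] at h2
      have h3 : (p : ℤ) ∣ a.eval ((p : ℤ) ^ k * j) - a.eval 0 := by
        have := Polynomial.sub_dvd_eval_sub ((p : ℤ) ^ k * j) 0 a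
        rw [sub_zero] at this
        exact hpk.trans this
      have : y - r₀ = (a.eval ((p : ℤ) ^ k * j) - a.eval 0) + (a.eval 0 - r₀) := by
        rw [hy]; ring
      rw [this]
      exact dvd_add h3 h2
    have hzy : (p : ℤ) ∣ z - y := by
      have : z - y = (z - r₀) - (y - r₀) := by ring
      rw [this]; exact dvd_sub hzr hy2
    have hd : ¬ (p : ℤ) ∣ (g.map (evalRingHom (M * ((p : ℤ) ^ k * j)))).derivative.eval y := by
      intro h3
      apply h1
      have h4 := dvd_sub_of_dvd_sub g.derivative (p : ℤ) (M * ((p : ℤ) ^ k * j)) 0 y r₀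
        (by rw [sub_zero]; exact Dvd.dvd.mul_left hpk M) hy2
      rw [Polynomial.derivative_map] at h3 ⊢
      exact (dvd_sub_right h3).mp h4
    have h5 := root_unique p hp _ ((d + 1) * k) z y hz hy1 hzy hd
    have h6 : (p : ℤ) ^ ((d + 1) * k) ∣ y - (tr.comp (C ((p : ℤ) ^ k) * X)).eval j := by
      obtain ⟨q, hq⟩ := hdvd
      have h7 : y - (tr.comp (C ((p : ℤ) ^ k) * X)).eval j = (a - tr).eval ((p : ℤ) ^ k * j) := by
        rw [hy]; simp [eval_comp]
      rw [h7, hq]
      simp only [eval_mul, eval_pow, eval_X]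
      refine Dvd.dvd.mul_right ?_ _
      rw [mul_pow, ← pow_mul, mul_comm k (d + 1)]
      exact Dvd.intro _ rfl
    have : z - (tr.comp (C ((p : ℤ) ^ k) * X)).eval j =
        (z - y) + (y - (tr.comp (C ((p : ℤ) ^ k) * X)).eval j) := by ring
    rw [this]
    exact dvd_add h5 h6

/-- Cauchy's bound for integer roots of monic integer polynomials. -/
theorem root_abs_le (h : ℤ[X]) (hm : h.Monic) (z : ℤ) (hz : h.eval z = 0) :
    |z| ≤ 1 + ∑ i ∈ Finset.range h.natDegree, |h.coeff i| := by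
  have hnn : 0 ≤ ∑ i ∈ Finset.range h.natDegree, |h.coeff i| :=
    Finset.sum_nonneg fun i _ => abs_nonneg _
  by_cases h1 : |z| ≤ 1
  · linarith
  rw [not_le] at h1
  have hsum : z ^ h.natDegree = - ∑ i ∈ Finset.range h.natDegree, h.coeff i * z ^ i := by
    have h2 := congrArg (eval z) hm.as_sum
    rw [hz] at h2
    simp only [eval_add, eval_pow, eval_X, eval_finsetSum, eval_mul, eval_C] at h2
    linarith
  rcases Nat.eq_zero_or_pos h.natDegree with h0 | hpos
  · rw [h0] at hsum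
    simp at hsum
  have h3 : |z| ^ h.natDegree ≤ (∑ i ∈ Finset.range h.natDegree, |h.coeff i|) * |z| ^ (h.natDegree - 1) := by
    rw [← abs_pow, hsum, abs_neg, Finset.sum_mul]
    refine (Finset.abs_sum_le_sum_abs _ _).trans (Finset.sum_le_sum fun i hi => ?_)
    rw [abs_mul, abs_pow]
    refine mul_le_mul_of_nonneg_left ?_ (abs_nonneg _)
    exact pow_le_pow_right₀ h1.le (Nat.le_sub_one_of_lt (Finset.mem_range.mp hi))
  have h4 : |z| ^ h.natDegree = |z| * |z| ^ (h.natDegree - 1) := by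
    rw [← pow_succ', Nat.sub_add_cancel hpos]
  rw [h4] at h3
  have h5 : 0 < |z| ^ (h.natDegree - 1) := pow_pos (by linarith) _
  have := le_of_mul_le_mul_right h3 h5
  linarith

/-- Values of an integer polynomial of degree at most `e`. -/
theorem abs_eval_le (c : ℤ[X]) (e : ℕ) (he : c.natDegree ≤ e) (t : ℤ) (ht : t ≠ 0) :
    |c.eval t| ≤ (∑ l ∈ Finset.range (e + 1), |c.coeff l|) * |t| ^ e := by
  rw [Polynomial.eval_eq_sum_range' (Nat.lt_succ_of_le he), Finset.sum_mul]
  refine (Finset.abs_sum_le_sum_abs _ _).trans (Finset.sum_le_sum fun i hi => ?_)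
  rw [abs_mul, abs_pow]
  refine mul_le_mul_of_nonneg_left ?_ (abs_nonneg _)
  exact pow_le_pow_right₀ (Int.one_le_abs ht) (Nat.lt_succ_iff.mp (Finset.mem_range.mp hi))

/-- Uniform bound for the integer roots of the specialisations. -/
theorem root_bound (g : ℤ[X][X]) (hg : g.Monic) (e : ℕ) (he : ∀ i, (g.coeff i).natDegree ≤ e) :
    ∃ S : ℤ, 0 ≤ S ∧ ∀ t z : ℤ, t ≠ 0 → (g.map (evalRingHom t)).eval z = 0 → |z| ≤ S * |t| ^ e := by
  refine ⟨1 + ∑ i ∈ Finset.range g.natDegree, ∑ l ∈ Finset.range (e + 1), |(g.coeff i).coeff l|,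
    ?_, ?_⟩
  · have : 0 ≤ ∑ i ∈ Finset.range g.natDegree, ∑ l ∈ Finset.range (e + 1), |(g.coeff i).coeff l| :=
      Finset.sum_nonneg fun i _ => Finset.sum_nonneg fun l _ => abs_nonneg _
    linarith
  · intro t z ht hz
    have h1 := root_abs_le _ (hg.map (evalRingHom t)) z hz
    rw [hg.natDegree_map] at h1
    have h2 : ∑ i ∈ Finset.range g.natDegree, |(g.map (evalRingHom t)).coeff i| ≤
        (∑ i ∈ Finset.range g.natDegree, ∑ l ∈ Finset.range (e + 1), |(g.coeff i).coeff l|) *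
          |t| ^ e := by
      rw [Finset.sum_mul]
      refine Finset.sum_le_sum fun i _ => ?_
      rw [coeff_map]
      exact abs_eval_le _ e (he i) t ht
    have h3 : (1 : ℤ) ≤ |t| ^ e := one_le_pow₀ (Int.one_le_abs ht)
    calc |z| ≤ 1 + ∑ i ∈ Finset.range g.natDegree, |(g.map (evalRingHom t)).coeff i| := h1
      _ ≤ |t| ^ e + (∑ i ∈ Finset.range g.natDegree,
            ∑ l ∈ Finset.range (e + 1), |(g.coeff i).coeff l|) * |t| ^ e := add_le_add h3 h2
      _ = _ := by ring

/-- Integrality of Lagrange interpolation with integer nodes in `[1, L]`. -/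
theorem interp_int (T : Finset ℤ) (L : ℕ) (hT : ∀ i ∈ T, 1 ≤ i ∧ i ≤ (L : ℤ)) (x : ℤ)
    (hx : 1 ≤ x ∧ x ≤ (L : ℤ)) :
    ∃ b : ℤ → ℤ, (∀ i ∈ T, |b i| ≤ ((L.factorial : ℤ) * L) ^ (T.card - 1)) ∧
      ∀ r : ℤ → ℚ, ((L.factorial : ℚ)) ^ (T.card - 1) *
        (Lagrange.interpolate T (fun i : ℤ => (i : ℚ)) r).eval (x : ℚ) =
          ∑ i ∈ T, r i * (b i : ℚ) := by
  refine ⟨fun i => ∏ j ∈ T.erase i, ((L.factorial : ℤ) / (i - j)) * (x - j), ?_, ?_⟩
  · intro i hi
    rw [Finset.abs_prod, ← Finset.card_erase_of_mem hi, ← Finset.prod_const]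
    refine Finset.prod_le_prod (fun j _ => abs_nonneg _) (fun j hj => ?_)
    rw [abs_mul]
    have hj' := hT j (Finset.mem_of_mem_erase hj)
    refine mul_le_mul ?_ ?_ (abs_nonneg _) (by positivity)
    · refine (Int.abs_ediv_le_abs _ _).trans ?_
      rw [abs_of_nonneg (by positivity)]
    · rw [abs_le]; constructor <;> linarith [hx.1, hx.2, hj'.1, hj'.2]
  · intro r
    rw [Lagrange.interpolate_apply, eval_finsetSum, Finset.mul_sum]
    refine Finset.sum_congr rfl fun i hi => ?_
    rw [eval_mul, eval_C, mul_left_comm]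
    congr 1
    rw [Lagrange.basis, eval_prod, ← Finset.card_erase_of_mem hi, ← Finset.prod_const,
      ← Finset.prod_mul_distrib, Int.cast_prod]
    refine Finset.prod_congr rfl fun j hj => ?_
    have hj' := hT j (Finset.mem_of_mem_erase hj)
    have hi' := hT i hi
    have hne : i - j ≠ 0 := sub_ne_zero.mpr (Finset.ne_of_mem_erase hj).symm
    have hdvd : (i - j) ∣ (L.factorial : ℤ) := by
      rw [← Int.natAbs_dvd]
      refine Int.natCast_dvd_natCast.mpr (Nat.dvd_factorial (Int.natAbs_pos.mpr hne) ?_)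
      have : ((i - j).natAbs : ℤ) ≤ L := by
        rw [Int.natCast_natAbs, abs_le]; constructor <;> linarith [hj'.1, hj'.2, hi'.1, hi'.2]
      exact_mod_cast this
    obtain ⟨q, hq⟩ := hdvd
    have hq' : (L.factorial : ℤ) / (i - j) = q := by
      rw [hq]; exact Int.mul_ediv_cancel_left q hne
    have hq2 : ((L.factorial : ℤ) : ℚ) = ((i : ℚ) - j) * q := by
      rw [hq]; push_cast; ring
    have hne' : ((i : ℚ) - j) ≠ 0 := by exact_mod_cast hne
    rw [hq']
    simp only [Lagrange.basisDivisor, eval_mul, eval_C, eval_sub, eval_X, Int.cast_mul,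
      Int.cast_sub]
    have hq3 : (L.factorial : ℚ) = ((i : ℚ) - j) * q := by exact_mod_cast hq2
    rw [hq3]
    field_simp

/-- **Hilbert irreducibility for roots** (p-adic Doerge argument).  Let `g ∈ ℤ[T][z]` be monic
in `z` (outer variable), with `g(z,0)` squarefree (Bezout certificate `A g₀ + B g₀' = c ≠ 0`) and
without root in `ℚ[T]`.  Then for every `M ≠ 0` and every bound `B0` there is `s > B0` such that
`g(z, M s)` has no integer root. -/
theorem exists_no_int_root (g : ℤ[X][X]) (hg : g.Monic)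
    (A B : ℤ[X]) (c : ℤ) (hc : c ≠ 0)
    (hAB : A * g.map (evalRingHom 0) + B * derivative (g.map (evalRingHom 0)) = C c)
    (hnr : ∀ q : ℚ[X], (g.map (mapRingHom (Int.castRingHom ℚ))).eval q ≠ 0)
    (M : ℤ) (hM : M ≠ 0) (B0 : ℕ) :
    ∃ s : ℤ, (B0 : ℤ) < s ∧ ∀ z : ℤ, (g.map (evalRingHom (M * s))).eval z ≠ 0 := by
  by_contra hcon
  simp only [not_exists, not_and, not_forall, not_not] at hcon
  choose! zf hzf using hcon
  set m := g.natDegree with hm
  obtain ⟨e, he⟩ : ∃ e, ∀ i, (g.coeff i).natDegree ≤ e := by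
    refine ⟨g.support.sup (fun i => (g.coeff i).natDegree), fun i => ?_⟩
    by_cases hi : i ∈ g.support
    · exact Finset.le_sup (f := fun i => (g.coeff i).natDegree) hi
    · simp [notMem_support_iff.mp hi]
  obtain ⟨S, hS0, hS⟩ := root_bound g hg e he
  obtain ⟨p, hpc, hp⟩ := Nat.exists_infinite_primes (c.natAbs + 1)
  have hpp : Prime (p : ℤ) := Nat.prime_iff_prime_int.mp hp
  have hpc' : ¬ (p : ℤ) ∣ c := by
    intro h
    have h1 := Int.natAbs_dvd_natAbs.mpr h
    rw [Int.natAbs_natCast] at h1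
    have h2 := Nat.le_of_dvd (Int.natAbs_pos.mpr hc) h1
    omega
  set n := e * (m + 1) with hn
  set L := m * n + 1 with hL
  -- the size constant and the exponent `k`
  set C2 : ℤ := (e + 2) * (S * (|M| * L) ^ e) * (((L.factorial : ℤ) * L) ^ e) + B0 + 1 with hC2
  have hC2nn : 0 ≤ C2 := by positivity
  obtain ⟨k, hk1, hk⟩ : ∃ k : ℕ, 1 ≤ k ∧ C2 < (p : ℤ) ^ k := by
    refine ⟨C2.toNat + 1, by omega, ?_⟩
    have h1 : C2.toNat + 1 < p ^ (C2.toNat + 1) := Nat.lt_pow_self hp.one_lt
    have h2 : (C2.toNat : ℤ) = C2 := Int.toNat_of_nonneg hC2nn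
    have h3 : ((C2.toNat + 1 : ℕ) : ℤ) < ((p ^ (C2.toNat + 1) : ℕ) : ℤ) := by exact_mod_cast h1
    push_cast at h3
    linarith
  set K : ℤ := (p : ℤ) ^ k with hK
  have hKpos : 0 < K := pow_pos (by exact_mod_cast hp.pos) k
  have hKB : (B0 : ℤ) < K := by
    have : (0 : ℤ) ≤ (e + 2) * (S * (|M| * L) ^ e) * (((L.factorial : ℤ) * L) ^ e) := by positivity
    linarith
  set zz : ℤ → ℤ := fun j => zf (K * j) with hzz
  have hroot : ∀ j : ℤ, 1 ≤ j → (g.map (evalRingHom (M * (K * j)))).eval (zz j) = 0 := by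
    intro j hj
    apply hzf
    nlinarith
  have hpK : (p : ℤ) ∣ K := dvd_pow_self _ (by omega)
  -- the branch of a node
  set g0p : (ZMod p)[X] := (g.map (evalRingHom 0)).map (Int.castRingHom (ZMod p)) with hg0p
  have : Fact p.Prime := ⟨hp⟩
  have hg0pm : g0p.Monic := (hg.map _).map _
  have hdvd0 : ∀ j : ℤ, 1 ≤ j → (p : ℤ) ∣ (g.map (evalRingHom 0)).eval (zz j) := by
    intro j hj
    have h1 := dvd_sub_of_dvd_sub g (p : ℤ) (M * (K * j)) 0 (zz j) (zz j)
      (by rw [sub_zero]; exact Dvd.dvd.mul_left (Dvd.dvd.mul_right hpK j) M) (by simp)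
    rw [hroot j hj, zero_sub] at h1
    exact (dvd_neg).mp h1
  have hbr : ∀ j ∈ Finset.Icc (1 : ℤ) L, ((zz j : ℤ) : ZMod p) ∈ g0p.roots.toFinset := by
    intro j hj
    rw [Multiset.mem_toFinset, Polynomial.mem_roots hg0pm.ne_zero, IsRoot, hg0p,
      Polynomial.eval_intCast_map, eq_intCast, ZMod.intCast_zmod_eq_zero_iff_dvd]
    simpa using hdvd0 j (Finset.mem_Icc.mp hj).1
  -- pigeonhole
  have hcard : g0p.roots.toFinset.card * n < (Finset.Icc (1 : ℤ) L).card := by
    have h1 : g0p.roots.toFinset.card ≤ m := by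
      refine (Multiset.toFinset_card_le _).trans ((Polynomial.card_roots' _).trans ?_)
      exact (Polynomial.natDegree_map_le).trans Polynomial.natDegree_map_le
    have h2 : (Finset.Icc (1 : ℤ) L).card = L := by simp
    rw [h2, hL]
    have := Nat.mul_le_mul_right n h1
    omega
  obtain ⟨rbar, hrbar, hfib⟩ :=
    Finset.exists_lt_card_fiber_of_mul_lt_card_of_maps_to hbr hcard
  set Nb : Finset ℤ := (Finset.Icc (1 : ℤ) L).filter (fun j => ((zz j : ℤ) : ZMod p) = rbar)
    with hNb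
  have hNbmem : ∀ j ∈ Nb, (1 ≤ j ∧ j ≤ (L : ℤ)) ∧ ((zz j : ℤ) : ZMod p) = rbar := by
    intro j hj
    rw [hNb, Finset.mem_filter, Finset.mem_Icc] at hj
    exact hj
  -- an integer lift of the branch root
  obtain ⟨r₀, hr₀⟩ : ∃ r₀ : ℤ, (r₀ : ZMod p) = rbar := ⟨(rbar.val : ℤ), by simp⟩
  have h0 : (p : ℤ) ∣ (g.map (evalRingHom 0)).eval r₀ := by
    rw [Multiset.mem_toFinset, Polynomial.mem_roots hg0pm.ne_zero, IsRoot, hg0p, ← hr₀,
      Polynomial.eval_intCast_map, eq_intCast, ZMod.intCast_zmod_eq_zero_iff_dvd] at hrbar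
    simpa using hrbar
  have h1 : ¬ (p : ℤ) ∣ (g.map (evalRingHom 0)).derivative.eval r₀ := by
    intro h
    apply hpc'
    have h2 := congrArg (eval r₀) hAB
    simp only [eval_add, eval_mul, eval_C] at h2
    rw [← h2]
    exact dvd_add (Dvd.dvd.mul_left h0 _) (Dvd.dvd.mul_left h _)
  obtain ⟨R, hRdeg, hR⟩ := exists_approx g M p hp r₀ h0 h1 e k hk1
  set N := (e + 1) * k with hN
  have hRj : ∀ j ∈ Nb, (p : ℤ) ^ N ∣ zz j - R.eval j := by
    intro j hj
    obtain ⟨⟨hj1, hj2⟩, hjb⟩ := hNbmem j hj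
    refine hR j (zz j) (hroot j hj1) ?_
    rw [← hr₀] at hjb
    exact (ZMod.intCast_eq_intCast_iff_dvd_sub _ _ _).mp hjb.symm
  -- size bound
  have hMabs : 0 < |M| := abs_pos.mpr hM
  have hzb : ∀ j : ℤ, 1 ≤ j → j ≤ (L : ℤ) → |zz j| ≤ S * (|M| * L) ^ e * K ^ e := by
    intro j hj1 hj2
    have ht : M * (K * j) ≠ 0 := mul_ne_zero hM (mul_ne_zero hKpos.ne' (by omega))
    have h2 := hS (M * (K * j)) (zz j) ht (hroot j hj1)
    have h3 : |M * (K * j)| ≤ |M| * L * K := by
      rw [abs_mul, abs_mul, abs_of_pos hKpos, abs_of_pos (by omega : (0 : ℤ) < j)]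
      have : |M| * (K * j) ≤ |M| * (K * L) :=
        mul_le_mul_of_nonneg_left (mul_le_mul_of_nonneg_left hj2 hKpos.le) hMabs.le
      linarith
    calc |zz j| ≤ S * |M * (K * j)| ^ e := h2
      _ ≤ S * (|M| * L * K) ^ e :=
        mul_le_mul_of_nonneg_left (pow_le_pow_left₀ (abs_nonneg _) h3 e) hS0
      _ = _ := by ring
  -- interpolation nodes
  have hNbcard : e + 1 ≤ Nb.card := by
    have : e ≤ n := by rw [hn]; exact Nat.le_mul_of_pos_right e (Nat.succ_pos m)
    omega
  obtain ⟨T, hTsub, hTcard⟩ := Finset.exists_subset_card_eq hNbcard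
  set v : ℤ → ℚ := fun i => (i : ℚ) with hv
  have hvinj : Set.InjOn v (T : Set ℤ) := fun _ _ _ _ h => Int.cast_injective h
  set Q : ℚ[X] := Lagrange.interpolate T v (fun j => (zz j : ℚ)) with hQdef
  have hQdeg : Q.natDegree ≤ e := by
    have h1 : Q.degree < T.card := Lagrange.degree_interpolate_lt _ hvinj
    rw [hTcard] at h1
    by_cases hQ0 : Q = 0
    · rw [hQ0]; simp
    · exact Nat.lt_succ_iff.mp ((Polynomial.natDegree_lt_iff_degree_lt hQ0).mpr h1)
  have hTmem : ∀ i ∈ T, 1 ≤ i ∧ i ≤ (L : ℤ) := fun i hi => (hNbmem i (hTsub hi)).1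
  have hRQ : R.map (Int.castRingHom ℚ) =
      Lagrange.interpolate T v (fun i => (R.map (Int.castRingHom ℚ)).eval (v i)) := by
    apply Lagrange.eq_interpolate hvinj
    calc (R.map (Int.castRingHom ℚ)).degree ≤ R.degree := Polynomial.degree_map_le
      _ ≤ (R.natDegree : WithBot ℕ) := Polynomial.degree_le_natDegree
      _ ≤ (e : WithBot ℕ) := by exact_mod_cast hRdeg
      _ < (T.card : WithBot ℕ) := by rw [hTcard]; exact_mod_cast Nat.lt_succ_self e
  have hL1 : (1 : ℤ) ≤ L := by rw [hL]; push_cast; nlinarith [Nat.zero_le (m * n)]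
  have hQ : ∀ j ∈ Nb, Q.eval (j : ℚ) = (zz j : ℚ) := by
    intro j hj
    by_cases hjT : j ∈ T
    · exact Lagrange.eval_interpolate_at_node _ hvinj hjT
    · obtain ⟨b, hb, hbr⟩ := interp_int T L hTmem j (hNbmem j hj).1
      rw [hTcard, Nat.add_sub_cancel] at hb hbr
      have e1 := hbr (fun i => (zz i : ℚ))
      have e2 := hbr (fun i => (R.map (Int.castRingHom ℚ)).eval (v i))
      rw [← hRQ] at e2
      have e2' : (L.factorial : ℤ) ^ e * R.eval j = ∑ i ∈ T, R.eval i * b i := by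
        have : (((L.factorial : ℤ) ^ e * R.eval j : ℤ) : ℚ) =
            ((∑ i ∈ T, R.eval i * b i : ℤ) : ℚ) := by
          push_cast
          simp only [hv, Polynomial.eval_intCast_map, eq_intCast] at e2
          exact e2
        exact_mod_cast this
      set W : ℤ := (L.factorial : ℤ) ^ e * zz j - ∑ i ∈ T, zz i * b i with hW
      have hW1 : (p : ℤ) ^ N ∣ W := by
        have : W = (L.factorial : ℤ) ^ e * (zz j - R.eval j) -
            ∑ i ∈ T, (zz i - R.eval i) * b i := by
          rw [hW]; simp only [sub_mul, mul_sub, Finset.sum_sub_distrib]; rw [e2']; ring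
        rw [this]
        exact dvd_sub (Dvd.dvd.mul_left (hRj j hj) _)
          (Finset.dvd_sum fun i hi => Dvd.dvd.mul_right (hRj i (hTsub hi)) _)
      have hW2 : |W| < (p : ℤ) ^ N := by
        set Zb := S * (|M| * L) ^ e * K ^ e with hZb
        set Fb := ((L.factorial : ℤ) * L) ^ e with hFb
        have hZb0 : 0 ≤ Zb := by positivity
        have hFb0 : 0 ≤ Fb := by positivity
        have hfac : (0 : ℤ) < (L.factorial : ℤ) := by exact_mod_cast L.factorial_pos
        have hF : |(L.factorial : ℤ) ^ e| ≤ Fb := by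
          rw [abs_of_nonneg (by positivity), hFb]
          apply pow_le_pow_left₀ hfac.le
          nlinarith
        have h1 : |(L.factorial : ℤ) ^ e * zz j| ≤ Fb * Zb := by
          rw [abs_mul]
          exact mul_le_mul hF (hzb j (hNbmem j hj).1.1 (hNbmem j hj).1.2) (abs_nonneg _) hFb0
        have h2 : |∑ i ∈ T, zz i * b i| ≤ (e + 1) * (Zb * Fb) := by
          refine (Finset.abs_sum_le_sum_abs _ _).trans ?_
          have h3 : ∑ i ∈ T, |zz i * b i| ≤ ∑ _i ∈ T, Zb * Fb :=
            Finset.sum_le_sum fun i hi => by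
              rw [abs_mul]
              exact mul_le_mul (hzb i (hTmem i hi).1 (hTmem i hi).2) (hb i hi) (abs_nonneg _) hZb0
          rw [Finset.sum_const, hTcard] at h3
          simpa using h3
        have h3 : |W| ≤ (e + 2) * (Zb * Fb) := by
          rw [hW]; refine (abs_sub _ _).trans ?_; linarith
        have h4 : (p : ℤ) ^ N = K ^ e * K := by
          rw [hN, hK, ← pow_mul, ← pow_add]; congr 1; ring
        have h5 : (e + 2) * (Zb * Fb) = ((e + 2) * (S * (|M| * L) ^ e) * Fb) * K ^ e := by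
          rw [hZb]; ring
        have h6 : (e + 2) * (S * (|M| * L) ^ e) * Fb < K := by
          have : (0 : ℤ) ≤ B0 := by positivity
          rw [hC2] at hk; linarith
        have h7 : 0 < K ^ e := pow_pos hKpos e
        rw [h4]
        calc |W| ≤ ((e + 2) * (S * (|M| * L) ^ e) * Fb) * K ^ e := by rw [← h5]; exact h3
          _ < K * K ^ e := mul_lt_mul_of_pos_right h6 h7
          _ = K ^ e * K := mul_comm _ _
      have hW0 : W = 0 := Int.eq_zero_of_abs_lt_dvd hW1 hW2
      have hF0 : ((L.factorial : ℚ)) ^ e ≠ 0 := by positivity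
      have h8 : ((L.factorial : ℚ)) ^ e * Q.eval (j : ℚ) = ((L.factorial : ℚ)) ^ e * (zz j : ℚ) := by
        rw [e1]
        have h9 : ((W : ℤ) : ℚ) = 0 := by rw [hW0]; simp
        rw [hW] at h9; push_cast at h9; linarith
      exact mul_left_cancel₀ hF0 h8
  -- the root in `ℚ[T]`
  have hMK : ((M : ℚ) * K) ≠ 0 := by
    have : ((M * K : ℤ) : ℚ) ≠ 0 := by exact_mod_cast mul_ne_zero hM hKpos.ne'
    simpa using this
  set q : ℚ[X] := Q.comp (C (1 / ((M : ℚ) * K)) * X) with hq
  apply hnr q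
  have hqdeg : q.natDegree ≤ e := by
    refine (Polynomial.natDegree_comp_le).trans ?_
    calc Q.natDegree * (C (1 / ((M : ℚ) * K)) * X).natDegree ≤ e * 1 :=
          Nat.mul_le_mul hQdeg ((Polynomial.natDegree_C_mul_le _ _).trans Polynomial.natDegree_X_le)
      _ = e := mul_one e
  set P : ℚ[X][X] := g.map (mapRingHom (Int.castRingHom ℚ)) with hP
  have hPdeg : (P.eval q).natDegree ≤ n := by
    rw [Polynomial.eval_eq_sum_range]
    apply Polynomial.natDegree_sum_le_of_forall_le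
    intro i hi
    have hi' : i ≤ m :=
      (Nat.lt_succ_iff.mp (Finset.mem_range.mp hi)).trans Polynomial.natDegree_map_le
    calc (P.coeff i * q ^ i).natDegree ≤ (P.coeff i).natDegree + (q ^ i).natDegree :=
          Polynomial.natDegree_mul_le
      _ ≤ e + i * e := add_le_add
          (by rw [hP, coeff_map]; exact (Polynomial.natDegree_map_le).trans (he i))
          (Polynomial.natDegree_pow_le.trans (Nat.mul_le_mul_left i hqdeg))
      _ ≤ e + m * e := by gcongr
      _ = n := by rw [hn]; ring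
  refine Polynomial.eq_zero_of_natDegree_lt_card_of_eval_eq_zero' (P.eval q)
    (Nb.image (fun j : ℤ => (M : ℚ) * K * j)) ?_ ?_
  · intro x hx
    obtain ⟨j, hj, rfl⟩ := Finset.mem_image.mp hx
    have hj1 := (hNbmem j hj).1.1
    rw [eval_eval_eq]
    have hqj : q.eval ((M : ℚ) * K * j) = (zz j : ℚ) := by
      rw [hq, eval_comp]
      simp only [eval_mul, eval_C, eval_X]
      rw [← hQ j hj]
      congr 1
      field_simp
    have hhom : (evalRingHom ((M : ℚ) * K * j)).comp (mapRingHom (Int.castRingHom ℚ)) =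
        (Int.castRingHom ℚ).comp (evalRingHom (M * (K * j))) := by
      apply Polynomial.ringHom_ext
      · intro a; simp
      · simp; ring
    rw [hqj, hP, Polynomial.map_map, hhom, ← Polynomial.map_map, Polynomial.eval_intCast_map]
    simp [hroot j hj1]
  · rw [Finset.card_image_of_injective]
    · omega
    · intro a b hab
      have : (a : ℚ) = b := mul_left_cancel₀ hMK hab
      exact_mod_cast this

end Fermat.Agent.S52.HIT
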