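import Mathlib

/-!
# S52, block [Irr3-Gen]: the generic no-root lemma for the 3-division polynomial

Abstract, family-independent statement (step (1) of the Hilbert-irreducibility route for
"some member of the 5-congruent family has irreducible mod-3 representation").

Let `A B G : F[X]` (`F` a field of characteristic zero) with
`4 A ^ 3 + 27 B ^ 2 = δ * G ^ 5`, `δ ≠ 0`, `G` squarefree, coprime to `A` and non-constant.
Then the 3-division polynomial `3 x ^ 4 + 6 A x ^ 2 + 12 B x - A ^ 2` of `y ^ 2 = x ^ 3 + A x + B`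
has no root `x = Q ∈ F[X]`.

Main results:
* `no_root_short` : short Weierstrass form;
* `no_root_general` : general form `3 x ^ 4 + b₂ x ^ 3 + 3 b₄ x ^ 2 + 3 b₆ x + b₈`;
* `no_root_eval` , `no_root_scaled` : the same in the shapes used by the two HIT cores.
-/

namespace Fermat.Agent.S52.Irr3Gen

open Polynomial

/-- The homogeneous quartic identity `576 ρ + 27 (1 - 6 ρ - 3 ρ²)² = 9 (3 ρ + 1)³ (ρ + 3)`. -/
theorem quartic_identity {R : Type*} [CommRing R] (N E : R) :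
    576 * N * E ^ 3 + 27 * (E ^ 2 - 6 * E * N - 3 * N ^ 2) ^ 2 =
      9 * (3 * N + E) ^ 3 * (N + 3 * E) := by
  ring

/-- A root of the 3-division polynomial gives the key relation between `Q ^ 2`, `A` and the
discriminant-type quantity `4 A ^ 3 + 27 B ^ 2`. -/
theorem key_identity {R : Type*} [CommRing R] (A B Q D : R)
    (hQ : 3 * Q ^ 4 + 6 * A * Q ^ 2 + 12 * B * Q - A ^ 2 = 0)
    (hD : 4 * A ^ 3 + 27 * B ^ 2 = D) :
    144 * Q ^ 2 * D =
      576 * Q ^ 2 * A ^ 3 + 27 * (A ^ 2 - 6 * A * Q ^ 2 - 3 * (Q ^ 2) ^ 2) ^ 2 := by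
  rw [← hD]
  linear_combination (27 * (12 * B * Q + (A ^ 2 - 6 * A * Q ^ 2 - 3 * Q ^ 4))) * hQ

variable {F : Type*} [Field F]

theorem isUnit_C_of_ne_zero {a : F} (ha : a ≠ 0) : IsUnit (C a : F[X]) :=
  isUnit_C.mpr (IsUnit.mk0 a ha)

/-- Decomposition by the gcd: `p = g * N`, `q = g * E` with `N`, `E` coprime. -/
theorem exists_gcd_decomp (p q : F[X]) (hq : q ≠ 0) :
    ∃ g N E : F[X], g ≠ 0 ∧ p = g * N ∧ q = g * E ∧ IsCoprime N E := by
  classical
  have hg0 : EuclideanDomain.gcd p q ≠ 0 := fun h =>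
    hq ((EuclideanDomain.gcd_eq_zero_iff.mp h).2)
  obtain ⟨N, hN⟩ : EuclideanDomain.gcd p q ∣ p := EuclideanDomain.gcd_dvd_left _ _
  obtain ⟨E, hE⟩ : EuclideanDomain.gcd p q ∣ q := EuclideanDomain.gcd_dvd_right _ _
  have hb := EuclideanDomain.gcd_eq_gcd_ab p q
  refine ⟨EuclideanDomain.gcd p q, N, E, hg0, hN, hE,
    EuclideanDomain.gcdA p q, EuclideanDomain.gcdB p q, ?_⟩
  apply mul_left_cancel₀ hg0
  linear_combination (-(EuclideanDomain.gcdA p q)) * hN - (EuclideanDomain.gcdB p q) * hE - hb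

theorem isCoprime_of_add_eq_C {N S : F[X]} {a u : F} (hu : u ≠ 0)
    (h : S + C a * N = C u) : IsCoprime N S := by
  refine ⟨C (u⁻¹ * a), C u⁻¹, ?_⟩
  have h1 : C (u⁻¹ * a) * N + C u⁻¹ * S = C u⁻¹ * (S + C a * N) := by
    rw [C_mul]; ring
  rw [h1, h, ← C_mul, inv_mul_cancel₀ hu, C_1]

section CharZero

variable [CharZero F]

theorem isUnit_ofNat (n : ℕ) [n.AtLeastTwo] : IsUnit (OfNat.ofNat n : F[X]) := by
  rw [← map_ofNat (C : F →+* F[X]) n]
  exact isUnit_C_of_ne_zero (OfNat.ofNat_ne_zero n)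

/-- The final "Mason–Stothers type" step: `c - 8 N = s G ^ 5` and `16 δ N = e g ^ 3` with
`g`, `G` coprime force `G` to be constant. -/
theorem natDegree_eq_zero_of_rel (G g N : F[X]) (c s d e : F) (hs : s ≠ 0) (hd : d ≠ 0)
    (he : e ≠ 0) (hGg : IsCoprime G g)
    (h1 : C c - C 8 * N = G ^ 5 * C s) (h2 : C d * N = C e * g ^ 3) :
    G.natDegree = 0 := by
  by_contra hG
  have hG' : derivative G ≠ 0 := fun h => hG (derivative_eq_zero.mp h)
  have hG0 : G ≠ 0 := fun h => hG (by rw [h, natDegree_zero])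
  -- differentiate both relations
  have hd1 : -(C 8 * derivative N) = C (5 * s) * (G ^ 4 * derivative G) := by
    have := congrArg derivative h1
    simp only [derivative_sub, derivative_C, derivative_mul, derivative_pow, zero_mul,
      zero_add, zero_sub, mul_zero, add_zero, Nat.cast_ofNat] at this
    rw [this, C_mul]
    have h5 : (C (5 : F) : F[X]) = 5 := map_ofNat C 5
    rw [h5]
    norm_num
    ring
  have hd2 : C d * derivative N = C (3 * e) * (g ^ 2 * derivative g) := by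
    have := congrArg derivative h2
    simp only [derivative_C, derivative_mul, derivative_pow, zero_mul,
      zero_add, Nat.cast_ofNat] at this
    rw [this, C_mul]
    have h3 : (C (3 : F) : F[X]) = 3 := map_ofNat C 3
    rw [h3]
    norm_num
    ring
  -- combine
  have hcomb : C (d * (5 * s)) * (G ^ 4 * derivative G) =
      -(C (8 * (3 * e)) * (g ^ 2 * derivative g)) := by
    rw [C_mul, C_mul (a := 8)]
    linear_combination (-(C d)) * hd1 - C 8 * hd2
  have hu1 : d * (5 * s) ≠ 0 := mul_ne_zero hd (mul_ne_zero (by norm_num) hs)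
  have hu2 : (8 : F) * (3 * e) ≠ 0 := mul_ne_zero (by norm_num) (mul_ne_zero (by norm_num) he)
  have hg' : derivative g ≠ 0 := by
    intro h
    rw [h, mul_zero, mul_zero, neg_zero] at hcomb
    have := mul_eq_zero.mp hcomb
    rcases this with h | h
    · exact hu1 (C_eq_zero.mp h)
    · rcases mul_eq_zero.mp h with h | h
      · exact hG0 (pow_eq_zero_iff (by norm_num) |>.mp h)
      · exact hG' h
  have hgdeg : g.natDegree ≠ 0 := fun h => hg' (derivative_eq_zero.mpr h)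
  -- divisibilities
  have hdvd1 : G ^ 4 ∣ derivative g := by
    have hcop : IsCoprime (G ^ 4) (C (8 * (3 * e)) * g ^ 2) :=
      (isCoprime_mul_unit_left_right (isUnit_C_of_ne_zero hu2) _ _).mpr hGg.pow
    have hdv : G ^ 4 ∣ (C (8 * (3 * e)) * g ^ 2) * derivative g :=
      ⟨-(C (d * (5 * s)) * derivative G), by linear_combination hcomb⟩
    exact hcop.dvd_of_dvd_mul_left hdv
  have hdvd2 : g ^ 2 ∣ derivative G := by
    have hcop : IsCoprime (g ^ 2) (C (d * (5 * s)) * G ^ 4) :=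
      (isCoprime_mul_unit_left_right (isUnit_C_of_ne_zero hu1) _ _).mpr hGg.symm.pow
    have hdv : g ^ 2 ∣ (C (d * (5 * s)) * G ^ 4) * derivative G :=
      ⟨-(C (8 * (3 * e)) * derivative g), by linear_combination hcomb⟩
    exact hcop.dvd_of_dvd_mul_left hdv
  have hle1 := natDegree_le_of_dvd hdvd1 hg'
  have hle2 := natDegree_le_of_dvd hdvd2 hG'
  rw [natDegree_pow] at hle1 hle2
  have hlt1 := natDegree_derivative_lt hgdeg
  have hlt2 := natDegree_derivative_lt hG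
  omega

/-- **Generic no-root lemma, short Weierstrass form.** -/
theorem no_root_short (A B G : F[X]) (δ : F) (hδ : δ ≠ 0)
    (hD : 4 * A ^ 3 + 27 * B ^ 2 = C δ * G ^ 5) (hG : Squarefree G) (hGA : IsCoprime G A)
    (hdeg : 0 < G.natDegree) (Q : F[X]) :
    3 * Q ^ 4 + 6 * A * Q ^ 2 + 12 * B * Q - A ^ 2 ≠ 0 := by
  intro hQ
  have hG0 : G ≠ 0 := hG.ne_zero
  have hGnu : ¬ IsUnit G := fun h => by
    have := natDegree_eq_zero_of_isUnit h
    omega
  have hA0 : A ≠ 0 := by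
    rintro rfl
    exact hGnu (isCoprime_zero_right.mp hGA)
  have hQ0 : Q ≠ 0 := by
    rintro rfl
    apply hA0
    have h : A ^ 2 = 0 := by linear_combination -hQ
    exact (pow_eq_zero_iff two_ne_zero).mp h
  have h1 := key_identity A B Q (C δ * G ^ 5) hQ hD
  obtain ⟨g, N, E, hg0, hN, hE, hNE⟩ := exists_gcd_decomp (Q ^ 2) A hA0
  have hGg : IsCoprime G g := by
    rw [hE] at hGA
    exact hGA.of_mul_right_left
  have hN0 : N ≠ 0 := by
    rintro rfl
    rw [mul_zero] at hN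
    exact hQ0 ((pow_eq_zero_iff two_ne_zero).mp hN)
  have hD0 : C δ * G ^ 5 ≠ 0 := mul_ne_zero (C_ne_zero.mpr hδ) (pow_ne_zero _ hG0)
  -- the key relation `16 N D = g³ (3N+E)³ (N+3E)`
  have h3 : 16 * N * (C δ * G ^ 5) = g ^ 3 * (3 * N + E) ^ 3 * (N + 3 * E) := by
    have h9 : (9 : F[X]) * g ≠ 0 := mul_ne_zero (isUnit_ofNat 9).ne_zero hg0
    apply mul_left_cancel₀ h9
    rw [hN, hE] at h1
    linear_combination h1 + g ^ 4 * quartic_identity N E
  have h16 : IsUnit (16 : F[X]) := isUnit_ofNat 16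
  have h8u : IsUnit (8 : F[X]) := isUnit_ofNat 8
  have h3u : IsUnit (3 : F[X]) := isUnit_ofNat 3
  have hT0 : 3 * N + E ≠ 0 := by
    intro h
    rw [h] at h3
    have h0 : 16 * N * (C δ * G ^ 5) = 0 := by rw [h3]; ring
    rcases mul_eq_zero.mp h0 with h | h
    · rcases mul_eq_zero.mp h with h | h
      · exact h16.ne_zero h
      · exact hN0 h
    · exact hD0 h
  -- `3N+E` is a unit
  have hTu : IsUnit (3 * N + E) := by
    by_contra hnu
    obtain ⟨π, hπ, hπT⟩ := WfDvdMonoid.exists_irreducible_factor hnu hT0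
    have hπp : Prime π := hπ.prime
    have hπN : ¬ π ∣ N := fun h => by
      have hπE : π ∣ E := by
        have hEq : E = (3 * N + E) - 3 * N := by ring
        rw [hEq]
        exact dvd_sub hπT (Dvd.dvd.mul_left h 3)
      exact hπ.not_isUnit (hNE.isUnit_of_dvd' h hπE)
    have hπG : π ∣ G := by
      have hdv : π ∣ 16 * N * (C δ * G ^ 5) := by
        rw [h3]
        exact Dvd.dvd.mul_right (Dvd.dvd.mul_left (dvd_pow hπT (by norm_num)) _) _
      rcases hπp.dvd_or_dvd hdv with h | h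
      · rcases hπp.dvd_or_dvd h with h | h
        · exact absurd (isUnit_of_dvd_unit h h16) hπ.not_isUnit
        · exact absurd h hπN
      · rcases hπp.dvd_or_dvd h with h | h
        · exact absurd (isUnit_of_dvd_unit h (isUnit_C_of_ne_zero hδ)) hπ.not_isUnit
        · exact hπp.dvd_of_dvd_pow h
    have hπg : ¬ π ∣ g := fun h => hπ.not_isUnit (hGg.isUnit_of_dvd' hπG h)
    have hπS : ¬ π ∣ N + 3 * E := fun h => by
      have hπE : π ∣ 8 * E := by
        have hEq : 8 * E = 3 * (N + 3 * E) - (3 * N + E) := by ring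
        rw [hEq]
        exact dvd_sub (Dvd.dvd.mul_left h 3) hπT
      rcases hπp.dvd_or_dvd hπE with h8 | hE'
      · exact hπ.not_isUnit (isUnit_of_dvd_unit h8 h8u)
      · apply hπN
        have h3N : π ∣ 3 * N := by
          have hEq : 3 * N = (3 * N + E) - E := by ring
          rw [hEq]
          exact dvd_sub hπT hE'
        rcases hπp.dvd_or_dvd h3N with h3' | h
        · exact absurd (isUnit_of_dvd_unit h3' h3u) hπ.not_isUnit
        · exact h
    -- multiplicities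
    have e16 : emultiplicity π (16 : F[X]) = 0 :=
      emultiplicity_eq_zero.mpr fun h => hπ.not_isUnit (isUnit_of_dvd_unit h h16)
    have eN : emultiplicity π N = 0 := emultiplicity_eq_zero.mpr hπN
    have eδ : emultiplicity π (C δ) = 0 :=
      emultiplicity_eq_zero.mpr fun h =>
        hπ.not_isUnit (isUnit_of_dvd_unit h (isUnit_C_of_ne_zero hδ))
    have eG : emultiplicity π G = 1 := by
      have hle : emultiplicity π G ≤ 1 :=
        ((squarefree_iff_emultiplicity_le_one G).mp hG π).resolve_right hπ.not_isUnit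
      have hge : 1 ≤ emultiplicity π G := by
        apply le_emultiplicity_of_pow_dvd
        simpa using hπG
      exact le_antisymm hle hge
    have eg : emultiplicity π g = 0 := emultiplicity_eq_zero.mpr hπg
    have eS : emultiplicity π (N + 3 * E) = 0 := emultiplicity_eq_zero.mpr hπS
    have hfin : FiniteMultiplicity π (3 * N + E) := FiniteMultiplicity.of_prime_left hπp hT0
    have eT := hfin.emultiplicity_eq_multiplicity
    have hL : emultiplicity π (16 * N * (C δ * G ^ 5)) = 5 := by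
      rw [emultiplicity_mul hπp, emultiplicity_mul hπp, emultiplicity_mul hπp,
        emultiplicity_pow hπp, e16, eN, eδ, eG]
      norm_num
    have hR : emultiplicity π (g ^ 3 * (3 * N + E) ^ 3 * (N + 3 * E)) =
        ((3 * multiplicity π (3 * N + E) : ℕ) : ℕ∞) := by
      rw [emultiplicity_mul hπp, emultiplicity_mul hπp, emultiplicity_pow hπp,
        emultiplicity_pow hπp, eg, eS, eT]
      push_cast
      simp
    rw [h3, hR] at hL
    have hL' : 3 * multiplicity π (3 * N + E) = 5 := by exact_mod_cast hL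
    omega
  -- now `3N + E = c` is constant
  obtain ⟨c, hc, hcT⟩ := Polynomial.isUnit_iff.mp hTu
  have hc0 : c ≠ 0 := hc.ne_zero
  have hE' : E = C c - 3 * N := by linear_combination -hcT
  have hS : N + 3 * E = C (3 * c) - C 8 * N := by
    rw [hE', C_mul]
    have e3 : (C (3 : F) : F[X]) = 3 := map_ofNat C 3
    have e8 : (C (8 : F) : F[X]) = 8 := map_ofNat C 8
    rw [e3, e8]
    ring
  have hNS : IsCoprime N (N + 3 * E) := by
    apply isCoprime_of_add_eq_C (a := 8) (u := 3 * c) (mul_ne_zero (by norm_num) hc0)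
    rw [hS]; ring
  have h3' : 16 * N * (C δ * G ^ 5) = g ^ 3 * (C c) ^ 3 * (N + 3 * E) := by
    rw [h3, hcT]
  have hcu : IsUnit ((C c : F[X]) ^ 3) := (isUnit_C_of_ne_zero hc0).pow 3
  -- `G⁵ ∣ N + 3E`
  have hG5 : G ^ 5 ∣ N + 3 * E := by
    have hcop : IsCoprime (G ^ 5) (g ^ 3 * (C c) ^ 3) :=
      (isCoprime_mul_unit_right_right hcu _ _).mpr hGg.pow
    have hdv : G ^ 5 ∣ (g ^ 3 * (C c) ^ 3) * (N + 3 * E) :=
      ⟨16 * N * C δ, by rw [← h3']; ring⟩
    exact hcop.dvd_of_dvd_mul_left hdv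
  obtain ⟨S', hS'⟩ := hG5
  have h4 : 16 * N * C δ = g ^ 3 * (C c) ^ 3 * S' := by
    apply mul_right_cancel₀ (pow_ne_zero 5 hG0)
    rw [hS'] at h3'
    linear_combination h3'
  have hNS' : IsCoprime N S' := by
    rw [hS'] at hNS
    exact hNS.of_mul_right_right
  have hS'u : IsUnit S' := by
    have hdv : S' ∣ (16 * C δ) * N := ⟨g ^ 3 * (C c) ^ 3, by linear_combination h4⟩
    have := hNS'.symm.dvd_of_dvd_mul_right hdv
    exact isUnit_of_dvd_unit this (h16.mul (isUnit_C_of_ne_zero hδ))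
  obtain ⟨s, hs, hsS⟩ := Polynomial.isUnit_iff.mp hS'u
  have hs0 : s ≠ 0 := hs.ne_zero
  have hrel1 : C (3 * c) - C 8 * N = G ^ 5 * C s := by
    rw [← hS, hS', hsS]
  have hrel2 : C (16 * δ) * N = C (c ^ 3 * s) * g ^ 3 := by
    rw [C_mul, C_mul, C_pow, hsS]
    have e16 : (C (16 : F) : F[X]) = 16 := map_ofNat C 16
    rw [e16]
    linear_combination h4
  have := natDegree_eq_zero_of_rel G g N (3 * c) s (16 * δ) (c ^ 3 * s) hs0
    (mul_ne_zero (by norm_num) hδ) (mul_ne_zero (pow_ne_zero 3 hc0) hs0) hGg hrel1 hrel2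
  omega

/-- **Generic no-root lemma, general Weierstrass form.** `b₂ b₄ b₆ b₈` are the `b`-invariants of
the member (as polynomials in the parameter), `C δ * G ^ 5` its discriminant. -/
theorem no_root_general (b₂ b₄ b₆ b₈ G : F[X]) (δ : F) (hδ : δ ≠ 0)
    (hb8 : 4 * b₈ = b₂ * b₆ - b₄ ^ 2)
    (hΔ : -b₂ ^ 2 * b₈ - 8 * b₄ ^ 3 - 27 * b₆ ^ 2 + 9 * b₂ * b₄ * b₆ = C δ * G ^ 5)
    (hG : Squarefree G) (hGc : IsCoprime G (b₂ ^ 2 - 24 * b₄)) (hdeg : 0 < G.natDegree)
    (Q : F[X]) :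
    3 * Q ^ 4 + b₂ * Q ^ 3 + 3 * b₄ * Q ^ 2 + 3 * b₆ * Q + b₈ ≠ 0 := by
  intro hQ
  have eK : (C (136048896 : F) : F[X]) = 136048896 := map_ofNat C 136048896
  have hD : 4 * (-27 * (b₂ ^ 2 - 24 * b₄)) ^ 3 +
      27 * (-54 * (-b₂ ^ 3 + 36 * b₂ * b₄ - 216 * b₆)) ^ 2 =
      C (-136048896 * δ) * G ^ 5 := by
    rw [C_mul, C_neg, eK]
    linear_combination (-136048896 : F[X]) * hΔ - 34012224 * b₂ ^ 2 * hb8
  have hcop : IsCoprime G (-27 * (b₂ ^ 2 - 24 * b₄)) := by
    have hu : IsUnit (-27 : F[X]) := (isUnit_ofNat 27).neg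
    exact (isCoprime_mul_unit_left_right hu _ _).mpr hGc
  refine no_root_short (-27 * (b₂ ^ 2 - 24 * b₄)) (-54 * (-b₂ ^ 3 + 36 * b₂ * b₄ - 216 * b₆)) G
    (-136048896 * δ) (mul_ne_zero (by norm_num) hδ) hD hG hcop hdeg (36 * Q + 3 * b₂) ?_
  linear_combination (1679616 : F[X]) * hQ - 419904 * hb8

/-- The scaled monic form `27 * psi₃(z / 3) = z ^ 4 + b₂ z ^ 3 + 9 b₄ z ^ 2 + 27 b₆ z + 27 b₈`
has no root in `F[X]` either. -/
theorem no_root_scaled (b₂ b₄ b₆ b₈ G : F[X]) (δ : F) (hδ : δ ≠ 0)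
    (hb8 : 4 * b₈ = b₂ * b₆ - b₄ ^ 2)
    (hΔ : -b₂ ^ 2 * b₈ - 8 * b₄ ^ 3 - 27 * b₆ ^ 2 + 9 * b₂ * b₄ * b₆ = C δ * G ^ 5)
    (hG : Squarefree G) (hGc : IsCoprime G (b₂ ^ 2 - 24 * b₄)) (hdeg : 0 < G.natDegree)
    (q : F[X]) :
    q ^ 4 + b₂ * q ^ 3 + 9 * b₄ * q ^ 2 + 27 * b₆ * q + 27 * b₈ ≠ 0 := by
  intro hq
  have h3 : (C (3⁻¹ : F) : F[X]) * 3 = 1 := by
    rw [← map_ofNat (C : F →+* F[X]) 3, ← C_mul, inv_mul_cancel₀ (by norm_num), C_1]
  refine no_root_general b₂ b₄ b₆ b₈ G δ hδ hb8 hΔ hG hGc hdeg (C (3⁻¹ : F) * q) ?_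
  have e : (3 : F[X]) * (C (3⁻¹ : F) * q) = q := by
    linear_combination q * h3
  set Q := C (3⁻¹ : F) * q with hQ
  have h27 : (27 : F[X]) * (3 * Q ^ 4 + b₂ * Q ^ 3 + 3 * b₄ * Q ^ 2 + 3 * b₆ * Q + b₈) = 0 := by
    have : (27 : F[X]) * (3 * Q ^ 4 + b₂ * Q ^ 3 + 3 * b₄ * Q ^ 2 + 3 * b₆ * Q + b₈) =
        (3 * Q) ^ 4 + b₂ * (3 * Q) ^ 3 + 9 * b₄ * (3 * Q) ^ 2 + 27 * b₆ * (3 * Q) + 27 * b₈ := by
      ring
    rw [this, e, hq]
  rcases mul_eq_zero.mp h27 with h | h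
  · exact absurd h (isUnit_ofNat 27).ne_zero
  · exact h

/-- The 3-division polynomial of the member as a polynomial in `x` over `F[X]`
(inner variable = the parameter of the family). -/
noncomputable def psi3Poly (b₂ b₄ b₆ b₈ : F[X]) : (F[X])[X] :=
  C b₈ + C (3 * b₆) * X + C (3 * b₄) * X ^ 2 + C b₂ * X ^ 3 + C 3 * X ^ 4

omit [CharZero F] in
theorem psi3Poly_eval (b₂ b₄ b₆ b₈ Q : F[X]) :
    (psi3Poly b₂ b₄ b₆ b₈).eval Q =
      3 * Q ^ 4 + b₂ * Q ^ 3 + 3 * b₄ * Q ^ 2 + 3 * b₆ * Q + b₈ := by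
  simp only [psi3Poly, eval_add, eval_mul, eval_C, eval_X, eval_pow]
  ring

/-- **Generic no-root lemma, in `eval` shape**: the 3-division polynomial of the member has no
root in `F[X]`. -/
theorem no_root_eval (b₂ b₄ b₆ b₈ G : F[X]) (δ : F) (hδ : δ ≠ 0)
    (hb8 : 4 * b₈ = b₂ * b₆ - b₄ ^ 2)
    (hΔ : -b₂ ^ 2 * b₈ - 8 * b₄ ^ 3 - 27 * b₆ ^ 2 + 9 * b₂ * b₄ * b₆ = C δ * G ^ 5)
    (hG : Squarefree G) (hGc : IsCoprime G (b₂ ^ 2 - 24 * b₄)) (hdeg : 0 < G.natDegree) :
    ¬ ∃ Q : F[X], (psi3Poly b₂ b₄ b₆ b₈).eval Q = 0 := by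
  rintro ⟨Q, hQ⟩
  rw [psi3Poly_eval] at hQ
  exact no_root_general b₂ b₄ b₆ b₈ G δ hδ hb8 hΔ hG hGc hdeg Q hQ

omit [CharZero F] in
theorem psi3Poly_coeff_four (b₂ b₄ b₆ b₈ : F[X]) : (psi3Poly b₂ b₄ b₆ b₈).coeff 4 = C 3 := by
  rw [map_ofNat (C : F →+* F[X]) 3]
  simp only [psi3Poly, coeff_add, coeff_C_mul_X_pow, coeff_C_mul_X, coeff_C]
  norm_num

theorem psi3Poly_natDegree (b₂ b₄ b₆ b₈ : F[X]) : (psi3Poly b₂ b₄ b₆ b₈).natDegree = 4 := by
  have h3 : (C (3 : F) : F[X]) ≠ 0 := C_ne_zero.mpr (by norm_num)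
  unfold psi3Poly
  compute_degree!

end CharZero

end Fermat.Agent.S52.Irr3Gen
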