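/-
Team S52 (T3), block [Irr3-HIT], adapter (owner: helper23).

Family-independent consequence of `HIT.exists_no_int_root` and `Irr3Gen.no_root_short`:
if `A B G : ℤ[T]` satisfy `4 A³ + 27 B² = δ G⁵` with `G` squarefree, non-constant and coprime to `A`
(over `ℚ`), and the member at `T = 0` is nonsingular, then for every `M ≠ 0` there are
arbitrarily large `s` such that the 3-division polynomial `3x⁴ + 6A(Ms)x² + 12B(Ms)x - A(Ms)²` of
`y² = x³ + A(Ms) x + B(Ms)` has no rational root.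
-/
import Fermat.Agent.S52.HIT
import Fermat.Agent.S52.Irr3Gen

set_option autoImplicit false

namespace Fermat.Agent.S52.HITShort

open Polynomial

/-- The monic quartic `z⁴ + 18 A z² + 108 B z - 27 A²` (`= 27 ψ₃(z/3)`), as a polynomial in `z`
over `ℤ[T]`. -/
noncomputable def gPoly (A B : ℤ[X]) : ℤ[X][X] :=
  X ^ 4 + (C (18 * A) * X ^ 2 + C (108 * B) * X - C (27 * A ^ 2))

theorem gPoly_monic (A B : ℤ[X]) : (gPoly A B).Monic := by
  apply Polynomial.monic_X_pow_add
  refine lt_of_le_of_lt (Polynomial.degree_sub_le _ _) ?_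
  refine max_lt (lt_of_le_of_lt (Polynomial.degree_add_le _ _) (max_lt ?_ ?_)) ?_
  · exact lt_of_le_of_lt (Polynomial.degree_C_mul_X_pow_le 2 _) (by norm_num)
  · exact lt_of_le_of_lt (Polynomial.degree_C_mul_X_le _) (by norm_num)
  · exact lt_of_le_of_lt Polynomial.degree_C_le (by norm_num)

theorem gPoly_map_eval {R : Type*} [CommRing R] (φ : ℤ[X] →+* R) (A B : ℤ[X]) (z : R) :
    ((gPoly A B).map φ).eval z =
      z ^ 4 + 18 * φ A * z ^ 2 + 108 * φ B * z - 27 * φ A ^ 2 := by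
  simp only [gPoly, Polynomial.map_add, Polynomial.map_sub, Polynomial.map_mul,
    Polynomial.map_pow, Polynomial.map_X, Polynomial.map_C, eval_add, eval_sub, eval_mul,
    eval_pow, eval_X, eval_C, map_mul, map_pow, map_ofNat, Polynomial.map_ofNat, eval_ofNat]
  ring

theorem gPoly_map (φ : ℤ[X] →+* ℤ) (A B : ℤ[X]) :
    (gPoly A B).map φ =
      X ^ 4 + (C (18 * φ A) * X ^ 2 + C (108 * φ B) * X - C (27 * φ A ^ 2)) := by
  simp only [gPoly, Polynomial.map_add, Polynomial.map_sub, Polynomial.map_mul,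
    Polynomial.map_pow, Polynomial.map_X, Polynomial.map_C, map_mul, map_pow, map_ofNat,
    Polynomial.map_ofNat]

/-- Bezout certificate: `g₀ = z⁴ + 18 a z² + 108 b z - 27 a²` is squarefree when
`4a³ + 27b² ≠ 0`. -/
theorem bezout (a b : ℤ) :
    ∃ U V : ℤ[X],
      U * (X ^ 4 + (C (18 * a) * X ^ 2 + C (108 * b) * X - C (27 * a ^ 2))) +
        V * derivative (X ^ 4 + (C (18 * a) * X ^ 2 + C (108 * b) * X - C (27 * a ^ 2))) =
      C (12 * 729 ^ 2 * (4 * a ^ 3 + 27 * b ^ 2) ^ 2) := by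
  -- with `a' = 9a`, `b' = 27b`, `F = z³ + a' z + b'`: `3 g₀ = 12 z F - F'^2`, `(3 g₀)' = 12 F`
  set F : ℤ[X] := X ^ 3 + C (9 * a) * X + C (27 * b) with hF
  set F' : ℤ[X] := 3 * X ^ 2 + C (9 * a) with hF'
  set V : ℤ[X] := C (6 * (9 * a)) * X ^ 2 - C (9 * (27 * b)) * X + C (4 * (9 * a) ^ 2) with hV
  set U : ℤ[X] := -(C (18 * (9 * a)) * X - C (27 * (27 * b))) with hU
  refine ⟨-36 * V ^ 2, 3 * (12 * X * V ^ 2 + 2 * U * V * F' + U ^ 2 * F), ?_⟩
  have hd : derivative (X ^ 4 + (C (18 * a) * X ^ 2 + C (108 * b) * X - C (27 * a ^ 2)) : ℤ[X]) =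
      4 * X ^ 3 + C (36 * a) * X + C (108 * b) := by
    simp only [derivative_add, derivative_sub, derivative_X_pow, derivative_C_mul, derivative_C,
      derivative_X]
    norm_num [map_mul]
    ring
  rw [hd, hF, hF', hV, hU]
  simp only [map_mul, map_pow, map_add, map_ofNat]
  ring

/-- Main adapter: arbitrarily large `s` such that the member at `T = M s` is nonsingular and its
short 3-division polynomial has no rational root.  The factorisation data
`4 A³ + 27 B² = δ G⁵` may live over any field `F` of characteristic zero. -/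
theorem exists_no_rat_root {F : Type*} [Field F] [CharZero F] (A B : ℤ[X]) (G : F[X]) (δ : F)
    (hδ : δ ≠ 0)
    (hD : 4 * (A.map (Int.castRingHom F)) ^ 3 + 27 * (B.map (Int.castRingHom F)) ^ 2 =
      C δ * G ^ 5)
    (hG : Squarefree G) (hGA : IsCoprime G (A.map (Int.castRingHom F)))
    (hdeg : 0 < G.natDegree)
    (h0 : 4 * A.eval 0 ^ 3 + 27 * B.eval 0 ^ 2 ≠ 0)
    (M : ℤ) (hM : M ≠ 0) (B0 : ℕ) :
    ∃ s : ℤ, (B0 : ℤ) < s ∧ 4 * A.eval (M * s) ^ 3 + 27 * B.eval (M * s) ^ 2 ≠ 0 ∧ ∀ x : ℚ,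
      3 * x ^ 4 + 6 * ((A.eval (M * s) : ℤ) : ℚ) * x ^ 2 + 12 * ((B.eval (M * s) : ℤ) : ℚ) * x -
        ((A.eval (M * s) : ℤ) : ℚ) ^ 2 ≠ 0 := by
  obtain ⟨U, V, hUV⟩ := bezout (A.eval 0) (B.eval 0)
  have hc : (12 * 729 ^ 2 * (4 * A.eval 0 ^ 3 + 27 * B.eval 0 ^ 2) ^ 2 : ℤ) ≠ 0 := by
    have := pow_ne_zero 2 h0
    positivity
  have hmap0 : (gPoly A B).map (evalRingHom 0) =
      X ^ 4 + (C (18 * A.eval 0) * X ^ 2 + C (108 * B.eval 0) * X - C (27 * A.eval 0 ^ 2)) := by
    rw [gPoly_map]; simp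
  have hnr : ∀ q : ℚ[X], ((gPoly A B).map (mapRingHom (Int.castRingHom ℚ))).eval q ≠ 0 := by
    intro q hq
    rw [gPoly_map_eval] at hq
    simp only [coe_mapRingHom] at hq
    have hq' := congrArg (Polynomial.map (algebraMap ℚ F)) hq
    simp only [Polynomial.map_add, Polynomial.map_sub, Polynomial.map_mul, Polynomial.map_pow,
      Polynomial.map_ofNat, Polynomial.map_zero, Polynomial.map_map] at hq'
    have hcomp : (algebraMap ℚ F).comp (Int.castRingHom ℚ) = Int.castRingHom F :=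
      RingHom.ext_int _ _
    rw [hcomp] at hq'
    refine Irr3Gen.no_root_short (A.map (Int.castRingHom F)) (B.map (Int.castRingHom F))
      G δ hδ hD hG hGA hdeg (C (1 / 3 : F) * q.map (algebraMap ℚ F)) ?_
    have h3 : (C (1 / 3 : F) : F[X]) * 3 = 1 := by
      rw [← map_ofNat (C : F →+* F[X]) 3, ← C_mul]
      rw [one_div, inv_mul_cancel₀ (by norm_num : (3 : F) ≠ 0), C_1]
    linear_combination (C (1 / 3 : F)) ^ 3 * hq' +
      ((C (1 / 3 : F)) ^ 3 * (q.map (algebraMap ℚ F)) ^ 4 -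
        6 * (C (1 / 3 : F)) ^ 2 * A.map (Int.castRingHom F) * (q.map (algebraMap ℚ F)) ^ 2 -
        12 * C (1 / 3 : F) * B.map (Int.castRingHom F) * q.map (algebraMap ℚ F) *
          (3 * C (1 / 3 : F) + 1) +
        (9 * (C (1 / 3 : F)) ^ 2 + 3 * C (1 / 3 : F) + 1) * (A.map (Int.castRingHom F)) ^ 2) * h3
  -- avoid the finitely many `s` with singular member
  set Dp : ℤ[X] := (4 * A ^ 3 + 27 * B ^ 2).comp (C M * X) with hDp
  have hDp0 : Dp ≠ 0 := by
    intro h
    have := congrArg (eval 0) h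
    simp only [hDp, eval_comp, eval_mul, eval_C, eval_X, mul_zero, eval_add, eval_pow,
      eval_ofNat, eval_zero] at this
    exact h0 this
  set B1 : ℕ := B0 + ∑ r ∈ Dp.roots.toFinset, r.natAbs with hB1
  obtain ⟨s, hs, hroot⟩ := HIT.exists_no_int_root (gPoly A B) (gPoly_monic A B) U V _ hc
    (by rw [hmap0]; exact hUV) hnr M hM B1
  have hsB0 : (B0 : ℤ) < s := by
    have : (B0 : ℤ) ≤ B1 := by exact_mod_cast Nat.le_add_right B0 _
    linarith
  refine ⟨s, hsB0, ?_, fun x hx => ?_⟩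
  · intro hzero
    have hsroot : s ∈ Dp.roots.toFinset := by
      rw [Multiset.mem_toFinset, Polynomial.mem_roots hDp0, IsRoot, hDp]
      simpa [eval_comp] using hzero
    have h1 : s.natAbs ≤ ∑ r ∈ Dp.roots.toFinset, r.natAbs :=
      Finset.single_le_sum (f := fun r : ℤ => r.natAbs) (fun _ _ => Nat.zero_le _) hsroot
    have h2 : s ≤ (s.natAbs : ℤ) := Int.le_natAbs
    have h3 : ((s.natAbs : ℕ) : ℤ) ≤ (B1 : ℤ) := by
      have : s.natAbs ≤ B1 := h1.trans (Nat.le_add_left _ _)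
      exact_mod_cast this
    linarith
  -- `z = 3 x` is a rational root of a monic integer polynomial, hence an integer
  set h : ℤ[X] := (gPoly A B).map (evalRingHom (M * s)) with hh
  have hmon : h.Monic := (gPoly_monic A B).map _
  have hr : Polynomial.aeval (3 * x) h = 0 := by
    rw [hh, gPoly_map]
    simp only [coe_evalRingHom, map_add, map_sub, map_mul, map_pow, aeval_X,
      eq_intCast, map_ofNat, map_intCast]
    linear_combination 27 * hx
  obtain ⟨n, hn⟩ := isInteger_of_is_root_of_monic hmon hr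
  apply hroot n
  have h2 : Polynomial.aeval ((algebraMap ℤ ℚ) n) h = 0 := by rw [hn]; exact hr
  rw [Polynomial.aeval_algebraMap_apply, map_eq_zero_iff _ (RingHom.injective_int _)] at h2
  simpa using h2

end Fermat.Agent.S52.HITShort
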