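/-
S52 block [Irr3-G] (helper17): if the 3-division polynomial
`ψ₃ = 3X⁴ + b₂X³ + 3b₄X² + 3b₆X + b₈` of an integral Weierstrass model `W` (with `Δ ≠ 0`) has no
rational root, then `W.ModRepIsIrreducible 3`.

Thin adapter on top of the (frozen, importable) S51 library:
`S51.exists_rat_root_psi3` (short model) + `S51.irr_of_irr_short` (transport to the short model).
-/
import Fermat.Agent.S51.E3
import Fermat.Agent.S51.Transport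

set_option autoImplicit false

namespace Fermat.Agent.S52.Irr3G

open Fermat.Agent.S51

/-- **[Irr3-G]** No rational root of `ψ₃` implies irreducibility of the mod-3 representation. -/
theorem modRepIsIrreducible_three_of_no_root (W : WeierstrassCurve ℤ) (hΔ : W.Δ ≠ 0)
    (h : ∀ x : ℚ, 3 * x ^ 4 + (W.b₂ : ℚ) * x ^ 3 + 3 * (W.b₄ : ℚ) * x ^ 2 + 3 * (W.b₆ : ℚ) * x
      + (W.b₈ : ℚ) ≠ 0) :
    W.ModRepIsIrreducible 3 := by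
  have hb₂ : (W.map (Int.castRingHom ℚ)).b₂ = (W.b₂ : ℚ) := WeierstrassCurve.map_b₂ W _
  have hb₄ : (W.map (Int.castRingHom ℚ)).b₄ = (W.b₄ : ℚ) := WeierstrassCurve.map_b₄ W _
  have hb₆ : (W.map (Int.castRingHom ℚ)).b₆ = (W.b₆ : ℚ) := WeierstrassCurve.map_b₆ W _
  have hb₈ : (W.map (Int.castRingHom ℚ)).b₈ = (W.b₈ : ℚ) := WeierstrassCurve.map_b₈ W _
  have hc₄ : (W.map (Int.castRingHom ℚ)).c₄ = (W.c₄ : ℚ) := WeierstrassCurve.map_c₄ W _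
  have hc₆ : (W.map (Int.castRingHom ℚ)).c₆ = (W.c₆ : ℚ) := WeierstrassCurve.map_c₆ W _
  have hΔq : (W.Δ : ℚ) ≠ 0 := by exact_mod_cast hΔ
  have hrel : (4 : ℚ) * (W.b₈ : ℚ) = (W.b₂ : ℚ) * (W.b₆ : ℚ) - (W.b₄ : ℚ) ^ 2 := by
    exact_mod_cast W.b_relation
  have hc₄' : (W.c₄ : ℚ) = (W.b₂ : ℚ) ^ 2 - 24 * (W.b₄ : ℚ) := by
    simp [WeierstrassCurve.c₄]
  have hc₆' : (W.c₆ : ℚ) = -(W.b₂ : ℚ) ^ 3 + 36 * (W.b₂ : ℚ) * (W.b₄ : ℚ) - 216 * (W.b₆ : ℚ) := by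
    simp [WeierstrassCurve.c₆]
  have hΔ' : (W.Δ : ℚ) = -(W.b₂ : ℚ) ^ 2 * (W.b₈ : ℚ) - 8 * (W.b₄ : ℚ) ^ 3
      - 27 * (W.b₆ : ℚ) ^ 2 + 9 * (W.b₂ : ℚ) * (W.b₄ : ℚ) * (W.b₆ : ℚ) := by
    simp [WeierstrassCurve.Δ]
  show Irr (W.map (Int.castRingHom ℚ)) 3
  apply irr_of_irr_short
  by_contra hirr
  rw [hc₄, hc₆] at hirr
  have hdisc : 4 * (-27 * (W.c₄ : ℚ)) ^ 3 + 27 * (-54 * (W.c₆ : ℚ)) ^ 2 ≠ 0 := by
    have : 4 * (-27 * (W.c₄ : ℚ)) ^ 3 + 27 * (-54 * (W.c₆ : ℚ)) ^ 2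
        = -136048896 * (W.Δ : ℚ) := by
      rw [hc₄', hc₆', hΔ']
      linear_combination (-34012224 * (W.b₂ : ℚ) ^ 2) * hrel
    rw [this]
    exact mul_ne_zero (by norm_num) hΔq
  obtain ⟨X, hX⟩ := exists_rat_root_psi3 (-27 * (W.c₄ : ℚ)) (-54 * (W.c₆ : ℚ)) hdisc hirr
  apply h ((X - 3 * (W.b₂ : ℚ)) / 36)
  rw [hc₄', hc₆'] at hX
  field_simp
  linear_combination hX + (419904 : ℚ) * hrel
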