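/-
Team S52 (T3), block [Irr3-HIT], wrapper (owner: helper23; shape agreed with helper17).

Family-independent: if `C4 C6 : ℤ[T]` satisfy `C4³ - C6² = δ G⁵` with `G` squarefree, non-constant
and coprime to `C4` (over some field of characteristic zero), and `C4(0)³ ≠ C6(0)²`, then for every
`M ≠ 0` there is `s ∈ M ℤ` such that EVERY integral Weierstrass model `W'` with
`c₄(W') = C4(s)`, `c₆(W') = C6(s)` has `Δ ≠ 0` and irreducible mod-3 representation.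
-/
import Fermat.Agent.S52.HITShort
import Fermat.Agent.S52.Irr3Galois

set_option autoImplicit false

namespace Fermat.Agent.S52.HITParam

open Polynomial

theorem exists_param_large (C4 C6 : ℤ[X]) {F : Type*} [Field F] [CharZero F] (G : F[X]) (δ : F)
    (hδ : δ ≠ 0)
    (hD : (C4.map (Int.castRingHom F)) ^ 3 - (C6.map (Int.castRingHom F)) ^ 2 = C δ * G ^ 5)
    (hG : Squarefree G) (hGA : IsCoprime G (C4.map (Int.castRingHom F)))
    (hdeg : 0 < G.natDegree)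
    (h0 : C4.eval 0 ^ 3 ≠ C6.eval 0 ^ 2) (M : ℤ) (hM : M ≠ 0) (B0 : ℕ) :
    ∃ s : ℤ, M ∣ s ∧ (B0 : ℤ) < |s| ∧ ∀ W' : WeierstrassCurve ℤ, W'.c₄ = C4.eval s →
      W'.c₆ = C6.eval s → W'.Δ ≠ 0 ∧ W'.ModRepIsIrreducible 3 := by
  set A : ℤ[X] := C (-27) * C4 with hA
  set B : ℤ[X] := C (-54) * C6 with hB
  have e1 : (C (-27 : F) : F[X]) = -27 := by
    rw [C_neg, ← map_ofNat (C : F →+* F[X]) 27]
  have e2 : (C (-54 : F) : F[X]) = -54 := by
    rw [C_neg, ← map_ofNat (C : F →+* F[X]) 54]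
  have e3 : (C (-78732 : F) : F[X]) = -78732 := by
    rw [C_neg, ← map_ofNat (C : F →+* F[X]) 78732]
  have hAm : A.map (Int.castRingHom F) = C (-27 : F) * C4.map (Int.castRingHom F) := by
    rw [hA, Polynomial.map_mul, Polynomial.map_C]
    congr 2
    simp
  have hBm : B.map (Int.castRingHom F) = C (-54 : F) * C6.map (Int.castRingHom F) := by
    rw [hB, Polynomial.map_mul, Polynomial.map_C]
    congr 2
    simp
  have hD' : 4 * (A.map (Int.castRingHom F)) ^ 3 + 27 * (B.map (Int.castRingHom F)) ^ 2 =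
      C (-78732 * δ) * G ^ 5 := by
    rw [hAm, hBm, C_mul, mul_assoc, ← hD, e1, e2, e3]
    ring
  have hunit : IsUnit (C (-27 : F) : F[X]) :=
    Polynomial.isUnit_C.mpr (IsUnit.mk0 _ (by norm_num))
  have hGA' : IsCoprime G (A.map (Int.castRingHom F)) := by
    rw [hAm]
    exact (isCoprime_mul_unit_left_right hunit G _).mpr hGA
  have h0' : 4 * A.eval 0 ^ 3 + 27 * B.eval 0 ^ 2 ≠ 0 := by
    rw [hA, hB]
    simp only [eval_mul, eval_C]
    intro h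
    apply h0
    linarith
  obtain ⟨s₀, hs₀, hΔs, hroot⟩ := HITShort.exists_no_rat_root A B G (-78732 * δ)
    (mul_ne_zero (by norm_num) hδ) hD' hG hGA' hdeg h0' M hM B0
  refine ⟨M * s₀, dvd_mul_right M s₀, ?_, fun W' h4 h6 => ?_⟩
  · have h1 : (1 : ℤ) ≤ |M| := Int.one_le_abs hM
    have h2 : (0 : ℤ) ≤ (B0 : ℤ) := by positivity
    rw [abs_mul, abs_of_pos (by linarith : (0 : ℤ) < s₀)]
    nlinarith
  have hΔ' : W'.Δ ≠ 0 := by
    intro hΔ
    apply hΔs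
    have hc := W'.c_relation
    rw [hΔ, h4, h6] at hc
    rw [hA, hB]
    simp only [eval_mul, eval_C]
    linarith
  refine ⟨hΔ', Irr3G.modRepIsIrreducible_three_of_no_root W' hΔ' fun x hx => ?_⟩
  apply hroot (36 * x + 3 * (W'.b₂ : ℚ))
  have hrel : (4 : ℚ) * (W'.b₈ : ℚ) = (W'.b₂ : ℚ) * (W'.b₆ : ℚ) - (W'.b₄ : ℚ) ^ 2 := by
    exact_mod_cast W'.b_relation
  have hA4 : ((A.eval (M * s₀) : ℤ) : ℚ) = -27 * ((W'.b₂ : ℚ) ^ 2 - 24 * (W'.b₄ : ℚ)) := by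
    rw [hA]
    simp only [eval_mul, eval_C, ← h4]
    simp [WeierstrassCurve.c₄]
  have hB6 : ((B.eval (M * s₀) : ℤ) : ℚ) =
      -54 * (-(W'.b₂ : ℚ) ^ 3 + 36 * (W'.b₂ : ℚ) * (W'.b₄ : ℚ) - 216 * (W'.b₆ : ℚ)) := by
    rw [hB]
    simp only [eval_mul, eval_C, ← h6]
    simp [WeierstrassCurve.c₆]
  rw [hA4, hB6]
  linear_combination (1679616 : ℚ) * hx - (419904 : ℚ) * hrel

/-- The shape consumed by the `[Irr3]` assembly. -/
theorem exists_param (C4 C6 : ℤ[X]) {F : Type*} [Field F] [CharZero F] (G : F[X]) (δ : F)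
    (hδ : δ ≠ 0)
    (hD : (C4.map (Int.castRingHom F)) ^ 3 - (C6.map (Int.castRingHom F)) ^ 2 = C δ * G ^ 5)
    (hG : Squarefree G) (hGA : IsCoprime G (C4.map (Int.castRingHom F)))
    (hdeg : 0 < G.natDegree)
    (h0 : C4.eval 0 ^ 3 ≠ C6.eval 0 ^ 2) (M : ℤ) (hM : M ≠ 0) :
    ∃ s : ℤ, M ∣ s ∧ ∀ W' : WeierstrassCurve ℤ, W'.c₄ = C4.eval s →
      W'.c₆ = C6.eval s → W'.Δ ≠ 0 ∧ W'.ModRepIsIrreducible 3 := by
  obtain ⟨s, hs, -, h⟩ := exists_param_large C4 C6 G δ hδ hD hG hGA hdeg h0 M hM 0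
  exact ⟨s, hs, h⟩

end Fermat.Agent.S52.HITParam
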