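import Fermat.Agent.S52.TateFamIdC

/-!
# S52 / the core identities of the Tate-normal-form realisation of the 5-congruent family

`Fermat.Agent.S52.Tate.fam4_tate`, `Fermat.Agent.S52.Tate.fam6_tate` : polynomial identities over
an arbitrary commutative ring, under the names used by all consumers.

The proofs are the light ones of `Fermat/Agent/S52/TateFamIdC.lean` (helper15: evaluation on an
integer grid by kernel computation + degree bounds + Lagrange uniqueness).  An independent proof
(interpolation in `d`, univariate `ring` identities in `s`; helper74) was on main before and
checked the same two statements.
-/

set_option autoImplicit false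

namespace Fermat.Agent.S52.Tate

variable {R : Type*} [CommRing R]

/-- The family member over the Tate curve with parameter `d` is the Tate curve with parameter
`famN d s / famD d s`, scaled by `famD d s` (`c4`-part). -/
theorem fam4_tate (d s : R) : fam4 (c4T d) (c6T d) s = C4form (famN d s) (famD d s) :=
  Fermat.Agent.S52.TateFamIdC.fam4_tate d s

/-- The family member over the Tate curve with parameter `d` is the Tate curve with parameter
`famN d s / famD d s`, scaled by `famD d s` (`c6`-part). -/
theorem fam6_tate (d s : R) : fam6 (c4T d) (c6T d) s = C6form (famN d s) (famD d s) :=
  Fermat.Agent.S52.TateFamIdC.fam6_tate d s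

end Fermat.Agent.S52.Tate
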