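import Mathlib

/-!
# Tate parameters over an algebraically closed field (B-route of block [Param])

Over an algebraically closed field `k` with `2, 3, 5 ≠ 0`, every pair `(a, b)` with
`a ^ 3 ≠ b ^ 2` is of the form `(w ^ 4 * c4T d, w ^ 6 * c6T d)` with `w ≠ 0`, `d ≠ 0`,
`d ^ 2 - 11 * d - 1 ≠ 0`.
-/

set_option autoImplicit false

open Polynomial

namespace Fermat.Agent.S52.TateParamB

variable {k : Type*} [Field k]

/-- `c4` of the Tate normal form (same body as `Fermat.Agent.S52.Tate.c4T`). -/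
def c4T {R : Type*} [CommRing R] (d : R) : R := d^4 - 12*d^3 + 14*d^2 + 12*d + 1

/-- `c6` of the Tate normal form (same body as `Fermat.Agent.S52.Tate.c6T`). -/
def c6T {R : Type*} [CommRing R] (d : R) : R := -(d^6 - 18*d^5 + 75*d^4 + 75*d^2 + 18*d + 1)

/-- `c4T ^ 3 - c6T ^ 2 = 1728 * d ^ 5 * (d ^ 2 - 11 d - 1)`. -/
lemma c4T_cube_sub_c6T_sq {R : Type*} [CommRing R] (d : R) :
    c4T d ^ 3 - c6T d ^ 2 = 1728 * (d ^ 5 * (d ^ 2 - 11 * d - 1)) := by
  unfold c4T c6T
  ring

/-- On `d ^ 2 = 11 d + 1` one has `c4T d = 5 d ^ 2`. -/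
lemma c4T_eq_of_cusp {R : Type*} [CommRing R] (d : R) (h : d ^ 2 - 11 * d - 1 = 0) :
    c4T d = 5 * d ^ 2 := by
  unfold c4T
  linear_combination (d ^ 2 - d - 1) * h

/-- The degree-12 polynomial whose roots are the Tate parameters with the right `j`. -/
noncomputable def jPoly (a b : k) : k[X] :=
  C (1728 * a ^ 3) * (X ^ 5 * (X ^ 2 - C 11 * X - 1))
    - C (a ^ 3 - b ^ 2) * (X ^ 4 - C 12 * X ^ 3 + C 14 * X ^ 2 + C 12 * X + 1) ^ 3

lemma jPoly_eval (a b d : k) :
    (jPoly a b).eval d =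
      1728 * a ^ 3 * (d ^ 5 * (d ^ 2 - 11 * d - 1)) - (a ^ 3 - b ^ 2) * c4T d ^ 3 := by
  simp [jPoly, c4T]

lemma jPoly_coeff (a b : k) : (jPoly a b).coeff 12 = -(a ^ 3 - b ^ 2) := by
  have h1 : (C (1728 * a ^ 3) * (X ^ 5 * (X ^ 2 - C 11 * X - 1)) : k[X]).coeff 12 = 0 := by
    apply coeff_eq_zero_of_natDegree_lt
    have : (C (1728 * a ^ 3) * (X ^ 5 * (X ^ 2 - C 11 * X - 1)) : k[X]).natDegree ≤ 7 := by
      compute_degree
    omega
  have hq : (X ^ 4 - C 12 * X ^ 3 + C 14 * X ^ 2 + C 12 * X + 1 : k[X]).natDegree ≤ 4 := by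
    compute_degree
  have h2 : ((X ^ 4 - C 12 * X ^ 3 + C 14 * X ^ 2 + C 12 * X + 1 : k[X]) ^ 3).coeff (3 * 4)
      = 1 := by
    rw [coeff_pow_of_natDegree_le hq]
    simp [coeff_one]
  rw [jPoly, coeff_sub, h1, coeff_C_mul]
  have : (12 : ℕ) = 3 * 4 := rfl
  rw [this, h2]
  ring

theorem exists_tate_param_aux [IsAlgClosed k] (h2 : (2 : k) ≠ 0) (h3 : (3 : k) ≠ 0)
    (h5 : (5 : k) ≠ 0) (a b : k) (hab : a ^ 3 ≠ b ^ 2) :
    ∃ w d : k, w ≠ 0 ∧ d ≠ 0 ∧ d ^ 2 - 11 * d - 1 ≠ 0 ∧ a = w ^ 4 * c4T d ∧ b = w ^ 6 * c6T d := by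
  have hab' : a ^ 3 - b ^ 2 ≠ 0 := sub_ne_zero.mpr hab
  have h1728 : (1728 : k) ≠ 0 := by
    have : (1728 : k) = 2 ^ 6 * 3 ^ 3 := by norm_num
    rw [this]
    exact mul_ne_zero (pow_ne_zero _ h2) (pow_ne_zero _ h3)
  -- a root of `jPoly`
  have hdeg : (jPoly a b).degree ≠ 0 := by
    intro h0
    have hc : (jPoly a b).coeff 12 = 0 := by
      apply coeff_eq_zero_of_natDegree_lt
      rw [natDegree_eq_zero_iff_degree_le_zero.mpr h0.le]
      norm_num
    rw [jPoly_coeff] at hc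
    exact hab' (neg_eq_zero.mp hc)
  obtain ⟨d, hd⟩ := IsAlgClosed.exists_root (jPoly a b) hdeg
  rw [IsRoot, jPoly_eval] at hd
  -- `d` is not a cusp
  have hd0 : d ≠ 0 := by
    rintro rfl
    have : c4T (0 : k) = 1 := by simp [c4T]
    rw [this] at hd
    apply hab'
    linear_combination -hd
  have hcusp : d ^ 2 - 11 * d - 1 ≠ 0 := by
    intro hc
    have h4 := c4T_eq_of_cusp d hc
    rw [hc, h4] at hd
    have : (a ^ 3 - b ^ 2) * (5 * d ^ 2) ^ 3 = 0 := by linear_combination -hd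
    rcases mul_eq_zero.mp this with h | h
    · exact hab' h
    · exact hd0 (by
        have := pow_eq_zero_iff (n := 3) (by norm_num) |>.mp h
        rcases mul_eq_zero.mp this with h' | h'
        · exact absurd h' h5
        · exact pow_eq_zero_iff (n := 2) (by norm_num) |>.mp h')
  set p := c4T d with hp
  set q := c6T d with hq
  have hΔT : p ^ 3 - q ^ 2 = 1728 * (d ^ 5 * (d ^ 2 - 11 * d - 1)) := c4T_cube_sub_c6T_sq d
  have hpq : p ^ 3 - q ^ 2 ≠ 0 := by
    rw [hΔT]
    exact mul_ne_zero h1728 (mul_ne_zero (pow_ne_zero _ hd0) hcusp)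
  -- the key relation `a³ q² = b² p³`
  have hkey : a ^ 3 * q ^ 2 = b ^ 2 * p ^ 3 := by
    linear_combination -hd - a ^ 3 * hΔT
  by_cases ha : a = 0
  · -- `a = 0`: then `p = 0`, `q ≠ 0`, sixth root
    have hb : b ≠ 0 := by
      rintro rfl
      exact hab (by rw [ha]; ring)
    have hp0 : p = 0 := by
      have : b ^ 2 * p ^ 3 = 0 := by rw [← hkey, ha]; ring
      rcases mul_eq_zero.mp this with h | h
      · exact absurd (pow_eq_zero_iff (n := 2) (by norm_num) |>.mp h) hb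
      · exact pow_eq_zero_iff (n := 3) (by norm_num) |>.mp h
    have hq0 : q ≠ 0 := by
      rintro h
      apply hpq
      rw [hp0, h]; ring
    obtain ⟨w, hw⟩ := IsAlgClosed.exists_pow_nat_eq (b / q) (n := 6) (by norm_num)
    have hw0 : w ≠ 0 := by
      rintro rfl
      have : b / q = 0 := by rw [← hw]; ring
      exact div_ne_zero hb hq0 this
    refine ⟨w, d, hw0, hd0, hcusp, ?_, ?_⟩
    · show a = w ^ 4 * p
      rw [hp0, ha]; ring
    · show b = w ^ 6 * q
      rw [hw]; field_simp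
  · by_cases hb : b = 0
    · -- `b = 0`: then `q = 0`, `p ≠ 0`, fourth root
      have hq0 : q = 0 := by
        have : a ^ 3 * q ^ 2 = 0 := by rw [hkey, hb]; ring
        rcases mul_eq_zero.mp this with h | h
        · exact absurd (pow_eq_zero_iff (n := 3) (by norm_num) |>.mp h) ha
        · exact pow_eq_zero_iff (n := 2) (by norm_num) |>.mp h
      have hp0 : p ≠ 0 := by
        rintro h
        apply hpq
        rw [hq0, h]; ring
      obtain ⟨w, hw⟩ := IsAlgClosed.exists_pow_nat_eq (a / p) (n := 4) (by norm_num)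
      have hw0 : w ≠ 0 := by
        rintro rfl
        have : a / p = 0 := by rw [← hw]; ring
        exact div_ne_zero ha hp0 this
      refine ⟨w, d, hw0, hd0, hcusp, ?_, ?_⟩
      · show a = w ^ 4 * p
        rw [hw]; field_simp
      · show b = w ^ 6 * q
        rw [hq0, hb]; ring
    · -- generic case
      have hp0 : p ≠ 0 := by
        rintro h
        have : a ^ 3 * q ^ 2 = 0 := by rw [hkey, h]; ring
        rcases mul_eq_zero.mp this with h' | h'
        · exact ha (pow_eq_zero_iff (n := 3) (by norm_num) |>.mp h')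
        · apply hpq
          rw [h, pow_eq_zero_iff (n := 2) (by norm_num) |>.mp h']; ring
      have hq0 : q ≠ 0 := by
        rintro h
        have : b ^ 2 * p ^ 3 = 0 := by rw [← hkey, h]; ring
        rcases mul_eq_zero.mp this with h' | h'
        · exact hb (pow_eq_zero_iff (n := 2) (by norm_num) |>.mp h')
        · exact hp0 (pow_eq_zero_iff (n := 3) (by norm_num) |>.mp h')
      obtain ⟨w, hw⟩ := IsAlgClosed.exists_pow_nat_eq ((b * p) / (a * q)) (n := 2) (by norm_num)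
      have hw0 : w ≠ 0 := by
        rintro rfl
        have : (b * p) / (a * q) = 0 := by rw [← hw]; ring
        exact div_ne_zero (mul_ne_zero hb hp0) (mul_ne_zero ha hq0) this
      have haq : a * q ≠ 0 := mul_ne_zero ha hq0
      have hw2 : w ^ 2 * (a * q) = b * p := by rw [hw]; field_simp
      refine ⟨w, d, hw0, hd0, hcusp, ?_, ?_⟩
      · -- a = w⁴ p
        show a = w ^ 4 * p
        have h4 : w ^ 4 * p * (a * q) ^ 2 = a * (a * q) ^ 2 := by
          have : w ^ 4 * (a * q) ^ 2 = (b * p) ^ 2 := by rw [← hw2]; ring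
          calc w ^ 4 * p * (a * q) ^ 2 = p * (w ^ 4 * (a * q) ^ 2) := by ring
            _ = p * (b * p) ^ 2 := by rw [this]
            _ = a * (a * q) ^ 2 := by linear_combination -hkey
        exact (mul_right_cancel₀ (pow_ne_zero 2 haq) h4).symm
      · -- b = w⁶ q
        show b = w ^ 6 * q
        have h6 : w ^ 6 * q * (a * q) ^ 3 = b * (a * q) ^ 3 := by
          have : w ^ 6 * (a * q) ^ 3 = (b * p) ^ 3 := by rw [← hw2]; ring
          calc w ^ 6 * q * (a * q) ^ 3 = q * (w ^ 6 * (a * q) ^ 3) := by ring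
            _ = q * (b * p) ^ 3 := by rw [this]
            _ = b * (a * q) ^ 3 := by linear_combination (-b * q) * hkey
        exact (mul_right_cancel₀ (pow_ne_zero 3 haq) h6).symm

/-- **Tate parameters exist** over an algebraically closed field with `2, 3, 5 ≠ 0`.
The two polynomials are literally the bodies of `Fermat.Agent.S52.Tate.c4T d` and
`Fermat.Agent.S52.Tate.c6T d`, so the statement is definitionally the one with `Tate.c4T`,
`Tate.c6T`. -/
theorem exists_tate_param [IsAlgClosed k] (h2 : (2 : k) ≠ 0) (h3 : (3 : k) ≠ 0)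
    (h5 : (5 : k) ≠ 0) (a b : k) (hab : a ^ 3 ≠ b ^ 2) :
    ∃ w d : k, w ≠ 0 ∧ d ≠ 0 ∧ d ^ 2 - 11 * d - 1 ≠ 0 ∧
      a = w ^ 4 * (d^4 - 12*d^3 + 14*d^2 + 12*d + 1) ∧
      b = w ^ 6 * (-(d^6 - 18*d^5 + 75*d^4 + 75*d^2 + 18*d + 1)) :=
  exists_tate_param_aux h2 h3 h5 a b hab

end Fermat.Agent.S52.TateParamB
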