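/-
S52 block [Irr3-F] (helper17): arithmetic of the 5-congruent family (helper74's `TateFam`) needed
by the generic no-root lemma (`Irr3Gen`): the discriminant of the family is a constant times the
fifth power of a squarefree polynomial `G` of positive degree, coprime to the `c₄`-polynomial.
-/
import Mathlib
import Fermat.Agent.S52.TateFam
import Fermat.Agent.S52.TateFamId
import Fermat.Agent.S52.TateParamB

set_option autoImplicit false
set_option linter.unusedSectionVars false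
set_option linter.unusedSimpArgs false

namespace Fermat.Agent.S52.Irr3F

open Polynomial
open Fermat.Agent.S52.Tate

section Identities

variable {R : Type*} [CommRing R]

/-- Over a ring with a square root `r` of `5`: `2N - (11 + 5r) D = (2d - 11 - 5r) ℓ⁵`. -/
theorem famN_sub (r d s : R) (hr : r ^ 2 = 5) :
    2 * famN d s - (11 + 5 * r) * famD d s =
      (2 * d - 11 - 5 * r) * (1 - s * (d ^ 2 + 1 + 6 * r * d)) ^ 5 := by
  unfold famN famD famNc0 famNc1 famNc2 famNc3 famNc4 famNc5 famDc0 famDc1 famDc2 famDc3 famDc4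
    famDc5
  linear_combination (- 150*d*s + 600*d*s^2 - 900*d*s^3 + 600*d*s^4 - 150*d*s^5 + 1800*d^2*r*s^2 - 5400*d^2*r*s^3 + 5400*d^2*r*s^4 - 1800*d^2*r*s^5 + 3960*d^2*s^2 - 11880*d^2*s^3 + 11880*d^2*s^4 - 3960*d^2*s^5 - 23760*d^3*r*s^3 + 47520*d^3*r*s^4 - 23760*d^3*r*s^5 - 10800*d^3*r^2*s^3 + 21600*d^3*r^2*s^4 - 10800*d^3*r^2*s^5 - 120*d^3*s^2 - 53640*d^3*s^3 + 107640*d^3*s^4 - 53880*d^3*s^5 - 1080*d^4*r*s^3 + 164160*d^4*r*s^4 - 163080*d^4*r*s^5 + 71280*d^4*r^2*s^4 - 71280*d^4*r^2*s^5 + 32400*d^4*r^3*s^4 - 32400*d^4*r^3*s^5 - 11880*d^4*s^3 + 380160*d^4*s^4 - 368280*d^4*s^5 + 47520*d^5*r*s^4 - 475200*d^5*r*s^5 + 8640*d^5*r^2*s^4 - 203040*d^5*r^2*s^5 - 85536*d^5*r^3*s^5 - 38880*d^5*r^4*s^5 + 1260*d^5*s^3 + 40680*d^5*s^4 - 1013940*d^5*s^5 - 3240*d^6*r*s^4 - 81000*d^6*r*s^5 - 71280*d^6*r^2*s^5 - 16848*d^6*r^3*s^5 + 11880*d^6*s^4 - 368280*d^6*s^5 - 23760*d^7*r*s^5 + 2160*d^7*r^2*s^5 - 1560*d^7*s^4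 + 12360*d^7*s^5 + 2520*d^8*r*s^5 - 3960*d^8*s^5 + 570*d^9*s^5) * hr

/-- The conjugate identity. -/
theorem famN_sub' (r d s : R) (hr : r ^ 2 = 5) :
    2 * famN d s - (11 - 5 * r) * famD d s =
      (2 * d - 11 + 5 * r) * (1 - s * (d ^ 2 + 1 - 6 * r * d)) ^ 5 := by
  have h := famN_sub (-r) d s (by rw [neg_sq]; exact hr)
  linear_combination h

theorem famN_sq_sub (d s : R) :
    famN d s ^ 2 - 11 * famN d s * famD d s - famD d s ^ 2 =
      (d ^ 2 - 11 * d - 1) * (1 - 2 * (1 + d ^ 2) * s + (1 - 178 * d ^ 2 + d ^ 4) * s ^ 2) ^ 5 := by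
  unfold famN famD famNc0 famNc1 famNc2 famNc3 famNc4 famNc5 famDc0 famDc1 famDc2 famDc3 famDc4
    famDc5
  ring

theorem c4form_disc (n m : R) :
    C4form n m ^ 3 - C6form n m ^ 2 = 1728 * n ^ 5 * m ^ 5 * (n ^ 2 - 11 * n * m - m ^ 2) := by
  unfold C4form C6form
  ring

theorem c4form_decomp (n m : R) :
    C4form n m = (n ^ 2 - 11 * n * m - m ^ 2) * (n ^ 2 - n * m - m ^ 2) + 5 * n ^ 2 * m ^ 2 := by
  unfold C4form
  ring

set_option maxHeartbeats 1000000 in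
theorem fam4_smul (w c4 c6 s : R) :
    fam4 (w ^ 4 * c4) (w ^ 6 * c6) s = w ^ 4 * fam4 c4 c6 (w ^ 2 * s) := by
  unfold fam4 fam4c0 fam4c1 fam4c2 fam4c3 fam4c4 fam4c5 fam4c6 fam4c7 fam4c8 fam4c9 fam4c10 fam4c11
    fam4c12 fam4c13 fam4c14 fam4c15 fam4c16 fam4c17 fam4c18 fam4c19 fam4c20
  ring

set_option maxHeartbeats 2000000 in
theorem fam6_smul (w c4 c6 s : R) :
    fam6 (w ^ 4 * c4) (w ^ 6 * c6) s = w ^ 6 * fam6 c4 c6 (w ^ 2 * s) := by
  unfold fam6 fam6c0 fam6c1 fam6c2 fam6c3 fam6c4 fam6c5 fam6c6 fam6c7 fam6c8 fam6c9 fam6c10 fam6c11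
    fam6c12 fam6c13 fam6c14 fam6c15 fam6c16 fam6c17 fam6c18 fam6c19 fam6c20 fam6c21 fam6c22 fam6c23
    fam6c24 fam6c25 fam6c26 fam6c27 fam6c28 fam6c29 fam6c30
  ring

end Identities

section Generic

variable {F : Type*} [Field F]

/-- The linear polynomial `1 - a X`. -/
noncomputable def lin (a : F) : F[X] := 1 - C a * X

theorem derivative_lin (a : F) : derivative (lin a) = - C a := by
  simp [lin]

theorem eval_lin (a x : F) : (lin a).eval x = 1 - a * x := by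
  simp [lin]

theorem lin_ne_zero (a : F) : lin a ≠ 0 := by
  intro h
  have := congrArg (eval 0) h
  simp [lin] at this

theorem lin_cross (a b : F) : C b * lin a - C a * lin b = C (b - a) := by
  simp only [lin, map_sub]
  ring

theorem lin_isCoprime {a b : F} (hab : a ≠ b) : IsCoprime (lin a) (lin b) := by
  have hne : b - a ≠ 0 := sub_ne_zero.mpr (Ne.symm hab)
  have e : C (b - a)⁻¹ * C (b - a) = (1 : F[X]) := by
    rw [← C_mul, inv_mul_cancel₀ hne, C_1]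
  refine ⟨C (b - a)⁻¹ * C b, -(C (b - a)⁻¹ * C a), ?_⟩
  linear_combination C (b - a)⁻¹ * lin_cross a b + e

/-- If two combinations of `x, y` are unit multiples of powers of coprime `L₁, L₂`, then
`x, y` are coprime. -/
theorem isCoprime_of_combos {x y L₁ L₂ : F[X]} (hL : IsCoprime L₁ L₂) (k₁ k₂ : ℕ)
    {c₁ c₂ : F} (hc₁ : c₁ ≠ 0) (hc₂ : c₂ ≠ 0) (u₁ v₁ u₂ v₂ : F[X])
    (h₁ : u₁ * x + v₁ * y = C c₁ * L₁ ^ k₁) (h₂ : u₂ * x + v₂ * y = C c₂ * L₂ ^ k₂) :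
    IsCoprime x y := by
  obtain ⟨a, b, hab⟩ := (hL.pow : IsCoprime (L₁ ^ k₁) (L₂ ^ k₂))
  have e1 : C c₁⁻¹ * C c₁ = (1 : F[X]) := by rw [← C_mul, inv_mul_cancel₀ hc₁, C_1]
  have e2 : C c₂⁻¹ * C c₂ = (1 : F[X]) := by rw [← C_mul, inv_mul_cancel₀ hc₂, C_1]
  refine ⟨a * C c₁⁻¹ * u₁ + b * C c₂⁻¹ * u₂, a * C c₁⁻¹ * v₁ + b * C c₂⁻¹ * v₂, ?_⟩
  linear_combination (a * C c₁⁻¹) * h₁ + (b * C c₂⁻¹) * h₂ + a * L₁ ^ k₁ * e1
    + b * L₂ ^ k₂ * e2 + hab

/-- A binomial `A₁ ℓ₁⁵ + A₂ ℓ₂⁵` (up to a nonzero constant) in two distinct linear forms is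
separable. -/
theorem separable_of_binom [CharZero F] {p : F[X]} {a₁ a₂ k A₁ A₂ : F} (ha : a₁ ≠ a₂)
    (hA₁ : A₁ ≠ 0) (hA₂ : A₂ ≠ 0)
    (hp : C k * p = C A₁ * lin a₁ ^ 5 + C A₂ * lin a₂ ^ 5) : p.Separable := by
  have hp' : C k * derivative p
      = C A₁ * (C (5 : F) * lin a₁ ^ 4 * (- C a₁)) + C A₂ * (C (5 : F) * lin a₂ ^ 4 * (- C a₂)) := by
    have := congrArg derivative hp
    rw [derivative_C_mul, derivative_add, derivative_C_mul, derivative_C_mul, derivative_pow,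
      derivative_pow, derivative_lin, derivative_lin] at this
    simpa using this
  have h5 : (5 : F) ≠ 0 := by norm_num
  have hne : a₂ - a₁ ≠ 0 := sub_ne_zero.mpr (Ne.symm ha)
  have hne' : a₁ - a₂ ≠ 0 := sub_ne_zero.mpr ha
  have c1 : C a₂ * lin a₁ - C a₁ * lin a₂ = C (a₂ - a₁) := lin_cross a₁ a₂
  have c2 : C a₁ * lin a₂ - C a₂ * lin a₁ = C (a₁ - a₂) := lin_cross a₂ a₁
  refine isCoprime_of_combos (lin_isCoprime ha) 4 4
    (c₁ := 5 * A₁ * (a₂ - a₁)) (c₂ := 5 * A₂ * (a₁ - a₂))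
    (mul_ne_zero (mul_ne_zero h5 hA₁) hne) (mul_ne_zero (mul_ne_zero h5 hA₂) hne')
    (C (5 : F) * C a₂ * C k) (C k * lin a₂) (C (5 : F) * C a₁ * C k) (C k * lin a₁) ?_ ?_
  · simp only [map_mul]
    linear_combination (C (5 : F) * C a₂) * hp + lin a₂ * hp'
      + (C (5 : F) * C A₁ * lin a₁ ^ 4) * c1
  · simp only [map_mul]
    linear_combination (C (5 : F) * C a₁) * hp + lin a₁ * hp'
      + (C (5 : F) * C A₂ * lin a₂ ^ 4) * c2


theorem separable_lin (a : F) : (lin a).Separable := by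
  rw [separable_def, derivative_lin]
  refine ⟨1, -X, ?_⟩
  simp only [lin]
  ring

/-- A binomial `A₁ ℓ₁⁵ + A₂ ℓ₂⁵` with `A₂ ≠ 0` is coprime to `ℓ₁`. -/
theorem isCoprime_lin_left_of_binom {p : F[X]} {a₁ a₂ k A₁ A₂ : F} (ha : a₁ ≠ a₂)
    (hA₂ : A₂ ≠ 0)
    (hp : C k * p = C A₁ * lin a₁ ^ 5 + C A₂ * lin a₂ ^ 5) : IsCoprime p (lin a₁) := by
  refine isCoprime_of_combos (lin_isCoprime ha) 1 5 (c₁ := 1) (c₂ := A₂) one_ne_zero hA₂
    0 1 (C k) (- (C A₁ * lin a₁ ^ 4)) ?_ ?_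
  · simp
  · linear_combination hp

/-- A binomial `A₁ ℓ₁⁵ + A₂ ℓ₂⁵` with `A₁ ≠ 0` is coprime to `ℓ₂`. -/
theorem isCoprime_lin_right_of_binom {p : F[X]} {a₁ a₂ k A₁ A₂ : F} (ha : a₁ ≠ a₂)
    (hA₁ : A₁ ≠ 0)
    (hp : C k * p = C A₁ * lin a₁ ^ 5 + C A₂ * lin a₂ ^ 5) : IsCoprime p (lin a₂) := by
  refine isCoprime_of_combos (lin_isCoprime ha) 5 1 (c₁ := A₁) (c₂ := 1) hA₁ one_ne_zero
    (C k) (- (C A₂ * lin a₂ ^ 4)) 0 1 ?_ ?_
  · linear_combination hp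
  · simp

theorem natDegree_pos_of_eval_eq_zero {p : F[X]} (hp : p ≠ 0) {x : F} (hx : p.eval x = 0) :
    0 < p.natDegree :=
  natDegree_pos_iff_degree_pos.mpr (degree_pos_of_root hp hx)

end Generic

section Family

variable {F : Type*} [Field F] [CharZero F]

/-- first slope of the two linear forms. -/
def a1 (r d μ : F) : F := μ * (d ^ 2 + 1 + 6 * r * d)

/-- second slope. -/
def a2 (r d μ : F) : F := μ * (d ^ 2 + 1 - 6 * r * d)

/-- numerator of the Tate parameter along the (rescaled) family, as a polynomial. -/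
noncomputable def Np (d μ : F) : F[X] := famN (C d) (C μ * X)

/-- denominator of the Tate parameter along the (rescaled) family, as a polynomial. -/
noncomputable def Dp (d μ : F) : F[X] := famD (C d) (C μ * X)

/-- the cusp polynomial of the family in Tate normal form. -/
noncomputable def Gp (r d μ : F) : F[X] := Np d μ * Dp d μ * (lin (a1 r d μ) * lin (a2 r d μ))

omit [CharZero F] in
theorem C_sq_five {r : F} (hr : r ^ 2 = 5) : (C r : F[X]) ^ 2 = 5 := by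
  rw [← C_pow, hr]
  exact map_ofNat C 5

theorem r_ne_zero {r : F} (hr : r ^ 2 = 5) : r ≠ 0 := by
  rintro rfl
  norm_num at hr

theorem a1_ne_a2 {r d μ : F} (hr : r ^ 2 = 5) (hd : d ≠ 0) (hμ : μ ≠ 0) : a1 r d μ ≠ a2 r d μ := by
  intro h
  have h12 : 12 * r * d * μ = 0 := by
    unfold a1 a2 at h
    linear_combination h
  have : (12 : F) ≠ 0 := by norm_num
  exact mul_ne_zero (mul_ne_zero (mul_ne_zero this (r_ne_zero hr)) hd) hμ h12

theorem c1_ne_zero {r d : F} (hr : r ^ 2 = 5) (hq : d ^ 2 - 11 * d - 1 ≠ 0) :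
    2 * d - 11 - 5 * r ≠ 0 := by
  intro h0
  apply hq
  linear_combination ((2 * d - 11 + 5 * r) / 4) * h0 + (25 / 4 : F) * hr

theorem c2_ne_zero {r d : F} (hr : r ^ 2 = 5) (hq : d ^ 2 - 11 * d - 1 ≠ 0) :
    2 * d - 11 + 5 * r ≠ 0 := by
  intro h0
  apply hq
  linear_combination ((2 * d - 11 - 5 * r) / 4) * h0 + (25 / 4 : F) * hr

theorem e1_ne_zero {r : F} (hr : r ^ 2 = 5) : 11 - 5 * r ≠ 0 := by
  intro h0
  have : (4 : F) = 0 := by linear_combination (-(11 + 5 * r)) * h0 + (-25 : F) * hr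
  norm_num at this

theorem e2_ne_zero {r : F} (hr : r ^ 2 = 5) : 11 + 5 * r ≠ 0 := by
  intro h0
  have : (4 : F) = 0 := by linear_combination (-(11 - 5 * r)) * h0 + (-25 : F) * hr
  norm_num at this

theorem famE1 (r d μ : F) (hr : r ^ 2 = 5) :
    2 * Np d μ - (11 + 5 * C r) * Dp d μ
      = (2 * C d - 11 - 5 * C r) * lin (a1 r d μ) ^ 5 := by
  have h := famN_sub (C r) (C d) (C μ * X) (C_sq_five hr)
  unfold Np Dp
  simp only [lin, a1, map_mul, map_add, map_pow, map_one, map_ofNat]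
  linear_combination h

theorem famE2 (r d μ : F) (hr : r ^ 2 = 5) :
    2 * Np d μ - (11 - 5 * C r) * Dp d μ
      = (2 * C d - 11 + 5 * C r) * lin (a2 r d μ) ^ 5 := by
  have h := famN_sub' (C r) (C d) (C μ * X) (C_sq_five hr)
  unfold Np Dp
  simp only [lin, a2, map_mul, map_add, map_sub, map_pow, map_one, map_ofNat]
  linear_combination h

theorem Np_binom (r d μ : F) (hr : r ^ 2 = 5) :
    C (20 * r) * Np d μ
      = C (-((11 - 5 * r) * (2 * d - 11 - 5 * r))) * lin (a1 r d μ) ^ 5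
        + C ((11 + 5 * r) * (2 * d - 11 + 5 * r)) * lin (a2 r d μ) ^ 5 := by
  have h1 := famE1 r d μ hr
  have h2 := famE2 r d μ hr
  simp only [map_mul, map_add, map_sub, map_neg, map_ofNat]
  linear_combination (11 + 5 * C r) * h2 - (11 - 5 * C r) * h1

theorem Dp_binom (r d μ : F) (hr : r ^ 2 = 5) :
    C (10 * r) * Dp d μ
      = C (-(2 * d - 11 - 5 * r)) * lin (a1 r d μ) ^ 5
        + C (2 * d - 11 + 5 * r) * lin (a2 r d μ) ^ 5 := by
  have h1 := famE1 r d μ hr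
  have h2 := famE2 r d μ hr
  simp only [map_mul, map_add, map_sub, map_neg, map_ofNat]
  linear_combination h2 - h1

theorem famSq (r d μ : F) (hr : r ^ 2 = 5) :
    Np d μ ^ 2 - 11 * Np d μ * Dp d μ - Dp d μ ^ 2
      = C (d ^ 2 - 11 * d - 1) * (lin (a1 r d μ) * lin (a2 r d μ)) ^ 5 := by
  have h := famN_sq_sub (C d) (C μ * X)
  have hE : (1 - 2 * (1 + (C d : F[X]) ^ 2) * (C μ * X)
      + (1 - 178 * (C d : F[X]) ^ 2 + (C d : F[X]) ^ 4) * (C μ * X) ^ 2)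
      = lin (a1 r d μ) * lin (a2 r d μ) := by
    simp only [lin, a1, a2, map_mul, map_add, map_sub, map_pow, map_one, map_ofNat]
    linear_combination (36 * (C μ) ^ 2 * X ^ 2 * (C d) ^ 2) * C_sq_five hr
  rw [hE] at h
  unfold Np Dp
  rw [h]
  simp only [map_mul, map_add, map_sub, map_pow, map_one, map_ofNat]

variable {r d μ : F}

theorem isCoprime_Np_Dp (hr : r ^ 2 = 5) (hd : d ≠ 0) (hq : d ^ 2 - 11 * d - 1 ≠ 0)
    (hμ : μ ≠ 0) : IsCoprime (Np d μ) (Dp d μ) := by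
  refine isCoprime_of_combos (lin_isCoprime (a1_ne_a2 hr hd hμ)) 5 5
    (c1_ne_zero hr hq) (c2_ne_zero hr hq) 2 (-(11 + 5 * C r)) 2 (-(11 - 5 * C r)) ?_ ?_
  · simp only [map_mul, map_add, map_sub, map_ofNat]
    linear_combination famE1 r d μ hr
  · simp only [map_mul, map_add, map_sub, map_ofNat]
    linear_combination famE2 r d μ hr

theorem NA1_ne (hr : r ^ 2 = 5) (hq : d ^ 2 - 11 * d - 1 ≠ 0) :
    -((11 - 5 * r) * (2 * d - 11 - 5 * r)) ≠ 0 :=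
  neg_ne_zero.mpr (mul_ne_zero (e1_ne_zero hr) (c1_ne_zero hr hq))

theorem NA2_ne (hr : r ^ 2 = 5) (hq : d ^ 2 - 11 * d - 1 ≠ 0) :
    (11 + 5 * r) * (2 * d - 11 + 5 * r) ≠ 0 :=
  mul_ne_zero (e2_ne_zero hr) (c2_ne_zero hr hq)

theorem separable_Gp (hr : r ^ 2 = 5) (hd : d ≠ 0) (hq : d ^ 2 - 11 * d - 1 ≠ 0)
    (hμ : μ ≠ 0) : (Gp r d μ).Separable := by
  have h12 := a1_ne_a2 hr hd hμ
  have hN := Np_binom r d μ hr
  have hD := Dp_binom r d μ hr
  have sN : (Np d μ).Separable := separable_of_binom h12 (NA1_ne hr hq) (NA2_ne hr hq) hN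
  have sD : (Dp d μ).Separable :=
    separable_of_binom h12 (neg_ne_zero.mpr (c1_ne_zero hr hq)) (c2_ne_zero hr hq) hD
  have cN1 := isCoprime_lin_left_of_binom h12 (NA2_ne hr hq) hN
  have cN2 := isCoprime_lin_right_of_binom h12 (NA1_ne hr hq) hN
  have cD1 := isCoprime_lin_left_of_binom h12 (c2_ne_zero hr hq) hD
  have cD2 := isCoprime_lin_right_of_binom h12 (neg_ne_zero.mpr (c1_ne_zero hr hq)) hD
  unfold Gp
  exact (sN.mul sD (isCoprime_Np_Dp hr hd hq hμ)).mul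
    ((separable_lin _).mul (separable_lin _) (lin_isCoprime h12))
    (IsCoprime.mul_left (IsCoprime.mul_right cN1 cN2) (IsCoprime.mul_right cD1 cD2))

theorem isCoprime_Gp_C4form (hr : r ^ 2 = 5) (hd : d ≠ 0) (hq : d ^ 2 - 11 * d - 1 ≠ 0)
    (hμ : μ ≠ 0) : IsCoprime (Gp r d μ) (C4form (Np d μ) (Dp d μ)) := by
  have h12 := a1_ne_a2 hr hd hμ
  have hN := Np_binom r d μ hr
  have hD := Dp_binom r d μ hr
  have cND := isCoprime_Np_Dp hr hd hq hμ
  have cN1 := isCoprime_lin_left_of_binom h12 (NA2_ne hr hq) hN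
  have cN2 := isCoprime_lin_right_of_binom h12 (NA1_ne hr hq) hN
  have cD1 := isCoprime_lin_left_of_binom h12 (c2_ne_zero hr hq) hD
  have cD2 := isCoprime_lin_right_of_binom h12 (neg_ne_zero.mpr (c1_ne_zero hr hq)) hD
  have hsq := famSq r d μ hr
  have h5 : IsUnit (5 : F[X]) := by
    have : (5 : F[X]) = C (5 : F) := (map_ofNat C 5).symm
    rw [this]
    exact isUnit_C.mpr (IsUnit.mk0 _ (by norm_num))
  have c4N : IsCoprime (Np d μ) (C4form (Np d μ) (Dp d μ)) := by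
    have e : C4form (Np d μ) (Dp d μ) = Dp d μ ^ 4 + Np d μ *
        (Np d μ ^ 3 - 12 * Np d μ ^ 2 * Dp d μ + 14 * Np d μ * Dp d μ ^ 2 + 12 * Dp d μ ^ 3) := by
      unfold C4form
      ring
    rw [e]
    exact (cND.pow_right).add_mul_left_right _
  have c4D : IsCoprime (Dp d μ) (C4form (Np d μ) (Dp d μ)) := by
    have e : C4form (Np d μ) (Dp d μ) = Np d μ ^ 4 + Dp d μ *
        (-12 * Np d μ ^ 3 + 14 * Np d μ ^ 2 * Dp d μ + 12 * Np d μ * Dp d μ ^ 2 + Dp d μ ^ 3) := by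
      unfold C4form
      ring
    rw [e]
    exact (cND.symm.pow_right).add_mul_left_right _
  have c41 : IsCoprime (lin (a1 r d μ)) (C4form (Np d μ) (Dp d μ)) := by
    have e : C4form (Np d μ) (Dp d μ) = 5 * Np d μ ^ 2 * Dp d μ ^ 2 + lin (a1 r d μ) *
        (C (d ^ 2 - 11 * d - 1) * lin (a1 r d μ) ^ 4 * lin (a2 r d μ) ^ 5
          * (Np d μ ^ 2 - Np d μ * Dp d μ - Dp d μ ^ 2)) := by
      rw [c4form_decomp, hsq]
      ring
    rw [e]
    exact (((isCoprime_mul_unit_left_right h5 _ _).2 cN1.symm.pow_right).mul_right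
      cD1.symm.pow_right).add_mul_left_right _
  have c42 : IsCoprime (lin (a2 r d μ)) (C4form (Np d μ) (Dp d μ)) := by
    have e : C4form (Np d μ) (Dp d μ) = 5 * Np d μ ^ 2 * Dp d μ ^ 2 + lin (a2 r d μ) *
        (C (d ^ 2 - 11 * d - 1) * lin (a1 r d μ) ^ 5 * lin (a2 r d μ) ^ 4
          * (Np d μ ^ 2 - Np d μ * Dp d μ - Dp d μ ^ 2)) := by
      rw [c4form_decomp, hsq]
      ring
    rw [e]
    exact (((isCoprime_mul_unit_left_right h5 _ _).2 cN2.symm.pow_right).mul_right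
      cD2.symm.pow_right).add_mul_left_right _
  unfold Gp
  exact IsCoprime.mul_left (IsCoprime.mul_left c4N c4D) (IsCoprime.mul_left c41 c42)

theorem Gp_disc (hr : r ^ 2 = 5) :
    C4form (Np d μ) (Dp d μ) ^ 3 - C6form (Np d μ) (Dp d μ) ^ 2
      = C (1728 * (d ^ 2 - 11 * d - 1)) * Gp r d μ ^ 5 := by
  rw [c4form_disc, famSq r d μ hr]
  unfold Gp
  simp only [map_mul, map_ofNat]
  ring

theorem natDegree_Gp_pos (hr : r ^ 2 = 5) (hd : d ≠ 0) (hq : d ^ 2 - 11 * d - 1 ≠ 0)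
    (hμ : μ ≠ 0) : 0 < (Gp r d μ).natDegree := by
  have hne : Gp r d μ ≠ 0 := (separable_Gp hr hd hq hμ).ne_zero
  have h12 := a1_ne_a2 hr hd hμ
  by_cases h1 : a1 r d μ = 0
  · have h2 : a2 r d μ ≠ 0 := fun h => h12 (h1.trans h.symm)
    refine natDegree_pos_of_eval_eq_zero hne (x := (a2 r d μ)⁻¹) ?_
    unfold Gp
    simp [eval_lin, mul_inv_cancel₀ h2]
  · refine natDegree_pos_of_eval_eq_zero hne (x := (a1 r d μ)⁻¹) ?_
    unfold Gp
    simp [eval_lin, mul_inv_cancel₀ h1]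

end Family

section Main

variable {F : Type*} [Field F] [IsAlgClosed F] [CharZero F]

omit [IsAlgClosed F] [CharZero F] in
theorem c4T_C (d : F) : c4T (C d : F[X]) = C (c4T d) := by
  simp only [c4T, map_add, map_sub, map_mul, map_pow, map_one, map_ofNat]

omit [IsAlgClosed F] [CharZero F] in
theorem c6T_C (d : F) : c6T (C d : F[X]) = C (c6T d) := by
  simp only [c6T, map_add, map_sub, map_mul, map_pow, map_one, map_ofNat, map_neg]

/-- **[Irr3-F]**: over an algebraically closed field of characteristic zero, the discriminant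
`fam4 ^ 3 - fam6 ^ 2` of the family through a curve with `c4 ^ 3 ≠ c6 ^ 2` is a nonzero constant
times the fifth power of a squarefree polynomial `G` of positive degree which is coprime to
`fam4`. (All finite poles of the `j`-invariant of the family have order exactly `5`.) -/
theorem fam_facts (c4 c6 : F) (h : c4 ^ 3 ≠ c6 ^ 2) :
    ∃ (G : F[X]) (δ : F), δ ≠ 0 ∧
      fam4 (C c4) (C c6) X ^ 3 - fam6 (C c4) (C c6) X ^ 2 = C δ * G ^ 5 ∧
      Squarefree G ∧ IsCoprime G (fam4 (C c4) (C c6) X) ∧ 0 < G.natDegree := by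
  have h2 : (2 : F) ≠ 0 := by norm_num
  have h3 : (3 : F) ≠ 0 := by norm_num
  have h5 : (5 : F) ≠ 0 := by norm_num
  obtain ⟨w, d, hw, hd, hq, e4, e6⟩ :
      ∃ w d : F, w ≠ 0 ∧ d ≠ 0 ∧ d ^ 2 - 11 * d - 1 ≠ 0 ∧ c4 = w ^ 4 * c4T d ∧
        c6 = w ^ 6 * c6T d :=
    Fermat.Agent.S52.TateParamB.exists_tate_param h2 h3 h5 c4 c6 h
  obtain ⟨r, hr⟩ := IsAlgClosed.exists_pow_nat_eq (5 : F) (n := 2) (by norm_num)
  have hμ : w ^ 2 ≠ 0 := pow_ne_zero 2 hw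
  have f4 : fam4 (C c4) (C c6) X = C (w ^ 4) * C4form (Np d (w ^ 2)) (Dp d (w ^ 2)) := by
    have e : (C c4 : F[X]) = (C w) ^ 4 * c4T (C d) := by
      rw [c4T_C, ← C_pow, ← C_mul, e4]
    have e' : (C c6 : F[X]) = (C w) ^ 6 * c6T (C d) := by
      rw [c6T_C, ← C_pow, ← C_mul, e6]
    rw [e, e', fam4_smul, fam4_tate]
    unfold Np Dp
    simp only [map_pow]
  have f6 : fam6 (C c4) (C c6) X = C (w ^ 6) * C6form (Np d (w ^ 2)) (Dp d (w ^ 2)) := by
    have e : (C c4 : F[X]) = (C w) ^ 4 * c4T (C d) := by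
      rw [c4T_C, ← C_pow, ← C_mul, e4]
    have e' : (C c6 : F[X]) = (C w) ^ 6 * c6T (C d) := by
      rw [c6T_C, ← C_pow, ← C_mul, e6]
    rw [e, e', fam6_smul, fam6_tate]
    unfold Np Dp
    simp only [map_pow]
  refine ⟨Gp r d (w ^ 2), w ^ 12 * (1728 * (d ^ 2 - 11 * d - 1)), ?_, ?_, ?_, ?_, ?_⟩
  · exact mul_ne_zero (pow_ne_zero 12 hw) (mul_ne_zero (by norm_num) hq)
  · have hdisc := Gp_disc (r := r) (d := d) (μ := w ^ 2) hr
    rw [f4, f6]
    rw [C_mul (a := w ^ 12)]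
    have e12 : (C (w ^ 12) : F[X]) = C (w ^ 4) ^ 3 := by rw [← C_pow, ← pow_mul]
    have e12' : (C (w ^ 12) : F[X]) = C (w ^ 6) ^ 2 := by rw [← C_pow, ← pow_mul]
    linear_combination (C (w ^ 12)) * hdisc
      - (C4form (Np d (w ^ 2)) (Dp d (w ^ 2))) ^ 3 * e12
      + (C6form (Np d (w ^ 2)) (Dp d (w ^ 2))) ^ 2 * e12'
  · exact (separable_Gp hr hd hq hμ).squarefree
  · rw [f4]
    have hu : IsUnit (C (w ^ 4) : F[X]) := isUnit_C.mpr (IsUnit.mk0 _ (pow_ne_zero 4 hw))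
    exact (isCoprime_mul_unit_left_right hu _ _).2 (isCoprime_Gp_C4form hr hd hq hμ)
  · exact natDegree_Gp_pos hr hd hq hμ

end Main

end Fermat.Agent.S52.Irr3F
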