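/-
S52 block [Irr3-Asm] (helper17): the `[Irr3]` deliverable for the 3–5 switch.

For every integral Weierstrass model `W` with `Δ ≠ 0` and every modulus `M ≠ 0` there is a
parameter `s ∈ M ℤ` such that EVERY integral model `W'` with invariants
`(c₄, c₆) = (fam4 c₄(W) c₆(W) s, fam6 c₄(W) c₆(W) s)` (helper74's 5-congruent family `TateFam`)
has `Δ ≠ 0` and irreducible mod-3 representation.

Inputs: `Irr3Fam.fam_facts` (all finite poles of `j` along the family have order exactly 5),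
helper23's `HITParam.exists_param` (p-adic Hilbert irreducibility + `Irr3Gen` + `Irr3Galois`).
-/
import Mathlib
import Fermat.Agent.S52.Irr3Fam
import Fermat.Agent.S52.HITParam

set_option autoImplicit false

namespace Fermat.Agent.S52.Irr3A

open Polynomial
open Fermat.Agent.S52.Tate

section Maps

variable {R S : Type*} [CommRing R] [CommRing S]

/-- `fam4` commutes with ring homomorphisms. -/
theorem map_fam4 (φ : R →+* S) (a b s : R) : φ (fam4 a b s) = fam4 (φ a) (φ b) (φ s) := by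
  simp only [fam4, fam4c0, fam4c1, fam4c2, fam4c3, fam4c4, fam4c5, fam4c6, fam4c7, fam4c8, fam4c9, fam4c10, fam4c11, fam4c12, fam4c13, fam4c14, fam4c15, fam4c16, fam4c17, fam4c18, fam4c19, fam4c20, map_add, map_sub, map_mul, map_pow, map_ofNat, map_neg]

/-- `fam6` commutes with ring homomorphisms. -/
theorem map_fam6 (φ : R →+* S) (a b s : R) : φ (fam6 a b s) = fam6 (φ a) (φ b) (φ s) := by
  simp only [fam6, fam6c0, fam6c1, fam6c2, fam6c3, fam6c4, fam6c5, fam6c6, fam6c7, fam6c8, fam6c9, fam6c10, fam6c11, fam6c12, fam6c13, fam6c14, fam6c15, fam6c16, fam6c17, fam6c18, fam6c19, fam6c20, fam6c21, fam6c22, fam6c23, fam6c24, fam6c25, fam6c26, fam6c27, fam6c28, fam6c29, fam6c30, map_add, map_sub, map_mul, map_pow, map_ofNat, map_neg]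

/-- The member at `s = 0` is the base curve. -/
theorem fam4_zero (a b : R) : fam4 a b 0 = a := by
  simp [fam4, fam4c0]

theorem fam6_zero (a b : R) : fam6 a b 0 = b := by
  simp [fam6, fam6c0]

/-- The members are congruent to the base curve modulo the parameter. -/
theorem dvd_fam4_sub (a b s : R) : s ∣ fam4 a b s - a := by
  refine ⟨fam4c1 a b + fam4c2 a b * s ^ 1 + fam4c3 a b * s ^ 2 + fam4c4 a b * s ^ 3 + fam4c5 a b * s ^ 4 + fam4c6 a b * s ^ 5 + fam4c7 a b * s ^ 6 + fam4c8 a b * s ^ 7 + fam4c9 a b * s ^ 8 + fam4c10 a b * s ^ 9 + fam4c11 a b * s ^ 10 + fam4c12 a b * s ^ 11 + fam4c13 a b * s ^ 12 + fam4c14 a b * s ^ 13 + fam4c15 a b * s ^ 14 + fam4c16 a b * s ^ 15 + fam4c17 a b * s ^ 16 + fam4c18 a b * s ^ 17 + fam4c19 a b * s ^ 18 + fam4c20 a b * s ^ 19, ?_⟩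
  simp only [fam4, fam4c0]
  ring

theorem dvd_fam6_sub (a b s : R) : s ∣ fam6 a b s - b := by
  refine ⟨fam6c1 a b + fam6c2 a b * s ^ 1 + fam6c3 a b * s ^ 2 + fam6c4 a b * s ^ 3 + fam6c5 a b * s ^ 4 + fam6c6 a b * s ^ 5 + fam6c7 a b * s ^ 6 + fam6c8 a b * s ^ 7 + fam6c9 a b * s ^ 8 + fam6c10 a b * s ^ 9 + fam6c11 a b * s ^ 10 + fam6c12 a b * s ^ 11 + fam6c13 a b * s ^ 12 + fam6c14 a b * s ^ 13 + fam6c15 a b * s ^ 14 + fam6c16 a b * s ^ 15 + fam6c17 a b * s ^ 16 + fam6c18 a b * s ^ 17 + fam6c19 a b * s ^ 18 + fam6c20 a b * s ^ 19 + fam6c21 a b * s ^ 20 + fam6c22 a b * s ^ 21 + fam6c23 a b * s ^ 22 + fam6c24 a b * s ^ 23 + fam6c25 a b * s ^ 24 + fam6c26 a b * s ^ 25 + fam6c27 a b * s ^ 26 + fam6c28 a b * s ^ 27 + fam6c29 a b * s ^ 28 + fam6c30 a b * s ^ 29, ?_⟩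
  simp only [fam6, fam6c0]
  ring

end Maps

/-- **[Irr3-Asm]**: a member of the family, with parameter in a prescribed ideal `M ℤ`, all of
whose integral models have nonzero discriminant and irreducible mod-3 representation. -/
theorem exists_param (W : WeierstrassCurve ℤ) (hΔ : W.Δ ≠ 0) (M : ℤ) (hM : M ≠ 0) :
    ∃ s : ℤ, M ∣ s ∧ ∀ W' : WeierstrassCurve ℤ, W'.c₄ = fam4 W.c₄ W.c₆ s →
      W'.c₆ = fam6 W.c₄ W.c₆ s → W'.Δ ≠ 0 ∧ W'.ModRepIsIrreducible 3 := by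
  have hrel : W.c₄ ^ 3 ≠ W.c₆ ^ 2 := by
    intro h
    have hc := W.c_relation
    rw [h, sub_self] at hc
    exact hΔ (by simpa using hc)
  have hne : ((W.c₄ : ℤ) : AlgebraicClosure ℚ) ^ 3 ≠ ((W.c₆ : ℤ) : AlgebraicClosure ℚ) ^ 2 := by
    intro h
    exact hrel (by exact_mod_cast h)
  obtain ⟨G, δ, hδ, hD, hG, hGA, hdeg⟩ :=
    Irr3F.fam_facts ((W.c₄ : ℤ) : AlgebraicClosure ℚ) ((W.c₆ : ℤ) : AlgebraicClosure ℚ) hne
  have m4 : (fam4 (C W.c₄) (C W.c₆) X : ℤ[X]).map (Int.castRingHom (AlgebraicClosure ℚ))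
      = fam4 (C ((W.c₄ : ℤ) : AlgebraicClosure ℚ)) (C ((W.c₆ : ℤ) : AlgebraicClosure ℚ)) X := by
    have h := map_fam4 (mapRingHom (Int.castRingHom (AlgebraicClosure ℚ))) (C W.c₄) (C W.c₆) X
    simpa using h
  have m6 : (fam6 (C W.c₄) (C W.c₆) X : ℤ[X]).map (Int.castRingHom (AlgebraicClosure ℚ))
      = fam6 (C ((W.c₄ : ℤ) : AlgebraicClosure ℚ)) (C ((W.c₆ : ℤ) : AlgebraicClosure ℚ)) X := by
    have h := map_fam6 (mapRingHom (Int.castRingHom (AlgebraicClosure ℚ))) (C W.c₄) (C W.c₆) X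
    simpa using h
  have e4 : ∀ s : ℤ, (fam4 (C W.c₄) (C W.c₆) X : ℤ[X]).eval s = fam4 W.c₄ W.c₆ s := fun s => by
    have h := map_fam4 (evalRingHom s) (C W.c₄) (C W.c₆) X
    simpa using h
  have e6 : ∀ s : ℤ, (fam6 (C W.c₄) (C W.c₆) X : ℤ[X]).eval s = fam6 W.c₄ W.c₆ s := fun s => by
    have h := map_fam6 (evalRingHom s) (C W.c₄) (C W.c₆) X
    simpa using h
  obtain ⟨s, hs, h⟩ := HITParam.exists_param (fam4 (C W.c₄) (C W.c₆) X) (fam6 (C W.c₄) (C W.c₆) X)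
    G δ hδ (by rw [m4, m6]; exact hD) hG (by rw [m4]; exact hGA) hdeg
    (by rw [e4, e6, fam4_zero, fam6_zero]; exact hrel) M hM
  exact ⟨s, hs, fun W' h4 h6 => h W' (by rw [h4, e4]) (by rw [h6, e6])⟩

/-- The same with the congruences `M ∣ fam4 - c₄`, `M ∣ fam6 - c₆` made explicit (the shape
consumed by the `[Glue]` block). -/
theorem exists_invariants (W : WeierstrassCurve ℤ) (hΔ : W.Δ ≠ 0) (M : ℤ) (hM : M ≠ 0) :
    ∃ s : ℤ, M ∣ s ∧ M ∣ fam4 W.c₄ W.c₆ s - W.c₄ ∧ M ∣ fam6 W.c₄ W.c₆ s - W.c₆ ∧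
      ∀ W' : WeierstrassCurve ℤ, W'.c₄ = fam4 W.c₄ W.c₆ s →
        W'.c₆ = fam6 W.c₄ W.c₆ s → W'.Δ ≠ 0 ∧ W'.ModRepIsIrreducible 3 := by
  obtain ⟨s, hs, h⟩ := exists_param W hΔ M hM
  exact ⟨s, hs, hs.trans (dvd_fam4_sub _ _ _), hs.trans (dvd_fam6_sub _ _ _), h⟩

end Fermat.Agent.S52.Irr3A
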