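import Mathlib
import Fermat.Agent.S52.TateFam
import Fermat.Agent.S52.TateParamB

/-!
# S52 / Tate parameters for the 5-congruent family

* ring identities for helper74's `Tate.fam4`, `Tate.fam6`, `Tate.famN`, `Tate.famD`
  (isobaric scaling, discriminant forms, the `√5`-factorisation of `2 N - (11 ± 5√5) D`,
  compatibility with ring homomorphisms);
* `exists_tate_param` : over an algebraically closed field with `2, 3, 5 ≠ 0`, every pair
  `(a, b)` with `a ^ 3 ≠ b ^ 2` is `(w ^ 4 * c4T d, w ^ 6 * c6T d)` with `w ≠ 0`,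
  `d ≠ 0`, `d ^ 2 - 11 d - 1 ≠ 0` (restatement of `TateParamB.exists_tate_param` with
  `Tate.c4T`, `Tate.c6T`).
-/

namespace Fermat.Agent.S52.TateParam

open Fermat.Agent.S52.Tate

section Ring

variable {R : Type*} [CommRing R]

/-- Isobaric scaling of the `c4`-polynomial of the family. -/
theorem fam4_smul (w a b s : R) :
    fam4 (w ^ 4 * a) (w ^ 6 * b) s = w ^ 4 * fam4 a b (w ^ 2 * s) := by
  unfold fam4 fam4c0 fam4c1 fam4c2 fam4c3 fam4c4 fam4c5 fam4c6 fam4c7 fam4c8 fam4c9 fam4c10 fam4c11 fam4c12 fam4c13 fam4c14 fam4c15 fam4c16 fam4c17 fam4c18 fam4c19 fam4c20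
  ring

set_option maxHeartbeats 1600000 in
/-- Isobaric scaling of the `c6`-polynomial of the family. -/
theorem fam6_smul (w a b s : R) :
    fam6 (w ^ 4 * a) (w ^ 6 * b) s = w ^ 6 * fam6 a b (w ^ 2 * s) := by
  unfold fam6 fam6c0 fam6c1 fam6c2 fam6c3 fam6c4 fam6c5 fam6c6 fam6c7 fam6c8 fam6c9 fam6c10 fam6c11 fam6c12 fam6c13 fam6c14 fam6c15 fam6c16 fam6c17 fam6c18 fam6c19 fam6c20 fam6c21 fam6c22 fam6c23 fam6c24 fam6c25 fam6c26 fam6c27 fam6c28 fam6c29 fam6c30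
  ring

theorem C4form_cube_sub (n m : R) :
    C4form n m ^ 3 - C6form n m ^ 2 = 1728 * n ^ 5 * m ^ 5 * (n ^ 2 - 11 * n * m - m ^ 2) := by
  unfold C4form C6form
  ring

theorem c4T_cube_sub (d : R) :
    c4T d ^ 3 - c6T d ^ 2 = 1728 * (d ^ 5 * (d ^ 2 - 11 * d - 1)) := by
  unfold c4T c6T
  ring

theorem C4form_zero_left (m : R) : C4form 0 m = m ^ 4 := by
  unfold C4form
  ring

theorem C4form_zero_right (n : R) : C4form n 0 = n ^ 4 := by
  unfold C4form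
  ring

theorem C4form_smul (c n m : R) : C4form (c * n) (c * m) = c ^ 4 * C4form n m := by
  unfold C4form
  ring

/-- On the cusp line `2 N = (11 + 5 √5) D` the `c4`-form is a unit multiple of `D ^ 4`. -/
theorem C4form_cusp (r : R) (hr : r ^ 2 = 5) :
    C4form (11 + 5 * r) 2 * (246 - 110 * r) = 320 := by
  unfold C4form
  linear_combination (-68750 * r ^ 3 - 121250 * r ^ 2 + 298750 * r + 465250) * hr

/-- The `√5`-factorisation: `2 N - (11 + 5 √5) D = (2 d - 11 - 5 √5) (1 - s (d² + 1 + 6 √5 d))⁵`. -/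
theorem two_famN_sub (d s r : R) (hr : r ^ 2 = 5) :
    2 * famN d s - (11 + 5 * r) * famD d s =
      (2 * d - 11 - 5 * r) * (1 - s * (d ^ 2 + 1 + 6 * r * d)) ^ 5 := by
  unfold famN famD famNc0 famNc1 famNc2 famNc3 famNc4 famNc5 famDc0 famDc1 famDc2 famDc3 famDc4 famDc5
  linear_combination (-150*d*s + 600*d*s^2 + 3960*d^2*s^2 + 1800*d^2*s^2*r - 120*d^3*s^2 - 900*d*s^3 - 11880*d^2*s^3 - 5400*d^2*s^3*r - 53640*d^3*s^3 - 23760*d^3*s^3*r - 10800*d^3*s^3*r^2 - 11880*d^4*s^3 - 1080*d^4*s^3*r + 1260*d^5*s^3 + 600*d*s^4 + 11880*d^2*s^4 + 5400*d^2*s^4*r + 107640*d^3*s^4 + 47520*d^3*s^4*r + 21600*d^3*s^4*r^2 + 380160*d^4*s^4 + 164160*d^4*s^4*r + 71280*d^4*s^4*r^2 + 32400*d^4*s^4*r^3 + 40680*d^5*s^4 + 47520*d^5*s^4*r + 8640*d^5*s^4*r^2 + 11880*d^6*s^4 - 3240*d^6*s^4*r - 1560*d^7*s^4 - 150*d*s^5 - 3960*d^2*s^5 - 1800*d^2*s^5*r - 53880*d^3*s^5 - 23760*d^3*s^5*r - 10800*d^3*s^5*r^2 - 368280*d^4*s^5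 - 163080*d^4*s^5*r - 71280*d^4*s^5*r^2 - 32400*d^4*s^5*r^3 - 1013940*d^5*s^5 - 475200*d^5*s^5*r - 203040*d^5*s^5*r^2 - 85536*d^5*s^5*r^3 - 38880*d^5*s^5*r^4 - 368280*d^6*s^5 - 81000*d^6*s^5*r - 71280*d^6*s^5*r^2 - 16848*d^6*s^5*r^3 + 12360*d^7*s^5 - 23760*d^7*s^5*r + 2160*d^7*s^5*r^2 - 3960*d^8*s^5 + 2520*d^8*s^5*r + 570*d^9*s^5) * hr

/-- `c4T d = 5 d ^ 2` modulo `d ^ 2 - 11 d - 1`. -/
theorem c4T_eq (d : R) : c4T d = 5 * d ^ 2 + (d ^ 2 - 11 * d - 1) * (d ^ 2 - d - 1) := by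
  unfold c4T
  ring

end Ring

section Map

variable {R S : Type*} [CommRing R] [CommRing S]

theorem map_fam4 (f : R →+* S) (a b s : R) : f (fam4 a b s) = fam4 (f a) (f b) (f s) := by
  simp only [fam4, fam4c0, fam4c1, fam4c2, fam4c3, fam4c4, fam4c5, fam4c6, fam4c7, fam4c8, fam4c9, fam4c10, fam4c11, fam4c12, fam4c13, fam4c14, fam4c15, fam4c16, fam4c17, fam4c18, fam4c19, fam4c20, map_add, map_sub, map_mul, map_pow,
    map_neg, map_ofNat]

theorem map_fam6 (f : R →+* S) (a b s : R) : f (fam6 a b s) = fam6 (f a) (f b) (f s) := by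
  simp only [fam6, fam6c0, fam6c1, fam6c2, fam6c3, fam6c4, fam6c5, fam6c6, fam6c7, fam6c8, fam6c9, fam6c10, fam6c11, fam6c12, fam6c13, fam6c14, fam6c15, fam6c16, fam6c17, fam6c18, fam6c19, fam6c20, fam6c21, fam6c22, fam6c23, fam6c24, fam6c25, fam6c26, fam6c27, fam6c28, fam6c29, fam6c30, map_add, map_sub, map_mul, map_pow,
    map_neg, map_ofNat]

end Map

section Param

variable {k : Type*} [Field k] [IsAlgClosed k]

/-- **Tate parameters.** Over an algebraically closed field with `2, 3, 5 ≠ 0` every pair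
`(a, b)` with `a ^ 3 ≠ b ^ 2` is of the form `(w ^ 4 * c4T d, w ^ 6 * c6T d)`. -/
theorem exists_tate_param (h2 : (2 : k) ≠ 0) (h3 : (3 : k) ≠ 0) (h5 : (5 : k) ≠ 0) (a b : k)
    (hab : a ^ 3 ≠ b ^ 2) :
    ∃ w d : k, w ≠ 0 ∧ d ≠ 0 ∧ d ^ 2 - 11 * d - 1 ≠ 0 ∧ a = w ^ 4 * c4T d ∧ b = w ^ 6 * c6T d :=
  TateParamB.exists_tate_param h2 h3 h5 a b hab

end Param

end Fermat.Agent.S52.TateParam
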