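import Mathlib
import Fermat.Agent.S52.TateParam
import Fermat.Agent.S52.TateFamId

/-!
# S52, block [SS]: semistability of the members of the 5-congruent family

Over any field `k` with `2, 3, 5 ≠ 0`, if `a ^ 3 ≠ b ^ 2` then the member with parameter `s`
of the family never has `(c4, c6) = (0, 0)`:
`Tate.fam4 a b s ≠ 0 ∨ Tate.fam6 a b s ≠ 0` (`fam_ne_zero`).

Consequently (`not_dvd_fam4`, `semistable_away`) an integral member is semistable at every prime
`r ∉ {2, 3, 5}` not dividing the discriminant of the base curve.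
-/

namespace Fermat.Agent.S52.SSFam

open Fermat.Agent.S52.Tate

section Field

variable {k : Type*} [Field k]

/-- On the cusp line `2 N = (11 + 5 r) D` (`r ^ 2 = 5`), `C4form N D = 0` forces `N = D = 0`. -/
theorem eq_zero_of_cusp (h2 : (2 : k) ≠ 0) (h5 : (5 : k) ≠ 0) (r N D : k) (hr : r ^ 2 = 5)
    (hE : 2 * N - (11 + 5 * r) * D = 0) (hC : C4form N D = 0) : N = 0 ∧ D = 0 := by
  have h320 : (320 : k) ≠ 0 := by
    have : (320 : k) = 2 ^ 6 * 5 := by norm_num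
    rw [this]
    exact mul_ne_zero (pow_ne_zero _ h2) h5
  have hEN : 2 * N = (11 + 5 * r) * D := by linear_combination hE
  have h1 : C4form (2 * N) (2 * D) = 0 := by rw [TateParam.C4form_smul, hC, mul_zero]
  have h2' : C4form ((11 + 5 * r) * D) (2 * D) = D ^ 4 * C4form (11 + 5 * r) 2 := by
    rw [mul_comm (11 + 5 * r) D, mul_comm 2 D, TateParam.C4form_smul]
  have h3 : 320 * D ^ 4 = 0 := by
    have := TateParam.C4form_cusp r hr
    rw [hEN, h2'] at h1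
    linear_combination (246 - 110 * r) * h1 - D ^ 4 * this
  have hD : D = 0 := by
    rcases mul_eq_zero.mp h3 with h | h
    · exact absurd h h320
    · exact (pow_eq_zero_iff (by norm_num)).mp h
  refine ⟨?_, hD⟩
  rw [hD, mul_zero] at hEN
  rcases mul_eq_zero.mp hEN with h | h
  · exact absurd h h2
  · exact h

/-- `C4form N D = C6form N D = 0` forces `N = D = 0` (characteristic `≠ 2, 3, 5`, given `√5`). -/
theorem eq_zero_of_forms (h2 : (2 : k) ≠ 0) (h3 : (3 : k) ≠ 0) (h5 : (5 : k) ≠ 0) (r N D : k)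
    (hr : r ^ 2 = 5) (hC4 : C4form N D = 0) (hC6 : C6form N D = 0) : N = 0 ∧ D = 0 := by
  have h1728 : (1728 : k) ≠ 0 := by
    have : (1728 : k) = 2 ^ 6 * 3 ^ 3 := by norm_num
    rw [this]
    exact mul_ne_zero (pow_ne_zero _ h2) (pow_ne_zero _ h3)
  have hprod : 1728 * N ^ 5 * D ^ 5 * (N ^ 2 - 11 * N * D - D ^ 2) = 0 := by
    rw [← TateParam.C4form_cube_sub, hC4, hC6]
    ring
  rcases mul_eq_zero.mp hprod with h | h
  · rcases mul_eq_zero.mp h with h | h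
    · rcases mul_eq_zero.mp h with h | h
      · exact absurd h h1728
      · have hN : N = 0 := (pow_eq_zero_iff (by norm_num)).mp h
        have hD4 : D ^ 4 = 0 := by
          have e := hC4
          rw [hN, TateParam.C4form_zero_left] at e
          exact e
        exact ⟨hN, (pow_eq_zero_iff (by norm_num)).mp hD4⟩
    · have hD : D = 0 := (pow_eq_zero_iff (by norm_num)).mp h
      have hN4 : N ^ 4 = 0 := by
        have e := hC4
        rw [hD, TateParam.C4form_zero_right] at e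
        exact e
      exact ⟨(pow_eq_zero_iff (by norm_num)).mp hN4, hD⟩
  · have hfac : (2 * N - (11 + 5 * r) * D) * (2 * N - (11 + 5 * (-r)) * D) = 0 := by
      linear_combination 4 * h - 25 * D ^ 2 * hr
    rcases mul_eq_zero.mp hfac with hE | hE
    · exact eq_zero_of_cusp h2 h5 r N D hr hE hC4
    · exact eq_zero_of_cusp h2 h5 (-r) N D (by rw [neg_sq]; exact hr) hE hC4

/-- `famN d s` and `famD d s` never vanish simultaneously. -/
theorem famN_famD_ne_zero (h2 : (2 : k) ≠ 0) (h3 : (3 : k) ≠ 0) (h5 : (5 : k) ≠ 0) (r d s : k)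
    (hr : r ^ 2 = 5) (hd : d ≠ 0) (hq : d ^ 2 - 11 * d - 1 ≠ 0) :
    ¬ (famN d s = 0 ∧ famD d s = 0) := by
  rintro ⟨hN, hD⟩
  have hr0 : r ≠ 0 := by
    rintro rfl
    apply h5
    rw [← hr]
    ring
  have t1 := TateParam.two_famN_sub d s r hr
  have t2 := TateParam.two_famN_sub d s (-r) (by rw [neg_sq]; exact hr)
  rw [hN, hD] at t1 t2
  have hfac : (2 * d - 11 - 5 * r) * (2 * d - 11 - 5 * (-r)) = 4 * (d ^ 2 - 11 * d - 1) := by
    linear_combination (-25 : k) * hr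
  have hfac0 : (2 * d - 11 - 5 * r) * (2 * d - 11 - 5 * (-r)) ≠ 0 := by
    rw [hfac]
    have h4 : (4 : k) ≠ 0 := by
      have : (4 : k) = 2 ^ 2 := by norm_num
      rw [this]
      exact pow_ne_zero _ h2
    exact mul_ne_zero h4 hq
  have hf1 : 2 * d - 11 - 5 * r ≠ 0 := left_ne_zero_of_mul hfac0
  have hf2 : 2 * d - 11 - 5 * (-r) ≠ 0 := right_ne_zero_of_mul hfac0
  have hL1 : 1 - s * (d ^ 2 + 1 + 6 * r * d) = 0 := by
    have h : (2 * d - 11 - 5 * r) * (1 - s * (d ^ 2 + 1 + 6 * r * d)) ^ 5 = 0 := by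
      rw [← t1]; ring
    rcases mul_eq_zero.mp h with h | h
    · exact absurd h hf1
    · exact (pow_eq_zero_iff (by norm_num)).mp h
  have hL2 : 1 - s * (d ^ 2 + 1 + 6 * (-r) * d) = 0 := by
    have h : (2 * d - 11 - 5 * (-r)) * (1 - s * (d ^ 2 + 1 + 6 * (-r) * d)) ^ 5 = 0 := by
      rw [← t2]; ring
    rcases mul_eq_zero.mp h with h | h
    · exact absurd h hf2
    · exact (pow_eq_zero_iff (by norm_num)).mp h
  have hs : s * (12 * r * d) = 0 := by linear_combination hL2 - hL1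
  have h12 : (12 : k) ≠ 0 := by
    have : (12 : k) = 2 ^ 2 * 3 := by norm_num
    rw [this]
    exact mul_ne_zero (pow_ne_zero _ h2) h3
  have hs0 : s = 0 := by
    rcases mul_eq_zero.mp hs with h | h
    · exact h
    · exact absurd h (mul_ne_zero (mul_ne_zero h12 hr0) hd)
  rw [hs0] at hL1
  have : (1 : k) = 0 := by linear_combination hL1
  exact one_ne_zero this

/-- **The family never hits `(c4, c6) = (0, 0)`**, algebraically closed case. -/
theorem fam_ne_zero_of_isAlgClosed [IsAlgClosed k] (h2 : (2 : k) ≠ 0) (h3 : (3 : k) ≠ 0)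
    (h5 : (5 : k) ≠ 0) (a b s : k) (hab : a ^ 3 ≠ b ^ 2) :
    fam4 a b s ≠ 0 ∨ fam6 a b s ≠ 0 := by
  obtain ⟨w, d, hw, hd, hq, ha, hb⟩ := TateParam.exists_tate_param h2 h3 h5 a b hab
  obtain ⟨r, hr⟩ : ∃ r : k, r ^ 2 = 5 := IsAlgClosed.exists_pow_nat_eq 5 (by norm_num)
  by_contra hcon
  obtain ⟨h4', h6'⟩ := not_or.mp hcon
  have h4 := not_not.mp h4'
  have h6 := not_not.mp h6'
  have e4 : fam4 a b s = w ^ 4 * C4form (famN d (w ^ 2 * s)) (famD d (w ^ 2 * s)) := by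
    rw [ha, hb, TateParam.fam4_smul, Tate.fam4_tate]
  have e6 : fam6 a b s = w ^ 6 * C6form (famN d (w ^ 2 * s)) (famD d (w ^ 2 * s)) := by
    rw [ha, hb, TateParam.fam6_smul, Tate.fam6_tate]
  have hC4 : C4form (famN d (w ^ 2 * s)) (famD d (w ^ 2 * s)) = 0 := by
    rw [e4] at h4
    exact (mul_eq_zero.mp h4).resolve_left (pow_ne_zero 4 hw)
  have hC6 : C6form (famN d (w ^ 2 * s)) (famD d (w ^ 2 * s)) = 0 := by
    rw [e6] at h6
    exact (mul_eq_zero.mp h6).resolve_left (pow_ne_zero 6 hw)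
  exact famN_famD_ne_zero h2 h3 h5 r d (w ^ 2 * s) hr hd hq
    (eq_zero_of_forms h2 h3 h5 r _ _ hr hC4 hC6)

/-- **The family never hits `(c4, c6) = (0, 0)`**: over any field with `2, 3, 5 ≠ 0`, if
`a ^ 3 ≠ b ^ 2` then `fam4 a b s` and `fam6 a b s` do not vanish simultaneously. -/
theorem fam_ne_zero (h2 : (2 : k) ≠ 0) (h3 : (3 : k) ≠ 0) (h5 : (5 : k) ≠ 0) (a b s : k)
    (hab : a ^ 3 ≠ b ^ 2) : fam4 a b s ≠ 0 ∨ fam6 a b s ≠ 0 := by
  set f : k →+* AlgebraicClosure k := algebraMap k (AlgebraicClosure k) with hf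
  have hinj : Function.Injective f := (algebraMap k (AlgebraicClosure k)).injective
  have hn : ∀ n : ℕ, (n : k) ≠ 0 → (n : AlgebraicClosure k) ≠ 0 := by
    intro n hn h
    apply hn
    apply hinj
    rw [map_natCast, h, map_zero]
  have h2' : (2 : AlgebraicClosure k) ≠ 0 := by exact_mod_cast hn 2 (by exact_mod_cast h2)
  have h3' : (3 : AlgebraicClosure k) ≠ 0 := by exact_mod_cast hn 3 (by exact_mod_cast h3)
  have h5' : (5 : AlgebraicClosure k) ≠ 0 := by exact_mod_cast hn 5 (by exact_mod_cast h5)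
  have hab' : f a ^ 3 ≠ f b ^ 2 := by
    intro h
    apply hab
    apply hinj
    rw [map_pow, map_pow, h]
  rcases fam_ne_zero_of_isAlgClosed h2' h3' h5' (f a) (f b) (f s) hab' with h | h
  · left
    intro h0
    apply h
    rw [← TateParam.map_fam4, h0, map_zero]
  · right
    intro h0
    apply h
    rw [← TateParam.map_fam6, h0, map_zero]

end Field

section Int

/-- **[SS], integral form.** If the prime `r ∉ {2, 3, 5}` does not divide `c4 ^ 3 - c6 ^ 2`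
(`= 1728 Δ` of the base curve) but divides `fam4 ^ 3 - fam6 ^ 2` (`= 1728 Δ` of the member),
then it does not divide `fam4` (`= c4` of the member). -/
theorem not_dvd_fam4 (c4 c6 t : ℤ) (r : ℕ) (hr : r.Prime) (hr2 : r ≠ 2) (hr3 : r ≠ 3)
    (hr5 : r ≠ 5) (hΔ : ¬ (r : ℤ) ∣ c4 ^ 3 - c6 ^ 2)
    (h : (r : ℤ) ∣ (fam4 c4 c6 t) ^ 3 - (fam6 c4 c6 t) ^ 2) : ¬ (r : ℤ) ∣ fam4 c4 c6 t := by
  intro h4
  have : Fact r.Prime := ⟨hr⟩
  have hp : Prime (r : ℤ) := Nat.prime_iff_prime_int.mp hr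
  have h6 : (r : ℤ) ∣ fam6 c4 c6 t := by
    have h62 : (r : ℤ) ∣ (fam6 c4 c6 t) ^ 2 := by
      have e : (fam6 c4 c6 t) ^ 2 =
          (fam4 c4 c6 t) ^ 3 - ((fam4 c4 c6 t) ^ 3 - (fam6 c4 c6 t) ^ 2) := by ring
      rw [e]
      exact dvd_sub (dvd_pow h4 (by norm_num)) h
    exact hp.dvd_of_dvd_pow h62
  have hne : ∀ q : ℕ, q.Prime → r ≠ q → (q : ZMod r) ≠ 0 := by
    intro q hq hrq h0
    rw [ZMod.natCast_eq_zero_iff] at h0
    exact hrq ((Nat.prime_dvd_prime_iff_eq hr hq).mp h0)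
  have h2 : (2 : ZMod r) ≠ 0 := by exact_mod_cast hne 2 Nat.prime_two hr2
  have h3 : (3 : ZMod r) ≠ 0 := by exact_mod_cast hne 3 Nat.prime_three hr3
  have h5 : (5 : ZMod r) ≠ 0 := by exact_mod_cast hne 5 Nat.prime_five hr5
  have hab : ((c4 : ℤ) : ZMod r) ^ 3 ≠ ((c6 : ℤ) : ZMod r) ^ 2 := by
    intro hEq
    apply hΔ
    rw [← ZMod.intCast_zmod_eq_zero_iff_dvd]
    push_cast
    rw [hEq, sub_self]
  have e4 : ((fam4 c4 c6 t : ℤ) : ZMod r) = fam4 (c4 : ZMod r) (c6 : ZMod r) (t : ZMod r) :=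
    TateParam.map_fam4 (Int.castRingHom (ZMod r)) c4 c6 t
  have e6 : ((fam6 c4 c6 t : ℤ) : ZMod r) = fam6 (c4 : ZMod r) (c6 : ZMod r) (t : ZMod r) :=
    TateParam.map_fam6 (Int.castRingHom (ZMod r)) c4 c6 t
  rcases fam_ne_zero h2 h3 h5 (c4 : ZMod r) (c6 : ZMod r) (t : ZMod r) hab with h0 | h0
  · apply h0
    rw [← e4]
    exact (ZMod.intCast_zmod_eq_zero_iff_dvd _ _).mpr h4
  · apply h0
    rw [← e6]
    exact (ZMod.intCast_zmod_eq_zero_iff_dvd _ _).mpr h6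

/-- **[SS], model form** (shape used with `Model.exists_model_package`): if `W'` has the
invariants of the member with parameter `t` of the family attached to `W`, then `W'` is
semistable at every prime not dividing `30 Δ_W`. -/
theorem semistable_away (W W' : WeierstrassCurve ℤ) (t : ℤ)
    (h4 : W'.c₄ = fam4 W.c₄ W.c₆ t) (h6 : W'.c₆ = fam6 W.c₄ W.c₆ t) :
    ∀ ℓ : ℕ, ℓ.Prime → ¬ (ℓ : ℤ) ∣ 30 * W.Δ → (ℓ : ℤ) ∣ W'.Δ → ¬ (ℓ : ℤ) ∣ W'.c₄ := by
  intro ℓ hℓ hN hΔ'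
  have hp : Prime (ℓ : ℤ) := Nat.prime_iff_prime_int.mp hℓ
  have hne : ∀ q : ℕ, q ∣ 30 → ℓ ≠ q := by
    rintro q hq rfl
    apply hN
    exact Dvd.dvd.mul_right (by exact_mod_cast hq) _
  have hℓ2 : ℓ ≠ 2 := hne 2 (by norm_num)
  have hℓ3 : ℓ ≠ 3 := hne 3 (by norm_num)
  have hℓ5 : ℓ ≠ 5 := hne 5 (by norm_num)
  have hΔW : ¬ (ℓ : ℤ) ∣ W.Δ := fun h => hN (Dvd.dvd.mul_left h _)
  have h1728 : ¬ (ℓ : ℤ) ∣ 1728 := by
    intro h
    have e : (1728 : ℤ) = 2 ^ 6 * 3 ^ 3 := by norm_num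
    rw [e] at h
    rcases hp.dvd_or_dvd h with h | h
    · have := hp.dvd_of_dvd_pow h
      have h' : ℓ ∣ 2 := by exact_mod_cast this
      exact hℓ2 ((Nat.prime_dvd_prime_iff_eq hℓ Nat.prime_two).mp h')
    · have := hp.dvd_of_dvd_pow h
      have h' : ℓ ∣ 3 := by exact_mod_cast this
      exact hℓ3 ((Nat.prime_dvd_prime_iff_eq hℓ Nat.prime_three).mp h')
  have hrel : ¬ (ℓ : ℤ) ∣ W.c₄ ^ 3 - W.c₆ ^ 2 := by
    rw [← W.c_relation]
    intro h
    rcases hp.dvd_or_dvd h with h | h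
    · exact h1728 h
    · exact hΔW h
  have hrel' : (ℓ : ℤ) ∣ (fam4 W.c₄ W.c₆ t) ^ 3 - (fam6 W.c₄ W.c₆ t) ^ 2 := by
    rw [← h4, ← h6, ← W'.c_relation]
    exact Dvd.dvd.mul_left hΔ' _
  rw [h4]
  exact not_dvd_fam4 W.c₄ W.c₆ t ℓ hℓ hℓ2 hℓ3 hℓ5 hrel hrel'

end Int

end Fermat.Agent.S52.SSFam
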