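import Mathlib
import Fermat.Agent.S05.FormalGroup
import Fermat.Agent.S05.Reduction
import Fermat.Agent.S13.AddE1Close

/-!
# S52, block [Br], part 1: reduction of torsion points modulo a valuation subring

Setting: a field `K`, a valuation subring `A` with residue field `κ`, a Weierstrass curve `W`
over `K` with coefficients in `A` and a Weierstrass curve `Wk` over `κ` which is its
coefficientwise reduction and is nonsingular (`Wk.Δ ≠ 0`).

For a subgroup `T` of `W(K)` meeting the kernel of reduction trivially (e.g. the `n`-torsion for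
`n` a unit of `A`) we construct the reduction map `T → Wk(κ)` and prove that it is additive and
injective.  No general "reduction is a homomorphism" statement is needed: on `T` all chord and
tangent formulas reduce, the degenerate cases being excluded by `F2_inE1` of the S05 library.
-/

set_option autoImplicit false

namespace Fermat.Agent.S52.Bridge

open WeierstrassCurve Fermat.Agent.S05

variable {K : Type*} [Field K]

/-- The residue of an element of `K` modulo the maximal ideal of `A` (`0` outside `A`). -/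
noncomputable def res (A : ValuationSubring K) (x : K) : IsLocalRing.ResidueField A :=
  open Classical in if h : x ∈ A then IsLocalRing.residue A ⟨x, h⟩ else 0

theorem res_of_mem (A : ValuationSubring K) {x : K} (h : x ∈ A) :
    res A x = IsLocalRing.residue A ⟨x, h⟩ := by
  unfold res
  rw [dif_pos h]

theorem res_add (A : ValuationSubring K) {x y : K} (hx : x ∈ A) (hy : y ∈ A) :
    res A (x + y) = res A x + res A y := by
  rw [res_of_mem A hx, res_of_mem A hy, res_of_mem A (add_mem hx hy), ← map_add]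
  rfl

theorem res_mul (A : ValuationSubring K) {x y : K} (hx : x ∈ A) (hy : y ∈ A) :
    res A (x * y) = res A x * res A y := by
  rw [res_of_mem A hx, res_of_mem A hy, res_of_mem A (mul_mem hx hy), ← map_mul]
  rfl

theorem res_neg (A : ValuationSubring K) {x : K} (hx : x ∈ A) :
    res A (-x) = -res A x := by
  rw [res_of_mem A hx, res_of_mem A (neg_mem hx), ← map_neg]
  rfl

theorem res_sub (A : ValuationSubring K) {x y : K} (hx : x ∈ A) (hy : y ∈ A) :
    res A (x - y) = res A x - res A y := by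
  rw [res_of_mem A hx, res_of_mem A hy, res_of_mem A (sub_mem hx hy), ← map_sub]
  rfl

theorem res_pow (A : ValuationSubring K) {x : K} (hx : x ∈ A) (n : ℕ) :
    res A (x ^ n) = res A x ^ n := by
  rw [res_of_mem A hx, res_of_mem A (pow_mem hx n), ← map_pow]
  rfl

theorem res_one (A : ValuationSubring K) : res A 1 = 1 := by
  rw [res_of_mem A A.one_mem]
  exact map_one _

theorem res_zero (A : ValuationSubring K) : res A 0 = 0 := by
  rw [res_of_mem A A.zero_mem]
  exact map_zero _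

theorem res_natCast (A : ValuationSubring K) (n : ℕ) : res A (n : K) = n := by
  rw [res_of_mem A (natCast_mem A n)]
  exact map_natCast (IsLocalRing.residue A) n

theorem res_intCast (A : ValuationSubring K) (n : ℤ) : res A (n : K) = n := by
  rw [res_of_mem A (intCast_mem A n)]
  exact map_intCast (IsLocalRing.residue A) n

theorem res_eq_zero_iff (A : ValuationSubring K) {x : K} (hx : x ∈ A) :
    res A x = 0 ↔ x ∈ A.nonunits := by
  rw [res_of_mem A hx, IsLocalRing.residue_eq_zero_iff]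
  constructor
  · intro h
    rw [ValuationSubring.mem_nonunits_iff_exists_mem_maximalIdeal]
    exact ⟨hx, h⟩
  · intro h
    rw [ValuationSubring.mem_nonunits_iff_exists_mem_maximalIdeal] at h
    obtain ⟨_, h⟩ := h
    exact h

theorem res_eq_iff (A : ValuationSubring K) {x y : K} (hx : x ∈ A) (hy : y ∈ A) :
    res A x = res A y ↔ x - y ∈ A.nonunits := by
  rw [← res_eq_zero_iff A (sub_mem hx hy), res_sub A hx hy, sub_eq_zero]

/-- Division by an element with nonzero residue stays in `A`. -/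
theorem div_mem_of_res_ne_zero (A : ValuationSubring K) {x y : K} (hx : x ∈ A) (hy : y ∈ A)
    (h : res A y ≠ 0) : x / y ∈ A := by
  have hy' : y ∉ A.nonunits := fun hc => h ((res_eq_zero_iff A hy).mpr hc)
  have hval : A.valuation y = 1 := by
    have h1 : A.valuation y ≤ 1 := (A.valuation_le_one_iff y).mpr hy
    rcases lt_or_eq_of_le h1 with h2 | h2
    · exact absurd ((ValuationSubring.mem_nonunits_iff (A := A)).mpr h2) hy'
    · exact h2
  rw [← A.valuation_le_one_iff, map_div₀, hval, div_one]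
  exact (A.valuation_le_one_iff x).mpr hx

theorem res_div (A : ValuationSubring K) {x y : K} (hx : x ∈ A) (hy : y ∈ A)
    (h : res A y ≠ 0) : res A (x / y) = res A x / res A y := by
  have hq := div_mem_of_res_ne_zero A hx hy h
  rw [eq_div_iff h, ← res_mul A hq hy]
  congr 1
  have hy0 : y ≠ 0 := by
    rintro rfl
    exact h (res_zero A)
  field_simp

/-! ### The reduced curve -/

/-- `Wk` is the coefficientwise reduction of `W` modulo the maximal ideal of `A`, and it is
nonsingular. -/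
structure RedHyp (A : ValuationSubring K) (W : WeierstrassCurve K)
    (Wk : WeierstrassCurve (IsLocalRing.ResidueField A)) : Prop where
  m₁ : W.a₁ ∈ A
  m₂ : W.a₂ ∈ A
  m₃ : W.a₃ ∈ A
  m₄ : W.a₄ ∈ A
  m₆ : W.a₆ ∈ A
  e₁ : Wk.a₁ = res A W.a₁
  e₂ : Wk.a₂ = res A W.a₂
  e₃ : Wk.a₃ = res A W.a₃
  e₄ : Wk.a₄ = res A W.a₄
  e₆ : Wk.a₆ = res A W.a₆
  good : Wk.Δ ≠ 0

section Red

variable {A : ValuationSubring K} {W : WeierstrassCurve K}
  {Wk : WeierstrassCurve (IsLocalRing.ResidueField A)}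

theorem RedHyp.equation (H : RedHyp A W Wk) {x y : K} (hx : x ∈ A) (hy : y ∈ A)
    (h : W.toAffine.Equation x y) : Wk.toAffine.Equation (res A x) (res A y) := by
  rw [Affine.equation_iff] at h ⊢
  have h2 : (2 : K) ∈ A := by
    have : (2 : K) = ((2 : ℕ) : K) := by norm_num
    rw [this]; exact natCast_mem A 2
  have e := congrArg (res A) h
  rw [res_add A (add_mem (pow_mem hy 2) (mul_mem (mul_mem H.m₁ hx) hy)) (mul_mem H.m₃ hy),
    res_add A (pow_mem hy 2) (mul_mem (mul_mem H.m₁ hx) hy), res_pow A hy,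
    res_mul A (mul_mem H.m₁ hx) hy, res_mul A H.m₁ hx, res_mul A H.m₃ hy,
    res_add A (add_mem (add_mem (pow_mem hx 3) (mul_mem H.m₂ (pow_mem hx 2))) (mul_mem H.m₄ hx))
      H.m₆,
    res_add A (add_mem (pow_mem hx 3) (mul_mem H.m₂ (pow_mem hx 2))) (mul_mem H.m₄ hx),
    res_add A (pow_mem hx 3) (mul_mem H.m₂ (pow_mem hx 2)), res_pow A hx,
    res_mul A H.m₂ (pow_mem hx 2), res_pow A hx, res_mul A H.m₄ hx] at e
  rw [H.e₁, H.e₂, H.e₃, H.e₄, H.e₆]
  exact e

theorem RedHyp.nonsingular (H : RedHyp A W Wk) {x y : K} (hx : x ∈ A) (hy : y ∈ A)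
    (h : W.toAffine.Equation x y) : Wk.toAffine.Nonsingular (res A x) (res A y) :=
  (Affine.equation_iff_nonsingular_of_Δ_ne_zero (W := Wk.toAffine) H.good).mp
    (H.equation hx hy h)

theorem RedHyp.negY (H : RedHyp A W Wk) {x y : K} (hx : x ∈ A) (hy : y ∈ A) :
    res A (W.toAffine.negY x y) = Wk.toAffine.negY (res A x) (res A y) := by
  unfold Affine.negY
  rw [res_sub A (sub_mem (neg_mem hy) (mul_mem H.m₁ hx)) H.m₃,
    res_sub A (neg_mem hy) (mul_mem H.m₁ hx), res_neg A hy, res_mul A H.m₁ hx, H.e₁, H.e₃]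

theorem RedHyp.negY_mem (H : RedHyp A W Wk) {x y : K} (hx : x ∈ A) (hy : y ∈ A) :
    W.toAffine.negY x y ∈ A := by
  unfold Affine.negY
  exact sub_mem (sub_mem (neg_mem hy) (mul_mem H.m₁ hx)) H.m₃

theorem RedHyp.addX_mem (H : RedHyp A W Wk) {x₁ x₂ L : K} (hx₁ : x₁ ∈ A) (hx₂ : x₂ ∈ A)
    (hL : L ∈ A) : W.toAffine.addX x₁ x₂ L ∈ A := by
  unfold Affine.addX
  exact sub_mem (sub_mem (sub_mem (add_mem (pow_mem hL 2) (mul_mem H.m₁ hL)) H.m₂) hx₁) hx₂

theorem RedHyp.addX (H : RedHyp A W Wk) {x₁ x₂ L : K} (hx₁ : x₁ ∈ A) (hx₂ : x₂ ∈ A)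
    (hL : L ∈ A) :
    res A (W.toAffine.addX x₁ x₂ L) = Wk.toAffine.addX (res A x₁) (res A x₂) (res A L) := by
  unfold Affine.addX
  rw [res_sub A (sub_mem (sub_mem (add_mem (pow_mem hL 2) (mul_mem H.m₁ hL)) H.m₂) hx₁) hx₂,
    res_sub A (sub_mem (add_mem (pow_mem hL 2) (mul_mem H.m₁ hL)) H.m₂) hx₁,
    res_sub A (add_mem (pow_mem hL 2) (mul_mem H.m₁ hL)) H.m₂,
    res_add A (pow_mem hL 2) (mul_mem H.m₁ hL), res_pow A hL, res_mul A H.m₁ hL, H.e₁, H.e₂]

theorem RedHyp.negAddY_mem (H : RedHyp A W Wk) {x₁ x₂ y₁ L : K} (hx₁ : x₁ ∈ A) (hx₂ : x₂ ∈ A)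
    (hy₁ : y₁ ∈ A) (hL : L ∈ A) : W.toAffine.negAddY x₁ x₂ y₁ L ∈ A := by
  unfold Affine.negAddY
  exact add_mem (mul_mem hL (sub_mem (H.addX_mem hx₁ hx₂ hL) hx₁)) hy₁

theorem RedHyp.negAddY (H : RedHyp A W Wk) {x₁ x₂ y₁ L : K} (hx₁ : x₁ ∈ A) (hx₂ : x₂ ∈ A)
    (hy₁ : y₁ ∈ A) (hL : L ∈ A) :
    res A (W.toAffine.negAddY x₁ x₂ y₁ L) =
      Wk.toAffine.negAddY (res A x₁) (res A x₂) (res A y₁) (res A L) := by
  unfold Affine.negAddY
  rw [res_add A (mul_mem hL (sub_mem (H.addX_mem hx₁ hx₂ hL) hx₁)) hy₁,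
    res_mul A hL (sub_mem (H.addX_mem hx₁ hx₂ hL) hx₁),
    res_sub A (H.addX_mem hx₁ hx₂ hL) hx₁, H.addX hx₁ hx₂ hL]

theorem RedHyp.addY_mem (H : RedHyp A W Wk) {x₁ x₂ y₁ L : K} (hx₁ : x₁ ∈ A) (hx₂ : x₂ ∈ A)
    (hy₁ : y₁ ∈ A) (hL : L ∈ A) : W.toAffine.addY x₁ x₂ y₁ L ∈ A := by
  unfold Affine.addY
  exact H.negY_mem (H.addX_mem hx₁ hx₂ hL) (H.negAddY_mem hx₁ hx₂ hy₁ hL)

theorem RedHyp.addY (H : RedHyp A W Wk) {x₁ x₂ y₁ L : K} (hx₁ : x₁ ∈ A) (hx₂ : x₂ ∈ A)
    (hy₁ : y₁ ∈ A) (hL : L ∈ A) :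
    res A (W.toAffine.addY x₁ x₂ y₁ L) =
      Wk.toAffine.addY (res A x₁) (res A x₂) (res A y₁) (res A L) := by
  unfold Affine.addY
  rw [H.negY (H.addX_mem hx₁ hx₂ hL) (H.negAddY_mem hx₁ hx₂ hy₁ hL), H.addX hx₁ hx₂ hL,
    H.negAddY hx₁ hx₂ hy₁ hL]

/-- The two partial derivatives of the Weierstrass equation cannot both be non-units at an
integral point: the reduced point is nonsingular. -/
theorem RedHyp.hns (H : RedHyp A W Wk) {x y : K} (hx : x ∈ A) (hy : y ∈ A)
    (h : W.toAffine.Equation x y) :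
    2 * y + W.a₁ * x + W.a₃ ∉ A.nonunits ∨
      3 * x ^ 2 + 2 * W.a₂ * x + W.a₄ - W.a₁ * y ∉ A.nonunits := by
  have h2 : (2 : K) ∈ A := by
    have : (2 : K) = ((2 : ℕ) : K) := by norm_num
    rw [this]; exact natCast_mem A 2
  have h3 : (3 : K) ∈ A := by
    have : (3 : K) = ((3 : ℕ) : K) := by norm_num
    rw [this]; exact natCast_mem A 3
  have r2 : res A (2 : K) = 2 := by
    have : (2 : K) = ((2 : ℕ) : K) := by norm_num
    rw [this, res_natCast]; norm_num
  have r3 : res A (3 : K) = 3 := by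
    have : (3 : K) = ((3 : ℕ) : K) := by norm_num
    rw [this, res_natCast]; norm_num
  have hn := H.nonsingular hx hy h
  rw [Affine.nonsingular_iff] at hn
  rcases hn.2 with hn | hn
  · right
    intro hc
    have m1 : 3 * x ^ 2 + 2 * W.a₂ * x + W.a₄ ∈ A :=
      add_mem (add_mem (mul_mem h3 (pow_mem hx 2)) (mul_mem (mul_mem h2 H.m₂) hx)) H.m₄
    have e := (res_eq_zero_iff A (sub_mem m1 (mul_mem H.m₁ hy))).mpr hc
    rw [res_sub A m1 (mul_mem H.m₁ hy),
      res_add A (add_mem (mul_mem h3 (pow_mem hx 2)) (mul_mem (mul_mem h2 H.m₂) hx)) H.m₄,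
      res_add A (mul_mem h3 (pow_mem hx 2)) (mul_mem (mul_mem h2 H.m₂) hx),
      res_mul A h3 (pow_mem hx 2), res_pow A hx, res_mul A (mul_mem h2 H.m₂) hx,
      res_mul A h2 H.m₂, res_mul A H.m₁ hy, r2, r3, ← H.e₁, ← H.e₂, ← H.e₄] at e
    exact hn (sub_eq_zero.mp e).symm
  · left
    intro hc
    have e := (res_eq_zero_iff A
      (add_mem (add_mem (mul_mem h2 hy) (mul_mem H.m₁ hx)) H.m₃)).mpr hc
    rw [res_add A (add_mem (mul_mem h2 hy) (mul_mem H.m₁ hx)) H.m₃,
      res_add A (mul_mem h2 hy) (mul_mem H.m₁ hx), res_mul A h2 hy, res_mul A H.m₁ hx, r2,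
      ← H.e₁, ← H.e₃] at e
    apply hn
    linear_combination e

variable [DecidableEq K] [DecidableEq (IsLocalRing.ResidueField A)]

/-- If the reductions of two integral points are not opposite, and equal reduced `x` forces
equal `x`, then the slope is integral and reduces to the slope of the reductions. -/
theorem RedHyp.slope (H : RedHyp A W Wk) {x₁ y₁ x₂ y₂ : K}
    (hx₁ : x₁ ∈ A) (hy₁ : y₁ ∈ A) (hx₂ : x₂ ∈ A) (hy₂ : y₂ ∈ A)
    (h₁ : W.toAffine.Equation x₁ y₁) (h₂ : W.toAffine.Equation x₂ y₂)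
    (hopp : ¬ (res A x₁ = res A x₂ ∧ res A y₁ = Wk.toAffine.negY (res A x₂) (res A y₂)))
    (hcons : res A x₁ = res A x₂ → x₁ = x₂) :
    W.toAffine.slope x₁ x₂ y₁ y₂ ∈ A ∧
      res A (W.toAffine.slope x₁ x₂ y₁ y₂) =
        Wk.toAffine.slope (res A x₁) (res A x₂) (res A y₁) (res A y₂) := by
  have h2 : (2 : K) ∈ A := by
    have : (2 : K) = ((2 : ℕ) : K) := by norm_num
    rw [this]; exact natCast_mem A 2
  have h3 : (3 : K) ∈ A := by
    have : (3 : K) = ((3 : ℕ) : K) := by norm_num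
    rw [this]; exact natCast_mem A 3
  have r2 : res A (2 : K) = 2 := by
    have : (2 : K) = ((2 : ℕ) : K) := by norm_num
    rw [this, res_natCast]; norm_num
  have r3 : res A (3 : K) = 3 := by
    have : (3 : K) = ((3 : ℕ) : K) := by norm_num
    rw [this, res_natCast]; norm_num
  by_cases hx : x₁ = x₂
  · have hxr : res A x₁ = res A x₂ := by rw [hx]
    have hyr : res A y₁ ≠ Wk.toAffine.negY (res A x₂) (res A y₂) := fun h => hopp ⟨hxr, h⟩
    have hy : y₁ ≠ W.toAffine.negY x₂ y₂ := by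
      intro h
      apply hyr
      rw [h, H.negY hx₂ hy₂]
    have hyy : y₁ = y₂ := Affine.Y_eq_of_Y_ne h₁ h₂ hx hy
    rw [Affine.slope_of_Y_ne hx hy, Affine.slope_of_Y_ne hxr hyr]
    have mnum : 3 * x₁ ^ 2 + 2 * W.a₂ * x₁ + W.a₄ - W.a₁ * y₁ ∈ A :=
      sub_mem (add_mem (add_mem (mul_mem h3 (pow_mem hx₁ 2)) (mul_mem (mul_mem h2 H.m₂) hx₁))
        H.m₄) (mul_mem H.m₁ hy₁)
    have mden : y₁ - W.toAffine.negY x₁ y₁ ∈ A := sub_mem hy₁ (H.negY_mem hx₁ hy₁)
    have rden : res A (y₁ - W.toAffine.negY x₁ y₁) =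
        res A y₁ - Wk.toAffine.negY (res A x₁) (res A y₁) := by
      rw [res_sub A hy₁ (H.negY_mem hx₁ hy₁), H.negY hx₁ hy₁]
    have hden : res A (y₁ - W.toAffine.negY x₁ y₁) ≠ 0 := by
      rw [rden, sub_ne_zero]
      intro h
      apply hyr
      rw [← hxr, ← hyy]
      exact h
    refine ⟨div_mem_of_res_ne_zero A mnum mden hden, ?_⟩
    rw [res_div A mnum mden hden, rden]
    congr 1
    rw [res_sub A (add_mem (add_mem (mul_mem h3 (pow_mem hx₁ 2)) (mul_mem (mul_mem h2 H.m₂) hx₁))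
        H.m₄) (mul_mem H.m₁ hy₁),
      res_add A (add_mem (mul_mem h3 (pow_mem hx₁ 2)) (mul_mem (mul_mem h2 H.m₂) hx₁)) H.m₄,
      res_add A (mul_mem h3 (pow_mem hx₁ 2)) (mul_mem (mul_mem h2 H.m₂) hx₁),
      res_mul A h3 (pow_mem hx₁ 2), res_pow A hx₁, res_mul A (mul_mem h2 H.m₂) hx₁,
      res_mul A h2 H.m₂, res_mul A H.m₁ hy₁, r2, r3, ← H.e₁, ← H.e₂, ← H.e₄]
  · have hxr : res A x₁ ≠ res A x₂ := fun h => hx (hcons h)
    rw [Affine.slope_of_X_ne hx, Affine.slope_of_X_ne hxr]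
    have hden : res A (x₁ - x₂) ≠ 0 := by
      rw [res_sub A hx₁ hx₂, sub_ne_zero]
      exact hxr
    refine ⟨div_mem_of_res_ne_zero A (sub_mem hy₁ hy₂) (sub_mem hx₁ hx₂) hden, ?_⟩
    rw [res_div A (sub_mem hy₁ hy₂) (sub_mem hx₁ hx₂) hden, res_sub A hy₁ hy₂, res_sub A hx₁ hx₂]

/-- Reduction of a point: `0` for the point at infinity and for affine points with a non-integral
coordinate, the coordinatewise reduction otherwise. -/
noncomputable def redPt (H : RedHyp A W Wk) : W.toAffine.Point → Wk.toAffine.Point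
  | .zero => 0
  | .some x y h =>
      @dite _ (x ∈ A ∧ y ∈ A) (Classical.propDecidable _)
        (fun hxy => .some (res A x) (res A y) (H.nonsingular hxy.1 hxy.2 h.1)) (fun _ => 0)

omit [DecidableEq K] [DecidableEq (IsLocalRing.ResidueField A)] in
theorem redPt_zero (H : RedHyp A W Wk) : redPt H 0 = 0 := rfl

omit [DecidableEq K] [DecidableEq (IsLocalRing.ResidueField A)] in
theorem redPt_some (H : RedHyp A W Wk) {x y : K} (h : W.toAffine.Nonsingular x y)
    (hx : x ∈ A) (hy : y ∈ A) :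
    redPt H (.some x y h) = .some (res A x) (res A y) (H.nonsingular hx hy h.1) := by
  exact @dif_pos _ (Classical.propDecidable _) ⟨hx, hy⟩ _ _ _

theorem some_congr' {F : Type*} [Field F] {V : WeierstrassCurve F} {x x' y y' : F}
    (h : V.toAffine.Nonsingular x y) (h' : V.toAffine.Nonsingular x' y') (hx : x = x')
    (hy : y = y') : Affine.Point.some x y h = Affine.Point.some x' y' h' := by
  subst hx hy
  rfl

omit [DecidableEq (IsLocalRing.ResidueField A)] in
/-- Affine points of a subgroup meeting the kernel of reduction trivially are integral. -/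
theorem mem_of_mem_of_inE1 (H : RedHyp A W Wk) (T : AddSubgroup W.toAffine.Point)
    (hT : ∀ P ∈ T, InE1 A P → P = 0) {x y : K} {h : W.toAffine.Nonsingular x y}
    (hP : Affine.Point.some x y h ∈ T) : x ∈ A ∧ y ∈ A := by
  have hx : x ∈ A := by
    by_contra hx
    exact Affine.Point.some_ne_zero h (hT _ hP hx)
  refine ⟨hx, ?_⟩
  have := Fermat.Agent.S13.AddE1Close.yco_mem_of_not_inE1 A W H.m₁ H.m₂ H.m₃ H.m₄ H.m₆
    (P := Affine.Point.some x y h) (fun hc => hc hx)
  simpa using this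

/-- **Additivity of reduction** on a subgroup meeting the kernel of reduction trivially. -/
theorem redPt_add (H : RedHyp A W Wk) (T : AddSubgroup W.toAffine.Point)
    (hT : ∀ P ∈ T, InE1 A P → P = 0) {P Q : W.toAffine.Point} (hP : P ∈ T) (hQ : Q ∈ T) :
    redPt H (P + Q) = redPt H P + redPt H Q := by
  rcases P with _ | ⟨x₁, y₁, h₁⟩
  · rw [show (Affine.Point.zero : W.toAffine.Point) = 0 from rfl, zero_add, redPt_zero, zero_add]
  rcases Q with _ | ⟨x₂, y₂, h₂⟩
  · rw [show (Affine.Point.zero : W.toAffine.Point) = 0 from rfl, add_zero, redPt_zero, add_zero]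
  obtain ⟨hx₁, hy₁⟩ := mem_of_mem_of_inE1 H T hT hP
  obtain ⟨hx₂, hy₂⟩ := mem_of_mem_of_inE1 H T hT hQ
  rw [redPt_some H h₁ hx₁ hy₁, redPt_some H h₂ hx₂ hy₂]
  have hns := H.hns hx₁ hy₁ h₁.1
  -- reductions opposite ⇒ points opposite
  have C1 : (res A x₁ = res A x₂ ∧ res A y₁ = Wk.toAffine.negY (res A x₂) (res A y₂)) →
      Affine.Point.some x₁ y₁ h₁ + Affine.Point.some x₂ y₂ h₂ = 0 := by
    rintro ⟨hx, hy⟩
    have hnegQ : -(Affine.Point.some x₂ y₂ h₂) =
        Affine.Point.some x₂ (W.toAffine.negY x₂ y₂) ((Affine.nonsingular_neg ..).mpr h₂) :=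
      Affine.Point.neg_some h₂
    rw [← H.negY hx₂ hy₂] at hy
    have key := F2_inE1 A W H.m₁ H.m₂ h₁ ((Affine.nonsingular_neg ..).mpr h₂) hx₁
      ((res_eq_iff A hx₁ hx₂).mp hx) ((res_eq_iff A hy₁ (H.negY_mem hx₂ hy₂)).mp hy) hns
    rw [← hnegQ, sub_neg_eq_add] at key
    exact hT _ (T.add_mem hP hQ) key
  -- equal reduced x, not opposite ⇒ equal points
  have C2 : res A x₁ = res A x₂ →
      ¬ (res A y₁ = Wk.toAffine.negY (res A x₂) (res A y₂)) → x₁ = x₂ := by
    intro hx hy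
    have hyy : res A y₁ = res A y₂ :=
      Affine.Y_eq_of_Y_ne (H.equation hx₁ hy₁ h₁.1) (H.equation hx₂ hy₂ h₂.1) hx hy
    have key := F2_inE1 A W H.m₁ H.m₂ h₁ h₂ hx₁
      ((res_eq_iff A hx₁ hx₂).mp hx) ((res_eq_iff A hy₁ hy₂).mp hyy) hns
    have h0 := sub_eq_zero.mp (hT _ (T.sub_mem hP hQ) key)
    injection h0
  by_cases hxy : x₁ = x₂ ∧ y₁ = W.toAffine.negY x₂ y₂
  · rw [Affine.Point.add_of_Y_eq hxy.1 hxy.2, redPt_zero]
    symm
    apply Affine.Point.add_of_Y_eq
    · rw [hxy.1]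
    · rw [hxy.2, H.negY hx₂ hy₂]
  · have hsum : Affine.Point.some x₁ y₁ h₁ + Affine.Point.some x₂ y₂ h₂ =
        Affine.Point.some _ _ (Affine.nonsingular_add h₁ h₂ hxy) := Affine.Point.add_some hxy
    have hne : ¬ (res A x₁ = res A x₂ ∧
        res A y₁ = Wk.toAffine.negY (res A x₂) (res A y₂)) := by
      intro h
      have := C1 h
      rw [hsum] at this
      exact Affine.Point.some_ne_zero _ this
    have hcons : res A x₁ = res A x₂ → x₁ = x₂ := fun h => C2 h (fun hy => hne ⟨h, hy⟩)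
    obtain ⟨hL, hLr⟩ := H.slope hx₁ hy₁ hx₂ hy₂ h₁.1 h₂.1 hne hcons
    rw [hsum, Affine.Point.add_some hne,
      redPt_some H _ (H.addX_mem hx₁ hx₂ hL) (H.addY_mem hx₁ hx₂ hy₁ hL)]
    exact some_congr' _ _ (by rw [H.addX hx₁ hx₂ hL, hLr]) (by rw [H.addY hx₁ hx₂ hy₁ hL, hLr])

omit [DecidableEq (IsLocalRing.ResidueField A)] in
/-- Reduction is injective on a subgroup meeting the kernel of reduction trivially. -/
theorem eq_zero_of_redPt_eq_zero (H : RedHyp A W Wk) (T : AddSubgroup W.toAffine.Point)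
    (hT : ∀ P ∈ T, InE1 A P → P = 0) {P : W.toAffine.Point} (hP : P ∈ T)
    (h0 : redPt H P = 0) : P = 0 := by
  rcases P with _ | ⟨x, y, h⟩
  · rfl
  · obtain ⟨hx, hy⟩ := mem_of_mem_of_inE1 H T hT hP
    rw [redPt_some H h hx hy] at h0
    exact absurd h0 (Affine.Point.some_ne_zero _)

/-- The reduction map on a subgroup meeting the kernel of reduction trivially, as an additive
homomorphism. -/
noncomputable def redHom (H : RedHyp A W Wk) (T : AddSubgroup W.toAffine.Point)
    (hT : ∀ P ∈ T, InE1 A P → P = 0) : T →+ Wk.toAffine.Point where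
  toFun P := redPt H P.1
  map_zero' := redPt_zero H
  map_add' P Q := redPt_add H T hT P.2 Q.2

theorem redHom_apply (H : RedHyp A W Wk) (T : AddSubgroup W.toAffine.Point)
    (hT : ∀ P ∈ T, InE1 A P → P = 0) (P : T) : redHom H T hT P = redPt H P.1 := rfl

theorem redHom_injective (H : RedHyp A W Wk) (T : AddSubgroup W.toAffine.Point)
    (hT : ∀ P ∈ T, InE1 A P → P = 0) : Function.Injective (redHom H T hT) := by
  rw [injective_iff_map_eq_zero]
  intro P hP
  exact Subtype.ext (eq_zero_of_redPt_eq_zero H T hT P.2 hP)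

/-! ### The `n`-torsion, `n` a unit of `A` -/

omit [DecidableEq (IsLocalRing.ResidueField A)] in
/-- The `n`-torsion meets the kernel of reduction trivially when `n` is a unit of `A`. -/
theorem torsion_inE1_eq_zero (H : RedHyp A W Wk) {n : ℕ} (hn : A.valuation (n : K) = 1) :
    ∀ P ∈ (Submodule.torsionBy ℤ W.toAffine.Point n).toAddSubgroup, InE1 A P → P = 0 := by
  intro P hP hE
  have hP' : ((n : ℕ) : ℤ) • P = 0 := (Submodule.mem_torsionBy_iff _ _).mp hP
  rw [natCast_zsmul] at hP'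
  exact F1_inE1 A W H.m₁ H.m₂ H.m₃ H.m₄ H.m₆ hn hE hP'

omit [DecidableEq (IsLocalRing.ResidueField A)] in
/-- Affine `n`-torsion points have integral coordinates when `n` is a unit of `A`. -/
theorem torsion_mem (H : RedHyp A W Wk) {n : ℕ} (hn : A.valuation (n : K) = 1) {x y : K}
    {h : W.toAffine.Nonsingular x y}
    (hP : Affine.Point.some x y h ∈ Submodule.torsionBy ℤ W.toAffine.Point n) :
    x ∈ A ∧ y ∈ A :=
  mem_of_mem_of_inE1 H _ (torsion_inE1_eq_zero H hn) hP

/-- The reduction map on the `n`-torsion, `n` a unit of `A`, as an additive homomorphism. -/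
noncomputable def torsRedHom (H : RedHyp A W Wk) (n : ℕ) (hn : A.valuation (n : K) = 1) :
    Submodule.torsionBy ℤ W.toAffine.Point n →+ Wk.toAffine.Point where
  toFun P := redPt H P.1
  map_zero' := redPt_zero H
  map_add' P Q := redPt_add H _ (torsion_inE1_eq_zero H hn) P.2 Q.2

theorem torsRedHom_apply (H : RedHyp A W Wk) (n : ℕ) (hn : A.valuation (n : K) = 1)
    (P : Submodule.torsionBy ℤ W.toAffine.Point n) : torsRedHom H n hn P = redPt H P.1 := rfl

theorem torsRedHom_injective (H : RedHyp A W Wk) (n : ℕ) (hn : A.valuation (n : K) = 1) :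
    Function.Injective (torsRedHom H n hn) := by
  rw [injective_iff_map_eq_zero]
  intro P hP
  exact Subtype.ext (eq_zero_of_redPt_eq_zero H _ (torsion_inE1_eq_zero H hn) P.2 hP)

omit [DecidableEq K] [DecidableEq (IsLocalRing.ResidueField A)] in
/-- A natural number with nonzero residue is a unit of `A`. -/
theorem valuation_natCast_eq_one (A : ValuationSubring K) {n : ℕ} (hn : res A (n : K) ≠ 0) :
    A.valuation (n : K) = 1 := by
  have hmem : (n : K) ∈ A := natCast_mem A n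
  have hle : A.valuation (n : K) ≤ 1 := (A.valuation_le_one_iff _).mpr hmem
  rcases lt_or_eq_of_le hle with hlt | heq
  · exact absurd ((res_eq_zero_iff A hmem).mpr
      ((ValuationSubring.mem_nonunits_iff (A := A)).mpr hlt)) hn
  · exact heq

/-- **Packaged statement**: for `n` a unit of `A`, reduction is an injective additive map on the
`n`-torsion, given on affine points by reducing the (integral) coordinates. -/
theorem exists_torsion_redHom (H : RedHyp A W Wk) (n : ℕ) (hn : A.valuation (n : K) = 1) :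
    ∃ red : Submodule.torsionBy ℤ W.toAffine.Point n →+ Wk.toAffine.Point,
      Function.Injective red ∧
      ∀ (x y : K) (h : W.toAffine.Nonsingular x y)
        (hP : Affine.Point.some x y h ∈ Submodule.torsionBy ℤ W.toAffine.Point n),
        ∃ (_ : x ∈ A) (_ : y ∈ A) (h' : Wk.toAffine.Nonsingular (res A x) (res A y)),
          red ⟨Affine.Point.some x y h, hP⟩ = Affine.Point.some (res A x) (res A y) h' := by
  refine ⟨torsRedHom H n hn, torsRedHom_injective H n hn, ?_⟩
  intro x y h hP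
  obtain ⟨hx, hy⟩ := torsion_mem H hn hP
  exact ⟨hx, hy, H.nonsingular hx hy h.1, redPt_some H h hx hy⟩

end Red

end Fermat.Agent.S52.Bridge
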