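/-
S52 (helper17): a semistable integral Weierstrass model has `c₄ ≠ 0` and `c₆ ≠ 0`.
Mathlib + prelude definitions only.
-/
import Mathlib
import Fermat.Prelude.Def_FLTPrelim_Modularity

set_option autoImplicit false

namespace Fermat.Agent.S52.C4C6

open WeierstrassCurve

/-- If no prime divides the nonzero integer `d`, then `d = 1` or `d = -1`. -/
lemma eq_one_or_neg_one_of_no_prime (d : ℤ) (h : ∀ p : ℕ, p.Prime → ¬ (p : ℤ) ∣ d) :
    d = 1 ∨ d = -1 := by
  have h1 : d.natAbs = 1 := by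
    by_contra hne
    obtain ⟨p, hp, hpd⟩ := Nat.exists_prime_and_dvd hne
    exact h p hp (Int.natCast_dvd.mpr hpd)
  exact Int.natAbs_eq_natAbs_iff.mp (by simpa using h1)

/-- A semistable integral model has `c₄ ≠ 0`. -/
theorem c₄_ne_zero (W : WeierstrassCurve ℤ) (hW : W.IsSemistableModel) : W.c₄ ≠ 0 := by
  intro hc4
  -- no prime divides `Δ`
  have hΔ : W.Δ = 1 ∨ W.Δ = -1 := by
    apply eq_one_or_neg_one_of_no_prime
    intro p hp hpΔ
    exact hW p hp hpΔ (by rw [hc4]; exact dvd_zero _)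
  have hrel := W.c_relation
  rw [hc4] at hrel
  rcases hΔ with h | h
  · rw [h] at hrel
    nlinarith [sq_nonneg W.c₆]
  · rw [h] at hrel
    -- `c₆² = 1728`, impossible
    have h1 : W.c₆ ^ 2 = 1728 := by linarith
    have h2 : W.c₆.natAbs ^ 2 = 1728 := by
      have : (W.c₆.natAbs : ℤ) ^ 2 = 1728 := by rw [Int.natAbs_sq]; exact h1
      exact_mod_cast this
    have h3 : W.c₆.natAbs < 42 := by
      by_contra hge
      have h42 : 42 ≤ W.c₆.natAbs := by omega
      have := Nat.pow_le_pow_left h42 2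
      omega
    have h4 : 41 < W.c₆.natAbs := by
      by_contra hle
      have h41 : W.c₆.natAbs ≤ 41 := by omega
      have := Nat.pow_le_pow_left h41 2
      omega
    omega

/-- A semistable integral model has `c₆ ≠ 0`. -/
theorem c₆_ne_zero (W : WeierstrassCurve ℤ) (hW : W.IsSemistableModel) :
    W.c₆ ≠ 0 := by
  intro hc6
  have hrel := W.c_relation
  rw [hc6] at hrel
  have hrel' : 1728 * W.Δ = W.c₄ ^ 3 := by linarith
  -- no prime divides `Δ`
  have hΔ : W.Δ = 1 ∨ W.Δ = -1 := by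
    apply eq_one_or_neg_one_of_no_prime
    intro p hp hpΔ
    apply hW p hp hpΔ
    have hpp : Prime (p : ℤ) := Nat.prime_iff_prime_int.mp hp
    have : (p : ℤ) ∣ W.c₄ ^ 3 := by rw [← hrel']; exact Dvd.dvd.mul_left hpΔ 1728
    exact hpp.dvd_of_dvd_pow this
  -- so `c₄³ = ± 12³`, `c₄ = ± 12`
  have hc4 : W.c₄ = 12 ∨ W.c₄ = -12 := by
    rcases hΔ with h | h
    · left
      rw [h] at hrel'
      have h1 : W.c₄ ^ 3 = 12 ^ 3 := by linarith
      have hlt : ∀ a b : ℤ, a < b → a ^ 3 < b ^ 3 := fun a b hab => by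
        nlinarith [sq_nonneg (a + b), sq_nonneg a, sq_nonneg b, sq_nonneg (a - b)]
      rcases lt_trichotomy W.c₄ 12 with h2 | h2 | h2
      · have := hlt _ _ h2; omega
      · exact h2
      · have := hlt _ _ h2; omega
    · right
      rw [h] at hrel'
      have h1 : W.c₄ ^ 3 = (-12) ^ 3 := by linarith
      have hlt : ∀ a b : ℤ, a < b → a ^ 3 < b ^ 3 := fun a b hab => by
        nlinarith [sq_nonneg (a + b), sq_nonneg a, sq_nonneg b, sq_nonneg (a - b)]
      rcases lt_trichotomy W.c₄ (-12) with h2 | h2 | h2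
      · have := hlt _ _ h2; omega
      · exact h2
      · have := hlt _ _ h2; omega
  -- `b₂² = c₄ + 24 b₄ ≡ 12 mod 24` contradicts `b₂ = a₁² + 4 a₂`
  have hb : W.b₂ ^ 2 = W.c₄ + 24 * W.b₄ := by simp only [c₄]; ring
  have hb2 : W.b₂ = W.a₁ ^ 2 + 4 * W.a₂ := rfl
  have hmod : W.b₂ ^ 2 % 24 = 12 := by
    rcases hc4 with h | h <;> rw [hb, h] <;> omega
  -- `b₂ mod 24` with square `≡ 12`: `b₂ ≡ 6, 18 mod 24`, so `b₂ ≡ 2 mod 4`
  have h4 : W.b₂ % 4 = 2 := by
    have h24 : W.b₂ % 24 = 6 ∨ W.b₂ % 24 = 18 := by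
      have hcases : ∀ r : ℤ, 0 ≤ r → r < 24 → r * r % 24 = 12 → r = 6 ∨ r = 18 := by
        intro r h0 h1 h2
        interval_cases r <;> simp_all
      have := hcases (W.b₂ % 24) (Int.emod_nonneg _ (by norm_num)) (Int.emod_lt_of_pos _ (by norm_num))
        (by rw [← Int.mul_emod, ← pow_two]; exact hmod)
      exact this
    omega
  -- but `a₁² + 4 a₂ ≡ 0, 1 mod 4`
  have h5 : (W.a₁ ^ 2 + 4 * W.a₂) % 4 = 0 ∨ (W.a₁ ^ 2 + 4 * W.a₂) % 4 = 1 := by
    have h6 : W.a₁ % 4 = 0 ∨ W.a₁ % 4 = 1 ∨ W.a₁ % 4 = 2 ∨ W.a₁ % 4 = 3 := by omega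
    have h7 : W.a₁ ^ 2 % 4 = 0 ∨ W.a₁ ^ 2 % 4 = 1 := by
      rcases h6 with h | h | h | h <;> simp [pow_two, Int.mul_emod, h]
    omega
  rw [hb2] at h4
  omega

end Fermat.Agent.S52.C4C6
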