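/-
T3 / S52, leaf [X5-TNF] (owner: helper86).

Tate normal form of a point of exact order 5 on a short Weierstrass curve `y² = x³ + a x + b`,
both directions.

Homogeneous Tate data `(w, N, D)` (`β = N / D`):
  `tAh w N D = -27 w⁴ c4h(N, D)`, `tBh w N D = -54 w⁶ c6h(N, D)`,
  `P = (tXh, tYh) = (3 w² (N² - 6 N D + D²), -108 w³ N D²)`,
  `2P = (tX2h, tY2h) = (3 w² (N² + 6 N D + D²), 108 w³ N² D)`.

General form (any field `F` with `2, 3 ≠ 0`, `W : WeierstrassCurve F` with `a₁ = a₂ = a₃ = 0`):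
* `order5_of_tate_gen` : if `W.a₄ = tAh w N D`, `W.a₆ = tBh w N D` with `w, N, D ≠ 0`, then `P` is a
  nonsingular point with `2 • P = (tX2h, tY2h)` and `5 • P = 0`.
* `tate_of_order5_gen` : conversely, a point `(x, y)` with `5 • (x, y) = 0` on a curve with
  `4 a₄³ + 27 a₆² ≠ 0` is of this shape with `D = 1`, `w = tnfW a₄ x y`, `β = tnfBeta a₄ x y`
  (explicit rational functions of `a₄, x, y`, compatible with every ring homomorphism:
  `map_tnfW`, `map_tnfBeta`), and `β² - 11 β - 1 ≠ 0`.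
* `tnfW_tate`, `tnfBeta_tate` : the explicit inverse (`tnfW = w D`, `tnfBeta = N / D` on Tate data).
* `tate_disc` : `4 a³ + 27 b² = -136048896 w¹² N⁵ D⁵ (N² - 11 N D - D²)`.

S51 setting (`A B : ℚ`, `K ⊇ ℚ`, curve `(shortW A B)⁄K`): `order5_of_tate`, `tate_of_order5`.
-/
import Fermat.Agent.S51.Dbl

set_option autoImplicit false

open WeierstrassCurve WeierstrassCurve.Affine

namespace Fermat.Agent.S52.TNF

open Fermat.Agent.S51

section defs

variable {K : Type*} [Field K]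

/-- The quartic form `c₄` of Tate's normal form `y² + (1-β)xy - βy = x³ - βx²`, `β = N / D`. -/
def c4h (N D : K) : K := N ^ 4 - 12 * N ^ 3 * D + 14 * N ^ 2 * D ^ 2 + 12 * N * D ^ 3 + D ^ 4

/-- The sextic form `c₆` of Tate's normal form. -/
def c6h (N D : K) : K :=
  -((N ^ 2 + D ^ 2) * (N ^ 4 - 18 * N ^ 3 * D + 74 * N ^ 2 * D ^ 2 + 18 * N * D ^ 3 + D ^ 4))

/-- The coefficient `a` of the short model of the `w`-twisted Tate curve. -/
def tAh (w N D : K) : K := -27 * w ^ 4 * c4h N D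

/-- The coefficient `b` of the short model of the `w`-twisted Tate curve. -/
def tBh (w N D : K) : K := -54 * w ^ 6 * c6h N D

/-- `x`-coordinate of the distinguished point of order 5. -/
def tXh (w N D : K) : K := 3 * w ^ 2 * (N ^ 2 - 6 * N * D + D ^ 2)

/-- `y`-coordinate of the distinguished point of order 5. -/
def tYh (w N D : K) : K := -108 * w ^ 3 * N * D ^ 2

/-- `x`-coordinate of twice the distinguished point. -/
def tX2h (w N D : K) : K := 3 * w ^ 2 * (N ^ 2 + 6 * N * D + D ^ 2)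

/-- `y`-coordinate of twice the distinguished point. -/
def tY2h (w N D : K) : K := 108 * w ^ 3 * N ^ 2 * D

/-- `x(2P) - x(P)` as a rational function of `a, x, y`. -/
def tnfD (a x y : K) : K := ((3 * x ^ 2 + a) / (2 * y)) ^ 2 - 3 * x

/-- The twisting parameter `w` of a point of order 5, as a rational function of `a, x, y`. -/
def tnfW (a x y : K) : K := -y / (3 * tnfD a x y)

/-- Tate's parameter `β` of a point of order 5, as a rational function of `a, x, y`. -/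
def tnfBeta (a x y : K) : K := tnfD a x y ^ 3 / (4 * y ^ 2)

theorem tate_disc (w N D : K) :
    4 * tAh w N D ^ 3 + 27 * tBh w N D ^ 2 =
      -136048896 * w ^ 12 * (N ^ 5 * D ^ 5 * (N ^ 2 - 11 * N * D - D ^ 2)) := by
  simp only [tAh, tBh, c4h, c6h]
  ring

theorem tate_equation (w N D : K) :
    tYh w N D ^ 2 = tXh w N D ^ 3 + tAh w N D * tXh w N D + tBh w N D := by
  simp only [tAh, tBh, tXh, tYh, c4h, c6h]
  ring

theorem tate_equation2 (w N D : K) :
    tY2h w N D ^ 2 = tX2h w N D ^ 3 + tAh w N D * tX2h w N D + tBh w N D := by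
  simp only [tAh, tBh, tX2h, tY2h, c4h, c6h]
  ring

theorem tX2h_sub_tXh (w N D : K) : tX2h w N D - tXh w N D = 36 * w ^ 2 * N * D := by
  simp only [tXh, tX2h]
  ring


/-- `tnfD` recovers `x(2P) - x(P) = 36 w² N D` on Tate data. -/
theorem tnfD_tate {w N D : K} (h2 : (2 : K) ≠ 0) (h3 : (3 : K) ≠ 0) (hw : w ≠ 0) (hN : N ≠ 0)
    (hD : D ≠ 0) : tnfD (tAh w N D) (tXh w N D) (tYh w N D) = 36 * w ^ 2 * N * D := by
  have hY : tYh w N D ≠ 0 := by
    simp only [tYh]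
    have h108 : (108 : K) ≠ 0 := by
      have : (108 : K) = 2 ^ 2 * 3 ^ 3 := by norm_num
      rw [this]; exact mul_ne_zero (pow_ne_zero _ h2) (pow_ne_zero _ h3)
    exact mul_ne_zero (mul_ne_zero (mul_ne_zero (neg_ne_zero.mpr h108) (pow_ne_zero _ hw)) hN)
      (pow_ne_zero _ hD)
  have hm : (3 * tXh w N D ^ 2 + tAh w N D) / (2 * tYh w N D) = 3 * w * (D - N) := by
    rw [div_eq_iff (mul_ne_zero h2 hY)]
    simp only [tAh, tXh, tYh, c4h]
    ring
  simp only [tnfD]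
  rw [hm]
  simp only [tXh]
  ring

/-- `tnfW` recovers the twisting parameter `w D` on Tate data. -/
theorem tnfW_tate {w N D : K} (h2 : (2 : K) ≠ 0) (h3 : (3 : K) ≠ 0) (hw : w ≠ 0) (hN : N ≠ 0)
    (hD : D ≠ 0) : tnfW (tAh w N D) (tXh w N D) (tYh w N D) = w * D := by
  simp only [tnfW]
  rw [tnfD_tate h2 h3 hw hN hD]
  simp only [tYh]
  have h36 : (36 : K) ≠ 0 := by
    have : (36 : K) = 2 ^ 2 * 3 ^ 2 := by norm_num
    rw [this]; exact mul_ne_zero (pow_ne_zero _ h2) (pow_ne_zero _ h3)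
  have hden : 3 * (36 * w ^ 2 * N * D) ≠ 0 :=
    mul_ne_zero h3 (mul_ne_zero (mul_ne_zero (mul_ne_zero h36 (pow_ne_zero _ hw)) hN) hD)
  rw [div_eq_iff hden]
  ring

/-- `tnfBeta` recovers Tate's parameter `β = N / D` on Tate data. -/
theorem tnfBeta_tate {w N D : K} (h2 : (2 : K) ≠ 0) (h3 : (3 : K) ≠ 0) (hw : w ≠ 0) (hN : N ≠ 0)
    (hD : D ≠ 0) : tnfBeta (tAh w N D) (tXh w N D) (tYh w N D) = N / D := by
  simp only [tnfBeta]
  rw [tnfD_tate h2 h3 hw hN hD]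
  simp only [tYh]
  have h108 : (108 : K) ≠ 0 := by
    have : (108 : K) = 2 ^ 2 * 3 ^ 3 := by norm_num
    rw [this]; exact mul_ne_zero (pow_ne_zero _ h2) (pow_ne_zero _ h3)
  have h4 : (4 : K) ≠ 0 := by
    have : (4 : K) = 2 ^ 2 := by norm_num
    rw [this]; exact pow_ne_zero _ h2
  have hden : 4 * (-108 * w ^ 3 * N * D ^ 2) ^ 2 ≠ 0 :=
    mul_ne_zero h4 (pow_ne_zero _ (mul_ne_zero (mul_ne_zero (mul_ne_zero (neg_ne_zero.mpr h108)
      (pow_ne_zero _ hw)) hN) (pow_ne_zero _ hD)))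
  rw [div_eq_div_iff hden hD]
  ring

section map

variable {L : Type*} [Field L] (σ : K →+* L)

theorem map_tnfD (a x y : K) : σ (tnfD a x y) = tnfD (σ a) (σ x) (σ y) := by
  simp only [tnfD, map_sub, map_pow, map_div₀, map_add, map_mul, map_ofNat]

theorem map_tnfW (a x y : K) : σ (tnfW a x y) = tnfW (σ a) (σ x) (σ y) := by
  simp only [tnfW, map_div₀, map_neg, map_mul, map_ofNat, map_tnfD]

theorem map_tnfBeta (a x y : K) : σ (tnfBeta a x y) = tnfBeta (σ a) (σ x) (σ y) := by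
  simp only [tnfBeta, map_div₀, map_pow, map_mul, map_ofNat, map_tnfD]

end map

end defs

section general

/-! ### General short Weierstrass curves over an arbitrary field -/

variable {F : Type*} [Field F] {W : WeierstrassCurve F}

lemma gen_equation_iff (h1 : W.a₁ = 0) (h2 : W.a₂ = 0) (h3 : W.a₃ = 0) (x y : F) :
    W.toAffine.Equation x y ↔ y ^ 2 = x ^ 3 + W.a₄ * x + W.a₆ := by
  rw [equation_iff, h1, h2, h3]
  constructor <;> intro h <;> linear_combination h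

lemma gen_negY (h1 : W.a₁ = 0) (h3 : W.a₃ = 0) (x y : F) : W.toAffine.negY x y = -y := by
  simp [negY, h1, h3]

lemma gen_nonsingular_iff (h2' : (2 : F) ≠ 0) (h1 : W.a₁ = 0) (h2 : W.a₂ = 0) (h3 : W.a₃ = 0)
    (x y : F) :
    W.toAffine.Nonsingular x y ↔
      y ^ 2 = x ^ 3 + W.a₄ * x + W.a₆ ∧ (y ≠ 0 ∨ 3 * x ^ 2 + W.a₄ ≠ 0) := by
  rw [nonsingular_iff, gen_equation_iff h1 h2 h3, h1, h2, h3]
  constructor
  · rintro ⟨e, h | h⟩
    · refine ⟨e, Or.inr fun h0 => h ?_⟩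
      linear_combination -h0
    · refine ⟨e, Or.inl fun h0 => h ?_⟩
      rw [h0]; ring
  · rintro ⟨e, h | h⟩
    · refine ⟨e, Or.inr fun h0 => h ?_⟩
      have : (2 : F) * y = 0 := by linear_combination h0
      rcases mul_eq_zero.mp this with h' | h'
      · exact absurd h' h2'
      · exact h'
    · refine ⟨e, Or.inl fun h0 => h ?_⟩
      linear_combination -h0

lemma gen_neg_some (h1 : W.a₁ = 0) (h3 : W.a₃ = 0) {x y : F} (h : W.toAffine.Nonsingular x y) :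
    ∃ h' : W.toAffine.Nonsingular x (-y),
      -(Point.some x y h : W.toAffine.Point) = Point.some x (-y) h' := by
  have key := Point.neg_some h
  simp only [gen_negY h1 h3] at key
  exact ⟨_, key⟩

variable [DecidableEq F]

lemma gen_add_self_eq_zero_iff (h2' : (2 : F) ≠ 0) (h1 : W.a₁ = 0) (h3 : W.a₃ = 0) {x y : F}
    (h : W.toAffine.Nonsingular x y) :
    (Point.some x y h : W.toAffine.Point) + Point.some x y h = 0 ↔ y = 0 := by
  constructor
  · intro hd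
    by_contra hy
    have hy' : y ≠ W.toAffine.negY x y := by
      rw [gen_negY h1 h3]
      intro h0
      have : (2 : F) * y = 0 := by linear_combination h0
      rcases mul_eq_zero.mp this with h' | h'
      · exact h2' h'
      · exact hy h'
    rw [Point.add_self_of_Y_ne hy'] at hd
    exact Point.some_ne_zero _ hd
  · intro hy
    apply Point.add_self_of_Y_eq
    rw [gen_negY h1 h3, hy, neg_zero]

lemma gen_add_self (h2' : (2 : F) ≠ 0) (h1 : W.a₁ = 0) (h2 : W.a₂ = 0) (h3 : W.a₃ = 0) {x y : F}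
    (h : W.toAffine.Nonsingular x y) (hy : y ≠ 0) :
    ∃ h' : W.toAffine.Nonsingular
        (((3 * x ^ 2 + W.a₄) / (2 * y)) ^ 2 - 2 * x)
        (-y - (3 * x ^ 2 + W.a₄) / (2 * y) * ((((3 * x ^ 2 + W.a₄) / (2 * y)) ^ 2 - 2 * x) - x)),
      (Point.some x y h : W.toAffine.Point) + Point.some x y h =
        Point.some (((3 * x ^ 2 + W.a₄) / (2 * y)) ^ 2 - 2 * x)
          (-y - (3 * x ^ 2 + W.a₄) / (2 * y) *
            ((((3 * x ^ 2 + W.a₄) / (2 * y)) ^ 2 - 2 * x) - x)) h' := by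
  have hy' : y ≠ W.toAffine.negY x y := by
    rw [gen_negY h1 h3]
    intro h0
    have : (2 : F) * y = 0 := by linear_combination h0
    rcases mul_eq_zero.mp this with h' | h'
    · exact h2' h'
    · exact hy h'
  have key := Point.add_self_of_Y_ne (h₁ := h) hy'
  have hs : W.toAffine.slope x x y y = (3 * x ^ 2 + W.a₄) / (2 * y) := by
    rw [slope_of_Y_ne rfl hy', gen_negY h1 h3, h1, h2]
    congr 1 <;> ring
  have hX : W.toAffine.addX x x (W.toAffine.slope x x y y) =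
      ((3 * x ^ 2 + W.a₄) / (2 * y)) ^ 2 - 2 * x := by
    rw [hs]
    simp only [addX, h1, h2]
    ring
  have hY : W.toAffine.addY x x y (W.toAffine.slope x x y y) =
      -y - (3 * x ^ 2 + W.a₄) / (2 * y) * ((((3 * x ^ 2 + W.a₄) / (2 * y)) ^ 2 - 2 * x) - x) := by
    rw [hs]
    simp only [addY, negAddY, addX, negY, h1, h2, h3]
    ring
  simp only [hX, hY] at key
  exact ⟨_, key⟩

omit [DecidableEq F] in
lemma gen_some_congr {x x' y y' : F} (h : W.toAffine.Nonsingular x y)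
    (h' : W.toAffine.Nonsingular x' y') (hx : x = x') (hy : y = y') :
    (Point.some x y h : W.toAffine.Point) = Point.some x' y' h' := by
  subst hx hy
  rfl

/-- **Tate ⇒ order 5**, arbitrary field with `2, 3 ≠ 0`, homogeneous Tate data `(w, N, D)`. -/
theorem order5_of_tate_gen (h2' : (2 : F) ≠ 0) (h3' : (3 : F) ≠ 0)
    (h1 : W.a₁ = 0) (h2 : W.a₂ = 0) (h3 : W.a₃ = 0) {w N D : F} (hw : w ≠ 0) (hN : N ≠ 0)
    (hD : D ≠ 0) (hA : W.a₄ = tAh w N D) (hB : W.a₆ = tBh w N D) :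
    ∃ (h : W.toAffine.Nonsingular (tXh w N D) (tYh w N D))
      (h₂ : W.toAffine.Nonsingular (tX2h w N D) (tY2h w N D)),
      (2 : ℕ) • (Point.some _ _ h : W.toAffine.Point) = Point.some _ _ h₂ ∧
        (5 : ℕ) • (Point.some _ _ h : W.toAffine.Point) = 0 := by
  have h108 : (108 : F) ≠ 0 := by
    have : (108 : F) = 2 ^ 2 * 3 ^ 3 := by norm_num
    rw [this]; exact mul_ne_zero (pow_ne_zero _ h2') (pow_ne_zero _ h3')
  have hY : tYh w N D ≠ 0 := by
    simp only [tYh]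
    exact mul_ne_zero (mul_ne_zero (mul_ne_zero (neg_ne_zero.mpr h108) (pow_ne_zero _ hw)) hN)
      (pow_ne_zero _ hD)
  have hY2 : tY2h w N D ≠ 0 := by
    simp only [tY2h]
    exact mul_ne_zero (mul_ne_zero (mul_ne_zero h108 (pow_ne_zero _ hw))
      (pow_ne_zero _ hN)) hD
  have h : W.toAffine.Nonsingular (tXh w N D) (tYh w N D) :=
    (gen_nonsingular_iff h2' h1 h2 h3 _ _).2
      ⟨by rw [hA, hB]; exact tate_equation w N D, Or.inl hY⟩
  have h₂ : W.toAffine.Nonsingular (tX2h w N D) (tY2h w N D) :=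
    (gen_nonsingular_iff h2' h1 h2 h3 _ _).2
      ⟨by rw [hA, hB]; exact tate_equation2 w N D, Or.inl hY2⟩
  -- 2P
  obtain ⟨hd', hd⟩ := gen_add_self h2' h1 h2 h3 h hY
  have hm : (3 * tXh w N D ^ 2 + W.a₄) / (2 * tYh w N D) = 3 * w * (D - N) := by
    rw [div_eq_iff (mul_ne_zero h2' hY), hA]
    simp only [tAh, tXh, tYh, c4h]
    ring
  have hPP : (Point.some _ _ h : W.toAffine.Point) + Point.some _ _ h = Point.some _ _ h₂ := by
    rw [hd]
    refine gen_some_congr _ _ ?_ ?_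
    · rw [hm]; simp only [tXh, tX2h]; ring
    · rw [hm]; simp only [tXh, tYh, tY2h]; ring
  -- 4P = -P
  obtain ⟨hd2', hd2⟩ := gen_add_self h2' h1 h2 h3 h₂ hY2
  have hm2 : (3 * tX2h w N D ^ 2 + W.a₄) / (2 * tY2h w N D) = 3 * w * (N + D) := by
    rw [div_eq_iff (mul_ne_zero h2' hY2), hA]
    simp only [tAh, tX2h, tY2h, c4h]
    ring
  obtain ⟨hneg, hnegeq⟩ := gen_neg_some h1 h3 h
  have h4 : (Point.some _ _ h₂ : W.toAffine.Point) + Point.some _ _ h₂ =
      -Point.some _ _ h := by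
    rw [hd2, hnegeq]
    refine gen_some_congr _ _ ?_ ?_
    · rw [hm2]; simp only [tXh, tX2h]; ring
    · rw [hm2]; simp only [tX2h, tYh, tY2h]; ring
  refine ⟨h, h₂, by rw [two_nsmul]; exact hPP, ?_⟩
  have h5 : (5 : ℕ) • (Point.some _ _ h : W.toAffine.Point) =
      (Point.some _ _ h + Point.some _ _ h) + (Point.some _ _ h + Point.some _ _ h) +
        Point.some _ _ h := by
    abel
  rw [h5, hPP, h4]
  exact neg_add_cancel _

omit [DecidableEq F] in
/-- Pure algebra behind `tate_of_order5_gen`. -/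
lemma tnf_algebra {a b x y m m₂ δ w β : F} (h2' : (2 : F) ≠ 0) (h3' : (3 : F) ≠ 0)
    (hy : y ≠ 0) (hδ0 : δ ≠ 0)
    (heq : y ^ 2 = x ^ 3 + a * x + b)
    (hma : m * (2 * y) = 3 * x ^ 2 + a)
    (hδm : δ = m ^ 2 - 3 * x)
    (hm₂a : m₂ * (2 * (-y - m * δ)) = 3 * (δ + x) ^ 2 + a)
    (hR1 : m₂ * δ + 2 * y + m * δ = 0)
    (hwdef : w = -y / (3 * δ)) (hβdef : β = δ ^ 3 / (4 * y ^ 2)) :
    w ≠ 0 ∧ β ≠ 0 ∧ a = tAh w β 1 ∧ b = tBh w β 1 ∧ x = tXh w β 1 ∧ y = tYh w β 1 := by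
  have h4' : (4 : F) ≠ 0 := by
    have : (4 : F) = 2 * 2 := by norm_num
    rw [this]; exact mul_ne_zero h2' h2'
  have hkey : δ ^ 3 = 4 * y ^ 2 + 4 * y * m * δ := by
    have hxm : 3 * x = m ^ 2 - δ := by linear_combination hδm
    linear_combination (-δ) * hm₂a + (-2 * (y + m * δ)) * hR1 + δ * hma
      + (-2 * δ ^ 2) * hxm
  have hw0 : w ≠ 0 := by
    rw [hwdef]
    exact div_ne_zero (neg_ne_zero.mpr hy) (mul_ne_zero h3' hδ0)
  have hβ0 : β ≠ 0 := by
    rw [hβdef]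
    exact div_ne_zero (pow_ne_zero _ hδ0) (mul_ne_zero h4' (pow_ne_zero _ hy))
  have hyw : y = -3 * w * δ := by
    rw [hwdef]; field_simp
  have hδw : δ = 36 * w ^ 2 * β := by
    have h4y : (4 : F) * y ^ 2 ≠ 0 := mul_ne_zero h4' (pow_ne_zero _ hy)
    have hβy : β * (4 * y ^ 2) = δ ^ 3 := by
      rw [hβdef]; exact div_mul_cancel₀ _ h4y
    have e0 : δ ^ 2 * (36 * w ^ 2 * β - δ) = 0 := by
      have := hβy
      rw [hyw] at this
      linear_combination this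
    rcases mul_eq_zero.mp e0 with h' | h'
    · exact absurd h' (pow_ne_zero _ hδ0)
    · linear_combination -h'
  have hmw : m = 3 * w * (1 - β) := by
    have e : δ ^ 2 * (12 * w * m - 36 * w ^ 2 + δ) = 0 := by
      have := hkey
      rw [hyw] at this
      linear_combination this
    have e' : 12 * w * m - 36 * w ^ 2 + δ = 0 := by
      rcases mul_eq_zero.mp e with h' | h'
      · exact absurd h' (pow_ne_zero _ hδ0)
      · exact h'
    have e'' : 12 * w * (m - 3 * w * (1 - β)) = 0 := by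
      rw [hδw] at e'
      linear_combination e'
    have h12 : (12 : F) ≠ 0 := by
      have : (12 : F) = 3 * 4 := by norm_num
      rw [this]; exact mul_ne_zero h3' h4'
    have h12w : (12 : F) * w ≠ 0 := mul_ne_zero h12 hw0
    rcases mul_eq_zero.mp e'' with h' | h'
    · exact absurd h' h12w
    · linear_combination h'
  have hxT : x = tXh w β 1 := by
    simp only [tXh]
    have : 3 * x = m ^ 2 - δ := by linear_combination hδm
    rw [hmw, hδw] at this
    apply mul_left_cancel₀ h3'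
    linear_combination this
  have hyT : y = tYh w β 1 := by
    simp only [tYh]
    rw [hyw, hδw]; ring
  have haT : a = tAh w β 1 := by
    have e1 : a = m * (2 * y) - 3 * x ^ 2 := by linear_combination -hma
    rw [e1, hmw, hxT, hyT]
    simp only [tAh, c4h, tXh, tYh]
    ring
  have hbT : b = tBh w β 1 := by
    have e1 : b = y ^ 2 - x ^ 3 - a * x := by linear_combination -heq
    rw [e1, haT, hxT, hyT]
    have := tate_equation w β 1
    linear_combination this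
  exact ⟨hw0, hβ0, haT, hbT, hxT, hyT⟩

/-- **Order 5 ⇒ Tate**, arbitrary field with `2, 3 ≠ 0`: a point `(x, y)` with `5 • (x, y) = 0` on
the nonsingular curve `y² = x³ + a₄ x + a₆` is the distinguished point of the `w`-twisted Tate
curve with parameter `β`, where `w = tnfW a₄ x y`, `β = tnfBeta a₄ x y`. -/
theorem tate_of_order5_gen (h2' : (2 : F) ≠ 0) (h3' : (3 : F) ≠ 0)
    (h1 : W.a₁ = 0) (h2 : W.a₂ = 0) (h3 : W.a₃ = 0)
    (hΔ : 4 * W.a₄ ^ 3 + 27 * W.a₆ ^ 2 ≠ 0) {x y : F}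
    (h : W.toAffine.Nonsingular x y)
    (h5 : (5 : ℕ) • (Point.some x y h : W.toAffine.Point) = 0) :
    y ≠ 0 ∧ tnfD W.a₄ x y ≠ 0 ∧
      tnfW W.a₄ x y ≠ 0 ∧ tnfBeta W.a₄ x y ≠ 0 ∧
      tnfBeta W.a₄ x y ^ 2 - 11 * tnfBeta W.a₄ x y - 1 ≠ 0 ∧
      W.a₄ = tAh (tnfW W.a₄ x y) (tnfBeta W.a₄ x y) 1 ∧
      W.a₆ = tBh (tnfW W.a₄ x y) (tnfBeta W.a₄ x y) 1 ∧
      x = tXh (tnfW W.a₄ x y) (tnfBeta W.a₄ x y) 1 ∧
      y = tYh (tnfW W.a₄ x y) (tnfBeta W.a₄ x y) 1 := by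
  have hP0 : (Point.some x y h : W.toAffine.Point) ≠ 0 := Point.some_ne_zero _
  have h5' : ((Point.some x y h : W.toAffine.Point) + Point.some x y h) +
      (Point.some x y h + Point.some x y h) + Point.some x y h = 0 := by
    rw [← h5]; abel
  -- y ≠ 0
  have hy : y ≠ 0 := by
    intro hy
    have h0 : (Point.some x y h : W.toAffine.Point) + Point.some x y h = 0 :=
      (gen_add_self_eq_zero_iff h2' h1 h3 h).2 hy
    rw [h0, zero_add, zero_add] at h5'
    exact hP0 h5'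
  have heq : y ^ 2 = x ^ 3 + W.a₄ * x + W.a₆ := ((gen_nonsingular_iff h2' h1 h2 h3 x y).1 h).1
  -- 2P
  obtain ⟨hd', hd⟩ := gen_add_self h2' h1 h2 h3 h hy
  obtain ⟨m, x₂, y₂, h₂, hd2, hma, hx₂, hy₂, hδdef⟩ : ∃ (m x₂ y₂ : F)
      (h₂ : W.toAffine.Nonsingular x₂ y₂),
      (Point.some x y h : W.toAffine.Point) + Point.some x y h = Point.some x₂ y₂ h₂ ∧
      m * (2 * y) = 3 * x ^ 2 + W.a₄ ∧ x₂ = m ^ 2 - 2 * x ∧
      y₂ = -y - m * (x₂ - x) ∧ tnfD W.a₄ x y = x₂ - x :=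
    ⟨(3 * x ^ 2 + W.a₄) / (2 * y), _, _, hd', hd,
      div_mul_cancel₀ _ (mul_ne_zero h2' hy), rfl, rfl, by simp only [tnfD]; ring⟩
  -- y₂ ≠ 0
  have hy₂0 : y₂ ≠ 0 := by
    intro hy0
    have h0 : (Point.some x₂ y₂ h₂ : W.toAffine.Point) + Point.some x₂ y₂ h₂ = 0 :=
      (gen_add_self_eq_zero_iff h2' h1 h3 h₂).2 hy0
    rw [hd2, h0, zero_add] at h5'
    exact hP0 h5'
  -- 4P = -P
  obtain ⟨hd4', hd4⟩ := gen_add_self h2' h1 h2 h3 h₂ hy₂0
  obtain ⟨hneg, hnegeq⟩ := gen_neg_some h1 h3 h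
  have h4 : (Point.some x₂ y₂ h₂ : W.toAffine.Point) + Point.some x₂ y₂ h₂ =
      Point.some x (-y) hneg := by
    rw [← hnegeq, ← hd2]
    exact eq_neg_of_add_eq_zero_left h5'
  rw [hd4] at h4
  obtain ⟨m₂, hm₂a, hx4, hy4⟩ : ∃ m₂ : F, m₂ * (2 * y₂) = 3 * x₂ ^ 2 + W.a₄ ∧
      m₂ ^ 2 - 2 * x₂ = x ∧ -y₂ - m₂ * (m₂ ^ 2 - 2 * x₂ - x₂) = -y := by
    refine ⟨(3 * x₂ ^ 2 + W.a₄) / (2 * y₂), div_mul_cancel₀ _ (mul_ne_zero h2' hy₂0), ?_, ?_⟩
    · injection h4
    · injection h4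
  rw [hx4] at hy4
  -- δ = x₂ - x
  obtain ⟨δ, hδ⟩ : ∃ δ : F, δ = x₂ - x := ⟨_, rfl⟩
  have hδm : δ = m ^ 2 - 3 * x := by rw [hδ, hx₂]; ring
  have hy₂' : y₂ = -y - m * δ := by rw [hy₂, hδ]
  have hx₂' : x₂ = δ + x := by rw [hδ]; ring
  have hδ0 : δ ≠ 0 := by
    intro h0
    have hxx : x₂ = x := by rw [hx₂', h0, zero_add]
    have e1 : y₂ = -y := by rw [hy₂', h0]; ring
    have e2 : y₂ = y := by
      have := hy4
      rw [hxx] at this
      linear_combination -this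
    apply hy
    have : (2 : F) * y = 0 := by linear_combination e1 - e2
    rcases mul_eq_zero.mp this with h' | h'
    · exact absurd h' h2'
    · exact h'
  have hR1 : m₂ * δ + 2 * y + m * δ = 0 := by
    rw [hy₂', hx₂'] at hy4
    linear_combination hy4
  rw [hy₂', hx₂'] at hm₂a
  rw [← hδ] at hδdef
  obtain ⟨hw0, hβ0, haT, hbT, hxT, hyT⟩ := tnf_algebra h2' h3' hy hδ0 heq hma hδm hm₂a hR1
    (w := tnfW W.a₄ x y) (β := tnfBeta W.a₄ x y)
    (by simp only [tnfW, hδdef]) (by simp only [tnfBeta, hδdef])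
  refine ⟨hy, by rw [hδdef]; exact hδ0, hw0, hβ0, ?_, haT, hbT, hxT, hyT⟩
  -- β² - 11β - 1 ≠ 0 from the discriminant
  intro h0
  apply hΔ
  have hdisc := tate_disc (tnfW W.a₄ x y) (tnfBeta W.a₄ x y) 1
  rw [← haT, ← hbT] at hdisc
  rw [hdisc]
  have : tnfBeta W.a₄ x y ^ 2 - 11 * tnfBeta W.a₄ x y * 1 - 1 ^ 2 = 0 := by
    linear_combination h0
  rw [this]; ring

end general

section points

/-! ### The S51 setting: `(shortW A B)⁄K` with `K ⊇ ℚ` -/

variable {K : Type*} [Field K] [Algebra ℚ K] [DecidableEq K] (A B : ℚ)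

/-- **Tate ⇒ order 5** (homogeneous form), S51 setting. -/
theorem order5_of_tate {w N D : K} (hw : w ≠ 0) (hN : N ≠ 0) (hD : D ≠ 0)
    (hA : algebraMap ℚ K A = tAh w N D) (hB : algebraMap ℚ K B = tBh w N D) :
    ∃ (h : ((shortW A B)⁄K).Nonsingular (tXh w N D) (tYh w N D))
      (h2 : ((shortW A B)⁄K).Nonsingular (tX2h w N D) (tY2h w N D)),
      (2 : ℕ) • (Point.some _ _ h : ((shortW A B)⁄K).Point) = Point.some _ _ h2 ∧
        (5 : ℕ) • (Point.some _ _ h : ((shortW A B)⁄K).Point) = 0 := by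
  have hchar : CharZero K := algebraRat.charZero K
  exact order5_of_tate_gen (W := (shortW A B)⁄K) two_ne_zero three_ne_zero (dbl_a₁ A B)
    (dbl_a₂ A B) (dbl_a₃ A B) hw hN hD (by rw [dbl_a₄]; exact hA) (by rw [dbl_a₆]; exact hB)

/-- **Order 5 ⇒ Tate**, S51 setting. -/
theorem tate_of_order5 (hΔ : 4 * A ^ 3 + 27 * B ^ 2 ≠ 0) {x y : K}
    (h : ((shortW A B)⁄K).Nonsingular x y)
    (h5 : (5 : ℕ) • (Point.some x y h : ((shortW A B)⁄K).Point) = 0) :
    y ≠ 0 ∧ tnfD (algebraMap ℚ K A) x y ≠ 0 ∧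
      tnfW (algebraMap ℚ K A) x y ≠ 0 ∧ tnfBeta (algebraMap ℚ K A) x y ≠ 0 ∧
      tnfBeta (algebraMap ℚ K A) x y ^ 2 - 11 * tnfBeta (algebraMap ℚ K A) x y - 1 ≠ 0 ∧
      algebraMap ℚ K A =
        tAh (tnfW (algebraMap ℚ K A) x y) (tnfBeta (algebraMap ℚ K A) x y) 1 ∧
      algebraMap ℚ K B =
        tBh (tnfW (algebraMap ℚ K A) x y) (tnfBeta (algebraMap ℚ K A) x y) 1 ∧
      x = tXh (tnfW (algebraMap ℚ K A) x y) (tnfBeta (algebraMap ℚ K A) x y) 1 ∧
      y = tYh (tnfW (algebraMap ℚ K A) x y) (tnfBeta (algebraMap ℚ K A) x y) 1 := by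
  have hchar : CharZero K := algebraRat.charZero K
  have hΔ' : 4 * ((shortW A B)⁄K).a₄ ^ 3 + 27 * ((shortW A B)⁄K).a₆ ^ 2 ≠ 0 := by
    rw [dbl_a₄, dbl_a₆]
    intro hz
    apply hΔ
    have hcast : algebraMap ℚ K (4 * A ^ 3 + 27 * B ^ 2) = 0 := by
      rw [map_add, map_mul, map_mul, map_pow, map_pow, map_ofNat, map_ofNat]
      exact hz
    exact (map_eq_zero (algebraMap ℚ K)).mp hcast
  have key := tate_of_order5_gen (W := (shortW A B)⁄K) two_ne_zero three_ne_zero (dbl_a₁ A B)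
    (dbl_a₂ A B) (dbl_a₃ A B) hΔ' h h5
  rw [dbl_a₄, dbl_a₆] at key
  exact key

end points

end Fermat.Agent.S52.TNF
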