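/-
Team S52, block E5F (owner: helper51).  The 5-torsion of a short Weierstrass curve
`y² = x³ + a₄ x + a₆` over an ARBITRARY field `F` with `2 ≠ 0` and `5 ≠ 0`
(characteristic `ℓ ≥ 7`, function fields and `Qbar` are all covered).

With `f = x³+ax+b`, `ψ₃ = 3x⁴+6ax²+12bx-a²`, `g₄` (`ψ₄ = 4 y g₄`), `ψ₅ = 32 g₄ f² - ψ₃³`
(the definitions `e5p_f`, `e5p_psi3`, `e5p_g4`, `e5p_psi5` of the frozen file `S51/E5Points.lean`):

* `psi5_of_five_nsmul` / `five_nsmul_of_psi5` : a point `(x, y)` is killed by `5` iff `ψ₅(x) = 0`.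
* `exists_order_five` : over an algebraically closed field a point of exact order `5` exists;
  `exists_tate_param_of_E5` : hence Tate parameters `(w, β)` exist (via `TNF.tate_of_order5_gen`).
* `psi5Poly` : `ψ₅` as a polynomial; degree `12`; SEPARABLE when `4a³+27b² ≠ 0`, by the identities
  `ψ₃ ψ₅' = 20 f (4 g₄² + ψ₅)` and `g₄² = 64 f⁴ - ψ₃ (48 x² f² - 12 x f ψ₃ + ψ₃² + 16 a f²)`.
* `card_five_torsion_le` (`≤ 25`, any field), `card_five_torsion_eq` (`= 25`, algebraically closed).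
-/
import Fermat.Agent.S51.E5Points
import Fermat.Agent.S51.TorsCount
import Fermat.Agent.S52.TNF

set_option autoImplicit false

open WeierstrassCurve WeierstrassCurve.Affine Polynomial

namespace Fermat.Agent.S52.E5F

open Fermat.Agent.S51 Fermat.Agent.S52.TNF

section algebra

variable {F : Type*} [Field F]

/-- The 5-division polynomial of `y² = x³ + a x + b` as a polynomial in `x`. -/
noncomputable def psi5Poly (a b : F) : F[X] :=
  32 * (X ^ 6 + 5 * C a * X ^ 4 + 20 * C b * X ^ 3 - 5 * C a ^ 2 * X ^ 2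
      - 4 * C a * C b * X - 8 * C b ^ 2 - C a ^ 3) * (X ^ 3 + C a * X + C b) ^ 2
      - (3 * X ^ 4 + 6 * C a * X ^ 2 + 12 * C b * X - C a ^ 2) ^ 3

theorem psi5Poly_eval (a b x : F) : (psi5Poly a b).eval x = e5p_psi5 a b x := by
  unfold psi5Poly e5p_psi5 e5p_g4 e5p_f e5p_psi3
  simp only [eval_sub, eval_mul, eval_pow, eval_add, eval_X, eval_C, eval_ofNat]

theorem psi5Poly_natDegree_le (a b : F) : (psi5Poly a b).natDegree ≤ 12 := by
  unfold psi5Poly
  compute_degree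

theorem psi5Poly_coeff (a b : F) : (psi5Poly a b).coeff 12 = 5 := by
  unfold psi5Poly
  compute_degree!

theorem psi5Poly_natDegree (h5 : (5 : F) ≠ 0) (a b : F) : (psi5Poly a b).natDegree = 12 :=
  le_antisymm (psi5Poly_natDegree_le a b)
    (le_natDegree_of_ne_zero (by rw [psi5Poly_coeff]; exact h5))

theorem psi5Poly_ne_zero (h5 : (5 : F) ≠ 0) (a b : F) : psi5Poly a b ≠ 0 := by
  intro h
  have := psi5Poly_coeff a b
  rw [h, coeff_zero] at this
  exact h5 this.symm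

theorem psi5Poly_map {K : Type*} [Field K] (φ : F →+* K) (a b : F) :
    (psi5Poly a b).map φ = psi5Poly (φ a) (φ b) := by
  unfold psi5Poly
  simp only [Polynomial.map_sub, Polynomial.map_mul, Polynomial.map_pow, Polynomial.map_add,
    Polynomial.map_X, Polynomial.map_C, Polynomial.map_ofNat]

/-- The key identity `ψ₃ ψ₅' = 20 f (4 g₄² + ψ₅)`. -/
theorem psi3_mul_derivative_psi5 (a b x : F) :
    e5p_psi3 a b x * (derivative (psi5Poly a b)).eval x =
      20 * e5p_f a b x * (4 * e5p_g4 a b x ^ 2 + e5p_psi5 a b x) := by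
  unfold psi5Poly e5p_psi5 e5p_g4 e5p_f e5p_psi3
  simp only [derivative_sub, derivative_mul, derivative_pow, derivative_add, derivative_X,
    derivative_C, derivative_ofNat, eval_sub, eval_mul, eval_pow, eval_add, eval_X, eval_C,
    eval_ofNat, eval_zero, eval_one, Nat.cast_ofNat]
  ring

/-- `g₄² = 64 f⁴ - ψ₃ · (48 x² f² - 12 x f ψ₃ + ψ₃² + 16 a f²)`. -/
theorem g4_sq_eq (a b x : F) :
    e5p_g4 a b x ^ 2 = 64 * e5p_f a b x ^ 4 -
      e5p_psi3 a b x * (48 * x ^ 2 * e5p_f a b x ^ 2 - 12 * x * e5p_f a b x * e5p_psi3 a b x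
        + e5p_psi3 a b x ^ 2 + 16 * a * e5p_f a b x ^ 2) := by
  unfold e5p_g4 e5p_f e5p_psi3
  ring

theorem f_ne_zero_of_psi5 {a b : F} (hΔ : 4 * a ^ 3 + 27 * b ^ 2 ≠ 0) {x : F}
    (hx : e5p_psi5 a b x = 0) : e5p_f a b x ≠ 0 := by
  intro hf0
  have h3 : e5p_psi3 a b x ^ 3 = 0 := by
    have := hx
    unfold e5p_psi5 at this
    rw [hf0] at this
    linear_combination -this
  have h3' : e5p_psi3 a b x = 0 := pow_eq_zero_iff (by norm_num) |>.mp h3
  have hd : (3 * x ^ 2 + a) ^ 2 = 0 := by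
    have := e5p_psi3_eq a b x
    rw [h3', hf0] at this
    linear_combination this
  have hd' : 3 * x ^ 2 + a = 0 := pow_eq_zero_iff (by norm_num) |>.mp hd
  apply hΔ
  rw [e5p_disc_eq a b x, hf0, hd']
  ring

theorem g4_ne_zero_of_psi5 (h2 : (2 : F) ≠ 0) {a b : F} (hΔ : 4 * a ^ 3 + 27 * b ^ 2 ≠ 0)
    {x : F} (hx : e5p_psi5 a b x = 0) : e5p_g4 a b x ≠ 0 := by
  intro hg0
  have hf := f_ne_zero_of_psi5 hΔ hx
  have h3 : e5p_psi3 a b x ^ 3 = 0 := by
    have := hx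
    unfold e5p_psi5 at this
    rw [hg0] at this
    linear_combination -this
  have h3' : e5p_psi3 a b x = 0 := pow_eq_zero_iff (by norm_num) |>.mp h3
  have key := g4_sq_eq a b x
  rw [hg0, h3'] at key
  have h64 : (64 : F) * e5p_f a b x ^ 4 = 0 := by linear_combination -key
  have h64' : (64 : F) ≠ 0 := by
    have : (64 : F) = 2 ^ 6 := by norm_num
    rw [this]; exact pow_ne_zero _ h2
  rcases mul_eq_zero.mp h64 with h | h
  · exact h64' h
  · exact hf (pow_eq_zero_iff (by norm_num) |>.mp h)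

theorem psi3_ne_zero_of_psi5 (h2 : (2 : F) ≠ 0) {a b : F} (hΔ : 4 * a ^ 3 + 27 * b ^ 2 ≠ 0)
    {x : F} (hx : e5p_psi5 a b x = 0) : e5p_psi3 a b x ≠ 0 := by
  intro h30
  have hf := f_ne_zero_of_psi5 hΔ hx
  have hg := g4_ne_zero_of_psi5 h2 hΔ hx
  have : 32 * e5p_g4 a b x * e5p_f a b x ^ 2 = 0 := by
    have := hx
    unfold e5p_psi5 at this
    rw [h30] at this
    linear_combination this
  have h32 : (32 : F) ≠ 0 := by
    have : (32 : F) = 2 ^ 5 := by norm_num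
    rw [this]; exact pow_ne_zero _ h2
  exact mul_ne_zero (mul_ne_zero h32 hg) (pow_ne_zero _ hf) this

/-- Roots of `ψ₅` are simple. -/
theorem derivative_psi5_ne_zero (h2 : (2 : F) ≠ 0) (h5 : (5 : F) ≠ 0) {a b : F}
    (hΔ : 4 * a ^ 3 + 27 * b ^ 2 ≠ 0) {x : F} (hx : e5p_psi5 a b x = 0) :
    (derivative (psi5Poly a b)).eval x ≠ 0 := by
  intro h0
  have hf := f_ne_zero_of_psi5 hΔ hx
  have hg := g4_ne_zero_of_psi5 h2 hΔ hx
  have key := psi3_mul_derivative_psi5 a b x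
  rw [h0, hx, mul_zero, add_zero] at key
  have h80 : (80 : F) ≠ 0 := by
    have : (80 : F) = 2 ^ 4 * 5 := by norm_num
    rw [this]; exact mul_ne_zero (pow_ne_zero _ h2) h5
  have : (80 : F) * (e5p_f a b x * e5p_g4 a b x ^ 2) = 0 := by linear_combination -key
  exact mul_ne_zero h80 (mul_ne_zero hf (pow_ne_zero _ hg)) this

/-- `ψ₅` is separable when the curve is nonsingular (`2, 5 ≠ 0`). -/
theorem psi5Poly_separable (h2 : (2 : F) ≠ 0) (h5 : (5 : F) ≠ 0) {a b : F}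
    (hΔ : 4 * a ^ 3 + 27 * b ^ 2 ≠ 0) : (psi5Poly a b).Separable := by
  rw [separable_def]
  refine (isCoprime_iff_aeval_ne_zero_of_isAlgClosed F (AlgebraicClosure F) _ _).mpr ?_
  intro z
  by_contra hcon
  obtain ⟨h0, h0'⟩ := not_or.mp hcon
  rw [not_not] at h0 h0'
  set φ : F →+* AlgebraicClosure F := algebraMap F (AlgebraicClosure F) with hφ
  have h2K : (2 : AlgebraicClosure F) ≠ 0 := by
    have := (map_ne_zero φ).mpr h2
    rwa [map_ofNat] at this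
  have h5K : (5 : AlgebraicClosure F) ≠ 0 := by
    have := (map_ne_zero φ).mpr h5
    rwa [map_ofNat] at this
  have hΔK : 4 * (φ a) ^ 3 + 27 * (φ b) ^ 2 ≠ 0 := by
    have := (map_ne_zero φ).mpr hΔ
    rwa [map_add, map_mul, map_mul, map_pow, map_pow, map_ofNat, map_ofNat] at this
  have e1 : (psi5Poly (φ a) (φ b)).eval z = 0 := by
    rw [← psi5Poly_map, eval_map_algebraMap]; exact h0
  have e2 : (derivative (psi5Poly (φ a) (φ b))).eval z = 0 := by
    rw [← psi5Poly_map, derivative_map, eval_map_algebraMap]; exact h0'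
  rw [psi5Poly_eval] at e1
  exact derivative_psi5_ne_zero h2K h5K hΔK e1 e2

end algebra

section points

variable {F : Type*} [Field F] [DecidableEq F] {W : WeierstrassCurve F}

/-- Doubling a point with `y ≠ 0`, in terms of `e5p_dblX`, `e5p_dblY`. -/
lemma add_self_dbl (h2' : (2 : F) ≠ 0) (h1 : W.a₁ = 0) (h2 : W.a₂ = 0) (h3 : W.a₃ = 0) {x y : F}
    (h : W.toAffine.Nonsingular x y) (hy : y ≠ 0) :
    ∃ h' : W.toAffine.Nonsingular (e5p_dblX W.a₄ x y) (e5p_dblY W.a₄ x y),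
      (Point.some x y h : W.toAffine.Point) + Point.some x y h =
        Point.some (e5p_dblX W.a₄ x y) (e5p_dblY W.a₄ x y) h' :=
  gen_add_self h2' h1 h2 h3 h hy

/-- **5-torsion ⇒ root of `ψ₅`.**  No hypothesis on the discriminant is needed. -/
theorem psi5_of_five_nsmul (h2' : (2 : F) ≠ 0) (h1 : W.a₁ = 0) (h2 : W.a₂ = 0) (h3 : W.a₃ = 0)
    {x y : F} (h : W.toAffine.Nonsingular x y)
    (h5 : (5 : ℕ) • (Point.some x y h : W.toAffine.Point) = 0) :
    e5p_psi5 W.a₄ W.a₆ x = 0 := by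
  have h8 : (8 : F) ≠ 0 := by
    have : (8 : F) = 2 ^ 3 := by norm_num
    rw [this]; exact pow_ne_zero _ h2'
  have h4 : (4 : F) ≠ 0 := by
    have : (4 : F) = 2 ^ 2 := by norm_num
    rw [this]; exact pow_ne_zero _ h2'
  have hP0 : (Point.some x y h : W.toAffine.Point) ≠ 0 := Point.some_ne_zero h
  have hE : y ^ 2 = x ^ 3 + W.a₄ * x + W.a₆ := (gen_equation_iff h1 h2 h3 x y).mp h.1
  set P : W.toAffine.Point := Point.some x y h with hP
  have h5' : P + P + (P + P) + P = 0 := by rw [← h5]; abel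
  have hy : y ≠ 0 := by
    intro hy0
    have h2P : P + P = 0 := (gen_add_self_eq_zero_iff h2' h1 h3 h).mpr hy0
    rw [h2P, add_zero, zero_add] at h5'
    exact hP0 h5'
  obtain ⟨hns2, hd⟩ := add_self_dbl h2' h1 h2 h3 h hy
  have hX2 := e5p_dbl_x W.a₄ W.a₆ x y h2' hy hE
  have hY2 := e5p_dbl_y W.a₄ W.a₆ x y h2' hy hE
  have hy2 : e5p_dblY W.a₄ x y ≠ 0 := by
    intro hy20
    have h4P : (P + P) + (P + P) = 0 := by
      rw [hd]; exact (gen_add_self_eq_zero_iff h2' h1 h3 hns2).mpr hy20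
    rw [h4P, zero_add] at h5'
    exact hP0 h5'
  have hg : e5p_g4 W.a₄ W.a₆ x ≠ 0 := by
    rw [← hY2]
    exact mul_ne_zero (mul_ne_zero h8 (pow_ne_zero _ hy)) hy2
  obtain ⟨hns4, hdd⟩ := add_self_dbl h2' h1 h2 h3 hns2 hy2
  have h4P : (P + P) + (P + P) = -P := eq_neg_of_add_eq_zero_left h5'
  have hx4 : e5p_dblX W.a₄ (e5p_dblX W.a₄ x y) (e5p_dblY W.a₄ x y) = x := by
    rw [hd, hdd] at h4P
    exact (Point.X_eq_iff (h₁ := hns4) (h₂ := h)).mpr (Or.inr h4P)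
  have hquad := e5p_quad_x W.a₄ W.a₆ x y h2' hy hE hg
  rw [hx4, sub_self, zero_mul] at hquad
  have h35 : e5p_psi3 W.a₄ W.a₆ x * e5p_psi5 W.a₄ W.a₆ x = 0 := by linear_combination hquad
  rcases mul_eq_zero.mp h35 with h30 | h50
  · exfalso
    have hX2' : 4 * y ^ 2 * (e5p_dblX W.a₄ x y - x) = -e5p_psi3 W.a₄ W.a₆ x := by
      have hF : e5p_f W.a₄ W.a₆ x = y ^ 2 := by unfold e5p_f; rw [hE]
      rw [e5p_psi3_eq, hF]
      linear_combination hX2 + 8 * x * hE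
    have hxx : e5p_dblX W.a₄ x y = x := by
      rw [h30, neg_zero] at hX2'
      have h4y : (4 : F) * y ^ 2 ≠ 0 := mul_ne_zero h4 (pow_ne_zero _ hy)
      have := (mul_eq_zero.mp hX2').resolve_left h4y
      linear_combination this
    rcases (Point.X_eq_iff (h₁ := hns2) (h₂ := h)).mp hxx with h' | h'
    · rw [← hd] at h'
      exact hP0 (add_eq_left.mp h')
    · rw [← hd] at h'
      rw [h'] at h5'
      have : -P = 0 := by rw [← h5']; abel
      exact hP0 (neg_eq_zero.mp this)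
  · exact h50

/-- **Root of `ψ₅` ⇒ 5-torsion.** -/
theorem five_nsmul_of_psi5 (h2' : (2 : F) ≠ 0) (h1 : W.a₁ = 0) (h2 : W.a₂ = 0) (h3 : W.a₃ = 0)
    (hΔ : 4 * W.a₄ ^ 3 + 27 * W.a₆ ^ 2 ≠ 0) {x y : F}
    (hE : y ^ 2 = x ^ 3 + W.a₄ * x + W.a₆) (hx : e5p_psi5 W.a₄ W.a₆ x = 0) :
    ∃ h : W.toAffine.Nonsingular x y, (5 : ℕ) • (Point.some x y h : W.toAffine.Point) = 0 := by
  have h8 : (8 : F) ≠ 0 := by
    have : (8 : F) = 2 ^ 3 := by norm_num
    rw [this]; exact pow_ne_zero _ h2'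
  have h4 : (4 : F) ≠ 0 := by
    have : (4 : F) = 2 ^ 2 := by norm_num
    rw [this]; exact pow_ne_zero _ h2'
  have h16 : (16 : F) ≠ 0 := by
    have : (16 : F) = 2 ^ 4 := by norm_num
    rw [this]; exact pow_ne_zero _ h2'
  have hF : e5p_f W.a₄ W.a₆ x = y ^ 2 := by unfold e5p_f; rw [hE]
  have hf := f_ne_zero_of_psi5 hΔ hx
  have hg := g4_ne_zero_of_psi5 h2' hΔ hx
  have h3ne := psi3_ne_zero_of_psi5 h2' hΔ hx
  have hy : y ≠ 0 := by
    intro hy0
    apply hf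
    rw [hF, hy0]; ring
  have hns : W.toAffine.Nonsingular x y :=
    (gen_nonsingular_iff h2' h1 h2 h3 x y).mpr ⟨hE, Or.inl hy⟩
  refine ⟨hns, ?_⟩
  obtain ⟨hns2, hd⟩ := add_self_dbl h2' h1 h2 h3 hns hy
  have hX2 := e5p_dbl_x W.a₄ W.a₆ x y h2' hy hE
  have hY2 := e5p_dbl_y W.a₄ W.a₆ x y h2' hy hE
  have hX2' : 4 * y ^ 2 * (e5p_dblX W.a₄ x y - x) = -e5p_psi3 W.a₄ W.a₆ x := by
    rw [e5p_psi3_eq, hF]
    linear_combination hX2 + 8 * x * hE
  have hy2 : e5p_dblY W.a₄ x y ≠ 0 := by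
    intro h0
    rw [h0] at hY2
    exact hg (by rw [← hY2]; ring)
  obtain ⟨hns4, hdd⟩ := add_self_dbl h2' h1 h2 h3 hns2 hy2
  have hquad := e5p_quad_x W.a₄ W.a₆ x y h2' hy hE hg
  have hx4 : e5p_dblX W.a₄ (e5p_dblX W.a₄ x y) (e5p_dblY W.a₄ x y) = x := by
    rw [hx, mul_zero, neg_zero] at hquad
    have hne : (16 : F) * y ^ 2 * e5p_g4 W.a₄ W.a₆ x ^ 2 ≠ 0 :=
      mul_ne_zero (mul_ne_zero h16 (pow_ne_zero _ hy)) (pow_ne_zero _ hg)
    have := (mul_eq_zero.mp hquad).resolve_right hne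
    linear_combination this
  set P : W.toAffine.Point := Point.some x y hns with hPdef
  have h5 : (5 : ℕ) • P = (P + P) + (P + P) + P := by abel
  rcases (Point.X_eq_iff (h₁ := hns4) (h₂ := hns)).mp hx4 with h | h
  · exfalso
    rw [← hdd, ← hd] at h
    have h3 : P + P = -P := by
      have h' : (P + P) + (P + P) = P := h
      have : (P + P) + P = 0 := by
        have e : (P + P) + (P + P) - P = (P + P) + P := by abel
        rw [← e, h']; abel
      exact eq_neg_of_add_eq_zero_left this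
    rw [hd] at h3
    have hxx : e5p_dblX W.a₄ x y = x := (Point.X_eq_iff (h₁ := hns2) (h₂ := hns)).mpr (Or.inr h3)
    apply h3ne
    rw [hxx, sub_self, mul_zero] at hX2'
    linear_combination hX2'
  · rw [← hdd, ← hd] at h
    have h' : (P + P) + (P + P) = -P := h
    rw [h5, h']
    abel

/-- A nonzero point killed by `5` exists over an algebraically closed field (`2, 5 ≠ 0`). -/
theorem exists_order_five [IsAlgClosed F] (h2' : (2 : F) ≠ 0) (h5' : (5 : F) ≠ 0)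
    (h1 : W.a₁ = 0) (h2 : W.a₂ = 0) (h3 : W.a₃ = 0)
    (hΔ : 4 * W.a₄ ^ 3 + 27 * W.a₆ ^ 2 ≠ 0) :
    ∃ (x y : F) (h : W.toAffine.Nonsingular x y),
      (5 : ℕ) • (Point.some x y h : W.toAffine.Point) = 0 := by
  have hdeg : (psi5Poly W.a₄ W.a₆).degree ≠ 0 := by
    have hpos : 0 < (psi5Poly W.a₄ W.a₆).degree :=
      natDegree_pos_iff_degree_pos.mp (by rw [psi5Poly_natDegree h5']; norm_num)
    exact hpos.ne'
  obtain ⟨x, hx⟩ := IsAlgClosed.exists_root _ hdeg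
  have hx' : e5p_psi5 W.a₄ W.a₆ x = 0 := by rw [← psi5Poly_eval]; exact hx
  obtain ⟨y, hy⟩ := IsAlgClosed.exists_pow_nat_eq (x ^ 3 + W.a₄ * x + W.a₆) (n := 2) (by norm_num)
  obtain ⟨h, h5⟩ := five_nsmul_of_psi5 h2' h1 h2 h3 hΔ hy hx'
  exact ⟨x, y, h, h5⟩

/-- **Tate parameters from `E[5]`** (an independent route to the parameter lemma): over an
algebraically closed field with `2, 3, 5 ≠ 0` every nonsingular short Weierstrass curve is the
`w`-twist of a Tate curve `E_β`, `β (β² - 11 β - 1) ≠ 0`. -/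
theorem exists_tate_param_of_E5 [IsAlgClosed F] (h2' : (2 : F) ≠ 0) (h3' : (3 : F) ≠ 0)
    (h5' : (5 : F) ≠ 0) (h1 : W.a₁ = 0) (h2 : W.a₂ = 0) (h3 : W.a₃ = 0)
    (hΔ : 4 * W.a₄ ^ 3 + 27 * W.a₆ ^ 2 ≠ 0) :
    ∃ w β : F, w ≠ 0 ∧ β ≠ 0 ∧ β ^ 2 - 11 * β - 1 ≠ 0 ∧
      W.a₄ = tAh w β 1 ∧ W.a₆ = tBh w β 1 := by
  obtain ⟨x, y, h, h5⟩ := exists_order_five h2' h5' h1 h2 h3 hΔ
  obtain ⟨-, -, hw, hβ, hβ', hA, hB, -, -⟩ := tate_of_order5_gen h2' h3' h1 h2 h3 hΔ h h5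
  exact ⟨_, _, hw, hβ, hβ', hA, hB⟩

/-- `#E[5] ≤ 25` over any field with `2, 5 ≠ 0` (no hypothesis on the discriminant). -/
theorem card_five_torsion_le (h2' : (2 : F) ≠ 0) (h5' : (5 : F) ≠ 0)
    (h1 : W.a₁ = 0) (h2 : W.a₂ = 0) (h3 : W.a₃ = 0) :
    Finite (Submodule.torsionBy ℤ W.toAffine.Point (5 : ℕ)) ∧
      Nat.card (Submodule.torsionBy ℤ W.toAffine.Point (5 : ℕ)) ≤ 25 := by
  obtain ⟨hfin, hle⟩ := tc_card_le (W := W.toAffine) 5 (psi5Poly W.a₄ W.a₆)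
    (psi5Poly_ne_zero h5' _ _) (fun x y hxy h => by
      rw [psi5Poly_eval]
      refine psi5_of_five_nsmul h2' h1 h2 h3 hxy ?_
      rw [← Nat.cast_smul_eq_nsmul ℤ]
      exact h)
  refine ⟨hfin, hle.trans ?_⟩
  have := psi5Poly_natDegree_le W.a₄ W.a₆
  omega

end points

end Fermat.Agent.S52.E5F
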