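/-
Team S52, block E5F (owner: helper51), part 2.  `#E[5] = 25` for a nonsingular short Weierstrass
curve over an algebraically closed field with `2 ≠ 0`, `5 ≠ 0`.

Math: `ψ₅` is separable of degree 12 (`E5F.psi5Poly_separable`), so it has 12 distinct roots; each
root is the abscissa of a point killed by `5`; so `#E[5] ≥ 12`, and `#E[5]` is a power of `5` which
is `≤ 25`.
-/
import Fermat.Agent.S52.E5F

set_option autoImplicit false

open WeierstrassCurve WeierstrassCurve.Affine Polynomial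

namespace Fermat.Agent.S52.E5F

open Fermat.Agent.S51 Fermat.Agent.S52.TNF

section card

variable {F : Type*} [Field F] [DecidableEq F] {W : WeierstrassCurve F}

/-- `#E[5] = 25` over an algebraically closed field with `2, 5 ≠ 0`. -/
theorem card_five_torsion_eq [IsAlgClosed F] (h2' : (2 : F) ≠ 0) (h5' : (5 : F) ≠ 0)
    (h1 : W.a₁ = 0) (h2 : W.a₂ = 0) (h3 : W.a₃ = 0)
    (hΔ : 4 * W.a₄ ^ 3 + 27 * W.a₆ ^ 2 ≠ 0) :
    Nat.card (Submodule.torsionBy ℤ W.toAffine.Point (5 : ℕ)) = 25 := by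
  classical
  obtain ⟨hfin, hle⟩ := card_five_torsion_le (W := W) h2' h5' h1 h2 h3
  have hsep : (psi5Poly W.a₄ W.a₆).Separable := psi5Poly_separable h2' h5' hΔ
  have hcard : (psi5Poly W.a₄ W.a₆).roots.toFinset.card = 12 := by
    rw [Multiset.toFinset_card_of_nodup (nodup_roots hsep), IsAlgClosed.card_roots_eq_natDegree,
      psi5Poly_natDegree h5']
  have hsq : ∀ x : F, ∃ z : F, z ^ 2 = x ^ 3 + W.a₄ * x + W.a₆ := fun x =>
    IsAlgClosed.exists_pow_nat_eq _ (by norm_num)
  choose s hs using hsq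
  have hmem : ∀ x ∈ (psi5Poly W.a₄ W.a₆).roots.toFinset,
      ∃ h : W.toAffine.Nonsingular x (s x),
        (5 : ℕ) • (Point.some x (s x) h : W.toAffine.Point) = 0 := by
    intro x hx
    have hx' : e5p_psi5 W.a₄ W.a₆ x = 0 := by
      rw [← psi5Poly_eval]
      exact (mem_roots (psi5Poly_ne_zero h5' _ _)).mp (Multiset.mem_toFinset.mp hx)
    exact five_nsmul_of_psi5 h2' h1 h2 h3 hΔ (hs x) hx'
  let g : (psi5Poly W.a₄ W.a₆).roots.toFinset →
      Submodule.torsionBy ℤ W.toAffine.Point (5 : ℕ) := fun x =>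
    ⟨Point.some x.1 (s x.1) (hmem x.1 x.2).choose, by
      rw [Submodule.mem_torsionBy_iff, Nat.cast_smul_eq_nsmul]
      exact (hmem x.1 x.2).choose_spec⟩
  have hg : Function.Injective g := by
    intro x x' hxx
    have h' : (Point.some x.1 (s x.1) (hmem x.1 x.2).choose : W.toAffine.Point) =
        Point.some x'.1 (s x'.1) (hmem x'.1 x'.2).choose := congrArg Subtype.val hxx
    exact Subtype.ext ((Point.some.injEq _ _ _ _ _ _).mp h').1
  have h12 : 12 ≤ Nat.card (Submodule.torsionBy ℤ W.toAffine.Point (5 : ℕ)) := by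
    have := Nat.card_le_card_of_injective g hg
    rwa [Nat.card_eq_fintype_card, Fintype.card_coe, hcard] at this
  -- `ZMod 5`-module structure: the cardinality is a power of `5`
  have : Fact (Nat.Prime 5) := ⟨by norm_num⟩
  let : Module (ZMod 5) (Submodule.torsionBy ℤ W.toAffine.Point (5 : ℕ)) :=
    AddCommGroup.zmodModule (by
      intro x
      rw [← Nat.cast_smul_eq_nsmul ℤ 5 x]
      exact Submodule.smul_torsionBy _ x)
  have hpow := Module.natCard_eq_pow_finrank (K := ZMod 5)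
    (V := Submodule.torsionBy ℤ W.toAffine.Point (5 : ℕ))
  rw [Nat.card_zmod] at hpow
  rw [hpow] at hle h12 ⊢
  have hk2 : Module.finrank (ZMod 5) (Submodule.torsionBy ℤ W.toAffine.Point (5 : ℕ)) ≤ 2 := by
    by_contra hcon
    have h3le : 3 ≤ Module.finrank (ZMod 5) (Submodule.torsionBy ℤ W.toAffine.Point (5 : ℕ)) := by
      omega
    have : 5 ^ 3 ≤ 5 ^ Module.finrank (ZMod 5) (Submodule.torsionBy ℤ W.toAffine.Point (5 : ℕ)) :=
      Nat.pow_le_pow_right (by norm_num) h3le
    omega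
  have hk2' : 2 ≤ Module.finrank (ZMod 5) (Submodule.torsionBy ℤ W.toAffine.Point (5 : ℕ)) := by
    by_contra hcon
    have h1le : Module.finrank (ZMod 5) (Submodule.torsionBy ℤ W.toAffine.Point (5 : ℕ)) ≤ 1 := by
      omega
    have : 5 ^ Module.finrank (ZMod 5) (Submodule.torsionBy ℤ W.toAffine.Point (5 : ℕ)) ≤ 5 ^ 1 :=
      Nat.pow_le_pow_right (by norm_num) h1le
    omega
  have : Module.finrank (ZMod 5) (Submodule.torsionBy ℤ W.toAffine.Point (5 : ℕ)) = 2 := by omega
  rw [this]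
  norm_num

end card

end Fermat.Agent.S52.E5F
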