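/-
S52 block [Glue] core (helper11): the FAMILY-INDEPENDENT final assembly of the 3–5 switch.

The 5-congruent family enters only through three functions `F4 F6 D : ℤ → ℤ → ℤ → ℤ`
(to be instantiated by the Tate-chart family `fam4`, `fam6`, `Dfam` at `R = ℤ`) and five
hypotheses, one per block:

* `H0`    : `F4 c4 c6 t ≡ c4`, `F6 c4 c6 t ≡ c6`, `D c4 c6 t ≡ 1` modulo `t`            ([Fam]);
* `Hdisc` : `F4³ - F6² = (c4³ - c6²) · D⁵`                                              ([Fam]);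
* `Hss`   : semistability of the members at the primes `r ∉ {2,3,5}` good for `(c4,c6)`  ([SS]);
* `Hirr`  : some member `t ≡ 0 mod M` has irreducible mod-3 representation               ([Irr3]);
* `Hap`   : `a_ℓ` of the member is congruent mod 5 to `a_ℓ` of the base curve, for
            `ℓ ≥ 7` good for both, stated for the short models over `ZMod ℓ`             ([X5]+[Frob]).

Inside: `N = 30·Δ_W`, `M = 41472·N`, the integral model of the member from `Model.lean`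
(equal to `W` modulo every prime dividing `N`, so nothing has to be proved at `2, 3, 5` and at the
bad primes of `W`), `D ≠ 0` because `D ≡ 1 mod t` and `M ∣ t`, `Δ' = Δ_W · D⁵`.
-/
import Mathlib
import Fermat.Prelude.Def_FLTPrelim_Modularity
import Fermat.Prelude.Def_FLTPrelim_ModularRep
import Fermat.Agent.S52.Model
import Fermat.Agent.S52.Frob.ShortCount

set_option autoImplicit false

namespace Fermat.Agent.S52.GlueCore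

open WeierstrassCurve

/-- A prime different from `2, 3` does not divide `1728`. -/
lemma not_dvd_1728 {p : ℕ} (hp : p.Prime) (h2 : p ≠ 2) (h3 : p ≠ 3) : ¬ (p : ℤ) ∣ 1728 := by
  intro h
  have h' : p ∣ 1728 := by exact_mod_cast h
  have h1728 : (1728 : ℕ) = 2 ^ 6 * 3 ^ 3 := by norm_num
  rw [h1728] at h'
  rcases (Nat.Prime.dvd_mul hp).mp h' with h | h
  · exact h2 ((Nat.prime_dvd_prime_iff_eq hp Nat.prime_two).mp (hp.dvd_of_dvd_pow h))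
  · exact h3 ((Nat.prime_dvd_prime_iff_eq hp Nat.prime_three).mp (hp.dvd_of_dvd_pow h))

/-- A prime not dividing `30 * Δ` is different from `2, 3, 5`. -/
lemma ne_of_not_dvd {p : ℕ} {Δ : ℤ} (h : ¬ (p : ℤ) ∣ 30 * Δ) : p ≠ 2 ∧ p ≠ 3 ∧ p ≠ 5 := by
  refine ⟨?_, ?_, ?_⟩ <;> rintro rfl <;> exact h (Dvd.dvd.mul_right (by norm_num) _)

/-- A prime different from `2, 3, 5` is at least `7`. -/
lemma seven_le {p : ℕ} (hp : p.Prime) (h2 : p ≠ 2) (h3 : p ≠ 3) (h5 : p ≠ 5) : 7 ≤ p := by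
  by_contra hlt
  have hlt' : p < 7 := Nat.lt_of_not_le hlt
  have h2le := hp.two_le
  interval_cases p
  · exact h2 rfl
  · exact h3 rfl
  · exact absurd hp (by decide)
  · exact h5 rfl
  · exact absurd hp (by decide)

/-- **[Glue] core.**  The 3–5 switch from the five block exports, for an arbitrary family
`(F4, F6, D)`. -/
theorem switch (F4 F6 D : ℤ → ℤ → ℤ → ℤ)
    (H0 : ∀ c4 c6 t : ℤ, t ∣ F4 c4 c6 t - c4 ∧ t ∣ F6 c4 c6 t - c6 ∧ t ∣ D c4 c6 t - 1)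
    (Hdisc : ∀ c4 c6 t : ℤ,
      F4 c4 c6 t ^ 3 - F6 c4 c6 t ^ 2 = (c4 ^ 3 - c6 ^ 2) * D c4 c6 t ^ 5)
    (Hss : ∀ (c4 c6 t : ℤ) (r : ℕ), r.Prime → r ≠ 2 → r ≠ 3 → r ≠ 5 →
      ¬ (r : ℤ) ∣ c4 ^ 3 - c6 ^ 2 → (r : ℤ) ∣ F4 c4 c6 t ^ 3 - F6 c4 c6 t ^ 2 →
      ¬ (r : ℤ) ∣ F4 c4 c6 t)
    (Hirr : ∀ W : WeierstrassCurve ℤ, W.Δ ≠ 0 → W.IsSemistableModel → ∀ M : ℤ, M ≠ 0 →
      ∃ t : ℤ, M ∣ t ∧ ∀ W' : WeierstrassCurve ℤ, W'.Δ ≠ 0 → W'.b₂ = W.b₂ →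
        W'.c₄ = F4 W.c₄ W.c₆ t → W'.c₆ = F6 W.c₄ W.c₆ t → W'.ModRepIsIrreducible 3)
    (Hap : ∀ (ℓ : ℕ) [Fact ℓ.Prime], 7 ≤ ℓ → ∀ c4 c6 t : ℤ, ¬ (ℓ : ℤ) ∣ c4 ^ 3 - c6 ^ 2 →
      ¬ (ℓ : ℤ) ∣ D c4 c6 t →
      (5 : ℤ) ∣
        (⟨0, 0, 0, -27 * ((F4 c4 c6 t : ℤ) : ZMod ℓ), -54 * ((F6 c4 c6 t : ℤ) : ZMod ℓ)⟩ :
            WeierstrassCurve (ZMod ℓ)).traceOfFrobenius
          - (⟨0, 0, 0, -27 * ((c4 : ℤ) : ZMod ℓ), -54 * ((c6 : ℤ) : ZMod ℓ)⟩ :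
            WeierstrassCurve (ZMod ℓ)).traceOfFrobenius)
    (W : WeierstrassCurve ℤ) (hΔ : W.Δ ≠ 0) (hW : W.IsSemistableModel) :
    ∃ W' : WeierstrassCurve ℤ, W'.Δ ≠ 0 ∧ W'.IsSemistableModel ∧ W'.ModRepIsIrreducible 3 ∧
      ∀ ℓ : ℕ, ℓ.Prime → W.IsGoodPrimeFor ℓ → W'.IsGoodPrimeFor ℓ → ℓ ≠ 5 →
        (5 : ℤ) ∣ (W'.apOfModel ℓ - W.apOfModel ℓ) := by
  have hN0 : (30 * W.Δ : ℤ) ≠ 0 := mul_ne_zero (by norm_num) hΔ
  have hM0 : (41472 * (30 * W.Δ) : ℤ) ≠ 0 := mul_ne_zero (by norm_num) hN0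
  obtain ⟨t, hMt, hirr⟩ := Hirr W hΔ hW (41472 * (30 * W.Δ)) hM0
  obtain ⟨h04, h06, h0D⟩ := H0 W.c₄ W.c₆ t
  have h864 : (864 * (30 * W.Δ) : ℤ) ∣ 41472 * (30 * W.Δ) := ⟨48, by ring⟩
  obtain ⟨W', hb2, hc4, hc6, hrel, hpk⟩ :=
    Model.exists_model_package W hW (30 * W.Δ) (F4 W.c₄ W.c₆ t) (F6 W.c₄ W.c₆ t)
      (hMt.trans h04) ((h864.trans hMt).trans h06)
  -- `D ≠ 0` since `D ≡ 1 mod t` and `41472·30·Δ ∣ t`
  have hD0 : D W.c₄ W.c₆ t ≠ 0 := by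
    intro h
    rw [h, zero_sub] at h0D
    have h1 : (41472 * (30 * W.Δ) : ℤ) ∣ 1 := by
      have := hMt.trans h0D
      exact (dvd_neg.mp this)
    have h2 : (41472 : ℤ) ∣ 1 := (Dvd.intro _ rfl).trans h1
    norm_num at h2
  -- `Δ' = Δ · D⁵`
  have hΔ' : W'.Δ = W.Δ * D W.c₄ W.c₆ t ^ 5 := by
    have h1 := W.c_relation
    have h2 := Hdisc W.c₄ W.c₆ t
    have h3 : (1728 : ℤ) * W'.Δ = 1728 * (W.Δ * D W.c₄ W.c₆ t ^ 5) := by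
      rw [hrel, h2, ← h1]; ring
    exact mul_left_cancel₀ (by norm_num) h3
  have hΔ'0 : W'.Δ ≠ 0 := by
    rw [hΔ']; exact mul_ne_zero hΔ (pow_ne_zero _ hD0)
  -- a prime not dividing `30·Δ` does not divide `c₄³ - c₆²`
  have hgood : ∀ p : ℕ, p.Prime → ¬ (p : ℤ) ∣ 30 * W.Δ → ¬ (p : ℤ) ∣ W.c₄ ^ 3 - W.c₆ ^ 2 := by
    intro p hp hpN h
    obtain ⟨h2, h3, -⟩ := ne_of_not_dvd hpN
    rw [← W.c_relation] at h
    rcases (Nat.prime_iff_prime_int.mp hp).dvd_or_dvd h with h | h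
    · exact not_dvd_1728 hp h2 h3 h
    · exact hpN (Dvd.dvd.mul_left h 30)
  refine ⟨W', hΔ'0, ?_, hirr W' hΔ'0 hb2 hc4 hc6, ?_⟩
  · -- semistability
    intro p hp hpΔ
    by_cases hpN : (p : ℤ) ∣ 30 * W.Δ
    · exact (hpk p hp hpN).2.2 hpΔ
    · obtain ⟨h2, h3, h5⟩ := ne_of_not_dvd hpN
      rw [hc4]
      refine Hss W.c₄ W.c₆ t p hp h2 h3 h5 (hgood p hp hpN) ?_
      rw [← hrel]
      exact Dvd.dvd.mul_left hpΔ 1728
  · -- congruence of the `a_ℓ`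
    intro ℓ hℓ _ hgW' _
    by_cases hℓN : (ℓ : ℤ) ∣ 30 * W.Δ
    · rw [(hpk ℓ hℓ hℓN).1, sub_self]
      exact dvd_zero _
    · obtain ⟨h2, h3, h5⟩ := ne_of_not_dvd hℓN
      have : Fact ℓ.Prime := ⟨hℓ⟩
      have h7 : 7 ≤ ℓ := seven_le hℓ h2 h3 h5
      have hD : ¬ (ℓ : ℤ) ∣ D W.c₄ W.c₆ t := by
        intro h
        apply hgW'
        rw [hΔ']
        exact Dvd.dvd.mul_left (dvd_pow h (by norm_num)) _
      have key := Hap ℓ h7 W.c₄ W.c₆ t (hgood ℓ hℓ hℓN) hD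
      rw [Frob.ShortCount.apOfModel_eq_short ℓ (by omega) W',
        Frob.ShortCount.apOfModel_eq_short ℓ (by omega) W, hc4, hc6]
      exact key

end Fermat.Agent.S52.GlueCore
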