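import Mathlib

/-!
# S52, block [Irr3-Alg]: the 3-division polynomial of the 5-congruent family has no polynomial root

Abstract, family-independent statement (step (1) of the Hilbert-irreducibility-by-hand route):
if `4 A^3 + 27 B^2 = d * G^5` in `K[t]` with `G` squarefree, nonconstant and coprime to `A`
("all finite poles of `j` have order exactly `5`"), then `3 x^4 + 6 A x^2 + 12 B x - A^2` has no
root in `K[t]` (`no_root_short'`; general Weierstrass forms `no_root_b'`, `no_root_monic'`).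
No hypothesis at infinity is needed: after `G^5 ∣ X^2 + 3A` one gets `c G^5 + 8 U^3 = const`
with `U = 3X^2 + A` coprime to `G`, which is killed by differentiating.
-/

set_option autoImplicit false

namespace Fermat.Agent.S52.Irr3Alg

open Polynomial

/-- The `X₀(3)` identity: on a root `X` of the 3-division polynomial of `y² = x³ + A x + B`,
`144 X² (4A³ + 27B²) = 9 (3X² + A)³ (X² + 3A)`. -/
theorem key_identity {R : Type*} [CommRing R] (A B X : R)
    (h : 3 * X ^ 4 + 6 * A * X ^ 2 + 12 * B * X - A ^ 2 = 0) :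
    144 * X ^ 2 * (4 * A ^ 3 + 27 * B ^ 2) = 9 * (3 * X ^ 2 + A) ^ 3 * (X ^ 2 + 3 * A) := by
  have h1 : 12 * B * X = A ^ 2 - 6 * A * X ^ 2 - 3 * X ^ 4 := by linear_combination h
  have h2 : 144 * X ^ 2 * (4 * A ^ 3 + 27 * B ^ 2)
      = 576 * A ^ 3 * X ^ 2 + 27 * (12 * B * X) ^ 2 := by ring
  rw [h2, h1]; ring

section Main

variable {K : Type*} [Field K] [CharZero K]

/-- **No polynomial root, short form, no hypothesis at infinity.**
If `4A³ + 27B² = d G⁵` with `G` squarefree, nonconstant and coprime to `A`, then the 3-division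
polynomial `3x⁴ + 6Ax² + 12Bx - A²` has no root in `K[t]`. -/
theorem no_root_short' (A B G : K[X]) (d : K) (hd : d ≠ 0)
    (hdisc : 4 * A ^ 3 + 27 * B ^ 2 = C d * G ^ 5) (hG : Squarefree G)
    (hGdeg : 0 < G.natDegree) (hcop : IsCoprime G A) :
    ∀ Q : K[X], 3 * Q ^ 4 + 6 * A * Q ^ 2 + 12 * B * Q - A ^ 2 ≠ 0 := by
  intro Q hQ
  have hG0 : G ≠ 0 := by
    rintro rfl; simp at hGdeg
  -- `A ≠ 0`
  have hA0 : A ≠ 0 := by
    rintro rfl
    have hu : IsUnit G := isCoprime_zero_right.mp hcop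
    have := natDegree_eq_zero_of_isUnit hu
    omega
  -- `Q ≠ 0`
  have hQ0 : Q ≠ 0 := by
    rintro rfl
    apply hA0
    have : A ^ 2 = 0 := by linear_combination -hQ
    exact pow_eq_zero_iff (two_ne_zero) |>.mp this
  -- `Q ∣ A²`, hence `G` is coprime to `Q`
  have hQA : Q ∣ A ^ 2 := ⟨3 * Q ^ 3 + 6 * A * Q + 12 * B, by linear_combination -hQ⟩
  have hGQ : IsCoprime G Q := IsCoprime.of_isCoprime_of_dvd_right (hcop.pow_right) hQA
  set U : K[X] := 3 * Q ^ 2 + A with hU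
  set V : K[X] := Q ^ 2 + 3 * A with hV
  -- the key equation
  have hkey : C (16 * d) * Q ^ 2 * G ^ 5 = U ^ 3 * V := by
    have h := key_identity A B Q hQ
    rw [hdisc] at h
    have h9 : (9 : K[X]) ≠ 0 := by norm_num
    apply mul_left_cancel₀ h9
    rw [hU, hV]
    have hC : (C (16 * d) : K[X]) = 16 * C d := by
      rw [C_mul]; congr 1
    rw [hC]
    linear_combination h
  have hc16 : (16 * d : K) ≠ 0 := mul_ne_zero (by norm_num) hd
  -- `G` is coprime to `U`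
  have hGU : IsCoprime G U := by
    apply isCoprime_of_prime_dvd
    · rintro ⟨h, -⟩; exact hG0 h
    intro π hπ hπG hπU
    -- `π ∤ Q`
    have hπQ : ¬ π ∣ Q := fun h => hπ.not_isUnit (hGQ.isUnit_of_dvd' hπG h)
    -- `π ∤ V`
    have hπV : ¬ π ∣ V := by
      intro h
      have h8 : π ∣ C (8 : K) * Q ^ 2 := by
        have : C (8 : K) * Q ^ 2 = 3 * U - V := by
          rw [hU, hV]
          have : (C (8 : K) : K[X]) = 8 := map_ofNat C 8
          rw [this]; ring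
        rw [this]; exact dvd_sub (Dvd.dvd.mul_left hπU 3) h
      rcases hπ.dvd_or_dvd h8 with h | h
      · exact hπ.not_isUnit (isUnit_of_dvd_unit h (isUnit_C.mpr (by norm_num : IsUnit (8 : K))))
      · exact hπQ (hπ.dvd_of_dvd_pow h)
    obtain ⟨G', rfl⟩ := hπG
    obtain ⟨U₁, hU₁⟩ := hπU
    -- `π ∤ G'` by squarefreeness
    have hπG' : ¬ π ∣ G' := by
      rintro ⟨G'', rfl⟩
      exact hπ.not_isUnit (hG π ⟨G'', by ring⟩)
    have hπ0 : π ≠ 0 := hπ.ne_zero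
    -- first cancellation
    have e1 : C (16 * d) * Q ^ 2 * (π ^ 2 * G' ^ 5) = U₁ ^ 3 * V := by
      have : π ^ 3 * (C (16 * d) * Q ^ 2 * (π ^ 2 * G' ^ 5)) = π ^ 3 * (U₁ ^ 3 * V) := by
        rw [hU₁] at hkey
        linear_combination hkey
      exact mul_left_cancel₀ (pow_ne_zero 3 hπ0) this
    -- `π ∣ U₁`
    have hπU₁ : π ∣ U₁ := by
      have : π ∣ U₁ ^ 3 * V := ⟨C (16 * d) * Q ^ 2 * (π * G' ^ 5), by rw [← e1]; ring⟩
      rcases hπ.dvd_or_dvd this with h | h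
      · exact hπ.dvd_of_dvd_pow h
      · exact absurd h hπV
    obtain ⟨U₂, rfl⟩ := hπU₁
    -- second cancellation
    have e2 : C (16 * d) * Q ^ 2 * G' ^ 5 = π * (U₂ ^ 3 * V) := by
      have : π ^ 2 * (C (16 * d) * Q ^ 2 * G' ^ 5) = π ^ 2 * (π * (U₂ ^ 3 * V)) := by
        linear_combination e1
      exact mul_left_cancel₀ (pow_ne_zero 2 hπ0) this
    have : π ∣ C (16 * d) * Q ^ 2 * G' ^ 5 := ⟨_, e2⟩
    rcases hπ.dvd_or_dvd this with h | h
    · rcases hπ.dvd_or_dvd h with h | h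
      · exact hπ.not_isUnit (isUnit_of_dvd_unit h (isUnit_C.mpr (IsUnit.mk0 _ hc16)))
      · exact hπQ (hπ.dvd_of_dvd_pow h)
    · exact hπG' (hπ.dvd_of_dvd_pow h)
  -- `G⁵ ∣ V`
  have hG5V : G ^ 5 ∣ V := by
    have hc : IsCoprime (G ^ 5) (U ^ 3) := IsCoprime.pow hGU
    exact hc.dvd_of_dvd_mul_left ⟨C (16 * d) * Q ^ 2, by rw [← hkey]; ring⟩
  obtain ⟨M, hM⟩ := hG5V
  -- reduced equation
  have hred : C (16 * d) * Q ^ 2 = U ^ 3 * M := by
    have : G ^ 5 * (C (16 * d) * Q ^ 2) = G ^ 5 * (U ^ 3 * M) := by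
      rw [hM] at hkey; linear_combination hkey
    exact mul_left_cancel₀ (pow_ne_zero 5 hG0) this
  have hlhs0 : C (16 * d) * Q ^ 2 ≠ 0 :=
    mul_ne_zero (C_ne_zero.mpr hc16) (pow_ne_zero 2 hQ0)
  have hU0 : U ≠ 0 := by
    rintro h; apply hlhs0; rw [hred, h]; simp
  have hM0 : M ≠ 0 := by
    rintro h; apply hlhs0; rw [hred, h]; simp
  -- `3U - V = 8Q²`, hence `3·c·U = M·W` with `W = c·G⁵ + 8U³`
  have h8 : 3 * U - V = 8 * Q ^ 2 := by rw [hU, hV]; ring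
  set W : K[X] := C (16 * d) * G ^ 5 + C 8 * U ^ 3 with hW
  have hC8 : (C (8 : K) : K[X]) = 8 := map_ofNat C 8
  have hW1 : 3 * C (16 * d) * U = M * W := by
    have h3U : (3 : K[X]) * U = V + 8 * Q ^ 2 := by linear_combination h8
    calc 3 * C (16 * d) * U = C (16 * d) * (3 * U) := by ring
      _ = C (16 * d) * (V + 8 * Q ^ 2) := by rw [h3U]
      _ = C (16 * d) * V + 8 * (C (16 * d) * Q ^ 2) := by ring
      _ = C (16 * d) * (G ^ 5 * M) + 8 * (U ^ 3 * M) := by rw [hM, hred]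
      _ = M * W := by rw [hW, hC8]; ring
  have hcU : IsUnit (C (16 * d) : K[X]) := isUnit_C.mpr (IsUnit.mk0 _ hc16)
  have hUW : IsCoprime U W := by
    have h1 : IsCoprime U (G ^ 5) := hGU.symm.pow_right
    have h2 : IsCoprime U (C (16 * d) * G ^ 5) :=
      (isCoprime_mul_unit_left_right hcU U (G ^ 5)).mpr h1
    have hWe : W = C (16 * d) * G ^ 5 + U * (C 8 * U ^ 2) := by rw [hW]; ring
    rw [hWe]; exact h2.add_mul_left_right _
  have hWunit : IsUnit W := by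
    have hdvd : W ∣ 3 * C (16 * d) * U := ⟨M, by rw [hW1]; ring⟩
    have hdvd' : W ∣ 3 * C (16 * d) := hUW.symm.dvd_of_dvd_mul_right hdvd
    refine isUnit_of_dvd_unit hdvd' ?_
    have : (3 : K[X]) * C (16 * d) = C (3 * (16 * d)) := by
      rw [C_mul (a := (3 : K)), map_ofNat]
    rw [this]
    exact isUnit_C.mpr (IsUnit.mk0 _ (mul_ne_zero (by norm_num) hc16))
  -- differentiate `W = const`
  have hWder : derivative W = 0 := by
    rw [eq_C_of_natDegree_eq_zero (natDegree_eq_zero_of_isUnit hWunit), derivative_C]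
  set c₁ : K[X] := C (16 * d) * C 5 with hc₁
  set c₂ : K[X] := C 8 * C 3 with hc₂
  have hder : c₁ * G ^ 4 * derivative G + c₂ * U ^ 2 * derivative U = 0 := by
    have : derivative W
        = c₁ * G ^ 4 * derivative G + c₂ * U ^ 2 * derivative U := by
      rw [hW, hc₁, hc₂]
      simp only [derivative_add, derivative_C_mul, derivative_pow]
      norm_num
      ring
    rw [← this]; exact hWder
  have hc₁u : IsUnit c₁ := by
    rw [hc₁, ← C_mul]
    exact isUnit_C.mpr (IsUnit.mk0 _ (mul_ne_zero hc16 (by norm_num)))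
  have hc₂u : IsUnit c₂ := by
    rw [hc₂, ← C_mul]
    exact isUnit_C.mpr (IsUnit.mk0 _ (by norm_num))
  have hG4U2 : IsCoprime (G ^ 4) (U ^ 2) := IsCoprime.pow hGU
  -- `G⁴ ∣ U'`
  have hG4 : G ^ 4 ∣ derivative U := by
    have h1 : G ^ 4 ∣ derivative U * (c₂ * U ^ 2) :=
      ⟨-(c₁ * derivative G), by linear_combination hder⟩
    have h2 : IsCoprime (G ^ 4) (c₂ * U ^ 2) :=
      (isCoprime_mul_unit_left_right hc₂u _ _).mpr hG4U2
    exact h2.dvd_of_dvd_mul_right h1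
  -- `U² ∣ G'`
  have hU2 : U ^ 2 ∣ derivative G := by
    have h1 : U ^ 2 ∣ derivative G * (c₁ * G ^ 4) :=
      ⟨-(c₂ * derivative U), by linear_combination hder⟩
    have h2 : IsCoprime (U ^ 2) (c₁ * G ^ 4) :=
      (isCoprime_mul_unit_left_right hc₁u _ _).mpr hG4U2.symm
    exact h2.dvd_of_dvd_mul_right h1
  have hG' : derivative G ≠ 0 := by
    intro h
    have := Polynomial.derivative_eq_zero.mp h
    omega
  have hU' : derivative U ≠ 0 := by
    intro h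
    rw [h, mul_zero, add_zero] at hder
    rcases mul_eq_zero.mp hder with h' | h'
    · rcases mul_eq_zero.mp h' with h'' | h''
      · exact hc₁u.ne_zero h''
      · exact hG0 (pow_eq_zero_iff (by norm_num) |>.mp h'')
    · exact hG' h'
  have d1 : 2 * U.natDegree ≤ G.natDegree - 1 := by
    have := natDegree_le_of_dvd hU2 hG'
    rw [natDegree_pow] at this
    exact this.trans (natDegree_derivative_le G)
  have d2 : 4 * G.natDegree ≤ U.natDegree - 1 := by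
    have := natDegree_le_of_dvd hG4 hU'
    rw [natDegree_pow] at this
    exact this.trans (natDegree_derivative_le U)
  omega

/-- Version with a (redundant) hypothesis at infinity, kept for interface compatibility. -/
theorem no_root_short (A B G : K[X]) (d : K) (hd : d ≠ 0)
    (hdisc : 4 * A ^ 3 + 27 * B ^ 2 = C d * G ^ 5) (hG : Squarefree G)
    (hGdeg : 0 < G.natDegree) (hcop : IsCoprime G A)
    (_hinf : 3 * A.natDegree ≤ 5 * G.natDegree ∨ ¬ 3 ∣ G.natDegree) :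
    ∀ Q : K[X], 3 * Q ^ 4 + 6 * A * Q ^ 2 + 12 * B * Q - A ^ 2 ≠ 0 :=
  no_root_short' A B G d hd hdisc hG hGdeg hcop

end Main

section BForm

variable {K : Type*} [Field K] [CharZero K]

/-- Transfer data from the `b`/`c`-invariants to the scaled short model
`y² = x³ - 27 c₄ x - 54 c₆`. -/
private theorem short_data (c4 c6 G : K[X]) (d : K) (hd : d ≠ 0)
    (hdisc : c4 ^ 3 - c6 ^ 2 = C d * G ^ 5) (hcop : IsCoprime G c4) :
    (-78732 * d : K) ≠ 0 ∧
    4 * (C (-27 : K) * c4) ^ 3 + 27 * (C (-54 : K) * c6) ^ 2 = C (-78732 * d) * G ^ 5 ∧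
    IsCoprime G (C (-27 : K) * c4) := by
  have h27 : (C (-27 : K) : K[X]) = -27 := by rw [map_neg, map_ofNat]
  have h54 : (C (-54 : K) : K[X]) = -54 := by rw [map_neg, map_ofNat]
  have hk : (C (-78732 * d) : K[X]) = -78732 * C d := by
    rw [C_mul, map_neg, map_ofNat]
  refine ⟨mul_ne_zero (by norm_num) hd, ?_, ?_⟩
  · rw [hk, h27, h54]; linear_combination (-78732 : K[X]) * hdisc
  · exact (isCoprime_mul_unit_left_right
      (isUnit_C.mpr (IsUnit.mk0 _ (by norm_num : (-27 : K) ≠ 0))) G c4).mpr hcop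

/-- **No polynomial root, general Weierstrass form.** `b₂` constant, `b₄ b₆ b₈ c₄ c₆` polynomials
in the parameter, `c₄³ - c₆² = d G⁵` with `G` squarefree, nonconstant, coprime to `c₄`. Then
`ψ₃ = 3x⁴ + b₂x³ + 3b₄x² + 3b₆x + b₈` has no root in `K[t]`. -/
theorem no_root_b' (b2 : K) (b4 b6 b8 c4 c6 G : K[X]) (d : K) (hd : d ≠ 0)
    (hc4 : c4 = C (b2 ^ 2) - 24 * b4)
    (hc6 : c6 = - C (b2 ^ 3) + 36 * C b2 * b4 - 216 * b6)
    (hb8 : 4 * b8 = C b2 * b6 - b4 ^ 2)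
    (hdisc : c4 ^ 3 - c6 ^ 2 = C d * G ^ 5) (hG : Squarefree G) (hGdeg : 0 < G.natDegree)
    (hcop : IsCoprime G c4) :
    ∀ Q : K[X], 3 * Q ^ 4 + C b2 * Q ^ 3 + 3 * b4 * Q ^ 2 + 3 * b6 * Q + b8 ≠ 0 := by
  intro Q hQ
  obtain ⟨hd', hdisc', hcop'⟩ := short_data c4 c6 G d hd hdisc hcop
  refine no_root_short' _ _ G _ hd' hdisc' hG hGdeg hcop' (36 * Q + 3 * C b2) ?_
  have h27 : (C (-27 : K) : K[X]) = -27 := by rw [map_neg, map_ofNat]
  have h54 : (C (-54 : K) : K[X]) = -54 := by rw [map_neg, map_ofNat]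
  rw [h27, h54, hc4, hc6, C_pow, C_pow]
  linear_combination (1679616 : K[X]) * hQ - 419904 * hb8

/-- **No polynomial root, monic form** `g(z) = 27 ψ₃(z/3) = z⁴ + b₂z³ + 9b₄z² + 27b₆z + 27b₈`. -/
theorem no_root_monic' (b2 : K) (b4 b6 b8 c4 c6 G : K[X]) (d : K) (hd : d ≠ 0)
    (hc4 : c4 = C (b2 ^ 2) - 24 * b4)
    (hc6 : c6 = - C (b2 ^ 3) + 36 * C b2 * b4 - 216 * b6)
    (hb8 : 4 * b8 = C b2 * b6 - b4 ^ 2)
    (hdisc : c4 ^ 3 - c6 ^ 2 = C d * G ^ 5) (hG : Squarefree G) (hGdeg : 0 < G.natDegree)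
    (hcop : IsCoprime G c4) :
    ∀ q : K[X], q ^ 4 + C b2 * q ^ 3 + 9 * b4 * q ^ 2 + 27 * b6 * q + 27 * b8 ≠ 0 := by
  intro q hq
  obtain ⟨hd', hdisc', hcop'⟩ := short_data c4 c6 G d hd hdisc hcop
  refine no_root_short' _ _ G _ hd' hdisc' hG hGdeg hcop' (12 * q + 3 * C b2) ?_
  have h27 : (C (-27 : K) : K[X]) = -27 := by rw [map_neg, map_ofNat]
  have h54 : (C (-54 : K) : K[X]) = -54 := by rw [map_neg, map_ofNat]
  rw [h27, h54, hc4, hc6, C_pow, C_pow]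
  linear_combination (62208 : K[X]) * hq - 419904 * hb8

/-- Bivariate wrapper of `no_root_b'`: the outer variable is `x`, the inner one the parameter. -/
theorem no_root_b_eval' (b2 : K) (b4 b6 b8 c4 c6 G : K[X]) (d : K) (hd : d ≠ 0)
    (hc4 : c4 = C (b2 ^ 2) - 24 * b4)
    (hc6 : c6 = - C (b2 ^ 3) + 36 * C b2 * b4 - 216 * b6)
    (hb8 : 4 * b8 = C b2 * b6 - b4 ^ 2)
    (hdisc : c4 ^ 3 - c6 ^ 2 = C d * G ^ 5) (hG : Squarefree G) (hGdeg : 0 < G.natDegree)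
    (hcop : IsCoprime G c4) (Q : K[X]) :
    (C (3 : K[X]) * X ^ 4 + C (C b2) * X ^ 3 + C (3 * b4) * X ^ 2 + C (3 * b6) * X + C b8 :
      K[X][X]).eval Q ≠ 0 := by
  have h := no_root_b' b2 b4 b6 b8 c4 c6 G d hd hc4 hc6 hb8 hdisc hG hGdeg hcop Q
  simpa using h

/-- Bivariate wrapper of `no_root_monic'`. -/
theorem no_root_monic_eval' (b2 : K) (b4 b6 b8 c4 c6 G : K[X]) (d : K) (hd : d ≠ 0)
    (hc4 : c4 = C (b2 ^ 2) - 24 * b4)
    (hc6 : c6 = - C (b2 ^ 3) + 36 * C b2 * b4 - 216 * b6)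
    (hb8 : 4 * b8 = C b2 * b6 - b4 ^ 2)
    (hdisc : c4 ^ 3 - c6 ^ 2 = C d * G ^ 5) (hG : Squarefree G) (hGdeg : 0 < G.natDegree)
    (hcop : IsCoprime G c4) (q : K[X]) :
    (X ^ 4 + C (C b2) * X ^ 3 + C (9 * b4) * X ^ 2 + C (27 * b6) * X + C (27 * b8) :
      K[X][X]).eval q ≠ 0 := by
  have h := no_root_monic' b2 b4 b6 b8 c4 c6 G d hd hc4 hc6 hb8 hdisc hG hGdeg hcop q
  simpa using h

/-! Versions with a (redundant) hypothesis at infinity, as announced on the board. -/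

theorem no_root_b (b2 : K) (b4 b6 b8 c4 c6 G : K[X]) (d : K) (hd : d ≠ 0)
    (hc4 : c4 = C (b2 ^ 2) - 24 * b4)
    (hc6 : c6 = - C (b2 ^ 3) + 36 * C b2 * b4 - 216 * b6)
    (hb8 : 4 * b8 = C b2 * b6 - b4 ^ 2)
    (hdisc : c4 ^ 3 - c6 ^ 2 = C d * G ^ 5) (hG : Squarefree G) (hGdeg : 0 < G.natDegree)
    (hcop : IsCoprime G c4)
    (_hinf : 3 * c4.natDegree ≤ 5 * G.natDegree ∨ ¬ 3 ∣ G.natDegree) :
    ∀ Q : K[X], 3 * Q ^ 4 + C b2 * Q ^ 3 + 3 * b4 * Q ^ 2 + 3 * b6 * Q + b8 ≠ 0 :=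
  no_root_b' b2 b4 b6 b8 c4 c6 G d hd hc4 hc6 hb8 hdisc hG hGdeg hcop

theorem no_root_monic (b2 : K) (b4 b6 b8 c4 c6 G : K[X]) (d : K) (hd : d ≠ 0)
    (hc4 : c4 = C (b2 ^ 2) - 24 * b4)
    (hc6 : c6 = - C (b2 ^ 3) + 36 * C b2 * b4 - 216 * b6)
    (hb8 : 4 * b8 = C b2 * b6 - b4 ^ 2)
    (hdisc : c4 ^ 3 - c6 ^ 2 = C d * G ^ 5) (hG : Squarefree G) (hGdeg : 0 < G.natDegree)
    (hcop : IsCoprime G c4)
    (_hinf : 3 * c4.natDegree ≤ 5 * G.natDegree ∨ ¬ 3 ∣ G.natDegree) :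
    ∀ q : K[X], q ^ 4 + C b2 * q ^ 3 + 9 * b4 * q ^ 2 + 27 * b6 * q + 27 * b8 ≠ 0 :=
  no_root_monic' b2 b4 b6 b8 c4 c6 G d hd hc4 hc6 hb8 hdisc hG hGdeg hcop

end BForm

end Fermat.Agent.S52.Irr3Alg
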