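/-
S52 (helper17): the two-prime irreducibility criterion for the mod-3 representation,
`[Irr3-L]` + `[Irr3-G]` combined.

An integral Weierstrass model `W` which is semistable away from 3 and has primes `r₁, r₂ ≠ 3`
dividing `Δ` to a power prime to 3, with `-c₄c₆` a non-square mod `r₁` (non-split multiplicative
reduction at `r₁`) and `3c₄c₆` a non-square mod `r₂`, has irreducible mod-3 representation.
-/
import Fermat.Agent.S52.Irr3Local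
import Fermat.Agent.S52.Irr3Galois

set_option autoImplicit false

namespace Fermat.Agent.S52.Irr3C

/-- Two-prime criterion for `ModRepIsIrreducible 3`. -/
theorem modRepIsIrreducible_three_of_two_primes (W : WeierstrassCurve ℤ)
    (hss : ∀ p : ℕ, p.Prime → p ≠ 3 → (p : ℤ) ∣ W.Δ → ¬ (p : ℤ) ∣ W.c₄)
    (r₁ r₂ : ℕ) (hr₁ : r₁.Prime) (hr₂ : r₂.Prime) (h₁3 : r₁ ≠ 3) (h₂3 : r₂ ≠ 3)
    (hd₁ : (r₁ : ℤ) ∣ W.Δ) (hd₂ : (r₂ : ℤ) ∣ W.Δ)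
    (hv₁ : ¬ 3 ∣ padicValInt r₁ W.Δ) (hv₂ : ¬ 3 ∣ padicValInt r₂ W.Δ)
    (hns₁ : ¬ IsSquare ((-(W.c₄ * W.c₆) : ℤ) : ZMod r₁))
    (hns₂ : ¬ IsSquare ((3 * (W.c₄ * W.c₆) : ℤ) : ZMod r₂)) :
    W.ModRepIsIrreducible 3 := by
  have hΔ : W.Δ ≠ 0 := by
    intro h
    rw [h] at hv₁
    simp at hv₁
  exact Irr3G.modRepIsIrreducible_three_of_no_root W hΔ
    (Irr3L.no_rat_root W hss r₁ r₂ hr₁ hr₂ h₁3 h₂3 hd₁ hd₂ hv₁ hv₂ hns₁ hns₂)

end Fermat.Agent.S52.Irr3C
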