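import Mathlib
import Fermat.Agent.S52.TateFam

/-!
# S52, block [Irr3F], B-file: the Tate-chart core without `√5`

For a field `F` with `2, 3, 5 ≠ 0`, `d ≠ 0`, `d² - 11 d - 1 ≠ 0`, `μ ≠ 0`, put
`N := famN (C d) (C μ * X)`, `D := famD (C d) (C μ * X)`, `E := famE (C d) (C μ * X)` in `F[X]`
(`famE d s = 1 - 2 (1 + d²) s + (d⁴ - 178 d² + 1) s²`).  Then `N * D * E` is separable,
coprime to `C4form N D`, and nonconstant.  The proof uses five polynomial identities
(`id_a … id_e`, all closed by `ring`) and evaluation in an algebraic closure;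
no square root of `5` and no linear factors are needed.
-/

set_option autoImplicit false

namespace Fermat.Agent.S52.Irr3FB

open Polynomial
open Fermat.Agent.S52.Tate

section Ring

variable {R : Type*} [CommRing R]

/-- `s`-derivative of `famN`. -/
def famN' (d s : R) : R :=
  famNc1 d + 2 * famNc2 d * s + 3 * famNc3 d * s ^ 2 + 4 * famNc4 d * s ^ 3
    + 5 * famNc5 d * s ^ 4

/-- `s`-derivative of `famD`. -/
def famD' (d s : R) : R :=
  famDc1 d + 2 * famDc2 d * s + 3 * famDc3 d * s ^ 2 + 4 * famDc4 d * s ^ 3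
    + 5 * famDc5 d * s ^ 4

/-- The cusp factor `d² - 11 d - 1`. -/
def qT (d : R) : R := d ^ 2 - 11 * d - 1

/-- Leading coefficient of `famE`. -/
def lam (d : R) : R := d ^ 4 - 178 * d ^ 2 + 1

/-- The quadratic factor of the discriminant of the family. -/
def famE (d s : R) : R := 1 - 2 * (1 + d ^ 2) * s + lam d * s ^ 2

/-- `s`-derivative of `famE`. -/
def famE' (d s : R) : R := -2 * (1 + d ^ 2) + 2 * lam d * s

/-- Auxiliary linear form. -/
def sig1 (d s : R) : R := 2 - 2 * (1 + d ^ 2) * s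

theorem id_a (d s : R) : (2 * d - 11) * famN d s - (11 * d + 2) * famD d s
    = qT d * (sig1 d s ^ 5 - 5 * sig1 d s ^ 3 * famE d s + 5 * sig1 d s * famE d s ^ 2) := by
  unfold famN famD famNc0 famNc1 famNc2 famNc3 famNc4 famNc5 famDc0 famDc1 famDc2 famDc3
    famDc4 famDc5 qT sig1 famE lam
  ring

theorem id_b (d s : R) :
    famN d s ^ 2 - 11 * famN d s * famD d s - famD d s ^ 2 = qT d * famE d s ^ 5 := by
  unfold famN famD famNc0 famNc1 famNc2 famNc3 famNc4 famNc5 famDc0 famDc1 famDc2 famDc3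
    famDc4 famDc5 qT famE lam
  ring

theorem id_cN (d s : R) :
    25 * lam d * famN d s ^ 2 + 10 * ((d ^ 2 + 1) - lam d * s) * famN d s * famN' d s
      + famE d s * famN' d s ^ 2 = -144 * d ^ 2 * qT d * famE d s ^ 4 := by
  unfold famN' famN famNc0 famNc1 famNc2 famNc3 famNc4 famNc5 qT famE lam
  ring

theorem id_cD (d s : R) :
    25 * lam d * famD d s ^ 2 + 10 * ((d ^ 2 + 1) - lam d * s) * famD d s * famD' d s
      + famE d s * famD' d s ^ 2 = 144 * d ^ 2 * qT d * famE d s ^ 4 := by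
  unfold famD' famD famDc0 famDc1 famDc2 famDc3 famDc4 famDc5 qT famE lam
  ring

theorem id_d (d s : R) : sig1 d s ^ 2 - 4 * famE d s = 720 * d ^ 2 * s ^ 2 := by
  unfold sig1 famE lam
  ring

theorem id_e (d s : R) : famE' d s ^ 2 - 4 * lam d * famE d s = 720 * d ^ 2 := by
  unfold famE' famE lam
  ring

theorem C4form_eq (n m : R) :
    C4form n m = (n ^ 2 - 11 * n * m - m ^ 2) * (n ^ 2 - n * m - m ^ 2) + 5 * n ^ 2 * m ^ 2 := by
  unfold C4form
  ring

end Ring

section Map

variable {R S : Type*} [CommRing R] [CommRing S] (f : R →+* S)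

theorem map_famN (d s : R) : f (famN d s) = famN (f d) (f s) := by
  simp only [famN, famNc0, famNc1, famNc2, famNc3, famNc4, famNc5, map_add, map_sub, map_mul,
    map_pow, map_ofNat, map_neg]

theorem map_famD (d s : R) : f (famD d s) = famD (f d) (f s) := by
  simp only [famD, famDc0, famDc1, famDc2, famDc3, famDc4, famDc5, map_add, map_sub, map_mul,
    map_pow, map_ofNat, map_neg, map_one]

theorem map_famN' (d s : R) : f (famN' d s) = famN' (f d) (f s) := by
  simp only [famN', famNc1, famNc2, famNc3, famNc4, famNc5, map_add, map_sub, map_mul,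
    map_pow, map_ofNat, map_neg]

theorem map_famD' (d s : R) : f (famD' d s) = famD' (f d) (f s) := by
  simp only [famD', famDc1, famDc2, famDc3, famDc4, famDc5, map_add, map_sub, map_mul,
    map_pow, map_ofNat, map_neg, map_one]

theorem map_famE (d s : R) : f (famE d s) = famE (f d) (f s) := by
  simp only [famE, lam, map_add, map_sub, map_mul, map_pow, map_ofNat, map_one]

theorem map_famE' (d s : R) : f (famE' d s) = famE' (f d) (f s) := by
  simp only [famE', lam, map_add, map_sub, map_mul, map_pow, map_ofNat, map_neg, map_one]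

theorem map_C4form (n m : R) : f (C4form n m) = C4form (f n) (f m) := by
  simp only [C4form, map_add, map_sub, map_mul, map_pow, map_ofNat]

end Map

section Pointwise

variable {L : Type*} [Field L]

theorem ne_720 (h2 : (2 : L) ≠ 0) (h3 : (3 : L) ≠ 0) (h5 : (5 : L) ≠ 0) : (720 : L) ≠ 0 := by
  have : (720 : L) = 2 ^ 4 * 3 ^ 2 * 5 := by norm_num
  rw [this]
  exact mul_ne_zero (mul_ne_zero (pow_ne_zero _ h2) (pow_ne_zero _ h3)) h5

theorem ne_144 (h2 : (2 : L) ≠ 0) (h3 : (3 : L) ≠ 0) : (144 : L) ≠ 0 := by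
  have : (144 : L) = 2 ^ 4 * 3 ^ 2 := by norm_num
  rw [this]
  exact mul_ne_zero (pow_ne_zero _ h2) (pow_ne_zero _ h3)

/-- `famN` and `famD` have no common zero. -/
theorem pt_ND (h2 : (2 : L) ≠ 0) (h3 : (3 : L) ≠ 0) (h5 : (5 : L) ≠ 0) {d : L} (hd : d ≠ 0)
    (hq : qT d ≠ 0) (s : L) (hN : famN d s = 0) (hD : famD d s = 0) : False := by
  have hE : famE d s = 0 := by
    have hb := id_b d s
    rw [hN, hD] at hb
    have : qT d * famE d s ^ 5 = 0 := by rw [← hb]; ring
    rcases mul_eq_zero.mp this with h | h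
    · exact absurd h hq
    · exact pow_eq_zero_iff (by norm_num) |>.mp h
  have hs1 : sig1 d s = 0 := by
    have ha := id_a d s
    rw [hN, hD, hE] at ha
    have : qT d * sig1 d s ^ 5 = 0 := by rw [← sub_eq_zero]; linear_combination -ha
    rcases mul_eq_zero.mp this with h | h
    · exact absurd h hq
    · exact pow_eq_zero_iff (by norm_num) |>.mp h
  have hs : s = 0 := by
    have hd' := id_d d s
    rw [hs1, hE] at hd'
    have : 720 * d ^ 2 * s ^ 2 = 0 := by rw [← hd']; ring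
    have h1 : s ^ 2 = 0 := by
      rcases mul_eq_zero.mp this with h | h
      · exact absurd h (mul_ne_zero (ne_720 h2 h3 h5) (pow_ne_zero _ hd))
      · exact h
    exact pow_eq_zero_iff (by norm_num) |>.mp h1
  rw [hs] at hs1
  apply h2
  rw [← hs1]
  unfold sig1
  ring

/-- `famN` and `famE` have no common zero. -/
theorem pt_NE (h2 : (2 : L) ≠ 0) (h3 : (3 : L) ≠ 0) (h5 : (5 : L) ≠ 0) {d : L} (hd : d ≠ 0)
    (hq : qT d ≠ 0) (s : L) (hN : famN d s = 0) (hE : famE d s = 0) : False := by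
  have hb := id_b d s
  rw [hN, hE] at hb
  have h1 : famD d s ^ 2 = 0 := by linear_combination -hb
  exact pt_ND h2 h3 h5 hd hq s hN (pow_eq_zero_iff (by norm_num) |>.mp h1)

/-- `famD` and `famE` have no common zero. -/
theorem pt_DE (h2 : (2 : L) ≠ 0) (h3 : (3 : L) ≠ 0) (h5 : (5 : L) ≠ 0) {d : L} (hd : d ≠ 0)
    (hq : qT d ≠ 0) (s : L) (hD : famD d s = 0) (hE : famE d s = 0) : False := by
  have hb := id_b d s
  rw [hD, hE] at hb
  have h1 : famN d s ^ 2 = 0 := by linear_combination hb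
  exact pt_ND h2 h3 h5 hd hq s (pow_eq_zero_iff (by norm_num) |>.mp h1) hD

/-- `famN` has only simple zeros. -/
theorem pt_NN' (h2 : (2 : L) ≠ 0) (h3 : (3 : L) ≠ 0) (h5 : (5 : L) ≠ 0) {d : L} (hd : d ≠ 0)
    (hq : qT d ≠ 0) (s : L) (hN : famN d s = 0) (hN' : famN' d s = 0) : False := by
  have hc := id_cN d s
  rw [hN, hN'] at hc
  have h1 : 144 * d ^ 2 * qT d * famE d s ^ 4 = 0 := by linear_combination hc
  rcases mul_eq_zero.mp h1 with h | h
  · exact absurd h (mul_ne_zero (mul_ne_zero (ne_144 h2 h3) (pow_ne_zero _ hd)) hq)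
  · exact pt_NE h2 h3 h5 hd hq s hN (pow_eq_zero_iff (by norm_num) |>.mp h)

/-- `famD` has only simple zeros. -/
theorem pt_DD' (h2 : (2 : L) ≠ 0) (h3 : (3 : L) ≠ 0) (h5 : (5 : L) ≠ 0) {d : L} (hd : d ≠ 0)
    (hq : qT d ≠ 0) (s : L) (hD : famD d s = 0) (hD' : famD' d s = 0) : False := by
  have hc := id_cD d s
  rw [hD, hD'] at hc
  have h1 : 144 * d ^ 2 * qT d * famE d s ^ 4 = 0 := by linear_combination -hc
  rcases mul_eq_zero.mp h1 with h | h
  · exact absurd h (mul_ne_zero (mul_ne_zero (ne_144 h2 h3) (pow_ne_zero _ hd)) hq)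
  · exact pt_DE h2 h3 h5 hd hq s hD (pow_eq_zero_iff (by norm_num) |>.mp h)

/-- `famE` has only simple zeros. -/
theorem pt_EE' (h2 : (2 : L) ≠ 0) (h3 : (3 : L) ≠ 0) (h5 : (5 : L) ≠ 0) {d : L} (hd : d ≠ 0)
    (s : L) (hE : famE d s = 0) (hE' : famE' d s = 0) : False := by
  have he := id_e d s
  rw [hE, hE'] at he
  have h1 : 720 * d ^ 2 = 0 := by linear_combination -he
  exact absurd h1 (mul_ne_zero (ne_720 h2 h3 h5) (pow_ne_zero _ hd))

/-- At a zero of `famN * famD * famE`, `C4form famN famD` does not vanish. -/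
theorem pt_C4 (h2 : (2 : L) ≠ 0) (h3 : (3 : L) ≠ 0) (h5 : (5 : L) ≠ 0) {d : L} (hd : d ≠ 0)
    (hq : qT d ≠ 0) (s : L) (h0 : famN d s * famD d s * famE d s = 0)
    (hC : C4form (famN d s) (famD d s) = 0) : False := by
  rcases mul_eq_zero.mp h0 with h | hE
  · rcases mul_eq_zero.mp h with hN | hD
    · rw [hN] at hC
      have h1 : famD d s ^ 4 = 0 := by rw [← hC]; unfold C4form; ring
      exact pt_ND h2 h3 h5 hd hq s hN (pow_eq_zero_iff (by norm_num) |>.mp h1)
    · rw [hD] at hC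
      have h1 : famN d s ^ 4 = 0 := by rw [← hC]; unfold C4form; ring
      exact pt_ND h2 h3 h5 hd hq s (pow_eq_zero_iff (by norm_num) |>.mp h1) hD
  · have hb := id_b d s
    rw [hE] at hb
    rw [C4form_eq, hb] at hC
    have h1 : 5 * famN d s ^ 2 * famD d s ^ 2 = 0 := by rw [← hC]; ring
    rcases mul_eq_zero.mp h1 with h | h
    · rcases mul_eq_zero.mp h with h | h
      · exact h5 h
      · exact pt_NE h2 h3 h5 hd hq s (pow_eq_zero_iff (by norm_num) |>.mp h) hE
    · exact pt_DE h2 h3 h5 hd hq s (pow_eq_zero_iff (by norm_num) |>.mp h) hE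

/-- `famE d` is not a constant function of `s`. -/
theorem famE_nonconst (h2 : (2 : L) ≠ 0) (h3 : (3 : L) ≠ 0) (h5 : (5 : L) ≠ 0) (d : L)
    (h1 : famE d 1 = 1) (hm1 : famE d (-1) = 1) : False := by
  unfold famE at h1 hm1
  have hl : lam d = 0 := by
    have : 2 * lam d = 0 := by linear_combination h1 + hm1
    rcases mul_eq_zero.mp this with h | h
    · exact absurd h h2
    · exact h
  have hd2 : 1 + d ^ 2 = 0 := by
    have : 4 * (1 + d ^ 2) = 0 := by linear_combination hm1 - h1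
    rcases mul_eq_zero.mp this with h | h
    · exact absurd h (by
        have : (4 : L) = 2 ^ 2 := by norm_num
        rw [this]; exact pow_ne_zero _ h2)
    · exact h
  have h180 : (180 : L) = 0 := by
    unfold lam at hl
    linear_combination hl - (d ^ 2 - 179) * hd2
  have : (180 : L) = 2 ^ 2 * 3 ^ 2 * 5 := by norm_num
  rw [this] at h180
  exact mul_ne_zero (mul_ne_zero (pow_ne_zero _ h2) (pow_ne_zero _ h3)) h5 h180

end Pointwise

section Poly

variable {F : Type*} [Field F]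

/-- The polynomial `famN (C d) (C μ * X)`. -/
noncomputable def Np (d μ : F) : F[X] := famN (C d) (C μ * X)

/-- The polynomial `famD (C d) (C μ * X)`. -/
noncomputable def Dp (d μ : F) : F[X] := famD (C d) (C μ * X)

/-- The polynomial `famE (C d) (C μ * X)`. -/
noncomputable def Ep (d μ : F) : F[X] := famE (C d) (C μ * X)

variable {K : Type*} [Field K] [Algebra F K]

theorem aeval_Np (d μ : F) (a : K) :
    aeval a (Np d μ) = famN (algebraMap F K d) (algebraMap F K μ * a) := by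
  have h := map_famN ((aeval a : F[X] →ₐ[F] K) : F[X] →+* K) (C d) (C μ * X)
  simpa [Np] using h

theorem aeval_Dp (d μ : F) (a : K) :
    aeval a (Dp d μ) = famD (algebraMap F K d) (algebraMap F K μ * a) := by
  have h := map_famD ((aeval a : F[X] →ₐ[F] K) : F[X] →+* K) (C d) (C μ * X)
  simpa [Dp] using h

theorem aeval_Ep (d μ : F) (a : K) :
    aeval a (Ep d μ) = famE (algebraMap F K d) (algebraMap F K μ * a) := by
  have h := map_famE ((aeval a : F[X] →ₐ[F] K) : F[X] →+* K) (C d) (C μ * X)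
  simpa [Ep] using h

theorem aeval_C4form (p q : F[X]) (a : K) :
    aeval a (C4form p q) = C4form (aeval a p) (aeval a q) :=
  map_C4form ((aeval a : F[X] →ₐ[F] K) : F[X] →+* K) p q

theorem derivative_Np (d μ : F) : derivative (Np d μ) = C μ * famN' (C d) (C μ * X) := by
  unfold Np famN famN' famNc0 famNc1 famNc2 famNc3 famNc4 famNc5
  simp only [derivative_add, derivative_sub, derivative_mul, derivative_pow, derivative_C,
    derivative_X, derivative_ofNat, derivative_neg, Nat.cast_ofNat, map_ofNat]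
  ring

theorem derivative_Dp (d μ : F) : derivative (Dp d μ) = C μ * famD' (C d) (C μ * X) := by
  unfold Dp famD famD' famDc0 famDc1 famDc2 famDc3 famDc4 famDc5
  simp only [derivative_add, derivative_sub, derivative_mul, derivative_pow, derivative_C,
    derivative_X, derivative_ofNat, derivative_neg, derivative_one, Nat.cast_ofNat, map_ofNat]
  ring

theorem derivative_Ep (d μ : F) : derivative (Ep d μ) = C μ * famE' (C d) (C μ * X) := by
  unfold Ep famE famE' lam
  simp only [derivative_add, derivative_sub, derivative_mul, derivative_pow, derivative_C,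
    derivative_X, derivative_ofNat, derivative_one, Nat.cast_ofNat, map_ofNat]
  ring

theorem aeval_famN' (d μ : F) (a : K) :
    aeval a (famN' (C d) (C μ * X)) = famN' (algebraMap F K d) (algebraMap F K μ * a) := by
  have h := map_famN' ((aeval a : F[X] →ₐ[F] K) : F[X] →+* K) (C d) (C μ * X)
  simpa using h

theorem aeval_famD' (d μ : F) (a : K) :
    aeval a (famD' (C d) (C μ * X)) = famD' (algebraMap F K d) (algebraMap F K μ * a) := by
  have h := map_famD' ((aeval a : F[X] →ₐ[F] K) : F[X] →+* K) (C d) (C μ * X)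
  simpa using h

theorem aeval_famE' (d μ : F) (a : K) :
    aeval a (famE' (C d) (C μ * X)) = famE' (algebraMap F K d) (algebraMap F K μ * a) := by
  have h := map_famE' ((aeval a : F[X] →ₐ[F] K) : F[X] →+* K) (C d) (C μ * X)
  simpa using h

theorem eval_Ep (d μ x : F) : eval x (Ep d μ) = famE d (μ * x) := by
  have h := map_famE (evalRingHom x) (C d) (C μ * X)
  simpa [Ep] using h

omit [Algebra F K] in
theorem map_qT {R S : Type*} [CommRing R] [CommRing S] (f : R →+* S) (d : R) :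
    f (qT d) = qT (f d) := by
  simp only [qT, map_sub, map_mul, map_pow, map_ofNat, map_one]

variable (K) in
theorem ofNat_ne_zero_of (n : ℕ) [n.AtLeastTwo] (h : (OfNat.ofNat n : F) ≠ 0) :
    (OfNat.ofNat n : K) ≠ 0 := by
  have := (_root_.map_ne_zero (algebraMap F K)).mpr h
  rwa [map_ofNat] at this

variable (K) in
theorem qT_ne_zero_of {d : F} (hq : d ^ 2 - 11 * d - 1 ≠ 0) : qT (algebraMap F K d) ≠ 0 := by
  rw [← map_qT]
  exact (_root_.map_ne_zero (algebraMap F K)).mpr hq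

section Core

variable (h2 : (2 : F) ≠ 0) (h3 : (3 : F) ≠ 0) (h5 : (5 : F) ≠ 0) {d μ : F} (hd : d ≠ 0)
  (hq : d ^ 2 - 11 * d - 1 ≠ 0) (hμ : μ ≠ 0)

include h2 h3 h5 hd hq

theorem isCoprime_Np_Dp : IsCoprime (Np d μ) (Dp d μ) := by
  rw [Polynomial.isCoprime_iff_aeval_ne_zero_of_isAlgClosed F (AlgebraicClosure F)]
  intro a
  refine not_and_or.mp ?_
  rintro ⟨hN, hD⟩
  rw [aeval_Np] at hN
  rw [aeval_Dp] at hD
  exact pt_ND (ofNat_ne_zero_of _ 2 h2) (ofNat_ne_zero_of _ 3 h3) (ofNat_ne_zero_of _ 5 h5)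
    ((_root_.map_ne_zero _).mpr hd) (qT_ne_zero_of _ hq) _ hN hD

theorem isCoprime_Np_Ep : IsCoprime (Np d μ) (Ep d μ) := by
  rw [Polynomial.isCoprime_iff_aeval_ne_zero_of_isAlgClosed F (AlgebraicClosure F)]
  intro a
  refine not_and_or.mp ?_
  rintro ⟨hN, hE⟩
  rw [aeval_Np] at hN
  rw [aeval_Ep] at hE
  exact pt_NE (ofNat_ne_zero_of _ 2 h2) (ofNat_ne_zero_of _ 3 h3) (ofNat_ne_zero_of _ 5 h5)
    ((_root_.map_ne_zero _).mpr hd) (qT_ne_zero_of _ hq) _ hN hE

theorem isCoprime_Dp_Ep : IsCoprime (Dp d μ) (Ep d μ) := by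
  rw [Polynomial.isCoprime_iff_aeval_ne_zero_of_isAlgClosed F (AlgebraicClosure F)]
  intro a
  refine not_and_or.mp ?_
  rintro ⟨hD, hE⟩
  rw [aeval_Dp] at hD
  rw [aeval_Ep] at hE
  exact pt_DE (ofNat_ne_zero_of _ 2 h2) (ofNat_ne_zero_of _ 3 h3) (ofNat_ne_zero_of _ 5 h5)
    ((_root_.map_ne_zero _).mpr hd) (qT_ne_zero_of _ hq) _ hD hE

/-- **Coprimality with `c₄`.** -/
theorem core_isCoprime :
    IsCoprime (Np d μ * Dp d μ * Ep d μ) (C4form (Np d μ) (Dp d μ)) := by
  rw [Polynomial.isCoprime_iff_aeval_ne_zero_of_isAlgClosed F (AlgebraicClosure F)]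
  intro a
  refine not_and_or.mp ?_
  rintro ⟨h0, hC⟩
  rw [map_mul, map_mul, aeval_Np, aeval_Dp, aeval_Ep] at h0
  rw [aeval_C4form, aeval_Np, aeval_Dp] at hC
  exact pt_C4 (ofNat_ne_zero_of _ 2 h2) (ofNat_ne_zero_of _ 3 h3) (ofNat_ne_zero_of _ 5 h5)
    ((_root_.map_ne_zero _).mpr hd) (qT_ne_zero_of _ hq) _ h0 hC

include hμ

theorem separable_Np : (Np d μ).Separable := by
  rw [Polynomial.separable_def, derivative_Np,
    Polynomial.isCoprime_iff_aeval_ne_zero_of_isAlgClosed F (AlgebraicClosure F)]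
  intro a
  refine not_and_or.mp ?_
  rintro ⟨hN, hN'⟩
  rw [aeval_Np] at hN
  rw [map_mul, aeval_C, aeval_famN'] at hN'
  rcases mul_eq_zero.mp hN' with h | h
  · exact absurd h ((_root_.map_ne_zero _).mpr hμ)
  · exact pt_NN' (ofNat_ne_zero_of _ 2 h2) (ofNat_ne_zero_of _ 3 h3) (ofNat_ne_zero_of _ 5 h5)
      ((_root_.map_ne_zero _).mpr hd) (qT_ne_zero_of _ hq) _ hN h

theorem separable_Dp : (Dp d μ).Separable := by
  rw [Polynomial.separable_def, derivative_Dp,
    Polynomial.isCoprime_iff_aeval_ne_zero_of_isAlgClosed F (AlgebraicClosure F)]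
  intro a
  refine not_and_or.mp ?_
  rintro ⟨hD, hD'⟩
  rw [aeval_Dp] at hD
  rw [map_mul, aeval_C, aeval_famD'] at hD'
  rcases mul_eq_zero.mp hD' with h | h
  · exact absurd h ((_root_.map_ne_zero _).mpr hμ)
  · exact pt_DD' (ofNat_ne_zero_of _ 2 h2) (ofNat_ne_zero_of _ 3 h3) (ofNat_ne_zero_of _ 5 h5)
      ((_root_.map_ne_zero _).mpr hd) (qT_ne_zero_of _ hq) _ hD h

omit hq in
theorem separable_Ep : (Ep d μ).Separable := by
  rw [Polynomial.separable_def, derivative_Ep,
    Polynomial.isCoprime_iff_aeval_ne_zero_of_isAlgClosed F (AlgebraicClosure F)]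
  intro a
  refine not_and_or.mp ?_
  rintro ⟨hE, hE'⟩
  rw [aeval_Ep] at hE
  rw [map_mul, aeval_C, aeval_famE'] at hE'
  rcases mul_eq_zero.mp hE' with h | h
  · exact absurd h ((_root_.map_ne_zero _).mpr hμ)
  · exact pt_EE' (ofNat_ne_zero_of _ 2 h2) (ofNat_ne_zero_of _ 3 h3) (ofNat_ne_zero_of _ 5 h5)
      ((_root_.map_ne_zero _).mpr hd) _ hE h

/-- **Separability** of `N * D * E`. -/
theorem core_separable : (Np d μ * Dp d μ * Ep d μ).Separable :=
  ((separable_Np h2 h3 h5 hd hq hμ).mul (separable_Dp h2 h3 h5 hd hq hμ)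
    (isCoprime_Np_Dp h2 h3 h5 hd hq)).mul (separable_Ep h2 h3 h5 hd hμ)
    ((isCoprime_Np_Ep h2 h3 h5 hd hq).mul_left (isCoprime_Dp_Ep h2 h3 h5 hd hq))

omit hd hq in
theorem natDegree_Ep_pos : 0 < (Ep d μ).natDegree := by
  by_contra h
  have h0 : (Ep d μ).natDegree = 0 := by omega
  have hc := eq_C_of_natDegree_eq_zero h0
  have e0 : eval 0 (Ep d μ) = (Ep d μ).coeff 0 := by rw [hc, eval_C, coeff_C_zero]
  have e1 : eval (μ⁻¹) (Ep d μ) = (Ep d μ).coeff 0 := by rw [hc, eval_C, coeff_C_zero]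
  have e2 : eval (-μ⁻¹) (Ep d μ) = (Ep d μ).coeff 0 := by rw [hc, eval_C, coeff_C_zero]
  rw [eval_Ep] at e0 e1 e2
  rw [mul_inv_cancel₀ hμ] at e1
  rw [mul_neg, mul_inv_cancel₀ hμ] at e2
  have hz : famE d (μ * 0) = 1 := by unfold famE; ring
  exact famE_nonconst h2 h3 h5 d (by rw [e1, ← e0, hz]) (by rw [e2, ← e0, hz])

/-- **Nonconstancy** of `N * D * E`. -/
theorem core_natDegree_pos : 0 < (Np d μ * Dp d μ * Ep d μ).natDegree := by
  have hne := (core_separable h2 h3 h5 hd hq hμ).ne_zero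
  have h1 : Np d μ * Dp d μ ≠ 0 := left_ne_zero_of_mul hne
  have h2' : Ep d μ ≠ 0 := right_ne_zero_of_mul hne
  rw [natDegree_mul h1 h2']
  have := natDegree_Ep_pos h2 h3 h5 (d := d) hμ
  omega

end Core

end Poly

end Fermat.Agent.S52.Irr3FB
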