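/-
S52 block [Irr3-L] (helper17): an elementary "no rational root of the 3-division polynomial"
criterion for semistable integral Weierstrass models.  Mathlib-only.

If `W` is an integral Weierstrass curve which is semistable away from 3 and has two primes
`r₁, r₂ ∉ {3}` of multiplicative reduction with `3 ∤ v_{r_i}(Δ)`, such that `-c₄c₆` is a
non-residue mod `r₁` and `3c₄c₆` is a non-residue mod `r₂`, then
`ψ₃ = 3X⁴ + b₂X³ + 3b₄X² + 3b₆X + b₈` has no rational root.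
-/
import Mathlib

set_option autoImplicit false

namespace Fermat.Agent.S52.Irr3L

/-- If every prime `p ≠ 3` divides `n ≠ 0` to an even power, then `n = a * b ^ 2` with
`a ∈ {1, 3}`. -/
lemma exists_sq_mul_of_even_val (n : ℕ) (hn : n ≠ 0)
    (h : ∀ p : ℕ, p.Prime → p ≠ 3 → Even (padicValNat p n)) :
    ∃ a b : ℕ, (a = 1 ∨ a = 3) ∧ b ≠ 0 ∧ n = a * b ^ 2 := by
  obtain ⟨a, b, ha, hb, hab, hsq⟩ := Nat.sq_mul_squarefree_of_pos (Nat.pos_of_ne_zero hn)
  have hprime : ∀ p : ℕ, p.Prime → p ∣ a → p = 3 := by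
    intro p hp hpa
    by_contra hp3
    have hev := h p hp hp3
    have : Fact p.Prime := Fact.mk hp
    rw [← hab, padicValNat.mul (by positivity) ha.ne', padicValNat.pow] at hev
    have h1 : padicValNat p a = 1 := by
      rw [← Nat.factorization_def a hp]
      exact Nat.factorization_eq_one_of_squarefree hsq hp hpa
    rw [h1] at hev
    rcases hev with ⟨c, hc⟩
    omega
  have ha13 : a = 1 ∨ a = 3 := by
    have hprod := Nat.prod_primeFactors_of_squarefree hsq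
    have hsub : a.primeFactors ⊆ {3} := by
      intro p hp
      simp only [Finset.mem_singleton]
      exact hprime p (Nat.prime_of_mem_primeFactors hp) (Nat.dvd_of_mem_primeFactors hp)
    rcases Finset.subset_singleton_iff.mp hsub with h0 | h3
    · left; rw [← hprod, h0]; simp
    · right; rw [← hprod, h3]; simp
  exact ⟨a, b, ha13, hb.ne', by rw [← hab]; ring⟩

/-- An odd integer has square `≡ 1 mod 4`. -/
lemma sq_emod_four_of_odd (m : ℤ) (hm : m % 2 = 1) : m ^ 2 % 4 = 1 := by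
  have h : m % 4 = 1 ∨ m % 4 = 3 := by omega
  rcases h with h | h <;> simp [pow_two, Int.mul_emod, h]

/-- `padicValInt` of a power. -/
lemma padicValInt_pow (p : ℕ) [Fact p.Prime] (a : ℤ) (k : ℕ) :
    padicValInt p (a ^ k) = k * padicValInt p a := by
  simp [padicValInt, Int.natAbs_pow, padicValNat.pow]

/-- The arithmetic core.  `B, L, D` are (up to powers of 3) the `b₂, b₄, b₆` invariants of the
model translated to a rational root of `ψ₃`. -/
theorem core (a₁ k B L D U G Δ c₄ c₆ : ℤ)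
    (hBD : B * D = 3 * L ^ 2) (hΔ : 27 * Δ = L ^ 3 - D ^ 2)
    (hc₄ : c₄ = B ^ 2 - 8 * L) (hc₆ : c₆ = -B ^ 3 + 12 * B * L - 8 * D)
    (hD : D = 3 * U ^ 2 + 4 * G) (hB : B = a₁ ^ 2 + 4 * k)
    (hss : ∀ p : ℕ, p.Prime → p ≠ 3 → (p : ℤ) ∣ Δ → ¬ (p : ℤ) ∣ c₄)
    (r₁ r₂ : ℕ) (hr₁ : r₁.Prime) (hr₂ : r₂.Prime) (h₁3 : r₁ ≠ 3) (h₂3 : r₂ ≠ 3)
    (hd₁ : (r₁ : ℤ) ∣ Δ) (hd₂ : (r₂ : ℤ) ∣ Δ)
    (hv₁ : ¬ 3 ∣ padicValInt r₁ Δ) (hv₂ : ¬ 3 ∣ padicValInt r₂ Δ)
    (hns₁ : ¬ IsSquare ((-(c₄ * c₆) : ℤ) : ZMod r₁))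
    (hns₂ : ¬ IsSquare ((3 * (c₄ * c₆) : ℤ) : ZMod r₂)) : False := by
  -- `Δ ≠ 0`, hence `D ≠ 0`, `L ≠ 0`
  have hΔ0 : Δ ≠ 0 := by
    rintro rfl
    simp at hv₁
  have hD0 : D ≠ 0 := by
    rintro rfl
    have hL : L = 0 := by
      have : 3 * L ^ 2 = 0 := by rw [← hBD]; ring
      have : L ^ 2 = 0 := by omega
      exact pow_eq_zero_iff (two_ne_zero) |>.mp this
    apply hΔ0
    have : 27 * Δ = 0 := by rw [hΔ, hL]; ring
    omega
  -- a prime `p ≠ 3` dividing `D` divides `L` and `Δ`, but not `B`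
  have key : ∀ p : ℕ, p.Prime → p ≠ 3 → (p : ℤ) ∣ D →
      (p : ℤ) ∣ L ∧ (p : ℤ) ∣ Δ ∧ ¬ (p : ℤ) ∣ B := by
    intro p hp hp3 hpD
    have hpp : Prime (p : ℤ) := Nat.prime_iff_prime_int.mp hp
    have hp3' : ¬ (p : ℤ) ∣ 3 := by
      intro h3
      have : p ∣ 3 := by exact_mod_cast h3
      exact hp3 ((Nat.prime_dvd_prime_iff_eq hp Nat.prime_three).mp this)
    have hpL : (p : ℤ) ∣ L := by
      have h1 : (p : ℤ) ∣ 3 * L ^ 2 := by rw [← hBD]; exact Dvd.dvd.mul_left hpD B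
      rcases hpp.dvd_or_dvd h1 with h | h
      · exact absurd h hp3'
      · exact hpp.dvd_of_dvd_pow h
    have hpΔ : (p : ℤ) ∣ Δ := by
      have h1 : (p : ℤ) ∣ 27 * Δ := by
        rw [hΔ]
        exact dvd_sub (Dvd.dvd.pow hpL (by norm_num)) (Dvd.dvd.pow hpD (by norm_num))
      rcases hpp.dvd_or_dvd h1 with h | h
      · exfalso
        have h27 : (27 : ℤ) = 3 ^ 3 := by norm_num
        rw [h27] at h
        exact hp3' (hpp.dvd_of_dvd_pow h)
      · exact h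
    refine ⟨hpL, hpΔ, ?_⟩
    intro hpB
    apply hss p hp hp3 hpΔ
    rw [hc₄]
    exact dvd_sub (Dvd.dvd.pow hpB (by norm_num)) (Dvd.dvd.mul_left hpL 8)
  have hL0 : L ≠ 0 := by
    rintro rfl
    -- then `B * D = 0`, so `B = 0`, so `c₄ = 0`, contradicting semistability at `r₁`
    have hB0 : B = 0 := by
      have : B * D = 0 := by rw [hBD]; ring
      rcases mul_eq_zero.mp this with h | h
      · exact h
      · exact absurd h hD0
    apply hss r₁ hr₁ h₁3 hd₁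
    rw [hc₄, hB0]
    simp
  have hB0 : B ≠ 0 := by
    rintro rfl
    have : 3 * L ^ 2 = 0 := by rw [← hBD]; ring
    have : L ^ 2 = 0 := by omega
    exact hL0 (pow_eq_zero_iff (two_ne_zero) |>.mp this)
  -- valuations of `D` at primes `p ≠ 3` are even
  have hval : ∀ p : ℕ, p.Prime → p ≠ 3 → (p : ℤ) ∣ D →
      padicValInt p D = 2 * padicValInt p L := by
    intro p hp hp3 hpD
    have : Fact p.Prime := Fact.mk hp
    obtain ⟨-, -, hpB⟩ := key p hp hp3 hpD
    have h1 : padicValInt p (B * D) = padicValInt p (3 * L ^ 2) := by rw [hBD]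
    rw [padicValInt.mul hB0 hD0, padicValInt.mul (by norm_num) (pow_ne_zero _ hL0),
      padicValInt_pow, padicValInt.eq_zero_of_not_dvd hpB] at h1
    have h3 : padicValInt p (3 : ℤ) = 0 := by
      apply padicValInt.eq_zero_of_not_dvd
      intro h3
      have : p ∣ 3 := by exact_mod_cast h3
      exact hp3 ((Nat.prime_dvd_prime_iff_eq hp Nat.prime_three).mp this)
    rw [h3] at h1
    omega
  have heven : ∀ p : ℕ, p.Prime → p ≠ 3 → Even (padicValNat p D.natAbs) := by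
    intro p hp hp3
    by_cases hpD : (p : ℤ) ∣ D
    · have := hval p hp hp3 hpD
      rw [padicValInt] at this
      rw [this]
      exact even_two_mul _
    · have : ¬ p ∣ D.natAbs := by
        intro h
        exact hpD (Int.natCast_dvd.mpr h)
      rw [padicValNat.eq_zero_of_not_dvd this]
      exact Even.zero
  obtain ⟨a, b, ha, hb, hab⟩ :=
    exists_sq_mul_of_even_val D.natAbs (Int.natAbs_ne_zero.mpr hD0) heven
  -- the 2-adic information
  have hDodd : D % 2 = 1 → D % 4 = 3 := by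
    intro hodd
    have hU : U % 2 = 1 := by
      rw [hD] at hodd
      by_contra hU
      have hU0 : U % 2 = 0 := by omega
      have : (3 * U ^ 2 + 4 * G) % 2 = 0 := by
        have : U ^ 2 % 2 = 0 := by
          rw [pow_two, Int.mul_emod, hU0]; simp
        omega
      omega
    have := sq_emod_four_of_odd U hU
    rw [hD]
    omega
  have hDeven : D % 2 = 0 → B % 4 = 1 := by
    intro hev
    have h2D : ((2 : ℕ) : ℤ) ∣ D := by
      have : (2 : ℤ) ∣ D := Int.dvd_of_emod_eq_zero hev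
      exact_mod_cast this
    obtain ⟨-, -, h2B⟩ := key 2 Nat.prime_two (by norm_num) h2D
    have hBodd : B % 2 = 1 := by
      have : ¬ (2 : ℤ) ∣ B := by exact_mod_cast h2B
      omega
    have ha₁ : a₁ % 2 = 1 := by
      rw [hB] at hBodd
      by_contra h
      have h0 : a₁ % 2 = 0 := by omega
      have : a₁ ^ 2 % 2 = 0 := by
        rw [pow_two, Int.mul_emod, h0]; simp
      omega
    have := sq_emod_four_of_odd a₁ ha₁
    rw [hB]
    omega
  -- `D = 3 m ^ 2` or `D = - m ^ 2`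
  have hshape : (∃ m : ℤ, m ≠ 0 ∧ D = 3 * m ^ 2) ∨ (∃ m : ℤ, m ≠ 0 ∧ D = -m ^ 2) := by
    have hbz : (b : ℤ) ≠ 0 := by exact_mod_cast hb
    have habs : (D.natAbs : ℤ) = (a : ℤ) * (b : ℤ) ^ 2 := by exact_mod_cast hab
    have hbsq : ∀ m : ℤ, m % 2 = 1 → m ^ 2 % 4 = 1 := sq_emod_four_of_odd
    rcases Int.natAbs_eq D with hpos | hneg
    · -- `D = a b²`
      rw [habs] at hpos
      rcases ha with rfl | rfl
      · -- `D = b²`: impossible
        exfalso
        have hDb : D = (b : ℤ) ^ 2 := by rw [hpos]; push_cast; ring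
        rcases Int.emod_two_eq_zero_or_one D with hev | hodd
        · have hB4 := hDeven hev
          -- `3 B b² = (3 L)²`
          have h1 : (b : ℤ) ^ 2 ∣ (3 * L) ^ 2 := by
            refine ⟨3 * B, ?_⟩
            have : B * (b : ℤ) ^ 2 = 3 * L ^ 2 := by rw [← hDb]; exact hBD
            linear_combination (-3 : ℤ) * this
          have h2 : (b : ℤ) ∣ 3 * L := (Int.pow_dvd_pow_iff (by norm_num)).mp h1
          obtain ⟨m, hm⟩ := h2
          have h3 : 3 * B = m ^ 2 := by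
            have : B * (b : ℤ) ^ 2 = 3 * L ^ 2 := by rw [← hDb]; exact hBD
            have h4 : (3 * B - m ^ 2) * (b : ℤ) ^ 2 = 0 := by
              have h5 : (3 * L) ^ 2 = ((b : ℤ) * m) ^ 2 := by rw [hm]
              linear_combination 3 * this + h5
            rcases mul_eq_zero.mp h4 with h | h
            · linarith
            · exact absurd (pow_eq_zero_iff (two_ne_zero) |>.mp h) hbz
          have hm2 : m % 2 = 1 := by
            by_contra h
            have h0 : m % 2 = 0 := by omega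
            have : m ^ 2 % 2 = 0 := by
              rw [pow_two, Int.mul_emod, h0]; simp
            omega
          have := hbsq m hm2
          omega
        · have hD4 := hDodd hodd
          have hb2 : (b : ℤ) % 2 = 1 := by
            by_contra h
            have h0 : (b : ℤ) % 2 = 0 := by omega
            have : (b : ℤ) ^ 2 % 2 = 0 := by
              rw [pow_two, Int.mul_emod, h0]; simp
            omega
          have := hbsq b hb2
          omega
      · -- `D = 3 b²`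
        left
        exact ⟨b, hbz, by rw [hpos]; push_cast; ring⟩
    · rw [habs] at hneg
      rcases ha with rfl | rfl
      · -- `D = - b²`
        right
        exact ⟨b, hbz, by rw [hneg]; push_cast; ring⟩
      · -- `D = -3 b²`: impossible
        exfalso
        have hDb : D = -(3 * (b : ℤ) ^ 2) := by rw [hneg]; push_cast; ring
        rcases Int.emod_two_eq_zero_or_one D with hev | hodd
        · have hB4 := hDeven hev
          -- `- B b² = L²`
          have hrel : -B * (b : ℤ) ^ 2 = L ^ 2 := by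
            have : B * (-(3 * (b : ℤ) ^ 2)) = 3 * L ^ 2 := by rw [← hDb]; exact hBD
            linarith
          have h1 : (b : ℤ) ^ 2 ∣ L ^ 2 := ⟨-B, by linear_combination -hrel⟩
          have h2 : (b : ℤ) ∣ L := (Int.pow_dvd_pow_iff (by norm_num)).mp h1
          obtain ⟨m, hm⟩ := h2
          have h3 : -B = m ^ 2 := by
            have h4 : (-B - m ^ 2) * (b : ℤ) ^ 2 = 0 := by
              have : L ^ 2 = ((b : ℤ) * m) ^ 2 := by rw [hm]
              linear_combination hrel + this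
            rcases mul_eq_zero.mp h4 with h | h
            · linarith
            · exact absurd (pow_eq_zero_iff (two_ne_zero) |>.mp h) hbz
          have hm2 : m % 2 = 1 := by
            by_contra h
            have h0 : m % 2 = 0 := by omega
            have : m ^ 2 % 2 = 0 := by
              rw [pow_two, Int.mul_emod, h0]; simp
            omega
          have := hbsq m hm2
          omega
        · have hD4 := hDodd hodd
          have hb2 : (b : ℤ) % 2 = 1 := by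
            by_contra h
            have h0 : (b : ℤ) % 2 = 0 := by omega
            have : (b : ℤ) ^ 2 % 2 = 0 := by
              rw [pow_two, Int.mul_emod, h0]; simp
            omega
          have := hbsq b hb2
          omega
  -- local analysis at a prime `r ≠ 3` with `r ∣ Δ`, `3 ∤ v_r(Δ)`
  have local_r : ∀ r : ℕ, r.Prime → r ≠ 3 → (r : ℤ) ∣ Δ → ¬ 3 ∣ padicValInt r Δ →
      ((L : ZMod r) ≠ 0 ∧ (D : ZMod r) ^ 2 = (L : ZMod r) ^ 3 ∧
        (c₄ : ZMod r) = (L : ZMod r) ∧ (c₆ : ZMod r) = (D : ZMod r)) := by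
    intro r hr hr3 hrΔ hv
    have : Fact r.Prime := Fact.mk hr
    have hrr : Prime (r : ℤ) := Nat.prime_iff_prime_int.mp hr
    have hr3' : ¬ (r : ℤ) ∣ 3 := by
      intro h3
      have : r ∣ 3 := by exact_mod_cast h3
      exact hr3 ((Nat.prime_dvd_prime_iff_eq hr Nat.prime_three).mp this)
    have hrL : ¬ (r : ℤ) ∣ L := by
      intro hrL
      have hrD : (r : ℤ) ∣ D := by
        have h1 : (r : ℤ) ∣ D ^ 2 := by
          have : D ^ 2 = L ^ 3 - 27 * Δ := by linarith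
          rw [this]
          exact dvd_sub (Dvd.dvd.pow hrL (by norm_num)) (Dvd.dvd.mul_left hrΔ 27)
        exact hrr.dvd_of_dvd_pow h1
      have hvD := hval r hr hr3 hrD
      set kk := padicValInt r L with hkk
      have hk1 : 1 ≤ kk := by
        have : (r : ℤ) ^ 1 ∣ L := by simpa using hrL
        rcases (padicValInt_dvd_iff 1 L).mp this with h | h
        · exact absurd h hL0
        · exact h
      -- `v_r(27 Δ) = 3 kk`
      have hdvd : (r : ℤ) ^ (3 * kk) ∣ 27 * Δ := by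
        rw [hΔ]
        apply dvd_sub
        · have : (r : ℤ) ^ kk ∣ L := padicValInt_dvd L
          calc (r : ℤ) ^ (3 * kk) = ((r : ℤ) ^ kk) ^ 3 := by ring
            _ ∣ L ^ 3 := pow_dvd_pow_of_dvd this 3
        · have : (r : ℤ) ^ (2 * kk) ∣ D := by
            rw [← hvD]; exact padicValInt_dvd D
          calc (r : ℤ) ^ (3 * kk) ∣ (r : ℤ) ^ (4 * kk) := pow_dvd_pow _ (by omega)
            _ = ((r : ℤ) ^ (2 * kk)) ^ 2 := by ring
            _ ∣ D ^ 2 := pow_dvd_pow_of_dvd this 2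
      have hndvd : ¬ (r : ℤ) ^ (3 * kk + 1) ∣ 27 * Δ := by
        intro h
        have hD2 : (r : ℤ) ^ (3 * kk + 1) ∣ D ^ 2 := by
          have : (r : ℤ) ^ (2 * kk) ∣ D := by
            rw [← hvD]; exact padicValInt_dvd D
          calc (r : ℤ) ^ (3 * kk + 1) ∣ (r : ℤ) ^ (4 * kk) := pow_dvd_pow _ (by omega)
            _ = ((r : ℤ) ^ (2 * kk)) ^ 2 := by ring
            _ ∣ D ^ 2 := pow_dvd_pow_of_dvd this 2
        have hL3 : (r : ℤ) ^ (3 * kk + 1) ∣ L ^ 3 := by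
          have : L ^ 3 = 27 * Δ + D ^ 2 := by linarith
          rw [this]
          exact dvd_add h hD2
        rcases (padicValInt_dvd_iff (3 * kk + 1) (L ^ 3)).mp hL3 with h0 | hle
        · exact hL0 (pow_eq_zero_iff (by norm_num) |>.mp h0)
        · rw [padicValInt_pow] at hle
          omega
      have hv27 : padicValInt r (27 * Δ) = 3 * kk := by
        have h1 : 3 * kk ≤ padicValInt r (27 * Δ) := by
          rcases (padicValInt_dvd_iff (3 * kk) (27 * Δ)).mp hdvd with h0 | hle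
          · exfalso; exact hΔ0 (by omega)
          · exact hle
        have h2 : ¬ 3 * kk + 1 ≤ padicValInt r (27 * Δ) := by
          intro hle
          exact hndvd ((padicValInt_dvd_iff (3 * kk + 1) (27 * Δ)).mpr (Or.inr hle))
        omega
      have hvΔ : padicValInt r Δ = 3 * kk := by
        rw [padicValInt.mul (by norm_num) hΔ0] at hv27
        have h27 : padicValInt r (27 : ℤ) = 0 := by
          apply padicValInt.eq_zero_of_not_dvd
          intro h
          have h27' : (27 : ℤ) = 3 ^ 3 := by norm_num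
          rw [h27'] at h
          exact hr3' (hrr.dvd_of_dvd_pow h)
        omega
      exact hv ⟨kk, hvΔ⟩
    have hl : (L : ZMod r) ≠ 0 := by
      intro h
      exact hrL ((ZMod.intCast_zmod_eq_zero_iff_dvd L r).mp h)
    have hΔz : (Δ : ZMod r) = 0 := (ZMod.intCast_zmod_eq_zero_iff_dvd Δ r).mpr hrΔ
    have hDL : (D : ZMod r) ^ 2 = (L : ZMod r) ^ 3 := by
      have h1 : ((27 * Δ : ℤ) : ZMod r) = ((L ^ 3 - D ^ 2 : ℤ) : ZMod r) := by rw [hΔ]
      push_cast at h1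
      rw [hΔz] at h1
      linear_combination h1
    have hBDz : (B : ZMod r) * (D : ZMod r) = 3 * (L : ZMod r) ^ 2 := by
      have h1 : ((B * D : ℤ) : ZMod r) = ((3 * L ^ 2 : ℤ) : ZMod r) := by rw [hBD]
      push_cast at h1
      exact h1
    have hd : (D : ZMod r) ≠ 0 := by
      intro h
      rw [h] at hDL
      have : (L : ZMod r) ^ 3 = 0 := by rw [← hDL]; ring
      exact hl (pow_eq_zero_iff (by norm_num) |>.mp this)
    -- `B² = 9 L`
    have hB2 : (B : ZMod r) ^ 2 = 9 * (L : ZMod r) := by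
      have h1 : ((B : ZMod r) ^ 2 - 9 * (L : ZMod r)) * (L : ZMod r) ^ 3 = 0 := by
        linear_combination ((B : ZMod r) * (D : ZMod r) + 3 * (L : ZMod r) ^ 2) * hBDz
          - (B : ZMod r) ^ 2 * hDL
      rcases mul_eq_zero.mp h1 with h | h
      · linear_combination h
      · exact absurd (pow_eq_zero_iff (by norm_num) |>.mp h) hl
    refine ⟨hl, hDL, ?_, ?_⟩
    · have h1 : ((c₄ : ℤ) : ZMod r) = ((B ^ 2 - 8 * L : ℤ) : ZMod r) := by rw [hc₄]
      push_cast at h1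
      rw [h1, hB2]; ring
    · have h1 : ((c₆ : ℤ) : ZMod r) = ((-B ^ 3 + 12 * B * L - 8 * D : ℤ) : ZMod r) := by rw [hc₆]
      push_cast at h1
      rw [h1]
      have h2 : (-(B : ZMod r) ^ 3 + 12 * (B : ZMod r) * (L : ZMod r) - 9 * (D : ZMod r))
          * (D : ZMod r) = 0 := by
        linear_combination (-(B : ZMod r) ^ 2 + 12 * (L : ZMod r)) * hBDz
          - 3 * (L : ZMod r) ^ 2 * hB2 - 9 * hDL
      rcases mul_eq_zero.mp h2 with h | h
      · linear_combination h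
      · exact absurd h hd
  -- `L` is a square mod `r`
  have sqL : ∀ r : ℕ, r.Prime → (L : ZMod r) ≠ 0 → (D : ZMod r) ^ 2 = (L : ZMod r) ^ 3 →
      IsSquare (L : ZMod r) := by
    intro r hr hl hDL
    have : Fact r.Prime := Fact.mk hr
    refine ⟨(D : ZMod r) / (L : ZMod r), ?_⟩
    field_simp
    linear_combination -hDL
  rcases hshape with ⟨m, hm, hDm⟩ | ⟨m, hm, hDm⟩
  · -- `D = 3 m²`: contradiction at `r₂`
    obtain ⟨hl, hDL, hc4, hc6⟩ := local_r r₂ hr₂ h₂3 hd₂ hv₂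
    apply hns₂
    obtain ⟨s, hs⟩ := sqL r₂ hr₂ hl hDL
    refine ⟨3 * (m : ZMod r₂) * s, ?_⟩
    push_cast
    rw [hc4, hc6, hDm, hs]
    push_cast
    ring
  · -- `D = - m²`: contradiction at `r₁`
    obtain ⟨hl, hDL, hc4, hc6⟩ := local_r r₁ hr₁ h₁3 hd₁ hv₁
    apply hns₁
    obtain ⟨s, hs⟩ := sqL r₁ hr₁ hl hDL
    refine ⟨(m : ZMod r₁) * s, ?_⟩
    push_cast
    rw [hc4, hc6, hDm, hs]
    push_cast
    ring

/-- A rational root `x` of `3X⁴ + c₃X³ + c₂X² + c₁X + c₀` (integer coefficients) has `3x ∈ ℤ`. -/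
lemma three_mul_root_int (c₃ c₂ c₁ c₀ : ℤ) (x : ℚ)
    (hx : 3 * x ^ 4 + (c₃ : ℚ) * x ^ 3 + (c₂ : ℚ) * x ^ 2 + (c₁ : ℚ) * x + (c₀ : ℚ) = 0) :
    ∃ X : ℤ, (X : ℚ) = 3 * x := by
  obtain ⟨n, d, hd, hcopn, hxe⟩ : ∃ (n : ℤ) (d : ℕ), d ≠ 0 ∧ n.natAbs.Coprime d ∧
      x = (n : ℚ) / (d : ℚ) :=
    ⟨x.num, x.den, x.den_nz, x.reduced, (Rat.num_div_den x).symm⟩
  subst hxe
  have hd0 : (d : ℚ) ≠ 0 := by exact_mod_cast hd
  -- clear denominators
  have hZ : 3 * n ^ 4 + c₃ * n ^ 3 * d + c₂ * n ^ 2 * (d : ℤ) ^ 2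
      + c₁ * n * (d : ℤ) ^ 3 + c₀ * (d : ℤ) ^ 4 = 0 := by
    have h1 : (3 * (n : ℚ) ^ 4 + c₃ * (n : ℚ) ^ 3 * d
        + c₂ * (n : ℚ) ^ 2 * (d : ℚ) ^ 2
        + c₁ * (n : ℚ) * (d : ℚ) ^ 3 + c₀ * (d : ℚ) ^ 4) = 0 := by
      have h2 : (3 * ((n : ℚ) / d) ^ 4 + (c₃ : ℚ) * ((n : ℚ) / d) ^ 3
          + (c₂ : ℚ) * ((n : ℚ) / d) ^ 2 + (c₁ : ℚ) * ((n : ℚ) / d) + (c₀ : ℚ))
          * (d : ℚ) ^ 4 = 0 := by rw [hx]; ring
      field_simp at h2
      linear_combination h2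
    exact_mod_cast h1
  have hdvd : (d : ℤ) ∣ 3 * n ^ 4 := by
    refine ⟨-(c₃ * n ^ 3 + c₂ * n ^ 2 * (d : ℤ)
      + c₁ * n * (d : ℤ) ^ 2 + c₀ * (d : ℤ) ^ 3), ?_⟩
    linear_combination hZ
  have hcop : IsCoprime (d : ℤ) (n ^ 4) := by
    apply IsCoprime.pow_right
    rw [Int.isCoprime_iff_gcd_eq_one, Int.gcd_comm]
    simpa [Int.gcd, Nat.Coprime] using hcopn
  have hd3 : (d : ℤ) ∣ 3 := hcop.dvd_of_dvd_mul_right hdvd
  obtain ⟨e, he⟩ := hd3
  refine ⟨e * n, ?_⟩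
  have he' : (3 : ℚ) = (d : ℚ) * (e : ℚ) := by exact_mod_cast he
  push_cast
  rw [he']
  field_simp

open WeierstrassCurve in
/-- **[Irr3-L]** No rational root of the 3-division polynomial
`ψ₃ = 3X⁴ + b₂X³ + 3b₄X² + 3b₆X + b₈` for an integral Weierstrass model that is semistable
away from 3 and has primes `r₁, r₂ ≠ 3` dividing `Δ` to a power prime to 3 such that
`-c₄c₆` is a non-square mod `r₁` and `3c₄c₆` is a non-square mod `r₂`. -/
theorem no_rat_root (W : WeierstrassCurve ℤ)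
    (hss : ∀ p : ℕ, p.Prime → p ≠ 3 → (p : ℤ) ∣ W.Δ → ¬ (p : ℤ) ∣ W.c₄)
    (r₁ r₂ : ℕ) (hr₁ : r₁.Prime) (hr₂ : r₂.Prime) (h₁3 : r₁ ≠ 3) (h₂3 : r₂ ≠ 3)
    (hd₁ : (r₁ : ℤ) ∣ W.Δ) (hd₂ : (r₂ : ℤ) ∣ W.Δ)
    (hv₁ : ¬ 3 ∣ padicValInt r₁ W.Δ) (hv₂ : ¬ 3 ∣ padicValInt r₂ W.Δ)
    (hns₁ : ¬ IsSquare ((-(W.c₄ * W.c₆) : ℤ) : ZMod r₁))
    (hns₂ : ¬ IsSquare ((3 * (W.c₄ * W.c₆) : ℤ) : ZMod r₂)) (x : ℚ) :
    3 * x ^ 4 + (W.b₂ : ℚ) * x ^ 3 + 3 * (W.b₄ : ℚ) * x ^ 2 + 3 * (W.b₆ : ℚ) * x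
      + (W.b₈ : ℚ) ≠ 0 := by
  intro hx
  obtain ⟨X, hXx⟩ := three_mul_root_int W.b₂ (3 * W.b₄) (3 * W.b₆) W.b₈ x (by
    push_cast; linear_combination hx)
  have hX : X ^ 4 + W.b₂ * X ^ 3 + 9 * W.b₄ * X ^ 2 + 27 * W.b₆ * X + 27 * W.b₈ = 0 := by
    have h1 : ((X : ℚ)) ^ 4 + (W.b₂ : ℚ) * (X : ℚ) ^ 3 + 9 * (W.b₄ : ℚ) * (X : ℚ) ^ 2
        + 27 * (W.b₆ : ℚ) * (X : ℚ) + 27 * (W.b₈ : ℚ) = 0 := by
      rw [hXx]; linear_combination 27 * hx
    exact_mod_cast h1
  refine core W.a₁ (W.a₂ + X) (W.b₂ + 4 * X) (2 * X ^ 2 + W.b₂ * X + 3 * W.b₄)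
    (4 * X ^ 3 + 3 * W.b₂ * X ^ 2 + 18 * W.b₄ * X + 27 * W.b₆) (W.a₁ * X + 3 * W.a₃)
    (X ^ 3 + 3 * W.a₂ * X ^ 2 + 9 * W.a₄ * X + 27 * W.a₆) W.Δ W.c₄ W.c₆ ?_ ?_ ?_ ?_ ?_ ?_ hss
    r₁ r₂ hr₁ hr₂ h₁3 h₂3 hd₁ hd₂ hv₁ hv₂ hns₁ hns₂
  · simp only [b₂, b₄, b₆, b₈] at hX ⊢
    linear_combination 4 * hX
  · simp only [WeierstrassCurve.Δ, b₂, b₄, b₆, b₈] at hX ⊢
    linear_combination (12 * (2 * X ^ 2 + (W.a₁ ^ 2 + 4 * W.a₂) * X
      + 3 * (2 * W.a₄ + W.a₁ * W.a₃)) - (W.a₁ ^ 2 + 4 * W.a₂ + 4 * X) ^ 2) * hX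
  · simp only [c₄, b₂, b₄]
    ring
  · simp only [c₆, b₂, b₄, b₆]
    ring
  · simp only [b₂, b₄, b₆]
    ring
  · simp only [b₂]
    ring

end Fermat.Agent.S52.Irr3L
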