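/-
S52 block [Irr3-P-abs] (helper92): existence of the two auxiliary primes of the two-prime
criterion `Irr3Crit` for the mod-3 representation, as a family-independent statement.

Input: integral polynomials `G` (cusp polynomial), `C4`, `C6` (invariants of the family),
two REAL roots `θ₁, θ₂` of `G` with `C4·C6 > 0` at `θ₁` and `C4·C6 < 0` at `θ₂`, and a Bezout
certificate for the separability of `G`.
Output: an integer parameter `t` in a prescribed residue class mod `M` and primes `r₁ ≠ r₂`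
prime to `M` with `v_{r_i}(G(t)) = 1`, `-C4(t)C6(t)` a non-residue mod `r₁` and `3·C4(t)C6(t)`
a non-residue mod `r₂`.

The density input is the (landed) Kummer form of the zeta-pole theorem,
`Fermat.Agent.S14Z.exists_prime_nonresidue_norm`, for `p = 2` over the real field `ℚ(θ_i)`.
-/
import Mathlib
import Fermat.Agent.S14Z.ZetaKummer

set_option autoImplicit false

namespace Fermat.Agent.S52.Irr3P

open Polynomial NumberField IsDedekindDomain

/-! ### elementary congruence lemmas -/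

/-- two-modulus Chinese remainder theorem over `ℤ`. -/
theorem exists_crt2 {m n : ℤ} (h : IsCoprime m n) (x y : ℤ) :
    ∃ t : ℤ, m ∣ t - x ∧ n ∣ t - y := by
  obtain ⟨u, v, huv⟩ := h
  refine ⟨x * (v * n) + y * (u * m), ⟨(y - x) * u, ?_⟩, ⟨(x - y) * v, ?_⟩⟩
  · linear_combination x * huv
  · linear_combination y * huv

/-- three-modulus Chinese remainder theorem in the shape needed below. -/
theorem exists_crt3 (M : ℤ) (r₁ r₂ : ℕ) (hr₁ : r₁.Prime) (hr₂ : r₂.Prime) (h12 : r₁ ≠ r₂)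
    (h1 : IsCoprime (r₁ : ℤ) M) (h2 : IsCoprime (r₂ : ℤ) M) (t₀ n₁ n₂ : ℤ) :
    ∃ t : ℤ, M ∣ t - t₀ ∧ (r₁ : ℤ) ^ 2 ∣ t - n₁ ∧ (r₂ : ℤ) ^ 2 ∣ t - n₂ := by
  have h12' : IsCoprime (r₁ : ℤ) (r₂ : ℤ) :=
    Nat.isCoprime_iff_coprime.2 ((Nat.coprime_primes hr₁ hr₂).2 h12)
  obtain ⟨t₁, ht₁, ht₂⟩ := exists_crt2 (IsCoprime.pow (m := 2) (n := 2) h12') n₁ n₂
  have hM : IsCoprime ((r₁ : ℤ) ^ 2 * (r₂ : ℤ) ^ 2) M :=
    IsCoprime.mul_left (IsCoprime.pow_left h1) (IsCoprime.pow_left h2)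
  obtain ⟨t, ht, htM⟩ := exists_crt2 hM t₁ t₀
  refine ⟨t, htM, ?_, ?_⟩
  · have : (r₁ : ℤ) ^ 2 ∣ t - t₁ := Dvd.dvd.trans (Dvd.intro _ rfl) ht
    have h3 := dvd_add this ht₁
    rwa [sub_add_sub_cancel] at h3
  · have : (r₂ : ℤ) ^ 2 ∣ t - t₁ := Dvd.dvd.trans (Dvd.intro_left _ rfl) ht
    have h3 := dvd_add this ht₂
    rwa [sub_add_sub_cancel] at h3

/-- `v_r(x) = 1` from `r ∣ x` and `¬ r² ∣ x`. -/
theorem padicValInt_eq_one {r : ℕ} (hr : r.Prime) {x : ℤ} (h1 : (r : ℤ) ∣ x)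
    (h2 : ¬ (r : ℤ) ^ 2 ∣ x) : padicValInt r x = 1 := by
  have : Fact r.Prime := ⟨hr⟩
  have hx : x ≠ 0 := by
    rintro rfl
    exact h2 (dvd_zero _)
  have h1' : 1 ≤ padicValInt r x := by
    have := (padicValInt_dvd_iff (p := r) 1 x).1 (by simpa using h1)
    exact this.resolve_left hx
  have h2' : ¬ 2 ≤ padicValInt r x := fun h =>
    h2 ((padicValInt_dvd_iff (p := r) 2 x).2 (Or.inr h))
  omega

/-- Hensel adjustment: a simple root `n` of `G` mod `r` can be moved inside its class mod `r`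
so that `v_r(G) = 1` on a whole class mod `r²`. -/
theorem exists_val_one (G : ℤ[X]) {r : ℕ} (hr : r.Prime) (n : ℤ) (h0 : (r : ℤ) ∣ G.eval n)
    (h1 : ¬ (r : ℤ) ∣ (derivative G).eval n) :
    ∃ n' : ℤ, (r : ℤ) ∣ n' - n ∧ ∀ t : ℤ, (r : ℤ) ^ 2 ∣ t - n' → padicValInt r (G.eval t) = 1 := by
  have hr0 : (r : ℤ) ≠ 0 := by exact_mod_cast hr.ne_zero
  have key : ∃ n' : ℤ, (r : ℤ) ∣ n' - n ∧ (r : ℤ) ∣ G.eval n' ∧ ¬ (r : ℤ) ^ 2 ∣ G.eval n' := by
    by_cases h2 : (r : ℤ) ^ 2 ∣ G.eval n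
    · refine ⟨n + r, by simp, ?_, ?_⟩
      · have := Polynomial.sub_dvd_eval_sub (n + (r : ℤ)) n G
        rw [add_sub_cancel_left] at this
        have h3 := dvd_add this h0
        rwa [sub_add_cancel] at h3
      · obtain ⟨k, hk⟩ := Polynomial.binomExpansion G n (r : ℤ)
        intro h3
        rw [hk] at h3
        have h4 : (r : ℤ) ^ 2 ∣ (derivative G).eval n * r := by
          have h5 := dvd_sub (dvd_sub h3 h2) (Dvd.intro_left k rfl : (r : ℤ) ^ 2 ∣ k * (r : ℤ) ^ 2)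
          have h6 : eval n G + eval n (derivative G) * ↑r + k * ↑r ^ 2 - eval n G - k * ↑r ^ 2
              = (derivative G).eval n * r := by ring
          rwa [h6] at h5
        rw [pow_two, mul_comm ((derivative G).eval n)] at h4
        exact h1 ((mul_dvd_mul_iff_left hr0).1 h4)
    · exact ⟨n, by simp, h0, h2⟩
  obtain ⟨n', hn', h3, h4⟩ := key
  refine ⟨n', hn', fun t ht => padicValInt_eq_one hr ?_ ?_⟩
  · have h5 := (Dvd.intro_left _ (pow_two (r : ℤ)).symm : (r : ℤ) ∣ (r : ℤ) ^ 2).trans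
      (ht.trans (Polynomial.sub_dvd_eval_sub t n' G))
    have h6 := dvd_add h5 h3
    rwa [sub_add_cancel] at h6
  · intro h5
    apply h4
    have h6 := dvd_sub h5 (ht.trans (Polynomial.sub_dvd_eval_sub t n' G))
    rwa [sub_sub_cancel] at h6

/-! ### the residue field at a prime of prime norm -/

/-- A prime of prime norm `r` of a number field has residue field `ZMod r`: a surjective ring
hom `𝓞 K →+* ZMod r` with kernel the prime. -/
theorem exists_residue_hom {K : Type*} [Field K] [NumberField K] (v : HeightOneSpectrum (𝓞 K))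
    (hv : (Ideal.absNorm v.asIdeal).Prime) :
    ∃ φ : 𝓞 K →+* ZMod (Ideal.absNorm v.asIdeal), Function.Surjective φ ∧
      ∀ x, φ x = 0 ↔ x ∈ v.asIdeal := by
  classical
  have hcard : Nat.card (𝓞 K ⧸ v.asIdeal) = Ideal.absNorm v.asIdeal := by
    rw [Ideal.absNorm_apply, Submodule.cardQuot_apply]
  have : Finite (𝓞 K ⧸ v.asIdeal) := Nat.finite_of_card_ne_zero (by rw [hcard]; exact hv.ne_zero)
  let _ : Fintype (𝓞 K ⧸ v.asIdeal) := Fintype.ofFinite _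
  have hcard' : Fintype.card (𝓞 K ⧸ v.asIdeal) = Ideal.absNorm v.asIdeal := by
    rw [← Nat.card_eq_fintype_card, hcard]
  let e := ZMod.ringEquivOfPrime (𝓞 K ⧸ v.asIdeal) hv hcard'
  refine ⟨(e.symm : (𝓞 K ⧸ v.asIdeal) →+* ZMod _).comp (Ideal.Quotient.mk v.asIdeal), ?_, ?_⟩
  · intro z
    obtain ⟨x, hx⟩ := Ideal.Quotient.mk_surjective (e z)
    exact ⟨x, by simp [hx]⟩
  · intro x
    simp [Ideal.Quotient.eq_zero_iff_mem]

/-! ### one prime from one real root -/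

/-- Core: a number field `K` with a real embedding `ι`, a root `θ ∈ K` of the separable
integral polynomial `G`, and an integral polynomial `B` with `B(ι θ) < 0`: then outside any
finite set there is a prime `r` and an integer `n` with `G(n) ≡ 0`, `G'(n) ≢ 0` and `B(n)` a
non-residue mod `r`. -/
theorem exists_prime_of_root (K : Type) [Field K] [NumberField K] (ι : K →+* ℝ) (θ : K)
    (G B : ℤ[X]) (hθ : aeval θ G = 0) (hB : aeval (ι θ) B < 0)
    (a b : ℤ[X]) (c : ℤ) (hc : c ≠ 0) (hbez : a * G + b * derivative G = C c) (T : Finset ℕ) :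
    ∃ (r : ℕ) (n : ℤ), r.Prime ∧ r ∉ T ∧ (r : ℤ) ∣ G.eval n ∧
      ¬ (r : ℤ) ∣ (derivative G).eval n ∧ ¬ IsSquare ((B.eval n : ℤ) : ZMod r) := by
  classical
  have hG0 : G ≠ 0 := by
    rintro rfl
    simp only [mul_zero, derivative_zero, add_zero] at hbez
    exact hc (C_eq_zero.1 hbez.symm)
  set ℓ : ℤ := G.leadingCoeff with hℓ
  have hℓ0 : ℓ ≠ 0 := leadingCoeff_ne_zero.2 hG0
  -- the integral element `y = ℓ θ`
  have hyint : IsIntegral ℤ ((ℓ : K) * θ) := by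
    have := isIntegral_leadingCoeff_smul (R := ℤ) (x := θ) (p := G) hθ
    rwa [zsmul_eq_mul] at this
  let y : 𝓞 K := ⟨(ℓ : K) * θ, hyint⟩
  have hy : algebraMap (𝓞 K) K y = algebraMap ℤ K ℓ * θ := by
    rw [eq_intCast]; rfl
  -- homogenised evaluation
  have hhom : ∀ P : ℤ[X], algebraMap (𝓞 K) K (aeval y (scaleRoots P ℓ))
      = (ℓ : K) ^ P.natDegree * aeval θ P := by
    intro P
    rw [← aeval_algebraMap_apply, hy, aeval_def, scaleRoots_eval₂_mul, ← aeval_def]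
    simp
  -- the element `aK = ℓ^(2k) B(θ)`
  obtain ⟨k, hk⟩ : ∃ k : ℕ, k = B.natDegree := ⟨_, rfl⟩
  let aK : 𝓞 K := (ℓ : 𝓞 K) ^ k * aeval y (scaleRoots B ℓ)
  have haK : algebraMap (𝓞 K) K aK = (ℓ : K) ^ k * ((ℓ : K) ^ k * aeval θ B) := by
    simp only [aK, map_mul, map_pow, hhom, map_intCast, hk]
  have hιB : ι (aeval θ B) = aeval (ι θ) B := by
    have := Polynomial.aeval_algHom_apply ι.toIntAlgHom θ B
    simpa using this.symm
  have hneg : ι (algebraMap (𝓞 K) K aK) < 0 := by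
    rw [haK, map_mul, map_mul, map_pow, hιB, ← mul_assoc]
    have hpos : (0 : ℝ) < ι (ℓ : K) ^ k * ι (ℓ : K) ^ k := by
      have hne : ι (ℓ : K) ≠ 0 := by
        rw [map_intCast]; exact_mod_cast hℓ0
      exact mul_self_pos.2 (pow_ne_zero _ hne)
    exact mul_neg_of_pos_of_neg hpos hB
  have hnsq : ¬ ∃ x : K, x ^ 2 = (aK : K) := by
    rintro ⟨x, hx⟩
    have h1 : ι x ^ 2 = ι (algebraMap (𝓞 K) K aK) := by rw [← map_pow, hx]
    have h2 := sq_nonneg (ι x)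
    rw [h1] at h2
    exact absurd hneg (not_lt.2 h2)
  have hζ : IsPrimitiveRoot (-1 : 𝓞 K) 2 := IsPrimitiveRoot.neg_one 0 (by norm_num)
  obtain ⟨v, hvT, hvN, -, -, -, hres⟩ := Fermat.Agent.S14Z.exists_prime_nonresidue_norm
    Nat.prime_two K (-1) aK hζ hnsq (T ∪ ℓ.natAbs.primeFactors ∪ c.natAbs.primeFactors)
  set r := Ideal.absNorm v.asIdeal with hr
  have : Fact r.Prime := ⟨hvN⟩
  simp only [Finset.mem_union, not_or] at hvT
  obtain ⟨⟨hrT, hrℓ⟩, hrc⟩ := hvT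
  have hℓr : ((ℓ : ℤ) : ZMod r) ≠ 0 := by
    rw [Ne, ZMod.intCast_zmod_eq_zero_iff_dvd, Int.natCast_dvd]
    intro h
    exact hrℓ (Nat.mem_primeFactors.2 ⟨hvN, h, Int.natAbs_ne_zero.2 hℓ0⟩)
  have hcr : ¬ (r : ℤ) ∣ c := by
    rw [Int.natCast_dvd]
    intro h
    exact hrc (Nat.mem_primeFactors.2 ⟨hvN, h, Int.natAbs_ne_zero.2 hc⟩)
  obtain ⟨φ, hφs, hφk⟩ := exists_residue_hom v hvN
  -- the residue of `θ`
  obtain ⟨n, hn⟩ := ZMod.intCast_surjective (φ y * ((ℓ : ℤ) : ZMod r)⁻¹)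
  have hφy : φ y = Int.castRingHom (ZMod r) ℓ * Int.castRingHom (ZMod r) n := by
    rw [eq_intCast, eq_intCast, hn, mul_comm (φ y), ← mul_assoc, mul_inv_cancel₀ hℓr, one_mul]
  have hφhom : ∀ P : ℤ[X], φ (aeval y (scaleRoots P ℓ))
      = ((ℓ : ℤ) : ZMod r) ^ P.natDegree * ((P.eval n : ℤ) : ZMod r) := by
    intro P
    have h1 := Polynomial.aeval_algHom_apply φ.toIntAlgHom y (scaleRoots P ℓ)
    have h2 : φ (aeval y (scaleRoots P ℓ)) = aeval (φ y) (scaleRoots P ℓ) := by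
      simpa using h1.symm
    rw [h2, hφy, aeval_def, algebraMap_int_eq, scaleRoots_eval₂_mul, eval₂_at_apply]
    simp
  refine ⟨r, n, hvN, hrT, ?_, ?_, ?_⟩
  · -- `r ∣ G(n)`
    have h0 : aeval y (scaleRoots G ℓ) = 0 := by
      apply RingOfIntegers.coe_injective
      rw [hhom, hθ, mul_zero, map_zero]
    have h1 := hφhom G
    rw [h0, map_zero] at h1
    have h2 := (mul_eq_zero.1 h1.symm).resolve_left (pow_ne_zero _ hℓr)
    exact (ZMod.intCast_zmod_eq_zero_iff_dvd _ _).1 h2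
  · -- `r ∤ G'(n)`
    intro h
    have h0 : aeval y (scaleRoots G ℓ) = 0 := by
      apply RingOfIntegers.coe_injective
      rw [hhom, hθ, mul_zero, map_zero]
    have h1 := hφhom G
    rw [h0, map_zero] at h1
    have h2 := (mul_eq_zero.1 h1.symm).resolve_left (pow_ne_zero _ hℓr)
    have h3 : (r : ℤ) ∣ G.eval n := (ZMod.intCast_zmod_eq_zero_iff_dvd _ _).1 h2
    have h4 : a.eval n * G.eval n + b.eval n * (derivative G).eval n = c := by
      have := congrArg (Polynomial.eval n) hbez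
      simpa using this
    apply hcr
    rw [← h4]
    exact dvd_add (Dvd.dvd.mul_left h3 _) (Dvd.dvd.mul_left h _)
  · -- non-residue
    rintro ⟨w, hw⟩
    obtain ⟨x, hx⟩ := hφs (((ℓ : ℤ) : ZMod r) ^ k * w)
    apply hres
    refine ⟨x, (hφk _).1 ?_⟩
    have h1 : φ aK = ((ℓ : ℤ) : ZMod r) ^ k * (((ℓ : ℤ) : ZMod r) ^ k * ((B.eval n : ℤ) : ZMod r)) := by
      simp only [aK, map_mul, map_pow, hφhom, map_intCast, hk]
    rw [map_sub, map_pow, hx, h1, hw]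
    ring

/-- One prime from one real root: `G` separable, `θ` a real root of `G` with `B(θ) < 0`. -/
theorem exists_prime_of_real_root (G B : ℤ[X]) (θ : ℝ) (hθ : aeval θ G = 0) (hB : aeval θ B < 0)
    (a b : ℤ[X]) (c : ℤ) (hc : c ≠ 0) (hbez : a * G + b * derivative G = C c) (T : Finset ℕ) :
    ∃ (r : ℕ) (n : ℤ), r.Prime ∧ r ∉ T ∧ (r : ℤ) ∣ G.eval n ∧
      ¬ (r : ℤ) ∣ (derivative G).eval n ∧ ¬ IsSquare ((B.eval n : ℤ) : ZMod r) := by
  have hG0 : G ≠ 0 := by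
    rintro rfl
    simp only [mul_zero, derivative_zero, add_zero] at hbez
    exact hc (C_eq_zero.1 hbez.symm)
  have halg : IsAlgebraic ℤ θ := ⟨G, hG0, hθ⟩
  have hint : IsIntegral ℚ θ :=
    (IsAlgebraic.extendScalars (R := ℤ) (S := ℚ) (fun x y h => by simpa using h) halg).isIntegral
  let K : IntermediateField ℚ ℝ := IntermediateField.adjoin ℚ {θ}
  have : FiniteDimensional ℚ K := IntermediateField.adjoin.finiteDimensional hint
  have : NumberField K := ⟨⟩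
  let θK : K := ⟨θ, IntermediateField.mem_adjoin_simple_self ℚ θ⟩
  have hθK : aeval θK G = 0 := by
    apply (algebraMap K ℝ).injective
    rw [← aeval_algebraMap_apply, map_zero]
    exact hθ
  exact exists_prime_of_root K (algebraMap K ℝ) θK G B hθK hB a b c hc hbez T

/-! ### the two primes -/

/-- **[Irr3-P-abs]** Existence of the two auxiliary primes of the two-prime criterion. -/
theorem exists_two_primes (G C4 C6 : ℤ[X]) (θ₁ θ₂ : ℝ) (hθ₁ : aeval θ₁ G = 0)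
    (hθ₂ : aeval θ₂ G = 0) (hs₁ : 0 < aeval θ₁ C4 * aeval θ₁ C6)
    (hs₂ : aeval θ₂ C4 * aeval θ₂ C6 < 0)
    (a b : ℤ[X]) (c : ℤ) (hc : c ≠ 0) (hbez : a * G + b * derivative G = C c)
    (M : ℤ) (hM : M ≠ 0) (t₀ : ℤ) :
    ∃ (t : ℤ) (r₁ r₂ : ℕ), r₁.Prime ∧ r₂.Prime ∧ r₁ ≠ r₂ ∧ IsCoprime (r₁ : ℤ) M ∧
      IsCoprime (r₂ : ℤ) M ∧ M ∣ t - t₀ ∧
      padicValInt r₁ (G.eval t) = 1 ∧ padicValInt r₂ (G.eval t) = 1 ∧
      ¬ IsSquare ((-(C4.eval t * C6.eval t) : ℤ) : ZMod r₁) ∧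
      ¬ IsSquare ((3 * (C4.eval t * C6.eval t) : ℤ) : ZMod r₂) := by
  have hB₁ : aeval θ₁ (-(C4 * C6)) < 0 := by
    rw [map_neg, map_mul]; linarith
  have hB₂ : aeval θ₂ (3 * (C4 * C6)) < 0 := by
    rw [map_mul, map_mul, map_ofNat]; linarith
  obtain ⟨r₁, n₁, hr₁, hr₁T, hd₁, hd₁', hns₁⟩ :=
    exists_prime_of_real_root G (-(C4 * C6)) θ₁ hθ₁ hB₁ a b c hc hbez M.natAbs.primeFactors
  obtain ⟨r₂, n₂, hr₂, hr₂T, hd₂, hd₂', hns₂⟩ :=
    exists_prime_of_real_root G (3 * (C4 * C6)) θ₂ hθ₂ hB₂ a b c hc hbez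
      (M.natAbs.primeFactors ∪ {r₁})
  simp only [Finset.mem_union, Finset.mem_singleton, not_or] at hr₂T
  have hcop : ∀ r : ℕ, r.Prime → r ∉ M.natAbs.primeFactors → IsCoprime (r : ℤ) M := by
    intro r hr hrT
    rw [Int.isCoprime_iff_gcd_eq_one, Int.gcd_eq_natAbs, Int.natAbs_natCast]
    refine (Nat.Prime.coprime_iff_not_dvd hr).2 fun h => hrT ?_
    exact Nat.mem_primeFactors.2 ⟨hr, h, Int.natAbs_ne_zero.2 hM⟩
  have hc₁ := hcop r₁ hr₁ hr₁T
  have hc₂ := hcop r₂ hr₂ hr₂T.1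
  have h12 : r₁ ≠ r₂ := fun h => hr₂T.2 h.symm
  obtain ⟨n₁', hn₁', hv₁⟩ := exists_val_one G hr₁ n₁ hd₁ hd₁'
  obtain ⟨n₂', hn₂', hv₂⟩ := exists_val_one G hr₂ n₂ hd₂ hd₂'
  obtain ⟨t, htM, ht₁, ht₂⟩ := exists_crt3 M r₁ r₂ hr₁ hr₂ h12 hc₁ hc₂ t₀ n₁' n₂'
  -- `t ≡ n_i mod r_i`
  have hcong : ∀ (r : ℕ) (n n' : ℤ), (r : ℤ) ∣ n' - n → (r : ℤ) ^ 2 ∣ t - n' → ∀ B : ℤ[X],
      ((B.eval t : ℤ) : ZMod r) = ((B.eval n : ℤ) : ZMod r) := by
    intro r n n' h1 h2 B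
    have h3 : (r : ℤ) ∣ t - n := by
      have h4 := dvd_add ((Dvd.intro_left _ (pow_two (r : ℤ)).symm : (r : ℤ) ∣ (r : ℤ) ^ 2).trans h2)
        h1
      rwa [sub_add_sub_cancel] at h4
    have h5 := h3.trans (Polynomial.sub_dvd_eval_sub t n B)
    rw [← sub_eq_zero, ← Int.cast_sub, ZMod.intCast_zmod_eq_zero_iff_dvd]
    exact h5
  refine ⟨t, r₁, r₂, hr₁, hr₂, h12, hc₁, hc₂, htM, hv₁ t ht₁, hv₂ t ht₂, ?_, ?_⟩
  · have h := hcong r₁ n₁ n₁' hn₁' ht₁ (-(C4 * C6))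
    rw [eval_neg, eval_mul] at h
    rw [h]
    exact hns₁
  · have h := hcong r₂ n₂ n₂' hn₂' ht₂ (3 * (C4 * C6))
    rw [eval_mul, eval_mul, eval_ofNat] at h
    rw [h]
    exact hns₂

/-! ### adapters -/

/-- Bezout certificate over `ℤ` from separability over `ℚ`. -/
theorem exists_bezout_of_separable (G : ℤ[X]) (hG : (G.map (Int.castRingHom ℚ)).Separable) :
    ∃ (a b : ℤ[X]) (c : ℤ), c ≠ 0 ∧ a * G + b * derivative G = C c := by
  obtain ⟨a, b, hab⟩ := hG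
  obtain ⟨d₁, hd₁, ha⟩ := IsLocalization.integerNormalization_spec (nonZeroDivisors ℤ) a
  obtain ⟨d₂, hd₂, hb⟩ := IsLocalization.integerNormalization_spec (nonZeroDivisors ℤ) b
  refine ⟨C d₂ * IsLocalization.integerNormalization (nonZeroDivisors ℤ) a,
    C d₁ * IsLocalization.integerNormalization (nonZeroDivisors ℤ) b, d₁ * d₂,
    mul_ne_zero (nonZeroDivisors.ne_zero hd₁) (nonZeroDivisors.ne_zero hd₂), ?_⟩
  apply Polynomial.map_injective (Int.castRingHom ℚ) Int.cast_injective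
  rw [algebraMap_int_eq] at ha hb
  rw [derivative_map] at hab
  have h1 : ((d₁ : ℤ) : ℚ[X]) = C (Int.castRingHom ℚ d₁) := by simp
  have h2 : ((d₂ : ℤ) : ℚ[X]) = C (Int.castRingHom ℚ d₂) := by simp
  rw [Polynomial.map_add, Polynomial.map_mul, Polynomial.map_mul, Polynomial.map_mul,
    Polynomial.map_mul, Polynomial.map_C, Polynomial.map_C, Polynomial.map_C, ha, hb,
    zsmul_eq_mul, zsmul_eq_mul, h1, h2, map_mul, C_mul]
  linear_combination (C (Int.castRingHom ℚ d₁) * C (Int.castRingHom ℚ d₂)) * hab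

/-- `exists_two_primes` with separability over `ℚ` as hypothesis. -/
theorem exists_two_primes_of_separable (G C4 C6 : ℤ[X]) (θ₁ θ₂ : ℝ) (hθ₁ : aeval θ₁ G = 0)
    (hθ₂ : aeval θ₂ G = 0) (hs₁ : 0 < aeval θ₁ C4 * aeval θ₁ C6)
    (hs₂ : aeval θ₂ C4 * aeval θ₂ C6 < 0) (hG : (G.map (Int.castRingHom ℚ)).Separable)
    (M : ℤ) (hM : M ≠ 0) (t₀ : ℤ) :
    ∃ (t : ℤ) (r₁ r₂ : ℕ), r₁.Prime ∧ r₂.Prime ∧ r₁ ≠ r₂ ∧ IsCoprime (r₁ : ℤ) M ∧
      IsCoprime (r₂ : ℤ) M ∧ M ∣ t - t₀ ∧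
      padicValInt r₁ (G.eval t) = 1 ∧ padicValInt r₂ (G.eval t) = 1 ∧
      ¬ IsSquare ((-(C4.eval t * C6.eval t) : ℤ) : ZMod r₁) ∧
      ¬ IsSquare ((3 * (C4.eval t * C6.eval t) : ℤ) : ZMod r₂) := by
  obtain ⟨a, b, c, hc, hbez⟩ := exists_bezout_of_separable G hG
  exact exists_two_primes G C4 C6 θ₁ θ₂ hθ₁ hθ₂ hs₁ hs₂ a b c hc hbez M hM t₀

end Fermat.Agent.S52.Irr3P
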