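/-
S52 (helper92): the two-prime route to `[Irr3]`, assembled:
`Irr3Primes.exists_two_primes_of_separable` (existence of the two primes, from two real cusps
with opposite signs of `c₄c₆`) + `Irr3Crit.modRepIsIrreducible_three_of_two_primes`
(helper17's local criterion).

Output: a parameter `t ≡ t₀ mod M` such that EVERY integral model `W'` with invariants
`(C4(t), C6(t))`, discriminant `D0·Δ' = D1·G(t)^5` (`D0, D1 ∣ M`), semistable away from 3, has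
irreducible mod-3 representation.
-/
import Fermat.Agent.S52.Irr3Primes
import Fermat.Agent.S52.Irr3Crit

set_option autoImplicit false

namespace Fermat.Agent.S52.Irr3T

open Polynomial

/-- `v_r(Δ') = 5` from `D0·Δ' = D1·g^5`, `v_r(g) = 1`, `r ∤ D0·D1`. -/
theorem padicValInt_disc {r : ℕ} (hr : r.Prime) {D0 D1 Δ' g : ℤ} (hD0 : ¬ (r : ℤ) ∣ D0)
    (hD1 : ¬ (r : ℤ) ∣ D1) (h : D0 * Δ' = D1 * g ^ 5) (hg : padicValInt r g = 1) :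
    Δ' ≠ 0 ∧ padicValInt r Δ' = 5 := by
  have : Fact r.Prime := ⟨hr⟩
  have hD0' : D0 ≠ 0 := by rintro rfl; exact hD0 (dvd_zero _)
  have hD1' : D1 ≠ 0 := by rintro rfl; exact hD1 (dvd_zero _)
  have hg0 : g ≠ 0 := by
    rintro rfl
    simp at hg
  have hΔ : Δ' ≠ 0 := by
    rintro rfl
    rw [mul_zero] at h
    exact mul_ne_zero hD1' (pow_ne_zero 5 hg0) h.symm
  refine ⟨hΔ, ?_⟩
  have h1 := congrArg (padicValInt r) h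
  rw [padicValInt.mul hD0' hΔ, padicValInt.mul hD1' (pow_ne_zero 5 hg0), Irr3L.padicValInt_pow r g 5,
    padicValInt.eq_zero_of_not_dvd hD0, padicValInt.eq_zero_of_not_dvd hD1, hg] at h1
  omega

/-- **[Irr3], two-prime route.** -/
theorem exists_irreducible_member (G C4 C6 : ℤ[X]) (θ₁ θ₂ : ℝ) (hθ₁ : aeval θ₁ G = 0)
    (hθ₂ : aeval θ₂ G = 0) (hs₁ : 0 < aeval θ₁ C4 * aeval θ₁ C6)
    (hs₂ : aeval θ₂ C4 * aeval θ₂ C6 < 0) (hG : (G.map (Int.castRingHom ℚ)).Separable)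
    (M : ℤ) (hM : M ≠ 0) (h3 : (3 : ℤ) ∣ M) (t₀ : ℤ) :
    ∃ t : ℤ, M ∣ t - t₀ ∧ ∀ (W' : WeierstrassCurve ℤ) (D0 D1 : ℤ),
      W'.c₄ = C4.eval t → W'.c₆ = C6.eval t → D0 ∣ M → D1 ∣ M →
      D0 * W'.Δ = D1 * G.eval t ^ 5 →
      (∀ p : ℕ, p.Prime → p ≠ 3 → (p : ℤ) ∣ W'.Δ → ¬ (p : ℤ) ∣ W'.c₄) →
      W'.ModRepIsIrreducible 3 := by
  obtain ⟨t, r₁, r₂, hr₁, hr₂, -, hc₁, hc₂, htM, hv₁, hv₂, hns₁, hns₂⟩ :=
    Irr3P.exists_two_primes_of_separable G C4 C6 θ₁ θ₂ hθ₁ hθ₂ hs₁ hs₂ hG M hM t₀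
  refine ⟨t, htM, fun W' D0 D1 h4 h6 hD0 hD1 hΔ hss => ?_⟩
  have hnd : ∀ (r : ℕ), r.Prime → IsCoprime (r : ℤ) M → ∀ D : ℤ, D ∣ M → ¬ (r : ℤ) ∣ D := by
    intro r hr hc D hD hrD
    have h1 : IsUnit (r : ℤ) := (hc.of_isCoprime_of_dvd_right (hrD.trans hD)).isUnit_of_dvd' dvd_rfl dvd_rfl
    rw [Int.isUnit_iff] at h1
    have := hr.one_lt
    omega
  have hne3 : ∀ (r : ℕ), r.Prime → IsCoprime (r : ℤ) M → r ≠ 3 := by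
    rintro r hr hc rfl
    exact hnd 3 hr hc 3 h3 dvd_rfl
  obtain ⟨-, hp₁⟩ := padicValInt_disc hr₁ (hnd r₁ hr₁ hc₁ D0 hD0) (hnd r₁ hr₁ hc₁ D1 hD1) hΔ hv₁
  obtain ⟨hΔ0, hp₂⟩ := padicValInt_disc hr₂ (hnd r₂ hr₂ hc₂ D0 hD0) (hnd r₂ hr₂ hc₂ D1 hD1) hΔ hv₂
  have hdvd : ∀ (r : ℕ), r.Prime → padicValInt r W'.Δ = 5 → (r : ℤ) ∣ W'.Δ := by
    intro r hr h5
    have : Fact r.Prime := ⟨hr⟩
    have := (padicValInt_dvd_iff (p := r) 1 W'.Δ).2 (Or.inr (by omega))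
    simpa using this
  refine Irr3C.modRepIsIrreducible_three_of_two_primes W' hss r₁ r₂ hr₁ hr₂ (hne3 r₁ hr₁ hc₁)
    (hne3 r₂ hr₂ hc₂) (hdvd r₁ hr₁ hp₁) (hdvd r₂ hr₂ hp₂) ?_ ?_ ?_ ?_
  · rw [hp₁]; norm_num
  · rw [hp₂]; norm_num
  · rw [h4, h6]; exact hns₁
  · rw [h4, h6]; exact hns₂

end Fermat.Agent.S52.Irr3T
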