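/-
T3 / S52, block [KQ] (owner: helper2).

The rational point `Q(v)` of order 5 on the Klein-cone curve
  `E_v : Y² = X³ + 27 H(v) X + 54 T(v)`   (`c₄ = -H(v)`, `c₆ = -T(v)`, `Δ = -f(v)⁵`),
`v = (x, y)`, with INTEGER forms `XQ` (degree 10), `YQ` (degree 15):

* `YQ_sq`        : `Q(v)` lies on `E_v`;
* `slope_Q`      : the tangent slope at `Q(v)` is the quintic form `LQ`;
* `XQ_W0`, `YQ_W0` : `2 Q(v) = Q(W₀ v)`, `W₀ (x, y) = (y, -x)`;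
* `XQ_neg`, `YQ_neg` : `Q(-v) = -Q(v)`;
* point level (`order5_Q`): on any `W` over a field with `2, 3 ≠ 0`, `a₁ = a₂ = a₃ = 0`,
  `a₄ = 27 H(v)`, `a₆ = 54 T(v)`, `f(v) ≠ 0`: `Q(v)` is a nonsingular point,
  `2 • Q(v) = Q(W₀ v)` and `5 • Q(v) = 0`.
-/
import Fermat.Agent.S52.TNF

set_option autoImplicit false

open WeierstrassCurve WeierstrassCurve.Affine

namespace Fermat.Agent.S52.KQ

section forms

variable {R : Type*} [CommRing R]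

/-- Klein's ground form `f = x y (x¹⁰ + 11 x⁵ y⁵ - y¹⁰)`. -/
def kf (x y : R) : R := x * y * (x ^ 10 + 11 * x ^ 5 * y ^ 5 - y ^ 10)

/-- Klein's Hessian form `H` (degree 20). -/
def kH (x y : R) : R :=
  -(x ^ 20 + y ^ 20) + 228 * (x ^ 15 * y ^ 5 - x ^ 5 * y ^ 15) - 494 * x ^ 10 * y ^ 10

/-- Klein's Jacobian form `T` (degree 30). -/
def kT (x y : R) : R :=
  x ^ 30 + y ^ 30 + 522 * (x ^ 25 * y ^ 5 - x ^ 5 * y ^ 25)
    - 10005 * (x ^ 20 * y ^ 10 + x ^ 10 * y ^ 20)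

/-- `X`-coordinate of the rational point `Q(v)` of order 5. -/
def XQ (x y : R) : R :=
  3 * x ^ 10 + 36 * x ^ 8 * y ^ 2 - 36 * x ^ 7 * y ^ 3 + 72 * x ^ 6 * y ^ 4 + 90 * x ^ 5 * y ^ 5
    + 180 * x ^ 4 * y ^ 6 + 108 * x ^ 3 * y ^ 7 + 72 * x ^ 2 * y ^ 8 + 36 * x * y ^ 9 + 3 * y ^ 10

/-- `Y`-coordinate of the rational point `Q(v)` of order 5. -/
def YQ (x y : R) : R :=
  108 * x ^ 13 * y ^ 2 + 108 * x ^ 12 * y ^ 3 + 432 * x ^ 11 * y ^ 4 + 540 * x ^ 9 * y ^ 6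
    + 648 * x ^ 8 * y ^ 7 + 2268 * x ^ 7 * y ^ 8 + 3132 * x ^ 6 * y ^ 9 + 2700 * x ^ 5 * y ^ 10
    + 1620 * x ^ 4 * y ^ 11 + 972 * x ^ 3 * y ^ 12 + 432 * x ^ 2 * y ^ 13 + 108 * x * y ^ 14

/-- The tangent slope at `Q(v)`. -/
def LQ (x y : R) : R :=
  3 * x ^ 5 - 6 * x ^ 4 * y + 18 * x ^ 3 * y ^ 2 + 6 * x ^ 2 * y ^ 3 + 12 * x * y ^ 4 + 3 * y ^ 5

theorem kT_sq_add_kH_cube (x y : R) : kT x y ^ 2 + kH x y ^ 3 = 1728 * kf x y ^ 5 := by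
  simp only [kT, kH, kf]
  ring

theorem kf_W0 (x y : R) : kf y (-x) = kf x y := by
  simp only [kf]
  ring

theorem kH_W0 (x y : R) : kH y (-x) = kH x y := by
  simp only [kH]
  ring

theorem kT_W0 (x y : R) : kT y (-x) = kT x y := by
  simp only [kT]
  ring

/-- `Q(v)` lies on `E_v`. -/
theorem YQ_sq (x y : R) :
    YQ x y ^ 2 = XQ x y ^ 3 + 27 * kH x y * XQ x y + 54 * kT x y := by
  simp only [YQ, XQ, kH, kT]
  ring

/-- The tangent slope at `Q(v)` is `LQ(v)`. -/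
theorem slope_Q (x y : R) : LQ x y * (2 * YQ x y) = 3 * XQ x y ^ 2 + 27 * kH x y := by
  simp only [YQ, XQ, LQ, kH]
  ring

/-- `X(2 Q(v)) = XQ(W₀ v)`. -/
theorem XQ_W0 (x y : R) : XQ y (-x) = LQ x y ^ 2 - 2 * XQ x y := by
  simp only [XQ, LQ]
  ring

/-- `Y(2 Q(v)) = YQ(W₀ v)`. -/
theorem YQ_W0 (x y : R) :
    YQ y (-x) = -YQ x y - LQ x y * (LQ x y ^ 2 - 2 * XQ x y - XQ x y) := by
  simp only [YQ, XQ, LQ]
  ring

theorem XQ_neg (x y : R) : XQ (-x) (-y) = XQ x y := by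
  simp only [XQ]
  ring

theorem YQ_neg (x y : R) : YQ (-x) (-y) = -YQ x y := by
  simp only [YQ]
  ring

end forms

section points

open Fermat.Agent.S52.TNF

variable {F : Type*} [Field F] {W : WeierstrassCurve F}

/-- `YQ(v) ≠ 0` as soon as `f(v) ≠ 0` (the point `Q(v)` is not of order 2). -/
theorem YQ_ne_zero (h2 : (2 : F) ≠ 0) (h3 : (3 : F) ≠ 0) {x y : F} (hf : kf x y ≠ 0) :
    YQ x y ≠ 0 := by
  intro hY
  have e1 : 27 * kH x y = -(3 * XQ x y ^ 2) := by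
    have := slope_Q x y
    rw [hY] at this
    linear_combination -this
  have e2 : 54 * kT x y = 2 * XQ x y ^ 3 := by
    have := YQ_sq x y
    rw [hY] at this
    linear_combination -this - XQ x y * e1
  have key : (2 : F) ^ 8 * 3 ^ 12 * kf x y ^ 5 = 0 := by
    have hd := kT_sq_add_kH_cube x y
    linear_combination (-78732 : F) * hd + (27 * (54 * kT x y + 2 * XQ x y ^ 3)) * e2
      + (4 * ((27 * kH x y) ^ 2 - (27 * kH x y) * (3 * XQ x y ^ 2) + (3 * XQ x y ^ 2) ^ 2)) * e1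
  have : kf x y ^ 5 = 0 := by
    rcases mul_eq_zero.mp key with h | h
    · exact absurd h (mul_ne_zero (pow_ne_zero _ h2) (pow_ne_zero _ h3))
    · exact h
  exact hf (pow_eq_zero_iff (by norm_num) |>.mp this)

/-- `Q(v)` is a nonsingular point of `E_v`. -/
theorem nonsingular_Q (h2 : (2 : F) ≠ 0) (h3 : (3 : F) ≠ 0) (h₁ : W.a₁ = 0) (h₂ : W.a₂ = 0)
    (h₃ : W.a₃ = 0) {x y : F} (hA : W.a₄ = 27 * kH x y) (hB : W.a₆ = 54 * kT x y)
    (hf : kf x y ≠ 0) : W.toAffine.Nonsingular (XQ x y) (YQ x y) :=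
  (gen_nonsingular_iff h2 h₁ h₂ h₃ _ _).2
    ⟨by rw [hA, hB]; exact YQ_sq x y, Or.inl (YQ_ne_zero h2 h3 hf)⟩

variable [DecidableEq F]

/-- Doubling: `Q(v) + Q(v) = Q(W₀ v)`, `W₀ (x, y) = (y, -x)`. -/
theorem Q_add_self (h2 : (2 : F) ≠ 0) (h3 : (3 : F) ≠ 0) (h₁ : W.a₁ = 0) (h₂ : W.a₂ = 0)
    (h₃ : W.a₃ = 0) {x y : F} (hA : W.a₄ = 27 * kH x y)
    (hf : kf x y ≠ 0) (h : W.toAffine.Nonsingular (XQ x y) (YQ x y))
    (h' : W.toAffine.Nonsingular (XQ y (-x)) (YQ y (-x))) :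
    (Point.some _ _ h : W.toAffine.Point) + Point.some _ _ h = Point.some _ _ h' := by
  have hY := YQ_ne_zero h2 h3 hf
  obtain ⟨hd', hd⟩ := gen_add_self h2 h₁ h₂ h₃ h hY
  have hm : (3 * XQ x y ^ 2 + W.a₄) / (2 * YQ x y) = LQ x y := by
    rw [div_eq_iff (mul_ne_zero h2 hY), hA]
    exact (slope_Q x y).symm
  rw [hd]
  refine gen_some_congr _ _ ?_ ?_
  · rw [hm]; exact (XQ_W0 x y).symm
  · rw [hm]; exact (YQ_W0 x y).symm

/-- **[KQ]**: `Q(v)` is a point of order 5 on `E_v`, and `2 • Q(v) = Q(W₀ v)`. -/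
theorem order5_Q (h2 : (2 : F) ≠ 0) (h3 : (3 : F) ≠ 0) (h₁ : W.a₁ = 0) (h₂ : W.a₂ = 0)
    (h₃ : W.a₃ = 0) {x y : F} (hA : W.a₄ = 27 * kH x y) (hB : W.a₆ = 54 * kT x y)
    (hf : kf x y ≠ 0) :
    ∃ (h : W.toAffine.Nonsingular (XQ x y) (YQ x y))
      (h' : W.toAffine.Nonsingular (XQ y (-x)) (YQ y (-x))),
      (2 : ℕ) • (Point.some _ _ h : W.toAffine.Point) = Point.some _ _ h' ∧
        (5 : ℕ) • (Point.some _ _ h : W.toAffine.Point) = 0 := by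
  have hA' : W.a₄ = 27 * kH y (-x) := by rw [kH_W0]; exact hA
  have hB' : W.a₆ = 54 * kT y (-x) := by rw [kT_W0]; exact hB
  have hf' : kf y (-x) ≠ 0 := by rw [kf_W0]; exact hf
  have h := nonsingular_Q h2 h3 h₁ h₂ h₃ hA hB hf
  have h' := nonsingular_Q h2 h3 h₁ h₂ h₃ hA' hB' hf'
  have hPP := Q_add_self h2 h3 h₁ h₂ h₃ hA hf h h'
  obtain ⟨hneg, hnegeq⟩ := gen_neg_some h₁ h₃ h
  have h'' : W.toAffine.Nonsingular (XQ (-x) (-y)) (YQ (-x) (-y)) := by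
    rw [XQ_neg, YQ_neg]; exact hneg
  have h4 : (Point.some _ _ h' : W.toAffine.Point) + Point.some _ _ h' = -Point.some _ _ h := by
    rw [Q_add_self h2 h3 h₁ h₂ h₃ hA' hf' h' h'', hnegeq]
    exact gen_some_congr _ _ (XQ_neg x y) (YQ_neg x y)
  refine ⟨h, h', by rw [two_nsmul]; exact hPP, ?_⟩
  have h5 : (5 : ℕ) • (Point.some _ _ h : W.toAffine.Point) =
      (Point.some _ _ h + Point.some _ _ h) + (Point.some _ _ h + Point.some _ _ h) +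
        Point.some _ _ h := by
    abel
  rw [h5, hPP, h4]
  exact neg_add_cancel _

end points

end Fermat.Agent.S52.KQ
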