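/-
S52 / Klein hedge, block [KS] (helper67): the icosahedral substitution `S`, polynomial core.

`K` is any commutative ring and `z : K` satisfies `z^4 + z^3 + z^2 + z + 1 = 0`.  With
`√5 = z - z^2 - z^3 + z^4`, Klein's substitution is
`S = (1/√5) [[-(z - z^4), z^2 - z^3], [z^2 - z^3, z - z^4]]`; the matrix `5 • S` has the two rows
`ksL1`, `ksL2` below (integral linear forms in `x, y`).  We prove, as identities in `K`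
(denominator-free, "scaled" forms):

* `ksL1_pow_five`, `ksL2_pow_five` : the fifth powers of the rows are `125 * ksB`, `125 * ksC`;
* `ks_f`, `ks_H`, `ks_T` : Klein's forms `f, H, T` (written in `b = x^5`, `c = y^5`) are
  invariant under `S`, i.e. `F (5 S v) = 5 ^ deg F * F v`;
* `ks_XP`, `ks_YP` : the forms `XP, YP` of the `μ₅`-point evaluated at `S v` are the integer
  forms `XQ, YQ`;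
* `ks_sq_x`, `ks_sq_y` : `S ^ 2 = -1`, i.e. `(5 S) ^ 2 = -25`.

All proofs are `linear_combination q * hz` with cofactors `q` computed by exact arithmetic
in `ℤ[x, y, z]` (own Python), staged through the quintic forms `ksB, ksC` and their products
`ksU = ksB^2`, `ksV = ksB * ksC`, `ksW = ksC^2` reduced modulo the cyclotomic relation.
-/
import Mathlib

set_option autoImplicit false

namespace Fermat.Agent.S52.KS67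

variable {K : Type*} [CommRing K]

/-- First row of `5 • S`. -/
def ksL1 (x y z : K) : K := (-1 - 2 * z - 3 * z ^ 2 + z ^ 3) * x + (2 + 4 * z + z ^ 2 + 3 * z ^ 3) * y

/-- Second row of `5 • S`. -/
def ksL2 (x y z : K) : K := (2 + 4 * z + z ^ 2 + 3 * z ^ 3) * x + (1 + 2 * z + 3 * z ^ 2 - z ^ 3) * y

/-- `(5 S v)_1 ^ 5 / 125` as a quintic form in `x, y`. -/
def ksB (x y z : K) : K :=
  -x ^ 5 * z ^ 3 - 7 * x ^ 5 * z ^ 2 - 8 * x ^ 5 * z - 4 * x ^ 5 + 10 * x ^ 4 * y * z ^ 3 + 20 * x ^ 4 * y * z ^ 2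
    + 30 * x ^ 4 * y * z + 15 * x ^ 4 * y + 10 * x ^ 3 * y ^ 2 * z ^ 3 - 30 * x ^ 3 * y ^ 2 * z ^ 2
    - 20 * x ^ 3 * y ^ 2 * z - 10 * x ^ 3 * y ^ 2 + 30 * x ^ 2 * y ^ 3 * z ^ 3 + 10 * x ^ 2 * y ^ 3 * z ^ 2
    + 40 * x ^ 2 * y ^ 3 * z + 20 * x ^ 2 * y ^ 3 + 20 * x * y ^ 4 * z ^ 3 - 10 * x * y ^ 4 * z ^ 2
    + 10 * x * y ^ 4 * z + 5 * x * y ^ 4 + 7 * y ^ 5 * z ^ 3 - y ^ 5 * z ^ 2 + 6 * y ^ 5 * z + 3 * y ^ 5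

/-- `(5 S v)_2 ^ 5 / 125` as a quintic form in `x, y`. -/
def ksC (x y z : K) : K :=
  7 * x ^ 5 * z ^ 3 - x ^ 5 * z ^ 2 + 6 * x ^ 5 * z + 3 * x ^ 5 - 20 * x ^ 4 * y * z ^ 3 + 10 * x ^ 4 * y * z ^ 2
    - 10 * x ^ 4 * y * z - 5 * x ^ 4 * y + 30 * x ^ 3 * y ^ 2 * z ^ 3 + 10 * x ^ 3 * y ^ 2 * z ^ 2
    + 40 * x ^ 3 * y ^ 2 * z + 20 * x ^ 3 * y ^ 2 - 10 * x ^ 2 * y ^ 3 * z ^ 3 + 30 * x ^ 2 * y ^ 3 * z ^ 2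
    + 20 * x ^ 2 * y ^ 3 * z + 10 * x ^ 2 * y ^ 3 + 10 * x * y ^ 4 * z ^ 3 + 20 * x * y ^ 4 * z ^ 2
    + 30 * x * y ^ 4 * z + 15 * x * y ^ 4 + y ^ 5 * z ^ 3 + 7 * y ^ 5 * z ^ 2 + 8 * y ^ 5 * z + 4 * y ^ 5

/-- `ksB ^ 2`, reduced. -/
def ksU (x y z : K) : K :=
  55 * x ^ 10 * z ^ 3 + 55 * x ^ 10 * z ^ 2 - 35 * x ^ 10 - 350 * x ^ 9 * y * z ^ 3 - 350 * x ^ 9 * y * z ^ 2
    + 200 * x ^ 9 * y + 900 * x ^ 8 * y ^ 2 * z ^ 3 + 900 * x ^ 8 * y ^ 2 * z ^ 2 - 675 * x ^ 8 * y ^ 2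
    - 1800 * x ^ 7 * y ^ 3 * z ^ 3 - 1800 * x ^ 7 * y ^ 3 * z ^ 2 + 600 * x ^ 7 * y ^ 3 + 1050 * x ^ 6 * y ^ 4 * z ^ 3
    + 1050 * x ^ 6 * y ^ 4 * z ^ 2 - 2100 * x ^ 6 * y ^ 4 - 2520 * x ^ 5 * y ^ 5 * z ^ 3 - 2520 * x ^ 5 * y ^ 5 * z ^ 2
    - 1260 * x ^ 5 * y ^ 5 - 1050 * x ^ 4 * y ^ 6 * z ^ 3 - 1050 * x ^ 4 * y ^ 6 * z ^ 2 - 3150 * x ^ 4 * y ^ 6
    - 1800 * x ^ 3 * y ^ 7 * z ^ 3 - 1800 * x ^ 3 * y ^ 7 * z ^ 2 - 2400 * x ^ 3 * y ^ 7 - 900 * x ^ 2 * y ^ 8 * z ^ 3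
    - 900 * x ^ 2 * y ^ 8 * z ^ 2 - 1575 * x ^ 2 * y ^ 8 - 350 * x * y ^ 9 * z ^ 3 - 350 * x * y ^ 9 * z ^ 2
    - 550 * x * y ^ 9 - 55 * y ^ 10 * z ^ 3 - 55 * y ^ 10 * z ^ 2 - 90 * y ^ 10

/-- `ksB * ksC`, reduced. -/
def ksV (x y z : K) : K :=
  -10 * x ^ 10 * z ^ 3 - 10 * x ^ 10 * z ^ 2 - 5 * x ^ 10 - 50 * x ^ 9 * y * z ^ 3 - 50 * x ^ 9 * y * z ^ 2
    - 25 * x ^ 9 * y - 50 * x ^ 8 * y ^ 2 * z ^ 3 - 50 * x ^ 8 * y ^ 2 * z ^ 2 - 25 * x ^ 8 * y ^ 2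
    + 100 * x ^ 7 * y ^ 3 * z ^ 3 + 100 * x ^ 7 * y ^ 3 * z ^ 2 + 50 * x ^ 7 * y ^ 3 + 150 * x ^ 6 * y ^ 4 * z ^ 3
    + 150 * x ^ 6 * y ^ 4 * z ^ 2 + 75 * x ^ 6 * y ^ 4 - 110 * x ^ 5 * y ^ 5 * z ^ 3 - 110 * x ^ 5 * y ^ 5 * z ^ 2
    - 55 * x ^ 5 * y ^ 5 - 150 * x ^ 4 * y ^ 6 * z ^ 3 - 150 * x ^ 4 * y ^ 6 * z ^ 2 - 75 * x ^ 4 * y ^ 6
    + 100 * x ^ 3 * y ^ 7 * z ^ 3 + 100 * x ^ 3 * y ^ 7 * z ^ 2 + 50 * x ^ 3 * y ^ 7 + 50 * x ^ 2 * y ^ 8 * z ^ 3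
    + 50 * x ^ 2 * y ^ 8 * z ^ 2 + 25 * x ^ 2 * y ^ 8 - 50 * x * y ^ 9 * z ^ 3 - 50 * x * y ^ 9 * z ^ 2
    - 25 * x * y ^ 9 + 10 * y ^ 10 * z ^ 3 + 10 * y ^ 10 * z ^ 2 + 5 * y ^ 10

/-- `ksC ^ 2`, reduced. -/
def ksW (x y z : K) : K :=
  -55 * x ^ 10 * z ^ 3 - 55 * x ^ 10 * z ^ 2 - 90 * x ^ 10 + 350 * x ^ 9 * y * z ^ 3 + 350 * x ^ 9 * y * z ^ 2
    + 550 * x ^ 9 * y - 900 * x ^ 8 * y ^ 2 * z ^ 3 - 900 * x ^ 8 * y ^ 2 * z ^ 2 - 1575 * x ^ 8 * y ^ 2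
    + 1800 * x ^ 7 * y ^ 3 * z ^ 3 + 1800 * x ^ 7 * y ^ 3 * z ^ 2 + 2400 * x ^ 7 * y ^ 3 - 1050 * x ^ 6 * y ^ 4 * z ^ 3
    - 1050 * x ^ 6 * y ^ 4 * z ^ 2 - 3150 * x ^ 6 * y ^ 4 + 2520 * x ^ 5 * y ^ 5 * z ^ 3 + 2520 * x ^ 5 * y ^ 5 * z ^ 2
    + 1260 * x ^ 5 * y ^ 5 + 1050 * x ^ 4 * y ^ 6 * z ^ 3 + 1050 * x ^ 4 * y ^ 6 * z ^ 2 - 2100 * x ^ 4 * y ^ 6
    + 1800 * x ^ 3 * y ^ 7 * z ^ 3 + 1800 * x ^ 3 * y ^ 7 * z ^ 2 - 600 * x ^ 3 * y ^ 7 + 900 * x ^ 2 * y ^ 8 * z ^ 3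
    + 900 * x ^ 2 * y ^ 8 * z ^ 2 - 675 * x ^ 2 * y ^ 8 + 350 * x * y ^ 9 * z ^ 3 + 350 * x * y ^ 9 * z ^ 2
    - 200 * x * y ^ 9 + 55 * y ^ 10 * z ^ 3 + 55 * y ^ 10 * z ^ 2 - 35 * y ^ 10

/-- Klein's `f` as a function of `x, y, b = x^5, c = y^5`. -/
def ksF (X Y b c : K) : K := X * Y * (b ^ 2 + 11 * b * c - c ^ 2)

/-- Klein's `H` as a function of `b = x^5, c = y^5`. -/
def ksH (b c : K) : K := -(b ^ 4 + c ^ 4) + 228 * (b ^ 3 * c - b * c ^ 3) - 494 * b ^ 2 * c ^ 2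

/-- Klein's `T` as a function of `b = x^5, c = y^5`. -/
def ksT (b c : K) : K :=
  b ^ 6 + c ^ 6 + 522 * (b ^ 5 * c - b * c ^ 5) - 10005 * (b ^ 4 * c ^ 2 + b ^ 2 * c ^ 4)

/-- `5 * XP` as a function of `b, c`, where
`XP = -15 (b^2 + c^2) + (18/5) √5 (b^2 + 11 b c - c^2)`. -/
def ksXP5 (b c z : K) : K :=
  -75 * (b ^ 2 + c ^ 2) + 18 * (z - z ^ 2 - z ^ 3 + z ^ 4) * (b ^ 2 + 11 * b * c - c ^ 2)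

/-- `5 * YP` as a function of `b, c`. -/
def ksYP5 (b c z : K) : K :=
  108 * ((1 + 2 * z - z ^ 2 + 3 * z ^ 3) * b ^ 3 + (9 + 18 * z - 14 * z ^ 2 + 32 * z ^ 3) * b ^ 2 * c
    + (-23 - 46 * z - 32 * z ^ 2 - 14 * z ^ 3) * b * c ^ 2 + (2 + 4 * z + 3 * z ^ 2 + z ^ 3) * c ^ 3)

/-- The integer form `XQ`. -/
def ksXQ (x y : K) : K :=
  3 * x ^ 10 + 36 * x ^ 8 * y ^ 2 - 36 * x ^ 7 * y ^ 3 + 72 * x ^ 6 * y ^ 4 + 90 * x ^ 5 * y ^ 5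
    + 180 * x ^ 4 * y ^ 6 + 108 * x ^ 3 * y ^ 7 + 72 * x ^ 2 * y ^ 8 + 36 * x * y ^ 9 + 3 * y ^ 10

/-- The integer form `YQ`. -/
def ksYQ (x y : K) : K :=
  108 * x ^ 13 * y ^ 2 + 108 * x ^ 12 * y ^ 3 + 432 * x ^ 11 * y ^ 4 + 540 * x ^ 9 * y ^ 6 + 648 * x ^ 8 * y ^ 7
    + 2268 * x ^ 7 * y ^ 8 + 3132 * x ^ 6 * y ^ 9 + 2700 * x ^ 5 * y ^ 10 + 1620 * x ^ 4 * y ^ 11
    + 972 * x ^ 3 * y ^ 12 + 432 * x ^ 2 * y ^ 13 + 108 * x * y ^ 14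

theorem ksL1_pow_five (x y z : K) (hz : z ^ 4 + z ^ 3 + z ^ 2 + z + 1 = 0) :
    ksL1 x y z ^ 5 = 125 * ksB x y z := by
  simp only [ksL1, ksB]
  linear_combination
    (x ^ 5 * z ^ 11 - 16 * x ^ 5 * z ^ 10 + 95 * x ^ 5 * z ^ 9 - 235 * x ^ 5 * z ^ 8 + 120 * x ^ 5 * z ^ 7
        + 283 * x ^ 5 * z ^ 6 + 117 * x ^ 5 * z ^ 5 - 420 * x ^ 5 * z ^ 4 - 890 * x ^ 5 * z ^ 3
        - 170 * x ^ 5 * z ^ 2 + 491 * x ^ 5 * z + 499 * x ^ 5 + 15 * x ^ 4 * y * z ^ 11 - 190 * x ^ 4 * y * z ^ 10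
        + 825 * x ^ 4 * y * z ^ 9 - 1250 * x ^ 4 * y * z ^ 8 + 75 * x ^ 4 * y * z ^ 7 - 355 * x ^ 4 * y * z ^ 6
        + 1055 * x ^ 4 * y * z ^ 5 + 3675 * x ^ 4 * y * z ^ 4 + 2500 * x ^ 4 * y * z ^ 3 + 1675 * x ^ 4 * y * z ^ 2
        - 1785 * x ^ 4 * y * z - 1865 * x ^ 4 * y + 90 * x ^ 3 * y ^ 2 * z ^ 11 - 840 * x ^ 3 * y ^ 2 * z ^ 10
        + 2350 * x ^ 3 * y ^ 2 * z ^ 9 - 1850 * x ^ 3 * y ^ 2 * z ^ 8 + 2100 * x ^ 3 * y ^ 2 * z ^ 7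
        - 3730 * x ^ 3 * y ^ 2 * z ^ 6 - 7620 * x ^ 3 * y ^ 2 * z ^ 5 - 6600 * x ^ 3 * y ^ 2 * z ^ 4
        - 9400 * x ^ 3 * y ^ 2 * z ^ 3 - 350 * x ^ 3 * y ^ 2 * z ^ 2 + 890 * x ^ 3 * y ^ 2 * z
        + 1210 * x ^ 3 * y ^ 2 + 270 * x ^ 2 * y ^ 3 * z ^ 11 - 1620 * x ^ 2 * y ^ 3 * z ^ 10 + 2250 * x ^ 2 * y ^ 3 * z ^ 9
        - 2600 * x ^ 2 * y ^ 3 * z ^ 8 + 7250 * x ^ 2 * y ^ 3 * z ^ 7 + 7010 * x ^ 2 * y ^ 3 * z ^ 6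
        + 11040 * x ^ 2 * y ^ 3 * z ^ 5 + 16250 * x ^ 2 * y ^ 3 * z ^ 4 + 5100 * x ^ 2 * y ^ 3 * z ^ 3
        + 6750 * x ^ 2 * y ^ 3 * z ^ 2 - 1780 * x ^ 2 * y ^ 3 * z - 2420 * x ^ 2 * y ^ 3 + 405 * x * y ^ 4 * z ^ 11
        - 1080 * x * y ^ 4 * z ^ 10 + 675 * x * y ^ 4 * z ^ 9 - 5475 * x * y ^ 4 * z ^ 8 - 3700 * x * y ^ 4 * z ^ 7
        - 10185 * x * y ^ 4 * z ^ 6 - 11465 * x * y ^ 4 * z ^ 5 - 7300 * x * y ^ 4 * z ^ 4 - 10150 * x * y ^ 4 * z ^ 3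
        - 300 * x * y ^ 4 * z ^ 2 - 1345 * x * y ^ 4 * z - 705 * x * y ^ 4 + 243 * y ^ 5 * z ^ 11
        + 162 * y ^ 5 * z ^ 10 + 1485 * y ^ 5 * z ^ 9 + 1170 * y ^ 5 * z ^ 8 + 3435 * y ^ 5 * z ^ 7
        + 3169 * y ^ 5 * z ^ 6 + 3481 * y ^ 5 * z ^ 5 + 3915 * y ^ 5 * z ^ 4 + 1080 * y ^ 5 * z ^ 3
        + 1915 * y ^ 5 * z ^ 2 - 87 * y ^ 5 * z - 343 * y ^ 5) * hz

theorem ksL2_pow_five (x y z : K) (hz : z ^ 4 + z ^ 3 + z ^ 2 + z + 1 = 0) :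
    ksL2 x y z ^ 5 = 125 * ksC x y z := by
  simp only [ksL2, ksC]
  linear_combination
    (243 * x ^ 5 * z ^ 11 + 162 * x ^ 5 * z ^ 10 + 1485 * x ^ 5 * z ^ 9 + 1170 * x ^ 5 * z ^ 8
        + 3435 * x ^ 5 * z ^ 7 + 3169 * x ^ 5 * z ^ 6 + 3481 * x ^ 5 * z ^ 5 + 3915 * x ^ 5 * z ^ 4
        + 1080 * x ^ 5 * z ^ 3 + 1915 * x ^ 5 * z ^ 2 - 87 * x ^ 5 * z - 343 * x ^ 5 - 405 * x ^ 4 * y * z ^ 11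
        + 1080 * x ^ 4 * y * z ^ 10 - 675 * x ^ 4 * y * z ^ 9 + 5475 * x ^ 4 * y * z ^ 8 + 3700 * x ^ 4 * y * z ^ 7
        + 10185 * x ^ 4 * y * z ^ 6 + 11465 * x ^ 4 * y * z ^ 5 + 7300 * x ^ 4 * y * z ^ 4 + 10150 * x ^ 4 * y * z ^ 3
        + 300 * x ^ 4 * y * z ^ 2 + 1345 * x ^ 4 * y * z + 705 * x ^ 4 * y + 270 * x ^ 3 * y ^ 2 * z ^ 11
        - 1620 * x ^ 3 * y ^ 2 * z ^ 10 + 2250 * x ^ 3 * y ^ 2 * z ^ 9 - 2600 * x ^ 3 * y ^ 2 * z ^ 8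
        + 7250 * x ^ 3 * y ^ 2 * z ^ 7 + 7010 * x ^ 3 * y ^ 2 * z ^ 6 + 11040 * x ^ 3 * y ^ 2 * z ^ 5
        + 16250 * x ^ 3 * y ^ 2 * z ^ 4 + 5100 * x ^ 3 * y ^ 2 * z ^ 3 + 6750 * x ^ 3 * y ^ 2 * z ^ 2
        - 1780 * x ^ 3 * y ^ 2 * z - 2420 * x ^ 3 * y ^ 2 - 90 * x ^ 2 * y ^ 3 * z ^ 11 + 840 * x ^ 2 * y ^ 3 * z ^ 10
        - 2350 * x ^ 2 * y ^ 3 * z ^ 9 + 1850 * x ^ 2 * y ^ 3 * z ^ 8 - 2100 * x ^ 2 * y ^ 3 * z ^ 7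
        + 3730 * x ^ 2 * y ^ 3 * z ^ 6 + 7620 * x ^ 2 * y ^ 3 * z ^ 5 + 6600 * x ^ 2 * y ^ 3 * z ^ 4
        + 9400 * x ^ 2 * y ^ 3 * z ^ 3 + 350 * x ^ 2 * y ^ 3 * z ^ 2 - 890 * x ^ 2 * y ^ 3 * z
        - 1210 * x ^ 2 * y ^ 3 + 15 * x * y ^ 4 * z ^ 11 - 190 * x * y ^ 4 * z ^ 10 + 825 * x * y ^ 4 * z ^ 9
        - 1250 * x * y ^ 4 * z ^ 8 + 75 * x * y ^ 4 * z ^ 7 - 355 * x * y ^ 4 * z ^ 6 + 1055 * x * y ^ 4 * z ^ 5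
        + 3675 * x * y ^ 4 * z ^ 4 + 2500 * x * y ^ 4 * z ^ 3 + 1675 * x * y ^ 4 * z ^ 2 - 1785 * x * y ^ 4 * z
        - 1865 * x * y ^ 4 - y ^ 5 * z ^ 11 + 16 * y ^ 5 * z ^ 10 - 95 * y ^ 5 * z ^ 9 + 235 * y ^ 5 * z ^ 8
        - 120 * y ^ 5 * z ^ 7 - 283 * y ^ 5 * z ^ 6 - 117 * y ^ 5 * z ^ 5 + 420 * y ^ 5 * z ^ 4
        + 890 * y ^ 5 * z ^ 3 + 170 * y ^ 5 * z ^ 2 - 491 * y ^ 5 * z - 499 * y ^ 5) * hz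

theorem ksB_sq (x y z : K) (hz : z ^ 4 + z ^ 3 + z ^ 2 + z + 1 = 0) :
    ksB x y z ^ 2 = ksU x y z := by
  simp only [ksB, ksU]
  linear_combination
    (x ^ 10 * z ^ 2 + 13 * x ^ 10 * z + 51 * x ^ 10 - 20 * x ^ 9 * y * z ^ 2 - 160 * x ^ 9 * y * z
        - 320 * x ^ 9 * y + 80 * x ^ 8 * y ^ 2 * z ^ 2 + 240 * x ^ 8 * y ^ 2 * z + 980 * x ^ 8 * y ^ 2
        + 140 * x ^ 7 * y ^ 3 * z ^ 2 - 780 * x ^ 7 * y ^ 3 * z - 1060 * x ^ 7 * y ^ 3 + 660 * x ^ 6 * y ^ 4 * z ^ 2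
        - 120 * x ^ 6 * y ^ 4 * z + 2760 * x ^ 6 * y ^ 4 + 986 * x ^ 5 * y ^ 5 * z ^ 2 - 2082 * x ^ 5 * y ^ 5 * z
        + 986 * x ^ 5 * y ^ 5 + 1440 * x ^ 4 * y ^ 6 * z ^ 2 - 1980 * x ^ 4 * y ^ 6 * z + 3540 * x ^ 4 * y ^ 6
        + 1340 * x ^ 3 * y ^ 7 * z ^ 2 - 1980 * x ^ 3 * y ^ 7 * z + 2540 * x ^ 3 * y ^ 7 + 820 * x ^ 2 * y ^ 8 * z ^ 2
        - 1140 * x ^ 2 * y ^ 8 * z + 1720 * x ^ 2 * y ^ 8 + 280 * x * y ^ 9 * z ^ 2 - 460 * x * y ^ 9 * z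
        + 580 * x * y ^ 9 + 49 * y ^ 10 * z ^ 2 - 63 * y ^ 10 * z + 99 * y ^ 10) * hz

theorem ksB_mul_ksC (x y z : K) (hz : z ^ 4 + z ^ 3 + z ^ 2 + z + 1 = 0) :
    ksB x y z * ksC x y z = ksV x y z := by
  simp only [ksB, ksC, ksV]
  linear_combination
    (-7 * x ^ 10 * z ^ 2 - 41 * x ^ 10 * z - 7 * x ^ 10 + 90 * x ^ 9 * y * z ^ 2 + 170 * x ^ 9 * y * z
        + 90 * x ^ 9 * y - 160 * x ^ 8 * y ^ 2 * z ^ 2 - 580 * x ^ 8 * y ^ 2 * z - 160 * x ^ 8 * y ^ 2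
        + 320 * x ^ 7 * y ^ 3 * z ^ 2 + 1160 * x ^ 7 * y ^ 3 * z + 320 * x ^ 7 * y ^ 3 - 270 * x ^ 6 * y ^ 4 * z ^ 2
        - 510 * x ^ 6 * y ^ 4 * z - 270 * x ^ 6 * y ^ 4 + 548 * x ^ 5 * y ^ 5 * z ^ 2 + 1424 * x ^ 5 * y ^ 5 * z
        + 548 * x ^ 5 * y ^ 5 + 270 * x ^ 4 * y ^ 6 * z ^ 2 + 510 * x ^ 4 * y ^ 6 * z + 270 * x ^ 4 * y ^ 6
        + 320 * x ^ 3 * y ^ 7 * z ^ 2 + 1160 * x ^ 3 * y ^ 7 * z + 320 * x ^ 3 * y ^ 7 + 160 * x ^ 2 * y ^ 8 * z ^ 2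
        + 580 * x ^ 2 * y ^ 8 * z + 160 * x ^ 2 * y ^ 8 + 90 * x * y ^ 9 * z ^ 2 + 170 * x * y ^ 9 * z
        + 90 * x * y ^ 9 + 7 * y ^ 10 * z ^ 2 + 41 * y ^ 10 * z + 7 * y ^ 10) * hz

theorem ksC_sq (x y z : K) (hz : z ^ 4 + z ^ 3 + z ^ 2 + z + 1 = 0) :
    ksC x y z ^ 2 = ksW x y z := by
  simp only [ksC, ksW]
  linear_combination
    (49 * x ^ 10 * z ^ 2 - 63 * x ^ 10 * z + 99 * x ^ 10 - 280 * x ^ 9 * y * z ^ 2 + 460 * x ^ 9 * y * z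
        - 580 * x ^ 9 * y + 820 * x ^ 8 * y ^ 2 * z ^ 2 - 1140 * x ^ 8 * y ^ 2 * z + 1720 * x ^ 8 * y ^ 2
        - 1340 * x ^ 7 * y ^ 3 * z ^ 2 + 1980 * x ^ 7 * y ^ 3 * z - 2540 * x ^ 7 * y ^ 3 + 1440 * x ^ 6 * y ^ 4 * z ^ 2
        - 1980 * x ^ 6 * y ^ 4 * z + 3540 * x ^ 6 * y ^ 4 - 986 * x ^ 5 * y ^ 5 * z ^ 2 + 2082 * x ^ 5 * y ^ 5 * z
        - 986 * x ^ 5 * y ^ 5 + 660 * x ^ 4 * y ^ 6 * z ^ 2 - 120 * x ^ 4 * y ^ 6 * z + 2760 * x ^ 4 * y ^ 6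
        - 140 * x ^ 3 * y ^ 7 * z ^ 2 + 780 * x ^ 3 * y ^ 7 * z + 1060 * x ^ 3 * y ^ 7 + 80 * x ^ 2 * y ^ 8 * z ^ 2
        + 240 * x ^ 2 * y ^ 8 * z + 980 * x ^ 2 * y ^ 8 + 20 * x * y ^ 9 * z ^ 2 + 160 * x * y ^ 9 * z
        + 320 * x * y ^ 9 + y ^ 10 * z ^ 2 + 13 * y ^ 10 * z + 51 * y ^ 10) * hz

theorem ks_f_key (x y z : K) (hz : z ^ 4 + z ^ 3 + z ^ 2 + z + 1 = 0) :
    ksL1 x y z * ksL2 x y z * (ksU x y z + 11 * ksV x y z - ksW x y z) =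
      5 ^ 6 * ksF x y (x ^ 5) (y ^ 5) := by
  simp only [ksF, ksL1, ksL2, ksU, ksV, ksW]
  linear_combination
    (-3750 * x ^ 11 * y * z ^ 5 + 10000 * x ^ 11 * y * z ^ 4 + 10000 * x ^ 11 * y * z ^ 3 + 6875 * x ^ 11 * y * z ^ 2
        + 19375 * x ^ 11 * y * z - 14375 * x ^ 11 * y - 6250 * x ^ 10 * y ^ 2 * z ^ 5 - 25000 * x ^ 10 * y ^ 2 * z ^ 4
        - 25000 * x ^ 10 * y ^ 2 * z ^ 3 - 9375 * x ^ 10 * y ^ 2 * z ^ 2 - 9375 * x ^ 10 * y ^ 2 * z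
        - 3125 * x ^ 10 * y ^ 2 + 6250 * x ^ 9 * y ^ 3 * z ^ 5 + 25000 * x ^ 9 * y ^ 3 * z ^ 4
        + 25000 * x ^ 9 * y ^ 3 * z ^ 3 + 9375 * x ^ 9 * y ^ 3 * z ^ 2 + 9375 * x ^ 9 * y ^ 3 * z
        + 3125 * x ^ 9 * y ^ 3 - 12500 * x ^ 8 * y ^ 4 * z ^ 5 - 50000 * x ^ 8 * y ^ 4 * z ^ 4
        - 50000 * x ^ 8 * y ^ 4 * z ^ 3 - 18750 * x ^ 8 * y ^ 4 * z ^ 2 - 18750 * x ^ 8 * y ^ 4 * z
        - 6250 * x ^ 8 * y ^ 4 + 18750 * x ^ 7 * y ^ 5 * z ^ 5 + 75000 * x ^ 7 * y ^ 5 * z ^ 4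
        + 75000 * x ^ 7 * y ^ 5 * z ^ 3 + 28125 * x ^ 7 * y ^ 5 * z ^ 2 + 28125 * x ^ 7 * y ^ 5 * z
        + 9375 * x ^ 7 * y ^ 5 - 72500 * x ^ 6 * y ^ 6 * z ^ 5 - 15000 * x ^ 6 * y ^ 6 * z ^ 4
        - 15000 * x ^ 6 * y ^ 6 * z ^ 3 + 28750 * x ^ 6 * y ^ 6 * z ^ 2 + 166250 * x ^ 6 * y ^ 6 * z
        - 173750 * x ^ 6 * y ^ 6 - 18750 * x ^ 5 * y ^ 7 * z ^ 5 - 75000 * x ^ 5 * y ^ 7 * z ^ 4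
        - 75000 * x ^ 5 * y ^ 7 * z ^ 3 - 28125 * x ^ 5 * y ^ 7 * z ^ 2 - 28125 * x ^ 5 * y ^ 7 * z
        - 9375 * x ^ 5 * y ^ 7 - 12500 * x ^ 4 * y ^ 8 * z ^ 5 - 50000 * x ^ 4 * y ^ 8 * z ^ 4
        - 50000 * x ^ 4 * y ^ 8 * z ^ 3 - 18750 * x ^ 4 * y ^ 8 * z ^ 2 - 18750 * x ^ 4 * y ^ 8 * z
        - 6250 * x ^ 4 * y ^ 8 - 6250 * x ^ 3 * y ^ 9 * z ^ 5 - 25000 * x ^ 3 * y ^ 9 * z ^ 4 - 25000 * x ^ 3 * y ^ 9 * z ^ 3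
        - 9375 * x ^ 3 * y ^ 9 * z ^ 2 - 9375 * x ^ 3 * y ^ 9 * z - 3125 * x ^ 3 * y ^ 9 - 6250 * x ^ 2 * y ^ 10 * z ^ 5
        - 25000 * x ^ 2 * y ^ 10 * z ^ 4 - 25000 * x ^ 2 * y ^ 10 * z ^ 3 - 9375 * x ^ 2 * y ^ 10 * z ^ 2
        - 9375 * x ^ 2 * y ^ 10 * z - 3125 * x ^ 2 * y ^ 10 + 3750 * x * y ^ 11 * z ^ 5 - 10000 * x * y ^ 11 * z ^ 4
        - 10000 * x * y ^ 11 * z ^ 3 - 6875 * x * y ^ 11 * z ^ 2 - 19375 * x * y ^ 11 * z + 14375 * x * y ^ 11) * hz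

theorem ks_H_key (x y z : K) (hz : z ^ 4 + z ^ 3 + z ^ 2 + z + 1 = 0) :
    -(ksU x y z ^ 2 + ksW x y z ^ 2) + 228 * ksV x y z * (ksU x y z - ksW x y z)
      - 494 * ksV x y z ^ 2 = 5 ^ 8 * ksH (x ^ 5) (y ^ 5) := by
  simp only [ksH, ksU, ksV, ksW]
  linear_combination
    (-306250 * x ^ 20 * z ^ 2 - 306250 * x ^ 20 * z + 306250 * x ^ 20 - 75000 * x ^ 19 * y * z ^ 2
        - 75000 * x ^ 19 * y * z + 75000 * x ^ 19 * y + 450000 * x ^ 18 * y ^ 2 * z ^ 2 + 450000 * x ^ 18 * y ^ 2 * z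
        - 450000 * x ^ 18 * y ^ 2 - 1650000 * x ^ 17 * y ^ 3 * z ^ 2 - 1650000 * x ^ 17 * y ^ 3 * z
        + 1650000 * x ^ 17 * y ^ 3 + 4350000 * x ^ 16 * y ^ 4 * z ^ 2 + 4350000 * x ^ 16 * y ^ 4 * z
        - 4350000 * x ^ 16 * y ^ 4 + 62700000 * x ^ 15 * y ^ 5 * z ^ 2 + 62700000 * x ^ 15 * y ^ 5 * z
        - 62700000 * x ^ 15 * y ^ 5 + 13575000 * x ^ 14 * y ^ 6 * z ^ 2 + 13575000 * x ^ 14 * y ^ 6 * z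
        - 13575000 * x ^ 14 * y ^ 6 - 15450000 * x ^ 13 * y ^ 7 * z ^ 2 - 15450000 * x ^ 13 * y ^ 7 * z
        + 15450000 * x ^ 13 * y ^ 7 + 18900000 * x ^ 12 * y ^ 8 * z ^ 2 + 18900000 * x ^ 12 * y ^ 8 * z
        - 18900000 * x ^ 12 * y ^ 8 - 8475000 * x ^ 11 * y ^ 9 * z ^ 2 - 8475000 * x ^ 11 * y ^ 9 * z
        + 8475000 * x ^ 11 * y ^ 9 - 135912500 * x ^ 10 * y ^ 10 * z ^ 2 - 135912500 * x ^ 10 * y ^ 10 * z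
        + 135912500 * x ^ 10 * y ^ 10 + 8475000 * x ^ 9 * y ^ 11 * z ^ 2 + 8475000 * x ^ 9 * y ^ 11 * z
        - 8475000 * x ^ 9 * y ^ 11 + 18900000 * x ^ 8 * y ^ 12 * z ^ 2 + 18900000 * x ^ 8 * y ^ 12 * z
        - 18900000 * x ^ 8 * y ^ 12 + 15450000 * x ^ 7 * y ^ 13 * z ^ 2 + 15450000 * x ^ 7 * y ^ 13 * z
        - 15450000 * x ^ 7 * y ^ 13 + 13575000 * x ^ 6 * y ^ 14 * z ^ 2 + 13575000 * x ^ 6 * y ^ 14 * z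
        - 13575000 * x ^ 6 * y ^ 14 - 62700000 * x ^ 5 * y ^ 15 * z ^ 2 - 62700000 * x ^ 5 * y ^ 15 * z
        + 62700000 * x ^ 5 * y ^ 15 + 4350000 * x ^ 4 * y ^ 16 * z ^ 2 + 4350000 * x ^ 4 * y ^ 16 * z
        - 4350000 * x ^ 4 * y ^ 16 + 1650000 * x ^ 3 * y ^ 17 * z ^ 2 + 1650000 * x ^ 3 * y ^ 17 * z
        - 1650000 * x ^ 3 * y ^ 17 + 450000 * x ^ 2 * y ^ 18 * z ^ 2 + 450000 * x ^ 2 * y ^ 18 * z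
        - 450000 * x ^ 2 * y ^ 18 + 75000 * x * y ^ 19 * z ^ 2 + 75000 * x * y ^ 19 * z - 75000 * x * y ^ 19
        - 306250 * y ^ 20 * z ^ 2 - 306250 * y ^ 20 * z + 306250 * y ^ 20) * hz

theorem ks_T_key (x y z : K) (hz : z ^ 4 + z ^ 3 + z ^ 2 + z + 1 = 0) :
    ksU x y z ^ 3 + ksW x y z ^ 3 + 522 * ksV x y z * (ksU x y z ^ 2 - ksW x y z ^ 2)
      - 10005 * ksV x y z ^ 2 * (ksU x y z + ksW x y z) = 5 ^ 12 * ksT (x ^ 5) (y ^ 5) := by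
  simp only [ksT, ksU, ksV, ksW]
  linear_combination
    (195703125 * x ^ 30 * z ^ 2 + 195703125 * x ^ 30 * z - 195703125 * x ^ 30 - 7031250 * x ^ 29 * y * z ^ 2
        - 7031250 * x ^ 29 * y * z + 7031250 * x ^ 29 * y + 63281250 * x ^ 28 * y ^ 2 * z ^ 2 + 63281250 * x ^ 28 * y ^ 2 * z
        - 63281250 * x ^ 28 * y ^ 2 - 365625000 * x ^ 27 * y ^ 3 * z ^ 2 - 365625000 * x ^ 27 * y ^ 3 * z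
        + 365625000 * x ^ 27 * y ^ 3 + 1525781250 * x ^ 26 * y ^ 4 * z ^ 2 + 1525781250 * x ^ 26 * y ^ 4 * z
        - 1525781250 * x ^ 26 * y ^ 4 + 97059375000 * x ^ 25 * y ^ 5 * z ^ 2 + 97059375000 * x ^ 25 * y ^ 5 * z
        - 97059375000 * x ^ 25 * y ^ 5 + 12621093750 * x ^ 24 * y ^ 6 * z ^ 2 + 12621093750 * x ^ 24 * y ^ 6 * z
        - 12621093750 * x ^ 24 * y ^ 6 - 26718750000 * x ^ 23 * y ^ 7 * z ^ 2 - 26718750000 * x ^ 23 * y ^ 7 * z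
        + 26718750000 * x ^ 23 * y ^ 7 + 47566406250 * x ^ 22 * y ^ 8 * z ^ 2 + 47566406250 * x ^ 22 * y ^ 8 * z
        - 47566406250 * x ^ 22 * y ^ 8 - 71542968750 * x ^ 21 * y ^ 9 * z ^ 2 - 71542968750 * x ^ 21 * y ^ 9 * z
        + 71542968750 * x ^ 21 * y ^ 9 - 1860275390625 * x ^ 20 * y ^ 10 * z ^ 2 - 1860275390625 * x ^ 20 * y ^ 10 * z
        + 1860275390625 * x ^ 20 * y ^ 10 - 102445312500 * x ^ 19 * y ^ 11 * z ^ 2 - 102445312500 * x ^ 19 * y ^ 11 * z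
        + 102445312500 * x ^ 19 * y ^ 11 + 108210937500 * x ^ 18 * y ^ 12 * z ^ 2 + 108210937500 * x ^ 18 * y ^ 12 * z
        - 108210937500 * x ^ 18 * y ^ 12 - 74812500000 * x ^ 17 * y ^ 13 * z ^ 2 - 74812500000 * x ^ 17 * y ^ 13 * z
        + 74812500000 * x ^ 17 * y ^ 13 + 90843750000 * x ^ 16 * y ^ 14 * z ^ 2 + 90843750000 * x ^ 16 * y ^ 14 * z
        - 90843750000 * x ^ 16 * y ^ 14 + 90843750000 * x ^ 14 * y ^ 16 * z ^ 2 + 90843750000 * x ^ 14 * y ^ 16 * z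
        - 90843750000 * x ^ 14 * y ^ 16 + 74812500000 * x ^ 13 * y ^ 17 * z ^ 2 + 74812500000 * x ^ 13 * y ^ 17 * z
        - 74812500000 * x ^ 13 * y ^ 17 + 108210937500 * x ^ 12 * y ^ 18 * z ^ 2 + 108210937500 * x ^ 12 * y ^ 18 * z
        - 108210937500 * x ^ 12 * y ^ 18 + 102445312500 * x ^ 11 * y ^ 19 * z ^ 2 + 102445312500 * x ^ 11 * y ^ 19 * z
        - 102445312500 * x ^ 11 * y ^ 19 - 1860275390625 * x ^ 10 * y ^ 20 * z ^ 2 - 1860275390625 * x ^ 10 * y ^ 20 * z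
        + 1860275390625 * x ^ 10 * y ^ 20 + 71542968750 * x ^ 9 * y ^ 21 * z ^ 2 + 71542968750 * x ^ 9 * y ^ 21 * z
        - 71542968750 * x ^ 9 * y ^ 21 + 47566406250 * x ^ 8 * y ^ 22 * z ^ 2 + 47566406250 * x ^ 8 * y ^ 22 * z
        - 47566406250 * x ^ 8 * y ^ 22 + 26718750000 * x ^ 7 * y ^ 23 * z ^ 2 + 26718750000 * x ^ 7 * y ^ 23 * z
        - 26718750000 * x ^ 7 * y ^ 23 + 12621093750 * x ^ 6 * y ^ 24 * z ^ 2 + 12621093750 * x ^ 6 * y ^ 24 * z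
        - 12621093750 * x ^ 6 * y ^ 24 - 97059375000 * x ^ 5 * y ^ 25 * z ^ 2 - 97059375000 * x ^ 5 * y ^ 25 * z
        + 97059375000 * x ^ 5 * y ^ 25 + 1525781250 * x ^ 4 * y ^ 26 * z ^ 2 + 1525781250 * x ^ 4 * y ^ 26 * z
        - 1525781250 * x ^ 4 * y ^ 26 + 365625000 * x ^ 3 * y ^ 27 * z ^ 2 + 365625000 * x ^ 3 * y ^ 27 * z
        - 365625000 * x ^ 3 * y ^ 27 + 63281250 * x ^ 2 * y ^ 28 * z ^ 2 + 63281250 * x ^ 2 * y ^ 28 * z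
        - 63281250 * x ^ 2 * y ^ 28 + 7031250 * x * y ^ 29 * z ^ 2 + 7031250 * x * y ^ 29 * z - 7031250 * x * y ^ 29
        + 195703125 * y ^ 30 * z ^ 2 + 195703125 * y ^ 30 * z - 195703125 * y ^ 30) * hz

theorem ks_XP_key (x y z : K) (hz : z ^ 4 + z ^ 3 + z ^ 2 + z + 1 = 0) :
    -75 * (ksU x y z + ksW x y z)
      + 18 * (z - z ^ 2 - z ^ 3 + z ^ 4) * (ksU x y z + 11 * ksV x y z - ksW x y z) =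
      5 ^ 5 * ksXQ x y := by
  simp only [ksXQ, ksU, ksV, ksW]
  linear_combination
    (-22500 * x ^ 9 * y * z ^ 3 + 22500 * x ^ 9 * y * z ^ 2 + 45000 * x ^ 9 * y * z - 56250 * x ^ 9 * y
        + 22500 * x ^ 8 * y ^ 2 * z ^ 3 - 22500 * x ^ 8 * y ^ 2 * z ^ 2 - 45000 * x ^ 8 * y ^ 2 * z
        + 56250 * x ^ 8 * y ^ 2 - 45000 * x ^ 7 * y ^ 3 * z ^ 3 + 45000 * x ^ 7 * y ^ 3 * z ^ 2
        + 90000 * x ^ 7 * y ^ 3 * z - 112500 * x ^ 7 * y ^ 3 + 67500 * x ^ 6 * y ^ 4 * z ^ 3 - 67500 * x ^ 6 * y ^ 4 * z ^ 2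
        - 135000 * x ^ 6 * y ^ 4 * z + 168750 * x ^ 6 * y ^ 4 - 112500 * x ^ 5 * y ^ 5 * z ^ 3
        + 112500 * x ^ 5 * y ^ 5 * z ^ 2 + 225000 * x ^ 5 * y ^ 5 * z - 281250 * x ^ 5 * y ^ 5
        - 67500 * x ^ 4 * y ^ 6 * z ^ 3 + 67500 * x ^ 4 * y ^ 6 * z ^ 2 + 135000 * x ^ 4 * y ^ 6 * z
        - 168750 * x ^ 4 * y ^ 6 - 45000 * x ^ 3 * y ^ 7 * z ^ 3 + 45000 * x ^ 3 * y ^ 7 * z ^ 2
        + 90000 * x ^ 3 * y ^ 7 * z - 112500 * x ^ 3 * y ^ 7 - 22500 * x ^ 2 * y ^ 8 * z ^ 3 + 22500 * x ^ 2 * y ^ 8 * z ^ 2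
        + 45000 * x ^ 2 * y ^ 8 * z - 56250 * x ^ 2 * y ^ 8 - 22500 * x * y ^ 9 * z ^ 3 + 22500 * x * y ^ 9 * z ^ 2
        + 45000 * x * y ^ 9 * z - 56250 * x * y ^ 9) * hz

theorem ks_YP_key (x y z : K) (hz : z ^ 4 + z ^ 3 + z ^ 2 + z + 1 = 0) :
    108 * ((1 + 2 * z - z ^ 2 + 3 * z ^ 3) * (ksB x y z * ksU x y z)
      + (9 + 18 * z - 14 * z ^ 2 + 32 * z ^ 3) * (ksB x y z * ksV x y z)
      + (-23 - 46 * z - 32 * z ^ 2 - 14 * z ^ 3) * (ksB x y z * ksW x y z)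
      + (2 + 4 * z + 3 * z ^ 2 + z ^ 3) * (ksC x y z * ksW x y z)) = 5 ^ 7 * ksYQ x y := by
  simp only [ksYQ, ksB, ksC, ksU, ksV, ksW]
  linear_combination
    (-108000 * x ^ 15 * z ^ 5 - 783000 * x ^ 15 * z ^ 4 - 2268000 * x ^ 15 * z ^ 3 - 3429000 * x ^ 15 * z ^ 2
        - 2754000 * x ^ 15 * z - 918000 * x ^ 15 + 1863000 * x ^ 14 * y * z ^ 5 + 11178000 * x ^ 14 * y * z ^ 4
        + 24408000 * x ^ 14 * y * z ^ 3 + 32724000 * x ^ 14 * y * z ^ 2 + 27459000 * x ^ 14 * y * z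
        + 9153000 * x ^ 14 * y - 10584000 * x ^ 13 * y ^ 2 * z ^ 5 - 45144000 * x ^ 13 * y ^ 2 * z ^ 4
        - 104004000 * x ^ 13 * y ^ 2 * z ^ 3 - 141912000 * x ^ 13 * y ^ 2 * z ^ 2 - 111402000 * x ^ 13 * y ^ 2 * z
        - 48384000 * x ^ 13 * y ^ 2 + 16092000 * x ^ 12 * y ^ 3 * z ^ 5 + 120042000 * x ^ 12 * y ^ 3 * z ^ 4
        + 273132000 * x ^ 12 * y ^ 3 * z ^ 3 + 375921000 * x ^ 12 * y ^ 3 * z ^ 2 + 320571000 * x ^ 12 * y ^ 3 * z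
        + 95607000 * x ^ 12 * y ^ 3 - 48411000 * x ^ 11 * y ^ 4 * z ^ 5 - 214596000 * x ^ 11 * y ^ 4 * z ^ 4
        - 508896000 * x ^ 11 * y ^ 4 * z ^ 3 - 700488000 * x ^ 11 * y ^ 4 * z ^ 2 - 546453000 * x ^ 11 * y ^ 4 * z
        - 227151000 * x ^ 11 * y ^ 4 + 39771000 * x ^ 10 * y ^ 5 * z ^ 5 + 279531000 * x ^ 10 * y ^ 5 * z ^ 4
        + 664956000 * x ^ 10 * y ^ 5 * z ^ 3 + 947943000 * x ^ 10 * y ^ 5 * z ^ 2 + 809433000 * x ^ 10 * y ^ 5 * z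
        + 269811000 * x ^ 10 * y ^ 5 - 98982000 * x ^ 9 * y ^ 6 * z ^ 5 - 404892000 * x ^ 9 * y ^ 6 * z ^ 4
        - 819612000 * x ^ 9 * y ^ 6 * z ^ 3 - 997461000 * x ^ 9 * y ^ 6 * z ^ 2 - 748251000 * x ^ 9 * y ^ 6 * z
        - 305667000 * x ^ 9 * y ^ 6 - 36774000 * x ^ 8 * y ^ 7 * z ^ 5 + 96066000 * x ^ 8 * y ^ 7 * z ^ 4
        + 386856000 * x ^ 8 * y ^ 7 * z ^ 3 + 753543000 * x ^ 8 * y ^ 7 * z ^ 2 + 778653000 * x ^ 8 * y ^ 7 * z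
        + 192051000 * x ^ 8 * y ^ 7 - 178038000 * x ^ 7 * y ^ 8 * z ^ 5 - 364338000 * x ^ 7 * y ^ 8 * z ^ 4
        - 624348000 * x ^ 7 * y ^ 8 * z ^ 3 - 524394000 * x ^ 7 * y ^ 8 * z ^ 2 - 107244000 * x ^ 7 * y ^ 8 * z
        - 271998000 * x ^ 7 * y ^ 8 - 194346000 * x ^ 6 * y ^ 9 * z ^ 5 - 216756000 * x ^ 6 * y ^ 9 * z ^ 4
        - 200556000 * x ^ 6 * y ^ 9 * z ^ 3 + 167157000 * x ^ 6 * y ^ 9 * z ^ 2 + 562167000 * x ^ 6 * y ^ 9 * z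
        - 138861000 * x ^ 6 * y ^ 9 - 193968000 * x ^ 5 * y ^ 10 * z ^ 5 - 305883000 * x ^ 5 * y ^ 10 * z ^ 4
        - 414288000 * x ^ 5 * y ^ 10 * z ^ 3 - 143289000 * x ^ 5 * y ^ 10 * z ^ 2 + 272376000 * x ^ 5 * y ^ 10 * z
        - 190458000 * x ^ 5 * y ^ 10 - 127413000 * x ^ 4 * y ^ 11 * z ^ 5 - 197478000 * x ^ 4 * y ^ 11 * z ^ 4
        - 237708000 * x ^ 4 * y ^ 11 * z ^ 3 - 14499000 * x ^ 4 * y ^ 11 * z ^ 2 + 254016000 * x ^ 4 * y ^ 11 * z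
        - 84078000 * x ^ 4 * y ^ 11 - 74466000 * x ^ 3 * y ^ 12 * z ^ 5 - 120906000 * x ^ 3 * y ^ 12 * z ^ 4
        - 149796000 * x ^ 3 * y ^ 12 * z ^ 3 - 28863000 * x ^ 3 * y ^ 12 * z ^ 2 + 122877000 * x ^ 3 * y ^ 12 * z
        - 60291000 * x ^ 3 * y ^ 12 - 28242000 * x ^ 2 * y ^ 13 * z ^ 5 - 37692000 * x ^ 2 * y ^ 13 * z ^ 4
        - 49032000 * x ^ 2 * y ^ 13 * z ^ 3 - 7371000 * x ^ 2 * y ^ 13 * z ^ 2 + 54729000 * x ^ 2 * y ^ 13 * z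
        - 26757000 * x ^ 2 * y ^ 13 - 6939000 * x * y ^ 14 * z ^ 5 - 9504000 * x * y ^ 14 * z ^ 4
        - 12204000 * x * y ^ 14 * z ^ 3 - 2187000 * x * y ^ 14 * z ^ 2 + 12528000 * x * y ^ 14 * z
        - 7074000 * x * y ^ 14 - 459000 * y ^ 15 * z ^ 5 - 1269000 * y ^ 15 * z ^ 4 - 1404000 * y ^ 15 * z ^ 3
        - 162000 * y ^ 15 * z ^ 2 + 648000 * y ^ 15 * z + 216000 * y ^ 15) * hz

theorem ks_sq_x (x y z : K) (hz : z ^ 4 + z ^ 3 + z ^ 2 + z + 1 = 0) :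
    ksL1 (ksL1 x y z) (ksL2 x y z) z = -25 * x := by
  simp only [ksL1, ksL2]
  linear_combination
    (10 * x * z ^ 2 - 10 * x * z + 30 * x) * hz

theorem ks_sq_y (x y z : K) (hz : z ^ 4 + z ^ 3 + z ^ 2 + z + 1 = 0) :
    ksL2 (ksL1 x y z) (ksL2 x y z) z = -25 * y := by
  simp only [ksL1, ksL2]
  linear_combination
    (10 * y * z ^ 2 - 10 * y * z + 30 * y) * hz

/-- `f (5 S v) = 5 ^ 12 * f v`. -/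
theorem ks_f (x y z : K) (hz : z ^ 4 + z ^ 3 + z ^ 2 + z + 1 = 0) :
    ksF (ksL1 x y z) (ksL2 x y z) (ksL1 x y z ^ 5) (ksL2 x y z ^ 5) =
      5 ^ 12 * ksF x y (x ^ 5) (y ^ 5) := by
  rw [ksL1_pow_five x y z hz, ksL2_pow_five x y z hz]
  have e : ksF (ksL1 x y z) (ksL2 x y z) (125 * ksB x y z) (125 * ksC x y z) =
      5 ^ 6 * (ksL1 x y z * ksL2 x y z * (ksB x y z ^ 2 + 11 * (ksB x y z * ksC x y z)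
        - ksC x y z ^ 2)) := by
    simp only [ksF]; ring
  rw [e, ksB_sq x y z hz, ksB_mul_ksC x y z hz, ksC_sq x y z hz, ks_f_key x y z hz]
  ring

/-- `H (5 S v) = 5 ^ 20 * H v`. -/
theorem ks_H (x y z : K) (hz : z ^ 4 + z ^ 3 + z ^ 2 + z + 1 = 0) :
    ksH (ksL1 x y z ^ 5) (ksL2 x y z ^ 5) = 5 ^ 20 * ksH (x ^ 5) (y ^ 5) := by
  rw [ksL1_pow_five x y z hz, ksL2_pow_five x y z hz]
  have e : ksH (125 * ksB x y z) (125 * ksC x y z) =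
      5 ^ 12 * (-((ksB x y z ^ 2) ^ 2 + (ksC x y z ^ 2) ^ 2)
        + 228 * (ksB x y z * ksC x y z) * (ksB x y z ^ 2 - ksC x y z ^ 2)
        - 494 * (ksB x y z * ksC x y z) ^ 2) := by
    simp only [ksH]; ring
  rw [e, ksB_sq x y z hz, ksB_mul_ksC x y z hz, ksC_sq x y z hz, ks_H_key x y z hz]
  ring

/-- `T (5 S v) = 5 ^ 30 * T v`. -/
theorem ks_T (x y z : K) (hz : z ^ 4 + z ^ 3 + z ^ 2 + z + 1 = 0) :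
    ksT (ksL1 x y z ^ 5) (ksL2 x y z ^ 5) = 5 ^ 30 * ksT (x ^ 5) (y ^ 5) := by
  rw [ksL1_pow_five x y z hz, ksL2_pow_five x y z hz]
  have e : ksT (125 * ksB x y z) (125 * ksC x y z) =
      5 ^ 18 * ((ksB x y z ^ 2) ^ 3 + (ksC x y z ^ 2) ^ 3
        + 522 * (ksB x y z * ksC x y z) * ((ksB x y z ^ 2) ^ 2 - (ksC x y z ^ 2) ^ 2)
        - 10005 * (ksB x y z * ksC x y z) ^ 2 * (ksB x y z ^ 2 + ksC x y z ^ 2)) := by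
    simp only [ksT]; ring
  rw [e, ksB_sq x y z hz, ksB_mul_ksC x y z hz, ksC_sq x y z hz, ks_T_key x y z hz]
  ring

/-- `5 * XP (5 S v) = 5 ^ 11 * XQ v`. -/
theorem ks_XP (x y z : K) (hz : z ^ 4 + z ^ 3 + z ^ 2 + z + 1 = 0) :
    ksXP5 (ksL1 x y z ^ 5) (ksL2 x y z ^ 5) z = 5 ^ 11 * ksXQ x y := by
  rw [ksL1_pow_five x y z hz, ksL2_pow_five x y z hz]
  have e : ksXP5 (125 * ksB x y z) (125 * ksC x y z) z =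
      5 ^ 6 * (-75 * (ksB x y z ^ 2 + ksC x y z ^ 2)
        + 18 * (z - z ^ 2 - z ^ 3 + z ^ 4) * (ksB x y z ^ 2 + 11 * (ksB x y z * ksC x y z)
          - ksC x y z ^ 2)) := by
    simp only [ksXP5]; ring
  rw [e, ksB_sq x y z hz, ksB_mul_ksC x y z hz, ksC_sq x y z hz, ks_XP_key x y z hz]
  ring

/-- `5 * YP (5 S v) = 5 ^ 16 * YQ v`. -/
theorem ks_YP (x y z : K) (hz : z ^ 4 + z ^ 3 + z ^ 2 + z + 1 = 0) :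
    ksYP5 (ksL1 x y z ^ 5) (ksL2 x y z ^ 5) z = 5 ^ 16 * ksYQ x y := by
  rw [ksL1_pow_five x y z hz, ksL2_pow_five x y z hz]
  have e : ksYP5 (125 * ksB x y z) (125 * ksC x y z) z =
      5 ^ 9 * (108 * ((1 + 2 * z - z ^ 2 + 3 * z ^ 3) * (ksB x y z * ksB x y z ^ 2)
        + (9 + 18 * z - 14 * z ^ 2 + 32 * z ^ 3) * (ksB x y z * (ksB x y z * ksC x y z))
        + (-23 - 46 * z - 32 * z ^ 2 - 14 * z ^ 3) * (ksB x y z * ksC x y z ^ 2)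
        + (2 + 4 * z + 3 * z ^ 2 + z ^ 3) * (ksC x y z * ksC x y z ^ 2))) := by
    simp only [ksYP5]; ring
  rw [e, ksB_sq x y z hz, ksB_mul_ksC x y z hz, ksC_sq x y z hz, ks_YP_key x y z hz]
  ring

end Fermat.Agent.S52.KS67
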