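import Mathlib

/-!
# S52 / a small kernel-reflective checker for polynomial identities

Polynomial identities in at most four variables over an arbitrary commutative ring, checked by
kernel evaluation (`decide +kernel`) of a sparse normal form.  Proof terms stay tiny, contrary to
`ring` on identities with thousands of monomials.

* a monomial `x^a y^b z^c w^d` is coded by the natural number `2^a 3^b 5^c 7^d` (`mev` is its
  value; products of monomials are products of codes);
* `SP` : sparse polynomials (lists of `coefficient × monomial code`), `evl x y z w p` : value;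
* `Ex` : syntax trees with four substitution slots `v0 .. v3` and embedded literals `lit p`;
  `Ex.eval x y z w a b c d e` is the value (slots `a b c d`, literals evaluated at `x y z w`);
  `Ex.norm p0 p1 p2 p3 e` is the normal form with the slots replaced by `p0 .. p3`;
* `evl_norm` : soundness;  `step` : the form used by generated proofs.
-/

set_option autoImplicit false

namespace Fermat.Agent.S52.PolyCheck

variable {R : Type*} [CommRing R]

/-- Value of the monomial coded by `n = 2^a 3^b 5^c 7^d` (junk value `0` at `n = 0`). -/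
noncomputable def mev (x y z w : R) (n : ℕ) : R :=
  if n = 0 then 0
  else x ^ padicValNat 2 n * y ^ padicValNat 3 n * z ^ padicValNat 5 n * w ^ padicValNat 7 n

theorem mev_one (x y z w : R) : mev x y z w 1 = 1 := by simp [mev]

theorem mev_mul (x y z w : R) (m n : ℕ) :
    mev x y z w (m * n) = mev x y z w m * mev x y z w n := by
  by_cases hm : m = 0
  · simp [mev, hm]
  by_cases hn : n = 0
  · simp [mev, hn]
  have : Fact (Nat.Prime 2) := ⟨by norm_num⟩
  have : Fact (Nat.Prime 3) := ⟨by norm_num⟩
  have : Fact (Nat.Prime 5) := ⟨by norm_num⟩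
  have : Fact (Nat.Prime 7) := ⟨by norm_num⟩
  simp only [mev, hm, hn, mul_eq_zero, or_self, if_false, padicValNat.mul hm hn, pow_add]
  ring

theorem mev_two (x y z w : R) : mev x y z w 2 = x := by
  have : Fact (Nat.Prime 2) := ⟨by norm_num⟩
  have : Fact (Nat.Prime 3) := ⟨by norm_num⟩
  have : Fact (Nat.Prime 5) := ⟨by norm_num⟩
  have : Fact (Nat.Prime 7) := ⟨by norm_num⟩
  have h3 : padicValNat 3 2 = 0 := padicValNat_primes (by norm_num)
  have h5 : padicValNat 5 2 = 0 := padicValNat_primes (by norm_num)
  have h7 : padicValNat 7 2 = 0 := padicValNat_primes (by norm_num)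
  simp [mev, h3, h5, h7]

theorem mev_three (x y z w : R) : mev x y z w 3 = y := by
  have : Fact (Nat.Prime 2) := ⟨by norm_num⟩
  have : Fact (Nat.Prime 3) := ⟨by norm_num⟩
  have : Fact (Nat.Prime 5) := ⟨by norm_num⟩
  have : Fact (Nat.Prime 7) := ⟨by norm_num⟩
  have h2 : padicValNat 2 3 = 0 := padicValNat_primes (by norm_num)
  have h5 : padicValNat 5 3 = 0 := padicValNat_primes (by norm_num)
  have h7 : padicValNat 7 3 = 0 := padicValNat_primes (by norm_num)
  simp [mev, h2, h5, h7]

theorem mev_five (x y z w : R) : mev x y z w 5 = z := by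
  have : Fact (Nat.Prime 2) := ⟨by norm_num⟩
  have : Fact (Nat.Prime 3) := ⟨by norm_num⟩
  have : Fact (Nat.Prime 5) := ⟨by norm_num⟩
  have : Fact (Nat.Prime 7) := ⟨by norm_num⟩
  have h2 : padicValNat 2 5 = 0 := padicValNat_primes (by norm_num)
  have h3 : padicValNat 3 5 = 0 := padicValNat_primes (by norm_num)
  have h7 : padicValNat 7 5 = 0 := padicValNat_primes (by norm_num)
  simp [mev, h2, h3, h7]

theorem mev_seven (x y z w : R) : mev x y z w 7 = w := by
  have : Fact (Nat.Prime 2) := ⟨by norm_num⟩
  have : Fact (Nat.Prime 3) := ⟨by norm_num⟩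
  have : Fact (Nat.Prime 5) := ⟨by norm_num⟩
  have : Fact (Nat.Prime 7) := ⟨by norm_num⟩
  have h2 : padicValNat 2 7 = 0 := padicValNat_primes (by norm_num)
  have h3 : padicValNat 3 7 = 0 := padicValNat_primes (by norm_num)
  have h5 : padicValNat 5 7 = 0 := padicValNat_primes (by norm_num)
  simp [mev, h2, h3, h5]

/-- Sparse polynomials: lists of `(coefficient, monomial code)`. -/
abbrev SP : Type := List (ℤ × ℕ)

/-- Value of a sparse polynomial. -/
noncomputable def evl (x y z w : R) : SP → R
  | [] => 0
  | t :: p => (t.1 : R) * mev x y z w t.2 + evl x y z w p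

@[simp] theorem evl_nil (x y z w : R) : evl x y z w [] = 0 := rfl

theorem evl_cons (x y z w : R) (t : ℤ × ℕ) (p : SP) :
    evl x y z w (t :: p) = (t.1 : R) * mev x y z w t.2 + evl x y z w p := rfl

/-- Inner loop of `merge`. -/
def mergeAux (t : ℤ × ℕ) (recp : SP → SP) : SP → SP
  | [] => t :: recp []
  | u :: r =>
    bif Nat.beq t.2 u.2 then (t.1 + u.1, t.2) :: recp r
    else bif Nat.blt t.2 u.2 then t :: recp (u :: r)
    else u :: mergeAux t recp r

/-- Sum of two sparse polynomials (merging; like monomials are combined when they meet). -/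
def merge : SP → SP → SP
  | [] => fun q => q
  | t :: p => mergeAux t (merge p)

theorem evl_mergeAux (x y z w : R) (t : ℤ × ℕ) (recp : SP → SP) (e : R)
    (hrec : ∀ q, evl x y z w (recp q) = e + evl x y z w q) (q : SP) :
    evl x y z w (mergeAux t recp q) = (t.1 : R) * mev x y z w t.2 + e + evl x y z w q := by
  induction q with
  | nil => simp [mergeAux, evl_cons, hrec]
  | cons u r ih =>
    unfold mergeAux
    cases h1 : Nat.beq t.2 u.2 with
    | true =>
      have h := Nat.eq_of_beq_eq_true h1
      simp only [cond_true, evl_cons, hrec, Int.cast_add, ← h]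
      ring
    | false =>
      cases h2 : Nat.blt t.2 u.2 with
      | true => simp only [cond_true, cond_false, evl_cons, hrec]; ring
      | false => simp only [cond_false, evl_cons, ih]; ring

theorem evl_merge (x y z w : R) (p q : SP) :
    evl x y z w (merge p q) = evl x y z w p + evl x y z w q := by
  induction p generalizing q with
  | nil => simp [merge]
  | cons t p ih =>
    show evl x y z w (mergeAux t (merge p) q) = _
    rw [evl_mergeAux x y z w t (merge p) (evl x y z w p) (fun q => ih q), evl_cons]

/-- Multiplication by a term. -/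
def scale (c : ℤ) (m : ℕ) : SP → SP
  | [] => []
  | u :: r => (c * u.1, m * u.2) :: scale c m r

theorem evl_scale (x y z w : R) (c : ℤ) (m : ℕ) (q : SP) :
    evl x y z w (scale c m q) = (c : R) * mev x y z w m * evl x y z w q := by
  induction q with
  | nil => simp [scale]
  | cons u r ih =>
    simp only [scale, evl_cons, ih, Int.cast_mul, mev_mul]; ring

/-- Negation. -/
def neg (p : SP) : SP := scale (-1) 1 p

theorem evl_neg (x y z w : R) (p : SP) : evl x y z w (neg p) = - evl x y z w p := by
  simp [neg, evl_scale, mev_one]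

/-- Product (iterating over the first factor). -/
def mul : SP → SP → SP
  | [], _ => []
  | t :: p, q => merge (scale t.1 t.2 q) (mul p q)

theorem evl_mul (x y z w : R) (p q : SP) :
    evl x y z w (mul p q) = evl x y z w p * evl x y z w q := by
  induction p with
  | nil => simp [mul]
  | cons t p ih => simp only [mul, evl_merge, evl_scale, ih, evl_cons]; ring

/-- Product, iterating over the shorter factor. -/
def mulS (p q : SP) : SP := bif Nat.ble p.length q.length then mul p q else mul q p

theorem evl_mulS (x y z w : R) (p q : SP) :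
    evl x y z w (mulS p q) = evl x y z w p * evl x y z w q := by
  unfold mulS
  cases Nat.ble p.length q.length with
  | true => simp [evl_mul]
  | false => simp [evl_mul, mul_comm]

/-- Powers. -/
def npow (p : SP) : ℕ → SP
  | 0 => [(1, 1)]
  | n + 1 => mulS p (npow p n)

theorem evl_npow (x y z w : R) (p : SP) (n : ℕ) :
    evl x y z w (npow p n) = evl x y z w p ^ n := by
  induction n with
  | zero => simp [npow, evl_cons, mev_one]
  | succ n ih => simp only [npow, evl_mulS, ih, pow_succ']

/-- Zero test: all coefficients vanish. -/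
def isZero : SP → Bool
  | [] => true
  | t :: p => Nat.beq (Int.natAbs t.1) 0 && isZero p

theorem evl_eq_zero_of_isZero (x y z w : R) {p : SP} (h : isZero p = true) :
    evl x y z w p = 0 := by
  induction p with
  | nil => rfl
  | cons t p ih =>
    simp only [isZero, Bool.and_eq_true] at h
    have h0 : t.1 = 0 := Int.natAbs_eq_zero.mp (Nat.eq_of_beq_eq_true h.1)
    simp [evl_cons, h0, ih h.2]

theorem eq_of_isZero {p q : SP} (h : isZero (merge p (neg q)) = true) (x y z w : R) :
    evl x y z w p = evl x y z w q := by
  have := evl_eq_zero_of_isZero x y z w h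
  rw [evl_merge, evl_neg] at this
  exact sub_eq_zero.mp (by rw [sub_eq_add_neg]; exact this)

/-- The four variables as sparse polynomials. -/
def X0 : SP := [(1, 2)]
def X1 : SP := [(1, 3)]
def X2 : SP := [(1, 5)]
def X3 : SP := [(1, 7)]

@[simp] theorem evl_X0 (x y z w : R) : evl x y z w X0 = x := by simp [X0, evl_cons, mev_two]
@[simp] theorem evl_X1 (x y z w : R) : evl x y z w X1 = y := by simp [X1, evl_cons, mev_three]
@[simp] theorem evl_X2 (x y z w : R) : evl x y z w X2 = z := by simp [X2, evl_cons, mev_five]
@[simp] theorem evl_X3 (x y z w : R) : evl x y z w X3 = w := by simp [X3, evl_cons, mev_seven]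

/-- Syntax trees of polynomial expressions: four slots and embedded literals. -/
inductive Ex where
  | v0 : Ex
  | v1 : Ex
  | v2 : Ex
  | v3 : Ex
  | lit (p : SP) : Ex
  | int (c : ℤ) : Ex
  | add (e f : Ex) : Ex
  | sub (e f : Ex) : Ex
  | mul (e f : Ex) : Ex
  | pow (e : Ex) (n : ℕ) : Ex

namespace Ex

/-- Value of a syntax tree: slots `a b c d`, literals evaluated at `x y z w`. -/
noncomputable def eval (x y z w a b c d : R) : Ex → R
  | v0 => a
  | v1 => b
  | v2 => c
  | v3 => d
  | lit p => evl x y z w p
  | int k => (k : R)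
  | add e f => eval x y z w a b c d e + eval x y z w a b c d f
  | sub e f => eval x y z w a b c d e - eval x y z w a b c d f
  | mul e f => eval x y z w a b c d e * eval x y z w a b c d f
  | pow e n => eval x y z w a b c d e ^ n

/-- Normal form of a syntax tree, the slots being replaced by `p0 .. p3`. -/
def norm (p0 p1 p2 p3 : SP) : Ex → SP
  | v0 => p0
  | v1 => p1
  | v2 => p2
  | v3 => p3
  | lit p => p
  | int k => [(k, 1)]
  | add e f => merge (norm p0 p1 p2 p3 e) (norm p0 p1 p2 p3 f)
  | sub e f => merge (norm p0 p1 p2 p3 e) (neg (norm p0 p1 p2 p3 f))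
  | mul e f => mulS (norm p0 p1 p2 p3 e) (norm p0 p1 p2 p3 f)
  | pow e n => npow (norm p0 p1 p2 p3 e) n

end Ex

/-- Soundness of `Ex.norm`. -/
theorem evl_norm (x y z w : R) (p0 p1 p2 p3 : SP) (e : Ex) :
    evl x y z w (e.norm p0 p1 p2 p3) =
      e.eval x y z w (evl x y z w p0) (evl x y z w p1) (evl x y z w p2) (evl x y z w p3) := by
  induction e with
  | v0 => rfl
  | v1 => rfl
  | v2 => rfl
  | v3 => rfl
  | lit p => rfl
  | int k => simp [Ex.norm, Ex.eval, evl_cons, mev_one]
  | add e f ihe ihf => simp only [Ex.norm, Ex.eval, evl_merge, ihe, ihf]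
  | sub e f ihe ihf => simp only [Ex.norm, Ex.eval, evl_merge, evl_neg, ihe, ihf, sub_eq_add_neg]
  | mul e f ihe ihf => simp only [Ex.norm, Ex.eval, evl_mulS, ihe, ihf]
  | pow e n ihe => simp only [Ex.norm, Ex.eval, evl_npow, ihe]

/-- One checked computation step: the value of `e` at the polynomials `p0 .. p3` is the
polynomial `q`. -/
theorem step (e : Ex) (p0 p1 p2 p3 q : SP)
    (h : isZero (merge (e.norm p0 p1 p2 p3) (neg q)) = true) (x y z w : R) :
    e.eval x y z w (evl x y z w p0) (evl x y z w p1) (evl x y z w p2) (evl x y z w p3) =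
      evl x y z w q := by
  rw [← evl_norm]; exact eq_of_isZero h x y z w

/-- Two syntax trees with the same normal form have the same value. -/
theorem step2 (e f : Ex) (p0 p1 p2 p3 : SP)
    (h : isZero (merge (e.norm p0 p1 p2 p3) (neg (f.norm p0 p1 p2 p3))) = true) (x y z w : R) :
    e.eval x y z w (evl x y z w p0) (evl x y z w p1) (evl x y z w p2) (evl x y z w p3) =
      f.eval x y z w (evl x y z w p0) (evl x y z w p1) (evl x y z w p2) (evl x y z w p3) := by
  rw [← evl_norm, ← evl_norm]; exact eq_of_isZero h x y z w

/-- Value of a syntax tree at the variables themselves. -/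
theorem eval_var (x y z w : R) (e : Ex) :
    e.eval x y z w x y z w = evl x y z w (e.norm X0 X1 X2 X3) := by
  rw [evl_norm]; simp

/-- One checked computation step at the variables themselves. -/
theorem stepV (e : Ex) (q : SP)
    (h : isZero (merge (e.norm X0 X1 X2 X3) (neg q)) = true) (x y z w : R) :
    e.eval x y z w x y z w = evl x y z w q := by
  rw [eval_var]; exact eq_of_isZero h x y z w

end Fermat.Agent.S52.PolyCheck
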