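import Mathlib
import Fermat.Agent.S52.BridgeRed

/-!
# S52: specialisation of torsion points of a Weierstrass curve over `k[T]`

Let `k` be a field, `W` a Weierstrass curve with coefficients in `k[X]`, `t0 : k` a parameter value
at which the specialised curve `W0 = W(t0)` is nonsingular, and `n` a natural number invertible
in `k`.  For `n`-torsion points of the generic curve `W ⊗ k(X)` with polynomial coordinates, every
`ℤ`-linear relation holds if and only if it holds for the specialised points of `W0(k)`
(`rel_iff_spec`).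

Proof: choose a valuation subring `A` of `k(X)` containing `k[X]` in which `X - t0` is a nonunit;
the residue map restricted to `k[X]` is evaluation at `t0` followed by a field embedding
`ι : k → κ`; the reduction map of `BridgeRed` is additive and injective on the `n`-torsion, and
`Point.map ι` is additive and injective.
-/

set_option autoImplicit false

namespace Fermat.Agent.S52.SpecRed

open WeierstrassCurve Polynomial Fermat.Agent.S05 Fermat.Agent.S52.Bridge

section MapPt

variable {F K : Type*} [Field F] [Field K] [DecidableEq F] [DecidableEq K]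

/-- The map on points induced by a field homomorphism. -/
noncomputable def mapPt (V : WeierstrassCurve F) (f : F →+* K) :
    V.toAffine.Point →+ (V.map f).toAffine.Point where
  toFun P := match P with
    | .zero => 0
    | .some x y h => .some (f x) (f y)
        ((Affine.map_nonsingular (W := V.toAffine) f.injective x y).mpr h)
  map_zero' := rfl
  map_add' := by
    rintro (_ | ⟨x₁, y₁, h₁⟩) (_ | ⟨x₂, y₂, h₂⟩)
    any_goals rfl
    by_cases hxy : x₁ = x₂ ∧ y₁ = V.toAffine.negY x₂ y₂
    · rw [Affine.Point.add_of_Y_eq hxy.left hxy.right,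
        Affine.Point.add_of_Y_eq (congr_arg _ hxy.left) <| by rw [hxy.right, Affine.map_negY]]
    · simpa only [Affine.Point.add_some hxy, ← Affine.map_addX, ← Affine.map_addY,
        ← Affine.map_slope] using!
        (Affine.Point.add_some fun h ↦ hxy ⟨f.injective h.1,
          f.injective (Affine.map_negY (W' := V.toAffine) f .. ▸ h).2⟩).symm

theorem mapPt_zero (V : WeierstrassCurve F) (f : F →+* K) :
    mapPt V f (0 : V.toAffine.Point) = 0 := rfl

theorem mapPt_some (V : WeierstrassCurve F) (f : F →+* K) {x y : F}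
    (h : V.toAffine.Nonsingular x y) :
    mapPt V f (.some x y h) = .some (f x) (f y)
      ((Affine.map_nonsingular (W := V.toAffine) f.injective x y).mpr h) := rfl

theorem mapPt_injective (V : WeierstrassCurve F) (f : F →+* K) :
    Function.Injective (mapPt V f) := by
  rintro (_ | ⟨x₁, y₁, h₁⟩) (_ | ⟨x₂, y₂, h₂⟩) h
  · rfl
  · exact absurd h.symm (Affine.Point.some_ne_zero _)
  · exact absurd h (Affine.Point.some_ne_zero _)
  · rw [mapPt_some, mapPt_some] at h
    have hx : x₁ = x₂ := f.injective (Affine.Point.some.inj h).1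
    have hy : y₁ = y₂ := f.injective (Affine.Point.some.inj h).2
    subst hx hy
    rfl

end MapPt

section Place

variable {k : Type*} [Field k]

/-- A valuation subring of `k(X)` containing `k[X]` in which `X - t0` is a nonunit. -/
theorem exists_valuationSubring (t0 : k) : ∃ A : ValuationSubring (RatFunc k),
    (∀ p : k[X], algebraMap k[X] (RatFunc k) p ∈ A) ∧
      algebraMap k[X] (RatFunc k) (X - C t0) ∈ A.nonunits := by
  let R : Subring (RatFunc k) := (algebraMap k[X] (RatFunc k)).range
  let a : R := ⟨algebraMap k[X] (RatFunc k) (X - C t0), ⟨_, rfl⟩⟩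
  have hI : Ideal.span {a} ≠ ⊤ := by
    rw [Ne, Ideal.span_singleton_eq_top]
    intro hu
    obtain ⟨⟨b, q, rfl⟩, hb⟩ := isUnit_iff_exists_inv.mp hu
    have h1 : algebraMap k[X] (RatFunc k) ((X - C t0) * q) = algebraMap k[X] (RatFunc k) 1 := by
      rw [map_mul, map_one]
      exact congrArg Subtype.val hb
    have h2 : (X - C t0) * q = 1 := IsFractionRing.injective k[X] (RatFunc k) h1
    exact Polynomial.not_isUnit_X_sub_C t0 (IsUnit.of_mul_eq_one _ h2)
  obtain ⟨B, hRB, hB⟩ := Ideal.image_subset_nonunits_valuationSubring (Ideal.span {a}) hI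
  refine ⟨B, fun p => hRB ⟨p, rfl⟩, ?_⟩
  exact hB ⟨a, Ideal.mem_span_singleton_self a, rfl⟩

variable (A : ValuationSubring (RatFunc k))
  (hA : ∀ p : k[X], algebraMap k[X] (RatFunc k) p ∈ A)

/-- The embedding of the constant field into the residue field. -/
noncomputable def iota : k →+* IsLocalRing.ResidueField A :=
  (IsLocalRing.residue A).comp
    (((algebraMap k[X] (RatFunc k)).comp C).codRestrict A.toSubring (fun c => hA (C c)))

theorem iota_apply (c : k) : iota A hA c = res A (algebraMap k[X] (RatFunc k) (C c)) :=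
  (res_of_mem A (hA (C c))).symm

/-- The residue of a polynomial is its value at `t0`. -/
theorem res_poly (t0 : k) (ht : algebraMap k[X] (RatFunc k) (X - C t0) ∈ A.nonunits)
    (p : k[X]) : res A (algebraMap k[X] (RatFunc k) p) = iota A hA (p.eval t0) := by
  rw [iota_apply, res_eq_iff A (hA p) (hA _)]
  obtain ⟨q, hq⟩ := Polynomial.X_sub_C_dvd_sub_C_eval (a := t0) (p := p)
  rw [← map_sub, hq, map_mul]
  apply (res_eq_zero_iff A (mul_mem (hA _) (hA q))).mp
  rw [res_mul A (hA _) (hA q), (res_eq_zero_iff A (hA _)).mpr ht, zero_mul]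

end Place

section Spec

variable {k : Type*} [Field k]

/-- The generic curve reduces to the specialised curve. -/
theorem redHyp (A : ValuationSubring (RatFunc k))
    (hA : ∀ p : k[X], algebraMap k[X] (RatFunc k) p ∈ A) (t0 : k)
    (ht : algebraMap k[X] (RatFunc k) (X - C t0) ∈ A.nonunits) (W : WeierstrassCurve k[X])
    (hΔ : (W.map (Polynomial.evalRingHom t0)).Δ ≠ 0) :
    RedHyp A (W.map (algebraMap k[X] (RatFunc k)))
      ((W.map (Polynomial.evalRingHom t0)).map (iota A hA)) where
  m₁ := hA _
  m₂ := hA _
  m₃ := hA _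
  m₄ := hA _
  m₆ := hA _
  e₁ := (res_poly A hA t0 ht W.a₁).symm
  e₂ := (res_poly A hA t0 ht W.a₂).symm
  e₃ := (res_poly A hA t0 ht W.a₃).symm
  e₄ := (res_poly A hA t0 ht W.a₄).symm
  e₆ := (res_poly A hA t0 ht W.a₆).symm
  good := by
    rw [WeierstrassCurve.map_Δ]
    exact (_root_.map_ne_zero _).mpr hΔ

/-- A natural number invertible in `k` is a unit of `A`. -/
theorem valuation_natCast (A : ValuationSubring (RatFunc k))
    (hA : ∀ p : k[X], algebraMap k[X] (RatFunc k) p ∈ A) {n : ℕ} (hn : (n : k) ≠ 0) :
    A.valuation ((n : ℕ) : RatFunc k) = 1 := by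
  apply valuation_natCast_eq_one
  rw [res_natCast, ← map_natCast (iota A hA)]
  exact (_root_.map_ne_zero _).mpr hn

variable [DecidableEq k] [DecidableEq (RatFunc k)]

/-- **Specialisation of relations** (any number of sections).  For `n`-torsion points of the
generic curve with polynomial coordinates, a `ℤ`-linear relation holds iff it holds for the
specialisations at a parameter value `t0` where the curve is nonsingular (`n` invertible in
`k`). -/
theorem spec_rel_fin {m : ℕ} (n : ℕ) (hn : (n : k) ≠ 0) (t0 : k)
    (W : WeierstrassCurve k[X]) (W0 : WeierstrassCurve k)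
    (hW0 : W.map (Polynomial.evalRingHom t0) = W0) (hΔ : W0.Δ ≠ 0)
    (x y : Fin m → k[X])
    (hS : ∀ i, (W.map (algebraMap k[X] (RatFunc k))).toAffine.Nonsingular
      (algebraMap k[X] (RatFunc k) (x i)) (algebraMap k[X] (RatFunc k) (y i)))
    (hs : ∀ i, W0.toAffine.Nonsingular ((x i).eval t0) ((y i).eval t0))
    (htors : ∀ i, (n : ℤ) • (Affine.Point.some _ _ (hS i)) = 0)
    (u : Fin m → ℤ) :
    (∑ i, u i • (Affine.Point.some _ _ (hS i)) = 0) ↔
      (∑ i, u i • (Affine.Point.some _ _ (hs i)) = 0) := by
  classical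
  subst hW0
  obtain ⟨A, hA, ht⟩ := exists_valuationSubring t0
  have H := redHyp A hA t0 ht W hΔ
  have hn' := valuation_natCast A hA hn
  let S : Fin m → Submodule.torsionBy ℤ (W.map (algebraMap k[X] (RatFunc k))).toAffine.Point n :=
    fun i => ⟨Affine.Point.some _ _ (hS i), (Submodule.mem_torsionBy_iff _ _).mpr (htors i)⟩
  have key : ∀ i, torsRedHom H n hn' (S i) =
      mapPt _ (iota A hA) (Affine.Point.some _ _ (hs i)) := by
    intro i
    rw [torsRedHom_apply, mapPt_some]
    show redPt H (Affine.Point.some _ _ (hS i)) = _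
    rw [redPt_some H (hS i) (hA _) (hA _)]
    exact some_congr' _ _ (res_poly A hA t0 ht _) (res_poly A hA t0 ht _)
  have hsum : torsRedHom H n hn' (∑ i, u i • S i) =
      mapPt _ (iota A hA) (∑ i, u i • Affine.Point.some _ _ (hs i)) := by
    rw [map_sum, map_sum]
    refine Finset.sum_congr rfl fun i _ => ?_
    rw [map_zsmul, map_zsmul, key]
  have hcoe : ((∑ i, u i • S i : Submodule.torsionBy ℤ
      (W.map (algebraMap k[X] (RatFunc k))).toAffine.Point n) :
        (W.map (algebraMap k[X] (RatFunc k))).toAffine.Point) =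
      ∑ i, u i • Affine.Point.some _ _ (hS i) := by
    rw [Submodule.coe_sum]
    rfl
  constructor
  · intro h
    have h0 : (∑ i, u i • S i) = 0 := Subtype.ext (by rw [hcoe]; exact h)
    have h1 := hsum
    rw [h0, map_zero] at h1
    exact mapPt_injective _ (iota A hA) (by rw [← h1, map_zero])
  · intro h
    have h1 := hsum
    rw [h, map_zero] at h1
    have h0 : (∑ i, u i • S i) = 0 := torsRedHom_injective H n hn' (by rw [h1, map_zero])
    rw [← hcoe, h0]
    rfl

/-- **Specialisation of relations**, three sections (the shape consumed by `X5Fl`). -/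
theorem spec_rel (n : ℕ) (hn : (n : k) ≠ 0) (t0 : k)
    (W : WeierstrassCurve k[X]) (W0 : WeierstrassCurve k)
    (hW0 : W.map (Polynomial.evalRingHom t0) = W0) (hΔ : W0.Δ ≠ 0)
    (x y : Fin 3 → k[X])
    (hS : ∀ i, (W.map (algebraMap k[X] (RatFunc k))).toAffine.Nonsingular
      (algebraMap k[X] (RatFunc k) (x i)) (algebraMap k[X] (RatFunc k) (y i)))
    (hs : ∀ i, W0.toAffine.Nonsingular ((x i).eval t0) ((y i).eval t0))
    (htors : ∀ i, (n : ℤ) • (Affine.Point.some _ _ (hS i)) = 0)
    (u : Fin 3 → ℤ) :
    (∑ i, u i • (Affine.Point.some _ _ (hS i)) = 0) ↔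
      (∑ i, u i • (Affine.Point.some _ _ (hs i)) = 0) :=
  spec_rel_fin n hn t0 W W0 hW0 hΔ x y hS hs htors u

end Spec

end Fermat.Agent.S52.SpecRed
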