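/-
T3 / S52, block [Fam] part 2 (owner: helper2, names agreed with helper74).

Light identities for the family `fam4`, `fam6` of `S52/TateFam.lean` (all plain `ring`, a few
seconds each), in the namespace of `TateFam`:

* `Dfam c4 c6 s` : the cusp polynomial of the family (degree 12 in `s`), `Dfam c4 c6 0 = 1`;
* `famE d s`     : the quadratic factor of `Dfam` in the Tate chart;
* `fam4_smul`, `fam6_smul`, `Dfam_smul` : weighted homogeneity (`c4, c6, s` of weights `4, 6, -2`);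
* `famN_sq_sub`  : `famN² - 11 famN famD - famD² = (d² - 11 d - 1) famE⁵`;
* `Dfam_tate`    : `d · Dfam (c4T d) (c6T d) s = famN d s · famD d s · famE d s`;
* `Cform_disc`   : `C4form³ - C6form² = 1728 n⁵ m⁵ (n² - 11 n m - m²)`;
* `c4T_disc`     : `c4T³ - c6T² = 1728 d⁵ (d² - 11 d - 1)`;
* values at `s = 0`, compatibility with ring homomorphisms, `s ∣ Dfam c4 c6 s - 1`.

The discriminant identity `fam4³ - fam6² = (c4³ - c6²) · Dfam⁵` is in `S52/TateFamDisc.lean`.
-/
import Fermat.Agent.S52.TateFam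

set_option autoImplicit false
set_option linter.unusedSimpArgs false

namespace Fermat.Agent.S52.Tate

variable {R : Type*} [CommRing R]

/-- The cusp polynomial of the family: `fam4³ - fam6² = (c4³ - c6²) · Dfam⁵`. -/
def Dfam (c4 c6 s : R) : R :=
  1 - 66*c4*s^2 - 440*c6*s^3 - 1485*c4^2*s^4 - 3168*c4*c6*s^5 + (5940*c4^3 - 10560*c6^2)*s^6
    - 4752*c4^2*c6*s^7 + (-66825*c4^4 + 63360*c4*c6^2)*s^8 + (-142560*c4^3*c6 + 140800*c6^3)*s^9
    + (-133650*c4^5 + 133056*c4^2*c6^2)*s^10 + (-61560*c4^4*c6 + 61440*c4*c6^3)*s^11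
    + (91125*c4^6 - 193536*c4^3*c6^2 + 102400*c6^4)*s^12

/-- The quadratic factor of `Dfam` in the Tate chart: `d · Dfam = famN · famD · famE`. -/
def famE (d s : R) : R := 1 - 2*(1 + d^2)*s + (1 - 178*d^2 + d^4)*s^2

/-- Weighted homogeneity of `fam4` (weights `4, 6, -2` for `c4, c6, s`). -/
theorem fam4_smul (w c4 c6 s : R) :
    fam4 (w^4*c4) (w^6*c6) s = w^4 * fam4 c4 c6 (w^2*s) := by
  simp only [fam4, fam4c0, fam4c1, fam4c2, fam4c3, fam4c4, fam4c5, fam4c6, fam4c7, fam4c8, fam4c9, fam4c10, fam4c11, fam4c12, fam4c13, fam4c14, fam4c15, fam4c16, fam4c17, fam4c18, fam4c19, fam4c20]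
  ring

/-- Weighted homogeneity of `fam6`. -/
theorem fam6_smul (w c4 c6 s : R) :
    fam6 (w^4*c4) (w^6*c6) s = w^6 * fam6 c4 c6 (w^2*s) := by
  simp only [fam6, fam6c0, fam6c1, fam6c2, fam6c3, fam6c4, fam6c5, fam6c6, fam6c7, fam6c8, fam6c9, fam6c10, fam6c11, fam6c12, fam6c13, fam6c14, fam6c15, fam6c16, fam6c17, fam6c18, fam6c19, fam6c20, fam6c21, fam6c22, fam6c23, fam6c24, fam6c25, fam6c26, fam6c27, fam6c28, fam6c29, fam6c30]
  ring

/-- Weighted homogeneity of `Dfam` (weight `0`). -/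
theorem Dfam_smul (w c4 c6 s : R) : Dfam (w^4*c4) (w^6*c6) s = Dfam c4 c6 (w^2*s) := by
  simp only [Dfam]
  ring

/-- The norm form `n² - 11 n m - m²` of the Tate parameter along the family. -/
theorem famN_sq_sub (d s : R) :
    famN d s ^ 2 - 11 * famN d s * famD d s - famD d s ^ 2 = (d^2 - 11*d - 1) * famE d s ^ 5 := by
  simp only [famN, famD, famE, famNc0, famNc1, famNc2, famNc3, famNc4, famNc5, famDc0, famDc1, famDc2, famDc3, famDc4, famDc5]
  ring

/-- `Dfam` in the Tate chart. -/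
theorem Dfam_tate (d s : R) :
    d * Dfam (c4T d) (c6T d) s = famN d s * famD d s * famE d s := by
  simp only [famN, famD, famE, Dfam, c4T, c6T, famNc0, famNc1, famNc2, famNc3, famNc4, famNc5, famDc0, famDc1, famDc2, famDc3, famDc4, famDc5]
  ring

/-- Discriminant of the Tate normal form, homogeneous version. -/
theorem Cform_disc (n m : R) :
    C4form n m ^ 3 - C6form n m ^ 2 = 1728 * n^5 * m^5 * (n^2 - 11*n*m - m^2) := by
  simp only [C4form, C6form]
  ring

/-- Discriminant of the Tate normal form. -/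
theorem c4T_disc (d : R) : c4T d ^ 3 - c6T d ^ 2 = 1728 * d^5 * (d^2 - 11*d - 1) := by
  simp only [c4T, c6T]
  ring

theorem C4form_one (d : R) : C4form d 1 = c4T d := by
  simp only [C4form, c4T]
  ring

theorem C6form_one (d : R) : C6form d 1 = c6T d := by
  simp only [C6form, c6T]
  ring

/-! ### Values at `s = 0` -/

theorem fam4_zero (c4 c6 : R) : fam4 c4 c6 0 = c4 := by
  simp only [fam4, fam4c0]
  ring

theorem fam6_zero (c4 c6 : R) : fam6 c4 c6 0 = c6 := by
  simp only [fam6, fam6c0]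
  ring

theorem famN_zero (d : R) : famN d 0 = d := by
  simp only [famN, famNc0]
  ring

theorem famD_zero (d : R) : famD d 0 = 1 := by
  simp only [famD, famDc0]
  ring

theorem Dfam_zero (c4 c6 : R) : Dfam c4 c6 0 = 1 := by
  simp only [Dfam]
  ring

theorem famE_zero (d : R) : famE d 0 = 1 := by
  simp only [famE]
  ring

/-- `Dfam c4 c6 s ≡ 1` modulo `s`. -/
theorem dvd_Dfam_sub_one (c4 c6 s : R) : s ∣ Dfam c4 c6 s - 1 := by
  refine ⟨- 66*c4*s - 440*c6*s^2 - 1485*c4^2*s^3 - 3168*c4*c6*s^4 + (5940*c4^3 - 10560*c6^2)*s^5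
    - 4752*c4^2*c6*s^6 + (-66825*c4^4 + 63360*c4*c6^2)*s^7 + (-142560*c4^3*c6 + 140800*c6^3)*s^8
    + (-133650*c4^5 + 133056*c4^2*c6^2)*s^9 + (-61560*c4^4*c6 + 61440*c4*c6^3)*s^10
    + (91125*c4^6 - 193536*c4^3*c6^2 + 102400*c6^4)*s^11, ?_⟩
  simp only [Dfam]
  ring

/-! ### Compatibility with ring homomorphisms -/

section map

variable {S : Type*} [CommRing S] (f : R →+* S)

theorem map_Dfam (c4 c6 s : R) : f (Dfam c4 c6 s) = Dfam (f c4) (f c6) (f s) := by
  simp only [Dfam, map_add, map_sub, map_mul, map_pow, map_neg, map_one, map_ofNat]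

theorem map_famE (d s : R) : f (famE d s) = famE (f d) (f s) := by
  simp only [famE, map_add, map_sub, map_mul, map_pow, map_neg, map_one, map_ofNat]

end map

/-- Cast form of `map_Dfam` for `ℤ → ZMod ℓ`. -/
theorem intCast_Dfam (ℓ : ℕ) (c4 c6 s : ℤ) :
    ((Dfam c4 c6 s : ℤ) : ZMod ℓ) = Dfam (c4 : ZMod ℓ) (c6 : ZMod ℓ) (s : ZMod ℓ) :=
  map_Dfam (Int.castRingHom (ZMod ℓ)) c4 c6 s

end Fermat.Agent.S52.Tate
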