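/-
T3 / S52, block [Fam] part 3 (owner: helper2).

The discriminant identity of the family `fam4`, `fam6` of `S52/TateFam.lean`:

  `fam_disc : fam4 c4 c6 s ^ 3 - fam6 c4 c6 s ^ 2 = (c4 ^ 3 - c6 ^ 2) * Dfam c4 c6 s ^ 5`

over an arbitrary commutative ring, WITHOUT expanding the (degree 60) polynomial identity:

* `fam_disc_tate` : the identity at the Tate points `(c4, c6) = (w⁴ c4T d, w⁶ c6T d)`, from
  `fam4_tate`, `fam6_tate` and the light identities of `TateFam2`;
* `eq_zero_of_tate_points` : an integer polynomial in `(c4, c6, s)` vanishing at all complex Tate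
  points is zero (the Tate points fill `{c4³ ≠ c6²}` over `ℂ` by `TateParamB.exists_tate_param`,
  and a polynomial over an infinite domain vanishing everywhere is zero);
* `fam_disc` : hence the identity holds in `ℤ[c4, c6, s]`, i.e. in every commutative ring.
-/
import Fermat.Agent.S52.TateFamId
import Fermat.Agent.S52.TateFam2
import Fermat.Agent.S52.TateParamB
import Fermat.Agent.S52.GlueArith

set_option autoImplicit false

namespace Fermat.Agent.S52.Tate

open Fermat.Agent.S52

section tate

variable {R : Type*} [CommRing R]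

/-- The discriminant identity at Tate points. -/
theorem fam_disc_tate (w d s : R) :
    fam4 (w^4 * c4T d) (w^6 * c6T d) s ^ 3 - fam6 (w^4 * c4T d) (w^6 * c6T d) s ^ 2
      = ((w^4 * c4T d) ^ 3 - (w^6 * c6T d) ^ 2) * Dfam (w^4 * c4T d) (w^6 * c6T d) s ^ 5 := by
  rw [fam4_smul, fam6_smul, Dfam_smul, fam4_tate, fam6_tate]
  have h1 := Cform_disc (famN d (w^2*s)) (famD d (w^2*s))
  have h2 := famN_sq_sub d (w^2*s)
  have h3 : (d * Dfam (c4T d) (c6T d) (w^2*s)) ^ 5
      = (famN d (w^2*s) * famD d (w^2*s) * famE d (w^2*s)) ^ 5 := by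
    rw [Dfam_tate]
  have h4 := c4T_disc d
  linear_combination w^12 * h1 + (w^12 * 1728 * famN d (w^2*s)^5 * famD d (w^2*s)^5) * h2
    - (w^12 * Dfam (c4T d) (c6T d) (w^2*s)^5) * h4 - (w^12 * 1728 * (d^2 - 11*d - 1)) * h3

end tate

section density

open MvPolynomial

/-- An integer polynomial in three variables `(c4, c6, s)` which vanishes at all complex Tate
points `(w⁴ c4T d, w⁶ c6T d, s)` is zero. -/
theorem eq_zero_of_tate_points (p : MvPolynomial (Fin 3) ℤ)
    (h : ∀ w d s : ℂ,
      MvPolynomial.eval₂Hom (Int.castRingHom ℂ) ![w^4 * c4T d, w^6 * c6T d, s] p = 0) :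
    p = 0 := by
  have hinj : Function.Injective
      (MvPolynomial.map (Int.castRingHom ℂ) :
        MvPolynomial (Fin 3) ℤ → MvPolynomial (Fin 3) ℂ) :=
    MvPolynomial.map_injective _ Int.cast_injective
  apply hinj
  rw [map_zero]
  have key : MvPolynomial.map (Int.castRingHom ℂ) p
      * ((X 0 : MvPolynomial (Fin 3) ℂ) ^ 3 - X 1 ^ 2) = 0 := by
    apply MvPolynomial.funext
    intro x
    rw [map_mul, map_zero]
    by_cases hx : x 0 ^ 3 = x 1 ^ 2
    · have h0 : eval x ((X 0 : MvPolynomial (Fin 3) ℂ) ^ 3 - X 1 ^ 2) = 0 := by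
        simp [hx]
      rw [h0, mul_zero]
    · obtain ⟨w, d, -, -, -, h0, h1⟩ :=
        TateParamB.exists_tate_param (k := ℂ) (by norm_num) (by norm_num) (by norm_num)
          (x 0) (x 1) hx
      have hx' : x = ![w^4 * c4T d, w^6 * c6T d, x 2] := by
        funext i
        fin_cases i
        · simpa [c4T] using h0
        · simpa [c6T] using h1
        · rfl
      have h2 := h w d (x 2)
      rw [← hx'] at h2
      rw [MvPolynomial.eval_map]
      rw [show MvPolynomial.eval₂ (Int.castRingHom ℂ) x p = 0 from h2, zero_mul]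
  rcases mul_eq_zero.mp key with h0 | h0
  · exact h0
  · exfalso
    have := congrArg (MvPolynomial.eval (![1, 0, 0] : Fin 3 → ℂ)) h0
    simp at this

end density

section universal

variable {R : Type*} [CommRing R]

open MvPolynomial in
/-- **The discriminant of the family**: `fam4³ - fam6² = (c4³ - c6²) · Dfam⁵`, over any
commutative ring. -/
theorem fam_disc (c4 c6 s : R) :
    fam4 c4 c6 s ^ 3 - fam6 c4 c6 s ^ 2 = (c4 ^ 3 - c6 ^ 2) * Dfam c4 c6 s ^ 5 := by
  have hp : (fam4 (X 0) (X 1) (X 2) ^ 3 - fam6 (X 0) (X 1) (X 2) ^ 2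
      - ((X 0) ^ 3 - (X 1) ^ 2) * Dfam (X 0) (X 1) (X 2) ^ 5 : MvPolynomial (Fin 3) ℤ) = 0 := by
    apply eq_zero_of_tate_points
    intro w d s
    simp only [map_sub, map_mul, map_pow, GlueArith.map_fam4, GlueArith.map_fam6, map_Dfam,
      MvPolynomial.eval₂Hom_X']
    exact sub_eq_zero.mpr (fam_disc_tate w d s)
  have h := congrArg (MvPolynomial.eval₂Hom (Int.castRingHom R) ![c4, c6, s]) hp
  simp only [map_sub, map_mul, map_pow, GlueArith.map_fam4, GlueArith.map_fam6, map_Dfam,
    MvPolynomial.eval₂Hom_X', map_zero] at h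
  exact sub_eq_zero.mp h

end universal

end Fermat.Agent.S52.Tate
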