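/-
S52 / block [Fam], B-hedge (helper57): memory-light proofs of the two core identities of the
5-congruent family in the Tate chart,

  `fam4 (c4T d) (c6T d) s = C4form (famN d s) (famD d s)`,
  `fam6 (c4T d) (c6T d) s = C6form (famN d s) (famD d s)`

(`fam4_tate_B`, `fam6_tate_B`), over an arbitrary commutative ring.

Method: staged expansion in `s`.  `N² , N·D, D²` are computed coefficientwise (`aP j`, `bP j`,
`cP j`: explicit polynomials in `d`), then `C4form = A² - 12AB + 14AC + 12BC + C²` and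
`C6form = -(A + C)(A² - 18AB + 74AC + 18BC + C²)` with `A = N²`, `B = N·D`, `C = D²`.
All `ring` calls are either univariate in `d` or generic identities with a few hundred monomials,
so the file elaborates with little memory.  Generated by an independent Python script from the
definitions in `TateFam.lean` (the script also checks every coefficient identity exactly).
-/
import Fermat.Agent.S52.TateFam

set_option autoImplicit false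
set_option maxHeartbeats 1600000
set_option maxRecDepth 4000
set_option linter.unusedSimpArgs false
set_option linter.unusedVariables false

namespace Fermat.Agent.S52.TateIdB

open Fermat.Agent.S52.Tate

variable {R : Type*} [CommRing R]

/-- Product of two quintics in `s`, coefficientwise. -/
theorem quintic_mul (n0 n1 n2 n3 n4 n5 m0 m1 m2 m3 m4 m5 s : R) :
    (n0 + n1 * s + n2 * s^2 + n3 * s^3 + n4 * s^4 + n5 * s^5) * (m0 + m1 * s + m2 * s^2 + m3 * s^3 + m4 * s^4 + m5 * s^5) =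
      (n0 * m0) + (n0 * m1 + n1 * m0) * s + (n0 * m2 + n1 * m1 + n2 * m0) * s^2 + (n0 * m3 + n1 * m2 + n2 * m1 + n3 * m0) * s^3 + (n0 * m4 + n1 * m3 + n2 * m2 + n3 * m1 + n4 * m0) * s^4 + (n0 * m5 + n1 * m4 + n2 * m3 + n3 * m2 + n4 * m1 + n5 * m0) * s^5 + (n1 * m5 + n2 * m4 + n3 * m3 + n4 * m2 + n5 * m1) * s^6 + (n2 * m5 + n3 * m4 + n4 * m3 + n5 * m2) * s^7 + (n3 * m5 + n4 * m4 + n5 * m3) * s^8 + (n4 * m5 + n5 * m4) * s^9 + (n5 * m5) * s^10 := by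
  ring

/-- coefficient of `s^0` in `N²`. -/
def aP0 (d : R) : R := d^2

/-- coefficient of `s^1` in `N²`. -/
def aP1 (d : R) : R := 14*d^2 + 132*d^3 - 10*d^4

/-- coefficient of `s^2` in `N²`. -/
def aP2 (d : R) : R := -27*d^2 + 396*d^3 + 7830*d^4 - 1188*d^5 + 45*d^6

/-- coefficient of `s^3` in `N²`. -/
def aP3 (d : R) : R := -408*d^2 - 7920*d^3 - 11592*d^4 + 281952*d^5 - 63144*d^6 + 4752*d^7 - 120*d^8

/-- coefficient of `s^4` in `N²`. -/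
def aP4 (d : R) : R := 2226*d^2 + 33264*d^3 - 33576*d^4 - 799920*d^5 + 6782220*d^6 - 1984752*d^7 + 221592*d^8 - 11088*d^9 + 210*d^10

/-- coefficient of `s^5` in `N²`. -/
def aP5 (d : R) : R := -5292*d^2 - 72072*d^3 + 7668*d^4 - 1054944*d^5 - 20396376*d^6 + 112741200*d^7 - 40448376*d^8 + 5965344*d^9 - 443772*d^10 + 16632*d^11 - 252*d^12

/-- coefficient of `s^6` in `N²`. -/
def aP6 (d : R) : R := 7266*d^2 + 94248*d^3 + 324180*d^4 + 7488360*d^5 + 22984110*d^6 - 308286000*d^7 + 1306691160*d^8 - 551430000*d^9 + 100916190*d^10 - 9951480*d^11 + 555156*d^12 - 16632*d^13 + 210*d^14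

/-- coefficient of `s^7` in `N²`. -/
def aP7 (d : R) : R := -6168*d^2 - 77616*d^3 - 733800*d^4 - 13207392*d^5 - 21409560*d^6 + 145260720*d^7 - 3229207080*d^8 + 10480916160*d^9 - 5022115080*d^10 + 1094583600*d^11 - 134418168*d^12 + 9957024*d^13 - 444360*d^14 + 11088*d^15 - 120*d^16

/-- coefficient of `s^8` in `N²`. -/
def aP8 (d : R) : R := 3213*d^2 + 39600*d^3 + 707832*d^4 + 11352528*d^5 + 29879244*d^6 + 316193328*d^7 + 2920483080*d^8 - 20803345200*d^9 + 56116960110*d^10 - 29582982000*d^11 + 7430674248*d^12 - 1090417680*d^13 + 100752012*d^14 - 5976432*d^15 + 222264*d^16 - 4752*d^17 + 45*d^18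

/-- coefficient of `s^9` in `N²`. -/
def aP9 (d : R) : R := -946*d^2 - 11484*d^3 - 329274*d^4 - 4926240*d^5 - 25736040*d^6 - 386855568*d^7 - 1179196392*d^8 + 12339901728*d^9 - 73718474940*d^10 + 179709635160*d^11 - 102638287116*d^12 + 28961434656*d^13 - 4919581704*d^14 + 543953520*d^15 - 40284360*d^16 + 1992672*d^17 - 63522*d^18 + 1188*d^19 - 10*d^20

/-- coefficient of `s^10` in `N²`. -/
def aP10 (d : R) : R := 121*d^2 + 1452*d^3 + 60742*d^4 + 866844*d^5 + 7959501*d^6 + 122926320*d^7 + 221456136*d^8 - 1471996944*d^9 + 28569774882*d^10 - 84698508312*d^11 + 253729264932*d^12 - 159058966968*d^13 + 49727540082*d^14 - 9550061136*d^15 + 1224761736*d^16 - 108622800*d^17 + 6712101*d^18 - 284724*d^19 + 7942*d^20 - 132*d^21 + d^22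

/-- coefficient of `s^0` in `N·D`. -/
def bP0 (d : R) : R := d

/-- coefficient of `s^1` in `N·D`. -/
def bP1 (d : R) : R := 2*d + 2*d^3

/-- coefficient of `s^2` in `N·D`. -/
def bP2 (d : R) : R := -63*d - 792*d^2 - 738*d^3 + 792*d^4 - 63*d^5

/-- coefficient of `s^3` in `N·D`. -/
def bP3 (d : R) : R := 312*d + 6336*d^2 + 31752*d^3 + 31752*d^5 - 6336*d^6 + 312*d^7

/-- coefficient of `s^4` in `N·D`. -/
def bP4 (d : R) : R := -798*d - 22176*d^2 - 201768*d^3 - 592416*d^4 + 129420*d^5 + 592416*d^6 - 201768*d^7 + 22176*d^8 - 798*d^9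

/-- coefficient of `s^5` in `N·D`. -/
def bP5 (d : R) : R := 1260*d + 44352*d^2 + 584892*d^3 + 3510144*d^4 + 8357976*d^5 + 8357976*d^7 - 3510144*d^8 + 584892*d^9 - 44352*d^10 + 1260*d^11

/-- coefficient of `s^6` in `N·D`. -/
def bP6 (d : R) : R := -1302*d - 55440*d^2 - 957852*d^3 - 8719920*d^4 - 44838090*d^5 - 121572000*d^6 - 105025800*d^7 + 121572000*d^8 - 44838090*d^9 + 8719920*d^10 - 957852*d^11 + 55440*d^12 - 1302*d^13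

/-- coefficient of `s^7` in `N·D`. -/
def bP7 (d : R) : R := 888*d + 44352*d^2 + 947688*d^3 + 11582208*d^4 + 92076408*d^5 + 474661440*d^6 + 1180355880*d^7 + 1180355880*d^9 - 474661440*d^10 + 92076408*d^11 - 11582208*d^12 + 947688*d^13 - 44352*d^14 + 888*d^15

/-- coefficient of `s^8` in `N·D`. -/
def bP8 (d : R) : R := -387*d - 22176*d^2 - 564552*d^3 - 8664480*d^4 - 93386772*d^5 - 703305504*d^6 - 2991472632*d^7 - 4389818400*d^8 + 795192750*d^9 + 4389818400*d^10 - 2991472632*d^11 + 703305504*d^12 - 93386772*d^13 + 8664480*d^14 - 564552*d^15 + 22176*d^16 - 387*d^17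

/-- coefficient of `s^9` in `N·D`. -/
def bP9 (d : R) : R := 98*d + 6336*d^2 + 187218*d^3 + 3459456*d^4 + 47108520*d^5 + 465404544*d^6 + 2821399368*d^7 + 8310766464*d^8 + 7642099548*d^9 + 7642099548*d^11 - 8310766464*d^12 + 2821399368*d^13 - 465404544*d^14 + 47108520*d^15 - 3459456*d^16 + 187218*d^17 - 6336*d^18 + 98*d^19

/-- coefficient of `s^10` in `N·D`. -/
def bP10 (d : R) : R := -11*d - 792*d^2 - 26642*d^3 - 575784*d^4 - 9479151*d^5 - 115774560*d^6 - 913413336*d^7 - 4039032096*d^8 - 9573394182*d^9 - 37180229328*d^10 - 194202431532*d^11 + 37180229328*d^12 - 9573394182*d^13 + 4039032096*d^14 - 913413336*d^15 + 115774560*d^16 - 9479151*d^17 + 575784*d^18 - 26642*d^19 + 792*d^20 - 11*d^21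

/-- coefficient of `s^0` in `D²`. -/
def cP0 (d : R) : R := 1

/-- coefficient of `s^1` in `D²`. -/
def cP1 (d : R) : R := -10 - 132*d + 14*d^2

/-- coefficient of `s^2` in `D²`. -/
def cP2 (d : R) : R := 45 + 1188*d + 7830*d^2 - 396*d^3 - 27*d^4

/-- coefficient of `s^3` in `D²`. -/
def cP3 (d : R) : R := -120 - 4752*d - 63144*d^2 - 281952*d^3 - 11592*d^4 + 7920*d^5 - 408*d^6

/-- coefficient of `s^4` in `D²`. -/
def cP4 (d : R) : R := 210 + 11088*d + 221592*d^2 + 1984752*d^3 + 6782220*d^4 + 799920*d^5 - 33576*d^6 - 33264*d^7 + 2226*d^8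

/-- coefficient of `s^5` in `D²`. -/
def cP5 (d : R) : R := -252 - 16632*d - 443772*d^2 - 5965344*d^3 - 40448376*d^4 - 112741200*d^5 - 20396376*d^6 + 1054944*d^7 + 7668*d^8 + 72072*d^9 - 5292*d^10

/-- coefficient of `s^6` in `D²`. -/
def cP6 (d : R) : R := 210 + 16632*d + 555156*d^2 + 9951480*d^3 + 100916190*d^4 + 551430000*d^5 + 1306691160*d^6 + 308286000*d^7 + 22984110*d^8 - 7488360*d^9 + 324180*d^10 - 94248*d^11 + 7266*d^12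

/-- coefficient of `s^7` in `D²`. -/
def cP7 (d : R) : R := -120 - 11088*d - 444360*d^2 - 9957024*d^3 - 134418168*d^4 - 1094583600*d^5 - 5022115080*d^6 - 10480916160*d^7 - 3229207080*d^8 - 145260720*d^9 - 21409560*d^10 + 13207392*d^11 - 733800*d^12 + 77616*d^13 - 6168*d^14

/-- coefficient of `s^8` in `D²`. -/
def cP8 (d : R) : R := 45 + 4752*d + 222264*d^2 + 5976432*d^3 + 100752012*d^4 + 1090417680*d^5 + 7430674248*d^6 + 29582982000*d^7 + 56116960110*d^8 + 20803345200*d^9 + 2920483080*d^10 - 316193328*d^11 + 29879244*d^12 - 11352528*d^13 + 707832*d^14 - 39600*d^15 + 3213*d^16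

/-- coefficient of `s^9` in `D²`. -/
def cP9 (d : R) : R := -10 - 1188*d - 63522*d^2 - 1992672*d^3 - 40284360*d^4 - 543953520*d^5 - 4919581704*d^6 - 28961434656*d^7 - 102638287116*d^8 - 179709635160*d^9 - 73718474940*d^10 - 12339901728*d^11 - 1179196392*d^12 + 386855568*d^13 - 25736040*d^14 + 4926240*d^15 - 329274*d^16 + 11484*d^17 - 946*d^18

/-- coefficient of `s^10` in `D²`. -/
def cP10 (d : R) : R := 1 + 132*d + 7942*d^2 + 284724*d^3 + 6712101*d^4 + 108622800*d^5 + 1224761736*d^6 + 9550061136*d^7 + 49727540082*d^8 + 159058966968*d^9 + 253729264932*d^10 + 84698508312*d^11 + 28569774882*d^12 + 1471996944*d^13 + 221456136*d^14 - 122926320*d^15 + 7959501*d^16 - 866844*d^17 + 60742*d^18 - 1452*d^19 + 121*d^20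

theorem aP0_eq (d : R) : famNc0 d * famNc0 d = aP0 d := by
  simp only [aP0, famNc0, famNc1, famNc2, famNc3, famNc4, famNc5, famDc0, famDc1, famDc2, famDc3, famDc4, famDc5]
  ring

theorem aP1_eq (d : R) : famNc0 d * famNc1 d + famNc1 d * famNc0 d = aP1 d := by
  simp only [aP1, famNc0, famNc1, famNc2, famNc3, famNc4, famNc5, famDc0, famDc1, famDc2, famDc3, famDc4, famDc5]
  ring

theorem aP2_eq (d : R) : famNc0 d * famNc2 d + famNc1 d * famNc1 d + famNc2 d * famNc0 d = aP2 d := by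
  simp only [aP2, famNc0, famNc1, famNc2, famNc3, famNc4, famNc5, famDc0, famDc1, famDc2, famDc3, famDc4, famDc5]
  ring

theorem aP3_eq (d : R) : famNc0 d * famNc3 d + famNc1 d * famNc2 d + famNc2 d * famNc1 d + famNc3 d * famNc0 d = aP3 d := by
  simp only [aP3, famNc0, famNc1, famNc2, famNc3, famNc4, famNc5, famDc0, famDc1, famDc2, famDc3, famDc4, famDc5]
  ring

theorem aP4_eq (d : R) : famNc0 d * famNc4 d + famNc1 d * famNc3 d + famNc2 d * famNc2 d + famNc3 d * famNc1 d + famNc4 d * famNc0 d = aP4 d := by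
  simp only [aP4, famNc0, famNc1, famNc2, famNc3, famNc4, famNc5, famDc0, famDc1, famDc2, famDc3, famDc4, famDc5]
  ring

theorem aP5_eq (d : R) : famNc0 d * famNc5 d + famNc1 d * famNc4 d + famNc2 d * famNc3 d + famNc3 d * famNc2 d + famNc4 d * famNc1 d + famNc5 d * famNc0 d = aP5 d := by
  simp only [aP5, famNc0, famNc1, famNc2, famNc3, famNc4, famNc5, famDc0, famDc1, famDc2, famDc3, famDc4, famDc5]
  ring

theorem aP6_eq (d : R) : famNc1 d * famNc5 d + famNc2 d * famNc4 d + famNc3 d * famNc3 d + famNc4 d * famNc2 d + famNc5 d * famNc1 d = aP6 d := by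
  simp only [aP6, famNc0, famNc1, famNc2, famNc3, famNc4, famNc5, famDc0, famDc1, famDc2, famDc3, famDc4, famDc5]
  ring

theorem aP7_eq (d : R) : famNc2 d * famNc5 d + famNc3 d * famNc4 d + famNc4 d * famNc3 d + famNc5 d * famNc2 d = aP7 d := by
  simp only [aP7, famNc0, famNc1, famNc2, famNc3, famNc4, famNc5, famDc0, famDc1, famDc2, famDc3, famDc4, famDc5]
  ring

theorem aP8_eq (d : R) : famNc3 d * famNc5 d + famNc4 d * famNc4 d + famNc5 d * famNc3 d = aP8 d := by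
  simp only [aP8, famNc0, famNc1, famNc2, famNc3, famNc4, famNc5, famDc0, famDc1, famDc2, famDc3, famDc4, famDc5]
  ring

theorem aP9_eq (d : R) : famNc4 d * famNc5 d + famNc5 d * famNc4 d = aP9 d := by
  simp only [aP9, famNc0, famNc1, famNc2, famNc3, famNc4, famNc5, famDc0, famDc1, famDc2, famDc3, famDc4, famDc5]
  ring

theorem aP10_eq (d : R) : famNc5 d * famNc5 d = aP10 d := by
  simp only [aP10, famNc0, famNc1, famNc2, famNc3, famNc4, famNc5, famDc0, famDc1, famDc2, famDc3, famDc4, famDc5]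
  ring

theorem bP0_eq (d : R) : famNc0 d * famDc0 d = bP0 d := by
  simp only [bP0, famNc0, famNc1, famNc2, famNc3, famNc4, famNc5, famDc0, famDc1, famDc2, famDc3, famDc4, famDc5]
  ring

theorem bP1_eq (d : R) : famNc0 d * famDc1 d + famNc1 d * famDc0 d = bP1 d := by
  simp only [bP1, famNc0, famNc1, famNc2, famNc3, famNc4, famNc5, famDc0, famDc1, famDc2, famDc3, famDc4, famDc5]
  ring

theorem bP2_eq (d : R) : famNc0 d * famDc2 d + famNc1 d * famDc1 d + famNc2 d * famDc0 d = bP2 d := by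
  simp only [bP2, famNc0, famNc1, famNc2, famNc3, famNc4, famNc5, famDc0, famDc1, famDc2, famDc3, famDc4, famDc5]
  ring

theorem bP3_eq (d : R) : famNc0 d * famDc3 d + famNc1 d * famDc2 d + famNc2 d * famDc1 d + famNc3 d * famDc0 d = bP3 d := by
  simp only [bP3, famNc0, famNc1, famNc2, famNc3, famNc4, famNc5, famDc0, famDc1, famDc2, famDc3, famDc4, famDc5]
  ring

theorem bP4_eq (d : R) : famNc0 d * famDc4 d + famNc1 d * famDc3 d + famNc2 d * famDc2 d + famNc3 d * famDc1 d + famNc4 d * famDc0 d = bP4 d := by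
  simp only [bP4, famNc0, famNc1, famNc2, famNc3, famNc4, famNc5, famDc0, famDc1, famDc2, famDc3, famDc4, famDc5]
  ring

theorem bP5_eq (d : R) : famNc0 d * famDc5 d + famNc1 d * famDc4 d + famNc2 d * famDc3 d + famNc3 d * famDc2 d + famNc4 d * famDc1 d + famNc5 d * famDc0 d = bP5 d := by
  simp only [bP5, famNc0, famNc1, famNc2, famNc3, famNc4, famNc5, famDc0, famDc1, famDc2, famDc3, famDc4, famDc5]
  ring

theorem bP6_eq (d : R) : famNc1 d * famDc5 d + famNc2 d * famDc4 d + famNc3 d * famDc3 d + famNc4 d * famDc2 d + famNc5 d * famDc1 d = bP6 d := by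
  simp only [bP6, famNc0, famNc1, famNc2, famNc3, famNc4, famNc5, famDc0, famDc1, famDc2, famDc3, famDc4, famDc5]
  ring

theorem bP7_eq (d : R) : famNc2 d * famDc5 d + famNc3 d * famDc4 d + famNc4 d * famDc3 d + famNc5 d * famDc2 d = bP7 d := by
  simp only [bP7, famNc0, famNc1, famNc2, famNc3, famNc4, famNc5, famDc0, famDc1, famDc2, famDc3, famDc4, famDc5]
  ring

theorem bP8_eq (d : R) : famNc3 d * famDc5 d + famNc4 d * famDc4 d + famNc5 d * famDc3 d = bP8 d := by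
  simp only [bP8, famNc0, famNc1, famNc2, famNc3, famNc4, famNc5, famDc0, famDc1, famDc2, famDc3, famDc4, famDc5]
  ring

theorem bP9_eq (d : R) : famNc4 d * famDc5 d + famNc5 d * famDc4 d = bP9 d := by
  simp only [bP9, famNc0, famNc1, famNc2, famNc3, famNc4, famNc5, famDc0, famDc1, famDc2, famDc3, famDc4, famDc5]
  ring

theorem bP10_eq (d : R) : famNc5 d * famDc5 d = bP10 d := by
  simp only [bP10, famNc0, famNc1, famNc2, famNc3, famNc4, famNc5, famDc0, famDc1, famDc2, famDc3, famDc4, famDc5]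
  ring

theorem cP0_eq (d : R) : famDc0 d * famDc0 d = cP0 d := by
  simp only [cP0, famNc0, famNc1, famNc2, famNc3, famNc4, famNc5, famDc0, famDc1, famDc2, famDc3, famDc4, famDc5]
  ring

theorem cP1_eq (d : R) : famDc0 d * famDc1 d + famDc1 d * famDc0 d = cP1 d := by
  simp only [cP1, famNc0, famNc1, famNc2, famNc3, famNc4, famNc5, famDc0, famDc1, famDc2, famDc3, famDc4, famDc5]
  ring

theorem cP2_eq (d : R) : famDc0 d * famDc2 d + famDc1 d * famDc1 d + famDc2 d * famDc0 d = cP2 d := by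
  simp only [cP2, famNc0, famNc1, famNc2, famNc3, famNc4, famNc5, famDc0, famDc1, famDc2, famDc3, famDc4, famDc5]
  ring

theorem cP3_eq (d : R) : famDc0 d * famDc3 d + famDc1 d * famDc2 d + famDc2 d * famDc1 d + famDc3 d * famDc0 d = cP3 d := by
  simp only [cP3, famNc0, famNc1, famNc2, famNc3, famNc4, famNc5, famDc0, famDc1, famDc2, famDc3, famDc4, famDc5]
  ring

theorem cP4_eq (d : R) : famDc0 d * famDc4 d + famDc1 d * famDc3 d + famDc2 d * famDc2 d + famDc3 d * famDc1 d + famDc4 d * famDc0 d = cP4 d := by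
  simp only [cP4, famNc0, famNc1, famNc2, famNc3, famNc4, famNc5, famDc0, famDc1, famDc2, famDc3, famDc4, famDc5]
  ring

theorem cP5_eq (d : R) : famDc0 d * famDc5 d + famDc1 d * famDc4 d + famDc2 d * famDc3 d + famDc3 d * famDc2 d + famDc4 d * famDc1 d + famDc5 d * famDc0 d = cP5 d := by
  simp only [cP5, famNc0, famNc1, famNc2, famNc3, famNc4, famNc5, famDc0, famDc1, famDc2, famDc3, famDc4, famDc5]
  ring

theorem cP6_eq (d : R) : famDc1 d * famDc5 d + famDc2 d * famDc4 d + famDc3 d * famDc3 d + famDc4 d * famDc2 d + famDc5 d * famDc1 d = cP6 d := by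
  simp only [cP6, famNc0, famNc1, famNc2, famNc3, famNc4, famNc5, famDc0, famDc1, famDc2, famDc3, famDc4, famDc5]
  ring

theorem cP7_eq (d : R) : famDc2 d * famDc5 d + famDc3 d * famDc4 d + famDc4 d * famDc3 d + famDc5 d * famDc2 d = cP7 d := by
  simp only [cP7, famNc0, famNc1, famNc2, famNc3, famNc4, famNc5, famDc0, famDc1, famDc2, famDc3, famDc4, famDc5]
  ring

theorem cP8_eq (d : R) : famDc3 d * famDc5 d + famDc4 d * famDc4 d + famDc5 d * famDc3 d = cP8 d := by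
  simp only [cP8, famNc0, famNc1, famNc2, famNc3, famNc4, famNc5, famDc0, famDc1, famDc2, famDc3, famDc4, famDc5]
  ring

theorem cP9_eq (d : R) : famDc4 d * famDc5 d + famDc5 d * famDc4 d = cP9 d := by
  simp only [cP9, famNc0, famNc1, famNc2, famNc3, famNc4, famNc5, famDc0, famDc1, famDc2, famDc3, famDc4, famDc5]
  ring

theorem cP10_eq (d : R) : famDc5 d * famDc5 d = cP10 d := by
  simp only [cP10, famNc0, famNc1, famNc2, famNc3, famNc4, famNc5, famDc0, famDc1, famDc2, famDc3, famDc4, famDc5]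
  ring

theorem famN_sq (d s : R) : famN d s * famN d s = aP0 d + aP1 d * s + aP2 d * s^2 + aP3 d * s^3 + aP4 d * s^4 + aP5 d * s^5 + aP6 d * s^6 + aP7 d * s^7 + aP8 d * s^8 + aP9 d * s^9 + aP10 d * s^10 := by
  unfold famN
  rw [quintic_mul, aP0_eq, aP1_eq, aP2_eq, aP3_eq, aP4_eq, aP5_eq, aP6_eq, aP7_eq, aP8_eq, aP9_eq, aP10_eq]

theorem famN_mul_famD (d s : R) : famN d s * famD d s = bP0 d + bP1 d * s + bP2 d * s^2 + bP3 d * s^3 + bP4 d * s^4 + bP5 d * s^5 + bP6 d * s^6 + bP7 d * s^7 + bP8 d * s^8 + bP9 d * s^9 + bP10 d * s^10 := by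
  unfold famN famD
  rw [quintic_mul, bP0_eq, bP1_eq, bP2_eq, bP3_eq, bP4_eq, bP5_eq, bP6_eq, bP7_eq, bP8_eq, bP9_eq, bP10_eq]

theorem famD_sq (d s : R) : famD d s * famD d s = cP0 d + cP1 d * s + cP2 d * s^2 + cP3 d * s^3 + cP4 d * s^4 + cP5 d * s^5 + cP6 d * s^6 + cP7 d * s^7 + cP8 d * s^8 + cP9 d * s^9 + cP10 d * s^10 := by
  unfold famD
  rw [quintic_mul, cP0_eq, cP1_eq, cP2_eq, cP3_eq, cP4_eq, cP5_eq, cP6_eq, cP7_eq, cP8_eq, cP9_eq, cP10_eq]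

/-- Generic expansion of `A² - 12AB + 14AC + 12BC + C²` for polynomials of degree `≤ 10` in `s`. -/
theorem comb4 (a0 a1 a2 a3 a4 a5 a6 a7 a8 a9 a10 b0 b1 b2 b3 b4 b5 b6 b7 b8 b9 b10 c0 c1 c2 c3 c4 c5 c6 c7 c8 c9 c10 s : R) :
    (a0 + a1 * s + a2 * s^2 + a3 * s^3 + a4 * s^4 + a5 * s^5 + a6 * s^6 + a7 * s^7 + a8 * s^8 + a9 * s^9 + a10 * s^10) * (a0 + a1 * s + a2 * s^2 + a3 * s^3 + a4 * s^4 + a5 * s^5 + a6 * s^6 + a7 * s^7 + a8 * s^8 + a9 * s^9 + a10 * s^10) - 12 * ((a0 + a1 * s + a2 * s^2 + a3 * s^3 + a4 * s^4 + a5 * s^5 + a6 * s^6 + a7 * s^7 + a8 * s^8 + a9 * s^9 + a10 * s^10) * (b0 + b1 * s + b2 * s^2 + b3 * s^3 + b4 * s^4 + b5 * s^5 + b6 * s^6 + b7 * s^7 + b8 * s^8 + b9 * s^9 + b10 * s^10)) + 14 * ((a0 + a1 * s + a2 * s^2 + a3 * s^3 + a4 * s^4 + a5 * s^5 + a6 * s^6 + a7 * s^7 + a8 * s^8 + a9 * s^9 + a10 * s^10) * (c0 + c1 * s + c2 * s^2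 + c3 * s^3 + c4 * s^4 + c5 * s^5 + c6 * s^6 + c7 * s^7 + c8 * s^8 + c9 * s^9 + c10 * s^10)) + 12 * ((b0 + b1 * s + b2 * s^2 + b3 * s^3 + b4 * s^4 + b5 * s^5 + b6 * s^6 + b7 * s^7 + b8 * s^8 + b9 * s^9 + b10 * s^10) * (c0 + c1 * s + c2 * s^2 + c3 * s^3 + c4 * s^4 + c5 * s^5 + c6 * s^6 + c7 * s^7 + c8 * s^8 + c9 * s^9 + c10 * s^10)) + (c0 + c1 * s + c2 * s^2 + c3 * s^3 + c4 * s^4 + c5 * s^5 + c6 * s^6 + c7 * s^7 + c8 * s^8 + c9 * s^9 + c10 * s^10) * (c0 + c1 * s + c2 * s^2 + c3 * s^3 + c4 * s^4 + c5 * s^5 + c6 * s^6 + c7 * s^7 + c8 * s^8 + c9 * s^9 + c10 * s^10) =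
      ((a0 * a0) - 12 * (a0 * b0) + 14 * (a0 * c0) + 12 * (b0 * c0) + (c0 * c0)) + ((a0 * a1 + a1 * a0) - 12 * (a0 * b1 + a1 * b0) + 14 * (a0 * c1 + a1 * c0) + 12 * (b0 * c1 + b1 * c0) + (c0 * c1 + c1 * c0)) * s + ((a0 * a2 + a1 * a1 + a2 * a0) - 12 * (a0 * b2 + a1 * b1 + a2 * b0) + 14 * (a0 * c2 + a1 * c1 + a2 * c0) + 12 * (b0 * c2 + b1 * c1 + b2 * c0) + (c0 * c2 + c1 * c1 + c2 * c0)) * s^2 + ((a0 * a3 + a1 * a2 + a2 * a1 + a3 * a0) - 12 * (a0 * b3 + a1 * b2 + a2 * b1 + a3 * b0) + 14 * (a0 * c3 + a1 * c2 + a2 * c1 + a3 * c0) + 12 * (b0 * c3 + b1 * c2 + b2 * c1 + b3 * c0) + (c0 * c3 + c1 * c2 + c2 * c1 + c3 * c0)) * s^3 + ((a0 * a4 + a1 * a3 + a2 * a2 + a3 * a1 + a4 * a0) - 12 * (a0 * b4 + a1 * b3 + a2 * b2 + a3 * b1 + a4 * b0) + 14 * (a0 * c4 + a1 * c3 + a2 * c2 + a3 * c1 + a4 * c0) + 12 * (b0 * c4 + b1 * c3 + b2 * c2 + b3 * c1 + b4 * c0)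 + (c0 * c4 + c1 * c3 + c2 * c2 + c3 * c1 + c4 * c0)) * s^4 + ((a0 * a5 + a1 * a4 + a2 * a3 + a3 * a2 + a4 * a1 + a5 * a0) - 12 * (a0 * b5 + a1 * b4 + a2 * b3 + a3 * b2 + a4 * b1 + a5 * b0) + 14 * (a0 * c5 + a1 * c4 + a2 * c3 + a3 * c2 + a4 * c1 + a5 * c0) + 12 * (b0 * c5 + b1 * c4 + b2 * c3 + b3 * c2 + b4 * c1 + b5 * c0) + (c0 * c5 + c1 * c4 + c2 * c3 + c3 * c2 + c4 * c1 + c5 * c0)) * s^5 + ((a0 * a6 + a1 * a5 + a2 * a4 + a3 * a3 + a4 * a2 + a5 * a1 + a6 * a0) - 12 * (a0 * b6 + a1 * b5 + a2 * b4 + a3 * b3 + a4 * b2 + a5 * b1 + a6 * b0) + 14 * (a0 * c6 + a1 * c5 + a2 * c4 + a3 * c3 + a4 * c2 + a5 * c1 + a6 * c0) + 12 * (b0 * c6 + b1 * c5 + b2 * c4 + b3 * c3 + b4 * c2 + b5 * c1 + b6 * c0) + (c0 * c6 + c1 * c5 + c2 * c4 + c3 * c3 + c4 * c2 + c5 * c1 + c6 * c0)) * s^6 + ((a0 * a7 + a1 * a6 + a2 * a5 + a3 * a4 + a4 * a3 + a5 * a2 + a6 * a1 + a7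 * a0) - 12 * (a0 * b7 + a1 * b6 + a2 * b5 + a3 * b4 + a4 * b3 + a5 * b2 + a6 * b1 + a7 * b0) + 14 * (a0 * c7 + a1 * c6 + a2 * c5 + a3 * c4 + a4 * c3 + a5 * c2 + a6 * c1 + a7 * c0) + 12 * (b0 * c7 + b1 * c6 + b2 * c5 + b3 * c4 + b4 * c3 + b5 * c2 + b6 * c1 + b7 * c0) + (c0 * c7 + c1 * c6 + c2 * c5 + c3 * c4 + c4 * c3 + c5 * c2 + c6 * c1 + c7 * c0)) * s^7 + ((a0 * a8 + a1 * a7 + a2 * a6 + a3 * a5 + a4 * a4 + a5 * a3 + a6 * a2 + a7 * a1 + a8 * a0) - 12 * (a0 * b8 + a1 * b7 + a2 * b6 + a3 * b5 + a4 * b4 + a5 * b3 + a6 * b2 + a7 * b1 + a8 * b0) + 14 * (a0 * c8 + a1 * c7 + a2 * c6 + a3 * c5 + a4 * c4 + a5 * c3 + a6 * c2 + a7 * c1 + a8 * c0) + 12 * (b0 * c8 + b1 * c7 + b2 * c6 + b3 * c5 + b4 * c4 + b5 * c3 + b6 * c2 + b7 * c1 + b8 * c0) + (c0 * c8 + c1 * c7 + c2 * c6 + c3 * c5 + c4 * c4 + c5 * c3 + c6 * c2 + c7 * c1 + c8 * c0)) * s^8 + ((a0 * a9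 + a1 * a8 + a2 * a7 + a3 * a6 + a4 * a5 + a5 * a4 + a6 * a3 + a7 * a2 + a8 * a1 + a9 * a0) - 12 * (a0 * b9 + a1 * b8 + a2 * b7 + a3 * b6 + a4 * b5 + a5 * b4 + a6 * b3 + a7 * b2 + a8 * b1 + a9 * b0) + 14 * (a0 * c9 + a1 * c8 + a2 * c7 + a3 * c6 + a4 * c5 + a5 * c4 + a6 * c3 + a7 * c2 + a8 * c1 + a9 * c0) + 12 * (b0 * c9 + b1 * c8 + b2 * c7 + b3 * c6 + b4 * c5 + b5 * c4 + b6 * c3 + b7 * c2 + b8 * c1 + b9 * c0) + (c0 * c9 + c1 * c8 + c2 * c7 + c3 * c6 + c4 * c5 + c5 * c4 + c6 * c3 + c7 * c2 + c8 * c1 + c9 * c0)) * s^9 + ((a0 * a10 + a1 * a9 + a2 * a8 + a3 * a7 + a4 * a6 + a5 * a5 + a6 * a4 + a7 * a3 + a8 * a2 + a9 * a1 + a10 * a0) - 12 * (a0 * b10 + a1 * b9 + a2 * b8 + a3 * b7 + a4 * b6 + a5 * b5 + a6 * b4 + a7 * b3 + a8 * b2 + a9 * b1 + a10 * b0) + 14 * (a0 * c10 + a1 * c9 + a2 * c8 + a3 * c7 + a4 * c6 + a5 * c5 + a6 * c4 + a7 * c3 + a8 * c2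 + a9 * c1 + a10 * c0) + 12 * (b0 * c10 + b1 * c9 + b2 * c8 + b3 * c7 + b4 * c6 + b5 * c5 + b6 * c4 + b7 * c3 + b8 * c2 + b9 * c1 + b10 * c0) + (c0 * c10 + c1 * c9 + c2 * c8 + c3 * c7 + c4 * c6 + c5 * c5 + c6 * c4 + c7 * c3 + c8 * c2 + c9 * c1 + c10 * c0)) * s^10 + ((a1 * a10 + a2 * a9 + a3 * a8 + a4 * a7 + a5 * a6 + a6 * a5 + a7 * a4 + a8 * a3 + a9 * a2 + a10 * a1) - 12 * (a1 * b10 + a2 * b9 + a3 * b8 + a4 * b7 + a5 * b6 + a6 * b5 + a7 * b4 + a8 * b3 + a9 * b2 + a10 * b1) + 14 * (a1 * c10 + a2 * c9 + a3 * c8 + a4 * c7 + a5 * c6 + a6 * c5 + a7 * c4 + a8 * c3 + a9 * c2 + a10 * c1) + 12 * (b1 * c10 + b2 * c9 + b3 * c8 + b4 * c7 + b5 * c6 + b6 * c5 + b7 * c4 + b8 * c3 + b9 * c2 + b10 * c1) + (c1 * c10 + c2 * c9 + c3 * c8 + c4 * c7 + c5 * c6 + c6 * c5 + c7 * c4 + c8 * c3 + c9 * c2 + c10 * c1)) * s^11 + ((a2 * a10 + a3 * a9 + a4 * a8 + a5 * a7 +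 a6 * a6 + a7 * a5 + a8 * a4 + a9 * a3 + a10 * a2) - 12 * (a2 * b10 + a3 * b9 + a4 * b8 + a5 * b7 + a6 * b6 + a7 * b5 + a8 * b4 + a9 * b3 + a10 * b2) + 14 * (a2 * c10 + a3 * c9 + a4 * c8 + a5 * c7 + a6 * c6 + a7 * c5 + a8 * c4 + a9 * c3 + a10 * c2) + 12 * (b2 * c10 + b3 * c9 + b4 * c8 + b5 * c7 + b6 * c6 + b7 * c5 + b8 * c4 + b9 * c3 + b10 * c2) + (c2 * c10 + c3 * c9 + c4 * c8 + c5 * c7 + c6 * c6 + c7 * c5 + c8 * c4 + c9 * c3 + c10 * c2)) * s^12 + ((a3 * a10 + a4 * a9 + a5 * a8 + a6 * a7 + a7 * a6 + a8 * a5 + a9 * a4 + a10 * a3) - 12 * (a3 * b10 + a4 * b9 + a5 * b8 + a6 * b7 + a7 * b6 + a8 * b5 + a9 * b4 + a10 * b3) + 14 * (a3 * c10 + a4 * c9 + a5 * c8 + a6 * c7 + a7 * c6 + a8 * c5 + a9 * c4 + a10 * c3) + 12 * (b3 * c10 + b4 * c9 + b5 * c8 + b6 * c7 + b7 * c6 + b8 * c5 + b9 * c4 + b10 * c3) + (c3 * c10 + c4 * c9 + c5 * c8 + c6 * c7 + c7 * c6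 + c8 * c5 + c9 * c4 + c10 * c3)) * s^13 + ((a4 * a10 + a5 * a9 + a6 * a8 + a7 * a7 + a8 * a6 + a9 * a5 + a10 * a4) - 12 * (a4 * b10 + a5 * b9 + a6 * b8 + a7 * b7 + a8 * b6 + a9 * b5 + a10 * b4) + 14 * (a4 * c10 + a5 * c9 + a6 * c8 + a7 * c7 + a8 * c6 + a9 * c5 + a10 * c4) + 12 * (b4 * c10 + b5 * c9 + b6 * c8 + b7 * c7 + b8 * c6 + b9 * c5 + b10 * c4) + (c4 * c10 + c5 * c9 + c6 * c8 + c7 * c7 + c8 * c6 + c9 * c5 + c10 * c4)) * s^14 + ((a5 * a10 + a6 * a9 + a7 * a8 + a8 * a7 + a9 * a6 + a10 * a5) - 12 * (a5 * b10 + a6 * b9 + a7 * b8 + a8 * b7 + a9 * b6 + a10 * b5) + 14 * (a5 * c10 + a6 * c9 + a7 * c8 + a8 * c7 + a9 * c6 + a10 * c5) + 12 * (b5 * c10 + b6 * c9 + b7 * c8 + b8 * c7 + b9 * c6 + b10 * c5) + (c5 * c10 + c6 * c9 + c7 * c8 + c8 * c7 + c9 * c6 + c10 * c5)) * s^15 + ((a6 * a10 + a7 * a9 + a8 * a8 + a9 * a7 + a10 * a6) - 12 * (a6 * b10 +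 a7 * b9 + a8 * b8 + a9 * b7 + a10 * b6) + 14 * (a6 * c10 + a7 * c9 + a8 * c8 + a9 * c7 + a10 * c6) + 12 * (b6 * c10 + b7 * c9 + b8 * c8 + b9 * c7 + b10 * c6) + (c6 * c10 + c7 * c9 + c8 * c8 + c9 * c7 + c10 * c6)) * s^16 + ((a7 * a10 + a8 * a9 + a9 * a8 + a10 * a7) - 12 * (a7 * b10 + a8 * b9 + a9 * b8 + a10 * b7) + 14 * (a7 * c10 + a8 * c9 + a9 * c8 + a10 * c7) + 12 * (b7 * c10 + b8 * c9 + b9 * c8 + b10 * c7) + (c7 * c10 + c8 * c9 + c9 * c8 + c10 * c7)) * s^17 + ((a8 * a10 + a9 * a9 + a10 * a8) - 12 * (a8 * b10 + a9 * b9 + a10 * b8) + 14 * (a8 * c10 + a9 * c9 + a10 * c8) + 12 * (b8 * c10 + b9 * c9 + b10 * c8) + (c8 * c10 + c9 * c9 + c10 * c8)) * s^18 + ((a9 * a10 + a10 * a9) - 12 * (a9 * b10 + a10 * b9) + 14 * (a9 * c10 + a10 * c9) + 12 * (b9 * c10 + b10 * c9) + (c9 * c10 + c10 * c9)) * s^19 + ((a10 * a10) - 12 * (a10 * b10) + 14 * (a10 * c10)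 + 12 * (b10 * c10) + (c10 * c10)) * s^20 := by
  ring

/-- Generic expansion of `A² - 18AB + 74AC + 18BC + C²` for polynomials of degree `≤ 10` in `s`. -/
theorem comb6 (a0 a1 a2 a3 a4 a5 a6 a7 a8 a9 a10 b0 b1 b2 b3 b4 b5 b6 b7 b8 b9 b10 c0 c1 c2 c3 c4 c5 c6 c7 c8 c9 c10 s : R) :
    (a0 + a1 * s + a2 * s^2 + a3 * s^3 + a4 * s^4 + a5 * s^5 + a6 * s^6 + a7 * s^7 + a8 * s^8 + a9 * s^9 + a10 * s^10) * (a0 + a1 * s + a2 * s^2 + a3 * s^3 + a4 * s^4 + a5 * s^5 + a6 * s^6 + a7 * s^7 + a8 * s^8 + a9 * s^9 + a10 * s^10) - 18 * ((a0 + a1 * s + a2 * s^2 + a3 * s^3 + a4 * s^4 + a5 * s^5 + a6 * s^6 + a7 * s^7 + a8 * s^8 + a9 * s^9 + a10 * s^10) * (b0 + b1 * s + b2 * s^2 + b3 * s^3 + b4 * s^4 + b5 * s^5 + b6 * s^6 + b7 * s^7 + b8 * s^8 + b9 * s^9 + b10 * s^10)) + 74 * ((a0 + a1 * s + a2 * s^2 + a3 * s^3 + a4 * s^4 + a5 * s^5 + a6 * s^6 + a7 * s^7 + a8 *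 s^8 + a9 * s^9 + a10 * s^10) * (c0 + c1 * s + c2 * s^2 + c3 * s^3 + c4 * s^4 + c5 * s^5 + c6 * s^6 + c7 * s^7 + c8 * s^8 + c9 * s^9 + c10 * s^10)) + 18 * ((b0 + b1 * s + b2 * s^2 + b3 * s^3 + b4 * s^4 + b5 * s^5 + b6 * s^6 + b7 * s^7 + b8 * s^8 + b9 * s^9 + b10 * s^10) * (c0 + c1 * s + c2 * s^2 + c3 * s^3 + c4 * s^4 + c5 * s^5 + c6 * s^6 + c7 * s^7 + c8 * s^8 + c9 * s^9 + c10 * s^10)) + (c0 + c1 * s + c2 * s^2 + c3 * s^3 + c4 * s^4 + c5 * s^5 + c6 * s^6 + c7 * s^7 + c8 * s^8 + c9 * s^9 + c10 * s^10) * (c0 + c1 * s + c2 * s^2 + c3 * s^3 + c4 * s^4 + c5 * s^5 + c6 * s^6 + c7 * s^7 + c8 * s^8 + c9 * s^9 + c10 * s^10) =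
      ((a0 * a0) - 18 * (a0 * b0) + 74 * (a0 * c0) + 18 * (b0 * c0) + (c0 * c0)) + ((a0 * a1 + a1 * a0) - 18 * (a0 * b1 + a1 * b0) + 74 * (a0 * c1 + a1 * c0) + 18 * (b0 * c1 + b1 * c0) + (c0 * c1 + c1 * c0)) * s + ((a0 * a2 + a1 * a1 + a2 * a0) - 18 * (a0 * b2 + a1 * b1 + a2 * b0) + 74 * (a0 * c2 + a1 * c1 + a2 * c0) + 18 * (b0 * c2 + b1 * c1 + b2 * c0) + (c0 * c2 + c1 * c1 + c2 * c0)) * s^2 + ((a0 * a3 + a1 * a2 + a2 * a1 + a3 * a0) - 18 * (a0 * b3 + a1 * b2 + a2 * b1 + a3 * b0) + 74 * (a0 * c3 + a1 * c2 + a2 * c1 + a3 * c0) + 18 * (b0 * c3 + b1 * c2 + b2 * c1 + b3 * c0) + (c0 * c3 + c1 * c2 + c2 * c1 + c3 * c0)) * s^3 + ((a0 * a4 + a1 * a3 + a2 * a2 + a3 * a1 + a4 * a0) - 18 * (a0 * b4 + a1 * b3 + a2 * b2 + a3 * b1 + a4 * b0) + 74 * (a0 * c4 + a1 * c3 + a2 * c2 + a3 * c1 + a4 * c0) + 18 * (b0 * c4 + b1 * c3 + b2 * c2 + b3 * c1 + b4 * c0)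 + (c0 * c4 + c1 * c3 + c2 * c2 + c3 * c1 + c4 * c0)) * s^4 + ((a0 * a5 + a1 * a4 + a2 * a3 + a3 * a2 + a4 * a1 + a5 * a0) - 18 * (a0 * b5 + a1 * b4 + a2 * b3 + a3 * b2 + a4 * b1 + a5 * b0) + 74 * (a0 * c5 + a1 * c4 + a2 * c3 + a3 * c2 + a4 * c1 + a5 * c0) + 18 * (b0 * c5 + b1 * c4 + b2 * c3 + b3 * c2 + b4 * c1 + b5 * c0) + (c0 * c5 + c1 * c4 + c2 * c3 + c3 * c2 + c4 * c1 + c5 * c0)) * s^5 + ((a0 * a6 + a1 * a5 + a2 * a4 + a3 * a3 + a4 * a2 + a5 * a1 + a6 * a0) - 18 * (a0 * b6 + a1 * b5 + a2 * b4 + a3 * b3 + a4 * b2 + a5 * b1 + a6 * b0) + 74 * (a0 * c6 + a1 * c5 + a2 * c4 + a3 * c3 + a4 * c2 + a5 * c1 + a6 * c0) + 18 * (b0 * c6 + b1 * c5 + b2 * c4 + b3 * c3 + b4 * c2 + b5 * c1 + b6 * c0) + (c0 * c6 + c1 * c5 + c2 * c4 + c3 * c3 + c4 * c2 + c5 * c1 + c6 * c0)) * s^6 + ((a0 * a7 + a1 * a6 + a2 * a5 + a3 * a4 + a4 * a3 + a5 * a2 + a6 * a1 + a7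 * a0) - 18 * (a0 * b7 + a1 * b6 + a2 * b5 + a3 * b4 + a4 * b3 + a5 * b2 + a6 * b1 + a7 * b0) + 74 * (a0 * c7 + a1 * c6 + a2 * c5 + a3 * c4 + a4 * c3 + a5 * c2 + a6 * c1 + a7 * c0) + 18 * (b0 * c7 + b1 * c6 + b2 * c5 + b3 * c4 + b4 * c3 + b5 * c2 + b6 * c1 + b7 * c0) + (c0 * c7 + c1 * c6 + c2 * c5 + c3 * c4 + c4 * c3 + c5 * c2 + c6 * c1 + c7 * c0)) * s^7 + ((a0 * a8 + a1 * a7 + a2 * a6 + a3 * a5 + a4 * a4 + a5 * a3 + a6 * a2 + a7 * a1 + a8 * a0) - 18 * (a0 * b8 + a1 * b7 + a2 * b6 + a3 * b5 + a4 * b4 + a5 * b3 + a6 * b2 + a7 * b1 + a8 * b0) + 74 * (a0 * c8 + a1 * c7 + a2 * c6 + a3 * c5 + a4 * c4 + a5 * c3 + a6 * c2 + a7 * c1 + a8 * c0) + 18 * (b0 * c8 + b1 * c7 + b2 * c6 + b3 * c5 + b4 * c4 + b5 * c3 + b6 * c2 + b7 * c1 + b8 * c0) + (c0 * c8 + c1 * c7 + c2 * c6 + c3 * c5 + c4 * c4 + c5 * c3 + c6 * c2 + c7 * c1 + c8 * c0)) * s^8 + ((a0 * a9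 + a1 * a8 + a2 * a7 + a3 * a6 + a4 * a5 + a5 * a4 + a6 * a3 + a7 * a2 + a8 * a1 + a9 * a0) - 18 * (a0 * b9 + a1 * b8 + a2 * b7 + a3 * b6 + a4 * b5 + a5 * b4 + a6 * b3 + a7 * b2 + a8 * b1 + a9 * b0) + 74 * (a0 * c9 + a1 * c8 + a2 * c7 + a3 * c6 + a4 * c5 + a5 * c4 + a6 * c3 + a7 * c2 + a8 * c1 + a9 * c0) + 18 * (b0 * c9 + b1 * c8 + b2 * c7 + b3 * c6 + b4 * c5 + b5 * c4 + b6 * c3 + b7 * c2 + b8 * c1 + b9 * c0) + (c0 * c9 + c1 * c8 + c2 * c7 + c3 * c6 + c4 * c5 + c5 * c4 + c6 * c3 + c7 * c2 + c8 * c1 + c9 * c0)) * s^9 + ((a0 * a10 + a1 * a9 + a2 * a8 + a3 * a7 + a4 * a6 + a5 * a5 + a6 * a4 + a7 * a3 + a8 * a2 + a9 * a1 + a10 * a0) - 18 * (a0 * b10 + a1 * b9 + a2 * b8 + a3 * b7 + a4 * b6 + a5 * b5 + a6 * b4 + a7 * b3 + a8 * b2 + a9 * b1 + a10 * b0) + 74 * (a0 * c10 + a1 * c9 + a2 * c8 + a3 * c7 + a4 * c6 + a5 * c5 + a6 * c4 + a7 * c3 + a8 * c2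 + a9 * c1 + a10 * c0) + 18 * (b0 * c10 + b1 * c9 + b2 * c8 + b3 * c7 + b4 * c6 + b5 * c5 + b6 * c4 + b7 * c3 + b8 * c2 + b9 * c1 + b10 * c0) + (c0 * c10 + c1 * c9 + c2 * c8 + c3 * c7 + c4 * c6 + c5 * c5 + c6 * c4 + c7 * c3 + c8 * c2 + c9 * c1 + c10 * c0)) * s^10 + ((a1 * a10 + a2 * a9 + a3 * a8 + a4 * a7 + a5 * a6 + a6 * a5 + a7 * a4 + a8 * a3 + a9 * a2 + a10 * a1) - 18 * (a1 * b10 + a2 * b9 + a3 * b8 + a4 * b7 + a5 * b6 + a6 * b5 + a7 * b4 + a8 * b3 + a9 * b2 + a10 * b1) + 74 * (a1 * c10 + a2 * c9 + a3 * c8 + a4 * c7 + a5 * c6 + a6 * c5 + a7 * c4 + a8 * c3 + a9 * c2 + a10 * c1) + 18 * (b1 * c10 + b2 * c9 + b3 * c8 + b4 * c7 + b5 * c6 + b6 * c5 + b7 * c4 + b8 * c3 + b9 * c2 + b10 * c1) + (c1 * c10 + c2 * c9 + c3 * c8 + c4 * c7 + c5 * c6 + c6 * c5 + c7 * c4 + c8 * c3 + c9 * c2 + c10 * c1)) * s^11 + ((a2 * a10 + a3 * a9 + a4 * a8 + a5 * a7 +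 a6 * a6 + a7 * a5 + a8 * a4 + a9 * a3 + a10 * a2) - 18 * (a2 * b10 + a3 * b9 + a4 * b8 + a5 * b7 + a6 * b6 + a7 * b5 + a8 * b4 + a9 * b3 + a10 * b2) + 74 * (a2 * c10 + a3 * c9 + a4 * c8 + a5 * c7 + a6 * c6 + a7 * c5 + a8 * c4 + a9 * c3 + a10 * c2) + 18 * (b2 * c10 + b3 * c9 + b4 * c8 + b5 * c7 + b6 * c6 + b7 * c5 + b8 * c4 + b9 * c3 + b10 * c2) + (c2 * c10 + c3 * c9 + c4 * c8 + c5 * c7 + c6 * c6 + c7 * c5 + c8 * c4 + c9 * c3 + c10 * c2)) * s^12 + ((a3 * a10 + a4 * a9 + a5 * a8 + a6 * a7 + a7 * a6 + a8 * a5 + a9 * a4 + a10 * a3) - 18 * (a3 * b10 + a4 * b9 + a5 * b8 + a6 * b7 + a7 * b6 + a8 * b5 + a9 * b4 + a10 * b3) + 74 * (a3 * c10 + a4 * c9 + a5 * c8 + a6 * c7 + a7 * c6 + a8 * c5 + a9 * c4 + a10 * c3) + 18 * (b3 * c10 + b4 * c9 + b5 * c8 + b6 * c7 + b7 * c6 + b8 * c5 + b9 * c4 + b10 * c3) + (c3 * c10 + c4 * c9 + c5 * c8 + c6 * c7 + c7 * c6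 + c8 * c5 + c9 * c4 + c10 * c3)) * s^13 + ((a4 * a10 + a5 * a9 + a6 * a8 + a7 * a7 + a8 * a6 + a9 * a5 + a10 * a4) - 18 * (a4 * b10 + a5 * b9 + a6 * b8 + a7 * b7 + a8 * b6 + a9 * b5 + a10 * b4) + 74 * (a4 * c10 + a5 * c9 + a6 * c8 + a7 * c7 + a8 * c6 + a9 * c5 + a10 * c4) + 18 * (b4 * c10 + b5 * c9 + b6 * c8 + b7 * c7 + b8 * c6 + b9 * c5 + b10 * c4) + (c4 * c10 + c5 * c9 + c6 * c8 + c7 * c7 + c8 * c6 + c9 * c5 + c10 * c4)) * s^14 + ((a5 * a10 + a6 * a9 + a7 * a8 + a8 * a7 + a9 * a6 + a10 * a5) - 18 * (a5 * b10 + a6 * b9 + a7 * b8 + a8 * b7 + a9 * b6 + a10 * b5) + 74 * (a5 * c10 + a6 * c9 + a7 * c8 + a8 * c7 + a9 * c6 + a10 * c5) + 18 * (b5 * c10 + b6 * c9 + b7 * c8 + b8 * c7 + b9 * c6 + b10 * c5) + (c5 * c10 + c6 * c9 + c7 * c8 + c8 * c7 + c9 * c6 + c10 * c5)) * s^15 + ((a6 * a10 + a7 * a9 + a8 * a8 + a9 * a7 + a10 * a6) - 18 * (a6 * b10 +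 a7 * b9 + a8 * b8 + a9 * b7 + a10 * b6) + 74 * (a6 * c10 + a7 * c9 + a8 * c8 + a9 * c7 + a10 * c6) + 18 * (b6 * c10 + b7 * c9 + b8 * c8 + b9 * c7 + b10 * c6) + (c6 * c10 + c7 * c9 + c8 * c8 + c9 * c7 + c10 * c6)) * s^16 + ((a7 * a10 + a8 * a9 + a9 * a8 + a10 * a7) - 18 * (a7 * b10 + a8 * b9 + a9 * b8 + a10 * b7) + 74 * (a7 * c10 + a8 * c9 + a9 * c8 + a10 * c7) + 18 * (b7 * c10 + b8 * c9 + b9 * c8 + b10 * c7) + (c7 * c10 + c8 * c9 + c9 * c8 + c10 * c7)) * s^17 + ((a8 * a10 + a9 * a9 + a10 * a8) - 18 * (a8 * b10 + a9 * b9 + a10 * b8) + 74 * (a8 * c10 + a9 * c9 + a10 * c8) + 18 * (b8 * c10 + b9 * c9 + b10 * c8) + (c8 * c10 + c9 * c9 + c10 * c8)) * s^18 + ((a9 * a10 + a10 * a9) - 18 * (a9 * b10 + a10 * b9) + 74 * (a9 * c10 + a10 * c9) + 18 * (b9 * c10 + b10 * c9) + (c9 * c10 + c10 * c9)) * s^19 + ((a10 * a10) - 18 * (a10 * b10) + 74 * (a10 * c10)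 + 18 * (b10 * c10) + (c10 * c10)) * s^20 := by
  ring

theorem e4_0 (d : R) : (aP0 d * aP0 d) - 12 * (aP0 d * bP0 d) + 14 * (aP0 d * cP0 d) + 12 * (bP0 d * cP0 d) + (cP0 d * cP0 d) = fam4c0 (c4T d) (c6T d) := by
  simp only [fam4c0, c4T, c6T, aP0, aP1, aP2, aP3, aP4, aP5, aP6, aP7, aP8, aP9, aP10, bP0, bP1, bP2, bP3, bP4, bP5, bP6, bP7, bP8, bP9, bP10, cP0, cP1, cP2, cP3, cP4, cP5, cP6, cP7, cP8, cP9, cP10]
  ring

theorem e4_1 (d : R) : (aP0 d * aP1 d + aP1 d * aP0 d) - 12 * (aP0 d * bP1 d + aP1 d * bP0 d) + 14 * (aP0 d * cP1 d + aP1 d * cP0 d) + 12 * (bP0 d * cP1 d + bP1 d * cP0 d) + (cP0 d * cP1 d + cP1 d * cP0 d) = fam4c1 (c4T d) (c6T d) := by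
  simp only [fam4c1, c4T, c6T, aP0, aP1, aP2, aP3, aP4, aP5, aP6, aP7, aP8, aP9, aP10, bP0, bP1, bP2, bP3, bP4, bP5, bP6, bP7, bP8, bP9, bP10, cP0, cP1, cP2, cP3, cP4, cP5, cP6, cP7, cP8, cP9, cP10]
  ring

theorem e4_2 (d : R) : (aP0 d * aP2 d + aP1 d * aP1 d + aP2 d * aP0 d) - 12 * (aP0 d * bP2 d + aP1 d * bP1 d + aP2 d * bP0 d) + 14 * (aP0 d * cP2 d + aP1 d * cP1 d + aP2 d * cP0 d) + 12 * (bP0 d * cP2 d + bP1 d * cP1 d + bP2 d * cP0 d) + (cP0 d * cP2 d + cP1 d * cP1 d + cP2 d * cP0 d) = fam4c2 (c4T d) (c6T d) := by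
  simp only [fam4c2, c4T, c6T, aP0, aP1, aP2, aP3, aP4, aP5, aP6, aP7, aP8, aP9, aP10, bP0, bP1, bP2, bP3, bP4, bP5, bP6, bP7, bP8, bP9, bP10, cP0, cP1, cP2, cP3, cP4, cP5, cP6, cP7, cP8, cP9, cP10]
  ring

theorem e4_3 (d : R) : (aP0 d * aP3 d + aP1 d * aP2 d + aP2 d * aP1 d + aP3 d * aP0 d) - 12 * (aP0 d * bP3 d + aP1 d * bP2 d + aP2 d * bP1 d + aP3 d * bP0 d) + 14 * (aP0 d * cP3 d + aP1 d * cP2 d + aP2 d * cP1 d + aP3 d * cP0 d) + 12 * (bP0 d * cP3 d + bP1 d * cP2 d + bP2 d * cP1 d + bP3 d * cP0 d) + (cP0 d * cP3 d + cP1 d * cP2 d + cP2 d * cP1 d + cP3 d * cP0 d) = fam4c3 (c4T d) (c6T d) := by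
  simp only [fam4c3, c4T, c6T, aP0, aP1, aP2, aP3, aP4, aP5, aP6, aP7, aP8, aP9, aP10, bP0, bP1, bP2, bP3, bP4, bP5, bP6, bP7, bP8, bP9, bP10, cP0, cP1, cP2, cP3, cP4, cP5, cP6, cP7, cP8, cP9, cP10]
  ring

theorem e4_4 (d : R) : (aP0 d * aP4 d + aP1 d * aP3 d + aP2 d * aP2 d + aP3 d * aP1 d + aP4 d * aP0 d) - 12 * (aP0 d * bP4 d + aP1 d * bP3 d + aP2 d * bP2 d + aP3 d * bP1 d + aP4 d * bP0 d) + 14 * (aP0 d * cP4 d + aP1 d * cP3 d + aP2 d * cP2 d + aP3 d * cP1 d + aP4 d * cP0 d) + 12 * (bP0 d * cP4 d + bP1 d * cP3 d + bP2 d * cP2 d + bP3 d * cP1 d + bP4 d * cP0 d) + (cP0 d * cP4 d + cP1 d * cP3 d + cP2 d * cP2 d + cP3 d * cP1 d + cP4 d * cP0 d) = fam4c4 (c4T d) (c6T d) := by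
  simp only [fam4c4, c4T, c6T, aP0, aP1, aP2, aP3, aP4, aP5, aP6, aP7, aP8, aP9, aP10, bP0, bP1, bP2, bP3, bP4, bP5, bP6, bP7, bP8, bP9, bP10, cP0, cP1, cP2, cP3, cP4, cP5, cP6, cP7, cP8, cP9, cP10]
  ring

theorem e4_5 (d : R) : (aP0 d * aP5 d + aP1 d * aP4 d + aP2 d * aP3 d + aP3 d * aP2 d + aP4 d * aP1 d + aP5 d * aP0 d) - 12 * (aP0 d * bP5 d + aP1 d * bP4 d + aP2 d * bP3 d + aP3 d * bP2 d + aP4 d * bP1 d + aP5 d * bP0 d) + 14 * (aP0 d * cP5 d + aP1 d * cP4 d + aP2 d * cP3 d + aP3 d * cP2 d + aP4 d * cP1 d + aP5 d * cP0 d) + 12 * (bP0 d * cP5 d + bP1 d * cP4 d + bP2 d * cP3 d + bP3 d * cP2 d + bP4 d * cP1 d + bP5 d * cP0 d) + (cP0 d * cP5 d + cP1 d * cP4 d + cP2 d * cP3 d + cP3 d * cP2 d + cP4 d * cP1 d + cP5 d * cP0 d) = fam4c5 (c4T d) (c6T d) := by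
  simp only [fam4c5, c4T, c6T, aP0, aP1, aP2, aP3, aP4, aP5, aP6, aP7, aP8, aP9, aP10, bP0, bP1, bP2, bP3, bP4, bP5, bP6, bP7, bP8, bP9, bP10, cP0, cP1, cP2, cP3, cP4, cP5, cP6, cP7, cP8, cP9, cP10]
  ring

theorem e4_6 (d : R) : (aP0 d * aP6 d + aP1 d * aP5 d + aP2 d * aP4 d + aP3 d * aP3 d + aP4 d * aP2 d + aP5 d * aP1 d + aP6 d * aP0 d) - 12 * (aP0 d * bP6 d + aP1 d * bP5 d + aP2 d * bP4 d + aP3 d * bP3 d + aP4 d * bP2 d + aP5 d * bP1 d + aP6 d * bP0 d) + 14 * (aP0 d * cP6 d + aP1 d * cP5 d + aP2 d * cP4 d + aP3 d * cP3 d + aP4 d * cP2 d + aP5 d * cP1 d + aP6 d * cP0 d) + 12 * (bP0 d * cP6 d + bP1 d * cP5 d + bP2 d * cP4 d + bP3 d * cP3 d + bP4 d * cP2 d + bP5 d * cP1 d + bP6 d * cP0 d) + (cP0 d * cP6 d + cP1 d * cP5 d + cP2 d * cP4 d + cP3 d * cP3 d + cP4 d * cP2 d + cP5 d * cP1 d + cP6 d * cP0 d) = fam4c6 (c4T d) (c6T d) := by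
  simp only [fam4c6, c4T, c6T, aP0, aP1, aP2, aP3, aP4, aP5, aP6, aP7, aP8, aP9, aP10, bP0, bP1, bP2, bP3, bP4, bP5, bP6, bP7, bP8, bP9, bP10, cP0, cP1, cP2, cP3, cP4, cP5, cP6, cP7, cP8, cP9, cP10]
  ring

theorem e4_7 (d : R) : (aP0 d * aP7 d + aP1 d * aP6 d + aP2 d * aP5 d + aP3 d * aP4 d + aP4 d * aP3 d + aP5 d * aP2 d + aP6 d * aP1 d + aP7 d * aP0 d) - 12 * (aP0 d * bP7 d + aP1 d * bP6 d + aP2 d * bP5 d + aP3 d * bP4 d + aP4 d * bP3 d + aP5 d * bP2 d + aP6 d * bP1 d + aP7 d * bP0 d) + 14 * (aP0 d * cP7 d + aP1 d * cP6 d + aP2 d * cP5 d + aP3 d * cP4 d + aP4 d * cP3 d + aP5 d * cP2 d + aP6 d * cP1 d + aP7 d * cP0 d) + 12 * (bP0 d * cP7 d + bP1 d * cP6 d + bP2 d * cP5 d + bP3 d * cP4 d + bP4 d * cP3 d + bP5 d * cP2 d + bP6 d * cP1 d + bP7 d * cP0 d) + (cP0 d * cP7 d + cP1 d * cP6 d + cP2 d * cP5 d + cP3 d * cP4 d + cP4 d * cP3 d + cP5 d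 * cP2 d + cP6 d * cP1 d + cP7 d * cP0 d) = fam4c7 (c4T d) (c6T d) := by
  simp only [fam4c7, c4T, c6T, aP0, aP1, aP2, aP3, aP4, aP5, aP6, aP7, aP8, aP9, aP10, bP0, bP1, bP2, bP3, bP4, bP5, bP6, bP7, bP8, bP9, bP10, cP0, cP1, cP2, cP3, cP4, cP5, cP6, cP7, cP8, cP9, cP10]
  ring

theorem e4_8 (d : R) : (aP0 d * aP8 d + aP1 d * aP7 d + aP2 d * aP6 d + aP3 d * aP5 d + aP4 d * aP4 d + aP5 d * aP3 d + aP6 d * aP2 d + aP7 d * aP1 d + aP8 d * aP0 d) - 12 * (aP0 d * bP8 d + aP1 d * bP7 d + aP2 d * bP6 d + aP3 d * bP5 d + aP4 d * bP4 d + aP5 d * bP3 d + aP6 d * bP2 d + aP7 d * bP1 d + aP8 d * bP0 d) + 14 * (aP0 d * cP8 d + aP1 d * cP7 d + aP2 d * cP6 d + aP3 d * cP5 d + aP4 d * cP4 d + aP5 d * cP3 d + aP6 d * cP2 d + aP7 d * cP1 d + aP8 d * cP0 d) + 12 * (bP0 d * cP8 d + bP1 d * cP7 d + bP2 d * cP6 d + bP3 d * cP5 d + bP4 d * cP4 d + bP5 d * cP3 d +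 bP6 d * cP2 d + bP7 d * cP1 d + bP8 d * cP0 d) + (cP0 d * cP8 d + cP1 d * cP7 d + cP2 d * cP6 d + cP3 d * cP5 d + cP4 d * cP4 d + cP5 d * cP3 d + cP6 d * cP2 d + cP7 d * cP1 d + cP8 d * cP0 d) = fam4c8 (c4T d) (c6T d) := by
  simp only [fam4c8, c4T, c6T, aP0, aP1, aP2, aP3, aP4, aP5, aP6, aP7, aP8, aP9, aP10, bP0, bP1, bP2, bP3, bP4, bP5, bP6, bP7, bP8, bP9, bP10, cP0, cP1, cP2, cP3, cP4, cP5, cP6, cP7, cP8, cP9, cP10]
  ring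

theorem e4_9 (d : R) : (aP0 d * aP9 d + aP1 d * aP8 d + aP2 d * aP7 d + aP3 d * aP6 d + aP4 d * aP5 d + aP5 d * aP4 d + aP6 d * aP3 d + aP7 d * aP2 d + aP8 d * aP1 d + aP9 d * aP0 d) - 12 * (aP0 d * bP9 d + aP1 d * bP8 d + aP2 d * bP7 d + aP3 d * bP6 d + aP4 d * bP5 d + aP5 d * bP4 d + aP6 d * bP3 d + aP7 d * bP2 d + aP8 d * bP1 d + aP9 d * bP0 d) + 14 * (aP0 d * cP9 d + aP1 d * cP8 d + aP2 d * cP7 d + aP3 d * cP6 d + aP4 d * cP5 d + aP5 d * cP4 d + aP6 d * cP3 d + aP7 d * cP2 d + aP8 d * cP1 d + aP9 d * cP0 d) + 12 * (bP0 d * cP9 d + bP1 d * cP8 d + bP2 d * cP7 d + bP3 d * cP6 d + bP4 d * cP5 d + bP5 d * cP4 d + bP6 d * cP3 d + bP7 d * cP2 d + bP8 d * cP1 d + bP9 d * cP0 d) + (cP0 d * cP9 d + cP1 d * cP8 d + cP2 d * cP7 d + cP3 d * cP6 d + cP4 d * cP5 d + cP5 d * cP4 d + cP6 d * cP3 d + cP7 d * cP2 d + cP8 d * cP1 d + cP9 d * cP0 d) = fam4c9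 (c4T d) (c6T d) := by
  simp only [fam4c9, c4T, c6T, aP0, aP1, aP2, aP3, aP4, aP5, aP6, aP7, aP8, aP9, aP10, bP0, bP1, bP2, bP3, bP4, bP5, bP6, bP7, bP8, bP9, bP10, cP0, cP1, cP2, cP3, cP4, cP5, cP6, cP7, cP8, cP9, cP10]
  ring

theorem e4_10 (d : R) : (aP0 d * aP10 d + aP1 d * aP9 d + aP2 d * aP8 d + aP3 d * aP7 d + aP4 d * aP6 d + aP5 d * aP5 d + aP6 d * aP4 d + aP7 d * aP3 d + aP8 d * aP2 d + aP9 d * aP1 d + aP10 d * aP0 d) - 12 * (aP0 d * bP10 d + aP1 d * bP9 d + aP2 d * bP8 d + aP3 d * bP7 d + aP4 d * bP6 d + aP5 d * bP5 d + aP6 d * bP4 d + aP7 d * bP3 d + aP8 d * bP2 d + aP9 d * bP1 d + aP10 d * bP0 d) + 14 * (aP0 d * cP10 d + aP1 d * cP9 d + aP2 d * cP8 d + aP3 d * cP7 d + aP4 d * cP6 d + aP5 d * cP5 d + aP6 d * cP4 d + aP7 d * cP3 d + aP8 d * cP2 d + aP9 d * cP1 d + aP10 d * cP0 d) + 12 * (bP0 d * cP10 d + bP1 d * cP9 d + bP2 d * cP8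 d + bP3 d * cP7 d + bP4 d * cP6 d + bP5 d * cP5 d + bP6 d * cP4 d + bP7 d * cP3 d + bP8 d * cP2 d + bP9 d * cP1 d + bP10 d * cP0 d) + (cP0 d * cP10 d + cP1 d * cP9 d + cP2 d * cP8 d + cP3 d * cP7 d + cP4 d * cP6 d + cP5 d * cP5 d + cP6 d * cP4 d + cP7 d * cP3 d + cP8 d * cP2 d + cP9 d * cP1 d + cP10 d * cP0 d) = fam4c10 (c4T d) (c6T d) := by
  simp only [fam4c10, c4T, c6T, aP0, aP1, aP2, aP3, aP4, aP5, aP6, aP7, aP8, aP9, aP10, bP0, bP1, bP2, bP3, bP4, bP5, bP6, bP7, bP8, bP9, bP10, cP0, cP1, cP2, cP3, cP4, cP5, cP6, cP7, cP8, cP9, cP10]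
  ring

theorem e4_11 (d : R) : (aP1 d * aP10 d + aP2 d * aP9 d + aP3 d * aP8 d + aP4 d * aP7 d + aP5 d * aP6 d + aP6 d * aP5 d + aP7 d * aP4 d + aP8 d * aP3 d + aP9 d * aP2 d + aP10 d * aP1 d) - 12 * (aP1 d * bP10 d + aP2 d * bP9 d + aP3 d * bP8 d + aP4 d * bP7 d + aP5 d * bP6 d + aP6 d * bP5 d + aP7 d * bP4 d + aP8 d * bP3 d + aP9 d * bP2 d + aP10 d * bP1 d) + 14 * (aP1 d * cP10 d + aP2 d * cP9 d + aP3 d * cP8 d + aP4 d * cP7 d + aP5 d * cP6 d + aP6 d * cP5 d + aP7 d * cP4 d + aP8 d * cP3 d + aP9 d * cP2 d + aP10 d * cP1 d) + 12 * (bP1 d * cP10 d + bP2 d * cP9 d + bP3 d * cP8 d + bP4 d * cP7 d + bP5 d * cP6 d + bP6 d * cP5 d + bP7 d * cP4 d + bP8 d * cP3 d + bP9 d * cP2 d + bP10 d * cP1 d) + (cP1 d * cP10 d + cP2 d * cP9 d + cP3 d * cP8 d + cP4 d * cP7 d + cP5 d * cP6 d + cP6 d * cP5 d + cP7 d * cP4 d + cP8 d * cP3 d + cP9 d * cP2 d + cP10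 d * cP1 d) = fam4c11 (c4T d) (c6T d) := by
  simp only [fam4c11, c4T, c6T, aP0, aP1, aP2, aP3, aP4, aP5, aP6, aP7, aP8, aP9, aP10, bP0, bP1, bP2, bP3, bP4, bP5, bP6, bP7, bP8, bP9, bP10, cP0, cP1, cP2, cP3, cP4, cP5, cP6, cP7, cP8, cP9, cP10]
  ring

theorem e4_12 (d : R) : (aP2 d * aP10 d + aP3 d * aP9 d + aP4 d * aP8 d + aP5 d * aP7 d + aP6 d * aP6 d + aP7 d * aP5 d + aP8 d * aP4 d + aP9 d * aP3 d + aP10 d * aP2 d) - 12 * (aP2 d * bP10 d + aP3 d * bP9 d + aP4 d * bP8 d + aP5 d * bP7 d + aP6 d * bP6 d + aP7 d * bP5 d + aP8 d * bP4 d + aP9 d * bP3 d + aP10 d * bP2 d) + 14 * (aP2 d * cP10 d + aP3 d * cP9 d + aP4 d * cP8 d + aP5 d * cP7 d + aP6 d * cP6 d + aP7 d * cP5 d + aP8 d * cP4 d + aP9 d * cP3 d + aP10 d * cP2 d) + 12 * (bP2 d * cP10 d + bP3 d * cP9 d + bP4 d * cP8 d + bP5 d * cP7 d + bP6 d * cP6 d + bP7 d * cP5 d + bP8 d * cP4 d + bP9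 d * cP3 d + bP10 d * cP2 d) + (cP2 d * cP10 d + cP3 d * cP9 d + cP4 d * cP8 d + cP5 d * cP7 d + cP6 d * cP6 d + cP7 d * cP5 d + cP8 d * cP4 d + cP9 d * cP3 d + cP10 d * cP2 d) = fam4c12 (c4T d) (c6T d) := by
  simp only [fam4c12, c4T, c6T, aP0, aP1, aP2, aP3, aP4, aP5, aP6, aP7, aP8, aP9, aP10, bP0, bP1, bP2, bP3, bP4, bP5, bP6, bP7, bP8, bP9, bP10, cP0, cP1, cP2, cP3, cP4, cP5, cP6, cP7, cP8, cP9, cP10]
  ring

theorem e4_13 (d : R) : (aP3 d * aP10 d + aP4 d * aP9 d + aP5 d * aP8 d + aP6 d * aP7 d + aP7 d * aP6 d + aP8 d * aP5 d + aP9 d * aP4 d + aP10 d * aP3 d) - 12 * (aP3 d * bP10 d + aP4 d * bP9 d + aP5 d * bP8 d + aP6 d * bP7 d + aP7 d * bP6 d + aP8 d * bP5 d + aP9 d * bP4 d + aP10 d * bP3 d) + 14 * (aP3 d * cP10 d + aP4 d * cP9 d + aP5 d * cP8 d + aP6 d * cP7 d + aP7 d * cP6 d + aP8 d * cP5 d + aP9 d * cP4 d + aP10 d * cP3 d) + 12 *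 (bP3 d * cP10 d + bP4 d * cP9 d + bP5 d * cP8 d + bP6 d * cP7 d + bP7 d * cP6 d + bP8 d * cP5 d + bP9 d * cP4 d + bP10 d * cP3 d) + (cP3 d * cP10 d + cP4 d * cP9 d + cP5 d * cP8 d + cP6 d * cP7 d + cP7 d * cP6 d + cP8 d * cP5 d + cP9 d * cP4 d + cP10 d * cP3 d) = fam4c13 (c4T d) (c6T d) := by
  simp only [fam4c13, c4T, c6T, aP0, aP1, aP2, aP3, aP4, aP5, aP6, aP7, aP8, aP9, aP10, bP0, bP1, bP2, bP3, bP4, bP5, bP6, bP7, bP8, bP9, bP10, cP0, cP1, cP2, cP3, cP4, cP5, cP6, cP7, cP8, cP9, cP10]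
  ring

theorem e4_14 (d : R) : (aP4 d * aP10 d + aP5 d * aP9 d + aP6 d * aP8 d + aP7 d * aP7 d + aP8 d * aP6 d + aP9 d * aP5 d + aP10 d * aP4 d) - 12 * (aP4 d * bP10 d + aP5 d * bP9 d + aP6 d * bP8 d + aP7 d * bP7 d + aP8 d * bP6 d + aP9 d * bP5 d + aP10 d * bP4 d) + 14 * (aP4 d * cP10 d + aP5 d * cP9 d + aP6 d * cP8 d + aP7 d * cP7 d + aP8 d * cP6 d + aP9 d * cP5 d + aP10 d * cP4 d) + 12 * (bP4 d * cP10 d + bP5 d * cP9 d + bP6 d * cP8 d + bP7 d * cP7 d + bP8 d * cP6 d + bP9 d * cP5 d + bP10 d * cP4 d) + (cP4 d * cP10 d + cP5 d * cP9 d + cP6 d * cP8 d + cP7 d * cP7 d + cP8 d * cP6 d + cP9 d * cP5 d + cP10 d * cP4 d) = fam4c14 (c4T d) (c6T d) := by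
  simp only [fam4c14, c4T, c6T, aP0, aP1, aP2, aP3, aP4, aP5, aP6, aP7, aP8, aP9, aP10, bP0, bP1, bP2, bP3, bP4, bP5, bP6, bP7, bP8, bP9, bP10, cP0, cP1, cP2, cP3, cP4, cP5, cP6, cP7, cP8, cP9, cP10]
  ring

theorem e4_15 (d : R) : (aP5 d * aP10 d + aP6 d * aP9 d + aP7 d * aP8 d + aP8 d * aP7 d + aP9 d * aP6 d + aP10 d * aP5 d) - 12 * (aP5 d * bP10 d + aP6 d * bP9 d + aP7 d * bP8 d + aP8 d * bP7 d + aP9 d * bP6 d + aP10 d * bP5 d) + 14 * (aP5 d * cP10 d + aP6 d * cP9 d + aP7 d * cP8 d + aP8 d * cP7 d + aP9 d * cP6 d + aP10 d * cP5 d) + 12 * (bP5 d * cP10 d + bP6 d * cP9 d + bP7 d * cP8 d + bP8 d * cP7 d + bP9 d * cP6 d + bP10 d * cP5 d) + (cP5 d * cP10 d + cP6 d * cP9 d + cP7 d * cP8 d + cP8 d * cP7 d + cP9 d * cP6 d + cP10 d * cP5 d) = fam4c15 (c4T d) (c6T d) := by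
  simp only [fam4c15, c4T, c6T, aP0, aP1, aP2, aP3, aP4, aP5, aP6, aP7, aP8, aP9, aP10, bP0, bP1, bP2, bP3, bP4, bP5, bP6, bP7, bP8, bP9, bP10, cP0, cP1, cP2, cP3, cP4, cP5, cP6, cP7, cP8, cP9, cP10]
  ring

theorem e4_16 (d : R) : (aP6 d * aP10 d + aP7 d * aP9 d + aP8 d * aP8 d + aP9 d * aP7 d + aP10 d * aP6 d) - 12 * (aP6 d * bP10 d + aP7 d * bP9 d + aP8 d * bP8 d + aP9 d * bP7 d + aP10 d * bP6 d) + 14 * (aP6 d * cP10 d + aP7 d * cP9 d + aP8 d * cP8 d + aP9 d * cP7 d + aP10 d * cP6 d) + 12 * (bP6 d * cP10 d + bP7 d * cP9 d + bP8 d * cP8 d + bP9 d * cP7 d + bP10 d * cP6 d) + (cP6 d * cP10 d + cP7 d * cP9 d + cP8 d * cP8 d + cP9 d * cP7 d + cP10 d * cP6 d) = fam4c16 (c4T d) (c6T d) := by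
  simp only [fam4c16, c4T, c6T, aP0, aP1, aP2, aP3, aP4, aP5, aP6, aP7, aP8, aP9, aP10, bP0, bP1, bP2, bP3, bP4, bP5, bP6, bP7, bP8, bP9, bP10, cP0, cP1, cP2, cP3, cP4, cP5, cP6, cP7, cP8, cP9, cP10]
  ring

theorem e4_17 (d : R) : (aP7 d * aP10 d + aP8 d * aP9 d + aP9 d * aP8 d + aP10 d * aP7 d) - 12 * (aP7 d * bP10 d + aP8 d * bP9 d + aP9 d * bP8 d + aP10 d * bP7 d) + 14 * (aP7 d * cP10 d + aP8 d * cP9 d + aP9 d * cP8 d + aP10 d * cP7 d) + 12 * (bP7 d * cP10 d + bP8 d * cP9 d + bP9 d * cP8 d + bP10 d * cP7 d) + (cP7 d * cP10 d + cP8 d * cP9 d + cP9 d * cP8 d + cP10 d * cP7 d) = fam4c17 (c4T d) (c6T d) := by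
  simp only [fam4c17, c4T, c6T, aP0, aP1, aP2, aP3, aP4, aP5, aP6, aP7, aP8, aP9, aP10, bP0, bP1, bP2, bP3, bP4, bP5, bP6, bP7, bP8, bP9, bP10, cP0, cP1, cP2, cP3, cP4, cP5, cP6, cP7, cP8, cP9, cP10]
  ring

theorem e4_18 (d : R) : (aP8 d * aP10 d + aP9 d * aP9 d + aP10 d * aP8 d) - 12 * (aP8 d * bP10 d + aP9 d * bP9 d + aP10 d * bP8 d) + 14 * (aP8 d * cP10 d + aP9 d * cP9 d + aP10 d * cP8 d) + 12 * (bP8 d * cP10 d + bP9 d * cP9 d + bP10 d * cP8 d) + (cP8 d * cP10 d + cP9 d * cP9 d + cP10 d * cP8 d) = fam4c18 (c4T d) (c6T d) := by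
  simp only [fam4c18, c4T, c6T, aP0, aP1, aP2, aP3, aP4, aP5, aP6, aP7, aP8, aP9, aP10, bP0, bP1, bP2, bP3, bP4, bP5, bP6, bP7, bP8, bP9, bP10, cP0, cP1, cP2, cP3, cP4, cP5, cP6, cP7, cP8, cP9, cP10]
  ring

theorem e4_19 (d : R) : (aP9 d * aP10 d + aP10 d * aP9 d) - 12 * (aP9 d * bP10 d + aP10 d * bP9 d) + 14 * (aP9 d * cP10 d + aP10 d * cP9 d) + 12 * (bP9 d * cP10 d + bP10 d * cP9 d) + (cP9 d * cP10 d + cP10 d * cP9 d) = fam4c19 (c4T d) (c6T d) := by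
  simp only [fam4c19, c4T, c6T, aP0, aP1, aP2, aP3, aP4, aP5, aP6, aP7, aP8, aP9, aP10, bP0, bP1, bP2, bP3, bP4, bP5, bP6, bP7, bP8, bP9, bP10, cP0, cP1, cP2, cP3, cP4, cP5, cP6, cP7, cP8, cP9, cP10]
  ring

theorem e4_20 (d : R) : (aP10 d * aP10 d) - 12 * (aP10 d * bP10 d) + 14 * (aP10 d * cP10 d) + 12 * (bP10 d * cP10 d) + (cP10 d * cP10 d) = fam4c20 (c4T d) (c6T d) := by
  simp only [fam4c20, c4T, c6T, aP0, aP1, aP2, aP3, aP4, aP5, aP6, aP7, aP8, aP9, aP10, bP0, bP1, bP2, bP3, bP4, bP5, bP6, bP7, bP8, bP9, bP10, cP0, cP1, cP2, cP3, cP4, cP5, cP6, cP7, cP8, cP9, cP10]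
  ring

/-- coefficient of `s^0` in `N⁴ - 18N³D + 74N²D² + 18ND³ + D⁴`. -/
def gP0 (d : R) : R := 1 + 18*d + 74*d^2 - 18*d^3 + d^4

/-- coefficient of `s^1` in `N⁴ - 18N³D + 74N²D² + 18ND³ + D⁴`. -/
def gP1 (d : R) : R := -20 - 408*d - 2052*d^2 - 2052*d^4 + 408*d^5 - 20*d^6

/-- coefficient of `s^2` in `N⁴ - 18N³D + 74N²D² + 18ND³ + D⁴`. -/
def gP2 (d : R) : R := 190 + 4332*d + 26152*d^2 + 7212*d^3 - 103596*d^4 - 7212*d^5 + 26152*d^6 - 4332*d^7 + 190*d^8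

/-- coefficient of `s^3` in `N⁴ - 18N³D + 74N²D² + 18ND³ + D⁴`. -/
def gP3 (d : R) : R := -1140 - 28728*d - 204204*d^2 - 150768*d^3 + 1490016*d^4 + 1490016*d^6 + 150768*d^7 - 204204*d^8 + 28728*d^9 - 1140*d^10

/-- coefficient of `s^4` in `N⁴ - 18N³D + 74N²D² + 18ND³ + D⁴`. -/
def gP4 (d : R) : R := 4845 + 133722*d + 1100070*d^2 + 1546830*d^3 - 7858125*d^4 + 21762900*d^5 + 94161012*d^6 - 21762900*d^7 - 7858125*d^8 - 1546830*d^9 + 1100070*d^10 - 133722*d^11 + 4845*d^12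

/-- coefficient of `s^5` in `N⁴ - 18N³D + 74N²D² + 18ND³ + D⁴`. -/
def gP5 (d : R) : R := -15504 - 465120*d - 4363152*d^2 - 9850752*d^3 + 15560208*d^4 - 250590816*d^5 - 1301059056*d^6 - 1301059056*d^8 + 250590816*d^9 + 15560208*d^10 + 9850752*d^11 - 4363152*d^12 + 465120*d^13 - 15504*d^14

/-- coefficient of `s^6` in `N⁴ - 18N³D + 74N²D² + 18ND³ + D⁴`. -/
def gP6 (d : R) : R := 38760 + 1255824*d + 13264896*d^2 + 43292880*d^3 + 37186656*d^4 + 1164638736*d^5 + 4038666240*d^6 - 17218805040*d^7 - 34162542480*d^8 + 17218805040*d^9 + 4038666240*d^10 - 1164638736*d^11 + 37186656*d^12 - 43292880*d^13 + 13264896*d^14 - 1255824*d^15 + 38760*d^16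

/-- coefficient of `s^7` in `N⁴ - 18N³D + 74N²D² + 18ND³ + D⁴`. -/
def gP7 (d : R) : R := -77520 - 2697696*d - 31743216*d^2 - 139565376*d^3 - 356915232*d^4 - 2129408064*d^5 + 23569941024*d^6 + 301839201216*d^7 + 658458878400*d^8 + 658458878400*d^10 - 301839201216*d^11 + 23569941024*d^12 + 2129408064*d^13 - 356915232*d^14 + 139565376*d^15 - 31743216*d^16 + 2697696*d^17 - 77520*d^18

/-- coefficient of `s^8` in `N⁴ - 18N³D + 74N²D² + 18ND³ + D⁴`. -/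
def gP8 (d : R) : R := 125970 + 4686084*d + 60866052*d^2 + 342895644*d^3 + 1284012522*d^4 - 3776151600*d^5 - 263023729488*d^6 - 2318242412304*d^7 - 5492684319228*d^8 + 3831150192696*d^9 + 6034670207640*d^10 - 3831150192696*d^11 - 5492684319228*d^12 + 2318242412304*d^13 - 263023729488*d^14 + 3776151600*d^15 + 1284012522*d^16 - 342895644*d^17 + 60866052*d^18 - 4686084*d^19 + 125970*d^20

/-- coefficient of `s^9` in `N⁴ - 18N³D + 74N²D² + 18ND³ + D⁴`. -/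
def gP9 (d : R) : R := -167960 - 6651216*d - 94614520*d^2 - 658120320*d^3 - 3008771480*d^4 + 34673942160*d^5 + 1193133966024*d^6 + 10636428591360*d^7 + 28800375861840*d^8 - 38061189476640*d^9 - 169389473086320*d^10 - 169389473086320*d^12 + 38061189476640*d^13 + 28800375861840*d^14 - 10636428591360*d^15 + 1193133966024*d^16 - 34673942160*d^17 - 3008771480*d^18 + 658120320*d^19 - 94614520*d^20 + 6651216*d^21 - 167960*d^22

/-- coefficient of `s^10` in `N⁴ - 18N³D + 74N²D² + 18ND³ + D⁴`. -/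
def gP10 (d : R) : R := 184756 + 7759752*d + 120071952*d^2 + 1002408264*d^3 + 5150831400*d^4 - 110455216872*d^5 - 3425696900912*d^6 - 32915168268840*d^7 - 104435532355572*d^8 + 147840451772112*d^9 + 967266649145376*d^10 - 391897957133232*d^11 - 908340224285136*d^12 + 391897957133232*d^13 + 967266649145376*d^14 - 147840451772112*d^15 - 104435532355572*d^16 + 32915168268840*d^17 - 3425696900912*d^18 + 110455216872*d^19 + 5150831400*d^20 - 1002408264*d^21 + 120071952*d^22 - 7759752*d^23 + 184756*d^24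

/-- coefficient of `s^11` in `N⁴ - 18N³D + 74N²D² + 18ND³ + D⁴`. -/
def gP11 (d : R) : R := -167960 - 7457424*d - 124780136*d^2 - 1222784160*d^3 - 6739882656*d^4 + 224711133504*d^5 + 6959010366880*d^6 + 73063972718880*d^7 + 272927165860360*d^8 - 263601396265680*d^9 - 2162846861183880*d^10 + 9069960366631872*d^11 + 29550124106366208*d^12 + 29550124106366208*d^14 - 9069960366631872*d^15 - 2162846861183880*d^16 + 263601396265680*d^17 + 272927165860360*d^18 - 73063972718880*d^19 + 6959010366880*d^20 - 224711133504*d^21 - 6739882656*d^22 + 1222784160*d^23 - 124780136*d^24 + 7457424*d^25 - 167960*d^26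

/-- coefficient of `s^12` in `N⁴ - 18N³D + 74N²D² + 18ND³ + D⁴`. -/
def gP12 (d : R) : R := 125970 + 5895396*d + 106114476*d^2 + 1199056716*d^3 + 6880965702*d^4 - 328034679336*d^5 - 10484622210504*d^6 - 120356273373336*d^7 - 526296872382270*d^8 + 49967740795500*d^9 + 41044894228500*d^10 - 61705913089804668*d^11 - 231716242616119578*d^12 - 35597138481240048*d^13 + 199770342319935504*d^14 + 35597138481240048*d^15 - 231716242616119578*d^16 + 61705913089804668*d^17 + 41044894228500*d^18 - 49967740795500*d^19 - 526296872382270*d^20 + 120356273373336*d^21 - 10484622210504*d^22 + 328034679336*d^23 + 6880965702*d^24 - 1199056716*d^25 + 106114476*d^26 - 5895396*d^27 + 125970*d^28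

/-- coefficient of `s^13` in `N⁴ - 18N³D + 74N²D² + 18ND³ + D⁴`. -/
def gP13 (d : R) : R := -77520 - 3813984*d - 73510992*d^2 - 943968384*d^3 - 5523774192*d^4 + 358431184800*d^5 + 11975400182928*d^6 + 149778959675904*d^7 + 759139424920368*d^8 + 814285347457824*d^9 + 11437308434942640*d^10 + 217712648577912192*d^11 + 959134486491359376*d^12 + 494959796756711712*d^13 - 2665350176514945264*d^14 - 2665350176514945264*d^16 - 494959796756711712*d^17 + 959134486491359376*d^18 - 217712648577912192*d^19 + 11437308434942640*d^20 - 814285347457824*d^21 + 759139424920368*d^22 - 149778959675904*d^23 + 11975400182928*d^24 - 358431184800*d^25 - 5523774192*d^26 + 943968384*d^27 - 73510992*d^28 + 3813984*d^29 - 77520*d^30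

/-- coefficient of `s^14` in `N⁴ - 18N³D + 74N²D² + 18ND³ + D⁴`. -/
def gP14 (d : R) : R := 38760 + 2000016*d + 41110080*d^2 + 592722000*d^3 + 3482170560*d^4 - 297677484720*d^5 - 10448166974784*d^6 - 141714961380720*d^7 - 823365090667680*d^8 - 2011735247240880*d^9 - 31117504994205120*d^10 - 471739685304659184*d^11 - 2434052949037752000*d^12 - 2570027122731060720*d^13 + 8926952102068390080*d^14 - 2210181042371252400*d^15 - 36028969595525562768*d^16 + 2210181042371252400*d^17 + 8926952102068390080*d^18 + 2570027122731060720*d^19 - 2434052949037752000*d^20 + 471739685304659184*d^21 - 31117504994205120*d^22 + 2011735247240880*d^23 - 823365090667680*d^24 + 141714961380720*d^25 - 10448166974784*d^26 + 297677484720*d^27 + 3482170560*d^28 - 592722000*d^29 + 41110080*d^30 - 2000016*d^31 + 38760*d^32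

/-- coefficient of `s^15` in `N⁴ - 18N³D + 74N²D² + 18ND³ + D⁴`. -/
def gP15 (d : R) : R := -15504 - 837216*d - 18285744*d^2 - 293025600*d^3 - 1707196128*d^4 + 187877040192*d^5 + 6938073127392*d^6 + 101561906738880*d^7 + 669150562108512*d^8 + 2644988377652928*d^9 + 45613451928933024*d^10 + 673371944336438208*d^11 + 4026766910194681248*d^12 + 6901265501445946176*d^13 - 12756661934513930400*d^14 + 14867498242293257664*d^15 + 206713009258009725504*d^16 + 206713009258009725504*d^18 - 14867498242293257664*d^19 - 12756661934513930400*d^20 - 6901265501445946176*d^21 + 4026766910194681248*d^22 - 673371944336438208*d^23 + 45613451928933024*d^24 - 2644988377652928*d^25 + 669150562108512*d^26 - 101561906738880*d^27 + 6938073127392*d^28 - 187877040192*d^29 - 1707196128*d^30 + 293025600*d^31 - 18285744*d^32 + 837216*d^33 - 15504*d^34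

/-- coefficient of `s^16` in `N⁴ - 18N³D + 74N²D² + 18ND³ + D⁴`. -/
def gP16 (d : R) : R := 4845 + 273258*d + 6321042*d^2 + 111615030*d^3 + 638296677*d^4 - 88908129648*d^5 - 3453998763600*d^6 - 54315974805840*d^7 - 401792316316380*d^8 - 2233163290572360*d^9 - 42654414038292360*d^10 - 649696274275814136*d^11 - 4446574028706884364*d^12 - 10883721632406768720*d^13 + 5246545038097810896*d^14 - 42499205714808603504*d^15 - 391577626107510189930*d^16 + 702952799059057525020*d^17 + 2976817519338338965740*d^18 - 702952799059057525020*d^19 - 391577626107510189930*d^20 + 42499205714808603504*d^21 + 5246545038097810896*d^22 + 10883721632406768720*d^23 - 4446574028706884364*d^24 + 649696274275814136*d^25 - 42654414038292360*d^26 + 2233163290572360*d^27 - 401792316316380*d^28 + 54315974805840*d^29 - 3453998763600*d^30 + 88908129648*d^31 + 638296677*d^32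 - 111615030*d^33 + 6321042*d^34 - 273258*d^35 + 4845*d^36

/-- coefficient of `s^17` in `N⁴ - 18N³D + 74N²D² + 18ND³ + D⁴`. -/
def gP17 (d : R) : R := -1140 - 67032*d - 1637412*d^2 - 31623552*d^3 - 175925124*d^4 + 30625385112*d^5 + 1250453574828*d^6 + 21034598429952*d^7 + 173133369517680*d^8 + 1251819162756000*d^9 + 26267904494823600*d^10 + 421528475268336384*d^11 + 3262029855973256304*d^12 + 10538802380339292384*d^13 + 7538537637114420528*d^14 + 64313393194292818176*d^15 + 326217183784679957544*d^16 - 2322947563404535120464*d^17 - 9949591984565424073080*d^18 - 9949591984565424073080*d^20 + 2322947563404535120464*d^21 + 326217183784679957544*d^22 - 64313393194292818176*d^23 + 7538537637114420528*d^24 - 10538802380339292384*d^25 + 3262029855973256304*d^26 - 421528475268336384*d^27 + 26267904494823600*d^28 - 1251819162756000*d^29 + 173133369517680*d^30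 - 21034598429952*d^31 + 1250453574828*d^32 - 30625385112*d^33 - 175925124*d^34 + 31623552*d^35 - 1637412*d^36 + 67032*d^37 - 1140*d^38

/-- coefficient of `s^18` in `N⁴ - 18N³D + 74N²D² + 18ND³ + D⁴`. -/
def gP18 (d : R) : R := 190 + 11628*d + 299144*d^2 + 6278508*d^3 + 33698404*d^4 - 7263002700*d^5 - 311260182456*d^6 - 5579065697868*d^7 - 50686909884186*d^8 - 453675448903248*d^9 - 10380016302860640*d^10 - 176838658359740496*d^11 - 1530541746059565648*d^12 - 6193643314181477616*d^13 - 11162659305474087648*d^14 - 54130175821762153200*d^15 - 93338438474809241508*d^16 + 2726628601485717689256*d^17 + 5283954281623572540272*d^18 - 56078237765232382209624*d^19 - 113994544636951864837160*d^20 + 56078237765232382209624*d^21 + 5283954281623572540272*d^22 - 2726628601485717689256*d^23 - 93338438474809241508*d^24 + 54130175821762153200*d^25 - 11162659305474087648*d^26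 + 6193643314181477616*d^27 - 1530541746059565648*d^28 + 176838658359740496*d^29 - 10380016302860640*d^30 + 453675448903248*d^31 - 50686909884186*d^32 + 5579065697868*d^33 - 311260182456*d^34 + 7263002700*d^35 + 33698404*d^36 - 6278508*d^37 + 299144*d^38 - 11628*d^39 + 190*d^40

/-- coefficient of `s^19` in `N⁴ - 18N³D + 74N²D² + 18ND³ + D⁴`. -/
def gP19 (d : R) : R := -20 - 1272*d - 34380*d^2 - 779760*d^3 - 4006080*d^4 + 1061780160*d^5 + 47687093248*d^6 + 907561211760*d^7 + 9036577982340*d^8 + 96739341168600*d^9 + 2397434059486620*d^10 + 43453392979438656*d^11 + 416622892606305600*d^12 + 2035294278034020480*d^13 + 5728473677574060480*d^14 + 24039037856212896960*d^15 - 22523720677137754056*d^16 - 1306518425154465125040*d^17 + 6279753862373562331400*d^18 + 125387844680100497403360*d^19 + 377637594933858056349120*d^20 + 377637594933858056349120*d^22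 - 125387844680100497403360*d^23 + 6279753862373562331400*d^24 + 1306518425154465125040*d^25 - 22523720677137754056*d^26 - 24039037856212896960*d^27 + 5728473677574060480*d^28 - 2035294278034020480*d^29 + 416622892606305600*d^30 - 43453392979438656*d^31 + 2397434059486620*d^32 - 96739341168600*d^33 + 9036577982340*d^34 - 907561211760*d^35 + 47687093248*d^36 - 1061780160*d^37 - 4006080*d^38 + 779760*d^39 - 34380*d^40 + 1272*d^41 - 20*d^42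

/-- coefficient of `s^20` in `N⁴ - 18N³D + 74N²D² + 18ND³ + D⁴`. -/
def gP20 (d : R) : R := 1 + 66*d + 1870*d^2 + 45606*d^3 + 222519*d^4 - 72197004*d^5 - 3392774924*d^6 - 68340207540*d^7 - 741057540509*d^8 - 9252467214606*d^9 - 246935976342858*d^10 - 4759858397289978*d^11 - 50136104172725835*d^12 - 287765028251026128*d^13 - 1086153308435632272*d^14 - 4406735419005669552*d^15 + 13437894319431395418*d^16 + 198107364373970291460*d^17 - 4807533085160034444292*d^18 - 68594138809120312696308*d^19 - 243824105826637345076650*d^20 + 294767455187253019048440*d^21 + 2302668823630185472854840*d^22 - 294767455187253019048440*d^23 - 243824105826637345076650*d^24 + 68594138809120312696308*d^25 - 4807533085160034444292*d^26 - 198107364373970291460*d^27 + 13437894319431395418*d^28 + 4406735419005669552*d^29 - 1086153308435632272*d^30 + 287765028251026128*d^31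 - 50136104172725835*d^32 + 4759858397289978*d^33 - 246935976342858*d^34 + 9252467214606*d^35 - 741057540509*d^36 + 68340207540*d^37 - 3392774924*d^38 + 72197004*d^39 + 222519*d^40 - 45606*d^41 + 1870*d^42 - 66*d^43 + d^44

theorem g6_0 (d : R) : (aP0 d * aP0 d) - 18 * (aP0 d * bP0 d) + 74 * (aP0 d * cP0 d) + 18 * (bP0 d * cP0 d) + (cP0 d * cP0 d) = gP0 d := by
  simp only [gP0, aP0, aP1, aP2, aP3, aP4, aP5, aP6, aP7, aP8, aP9, aP10, bP0, bP1, bP2, bP3, bP4, bP5, bP6, bP7, bP8, bP9, bP10, cP0, cP1, cP2, cP3, cP4, cP5, cP6, cP7, cP8, cP9, cP10]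
  ring

theorem g6_1 (d : R) : (aP0 d * aP1 d + aP1 d * aP0 d) - 18 * (aP0 d * bP1 d + aP1 d * bP0 d) + 74 * (aP0 d * cP1 d + aP1 d * cP0 d) + 18 * (bP0 d * cP1 d + bP1 d * cP0 d) + (cP0 d * cP1 d + cP1 d * cP0 d) = gP1 d := by
  simp only [gP1, aP0, aP1, aP2, aP3, aP4, aP5, aP6, aP7, aP8, aP9, aP10, bP0, bP1, bP2, bP3, bP4, bP5, bP6, bP7, bP8, bP9, bP10, cP0, cP1, cP2, cP3, cP4, cP5, cP6, cP7, cP8, cP9, cP10]
  ring

theorem g6_2 (d : R) : (aP0 d * aP2 d + aP1 d * aP1 d + aP2 d * aP0 d) - 18 * (aP0 d * bP2 d + aP1 d * bP1 d + aP2 d * bP0 d) + 74 * (aP0 d * cP2 d + aP1 d * cP1 d + aP2 d * cP0 d) + 18 * (bP0 d * cP2 d + bP1 d * cP1 d + bP2 d * cP0 d) + (cP0 d * cP2 d + cP1 d * cP1 d + cP2 d * cP0 d) = gP2 d := by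
  simp only [gP2, aP0, aP1, aP2, aP3, aP4, aP5, aP6, aP7, aP8, aP9, aP10, bP0, bP1, bP2, bP3, bP4, bP5, bP6, bP7, bP8, bP9, bP10, cP0, cP1, cP2, cP3, cP4, cP5, cP6, cP7, cP8, cP9, cP10]
  ring

theorem g6_3 (d : R) : (aP0 d * aP3 d + aP1 d * aP2 d + aP2 d * aP1 d + aP3 d * aP0 d) - 18 * (aP0 d * bP3 d + aP1 d * bP2 d + aP2 d * bP1 d + aP3 d * bP0 d) + 74 * (aP0 d * cP3 d + aP1 d * cP2 d + aP2 d * cP1 d + aP3 d * cP0 d) + 18 * (bP0 d * cP3 d + bP1 d * cP2 d + bP2 d * cP1 d + bP3 d * cP0 d) + (cP0 d * cP3 d + cP1 d * cP2 d + cP2 d * cP1 d + cP3 d * cP0 d) = gP3 d := by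
  simp only [gP3, aP0, aP1, aP2, aP3, aP4, aP5, aP6, aP7, aP8, aP9, aP10, bP0, bP1, bP2, bP3, bP4, bP5, bP6, bP7, bP8, bP9, bP10, cP0, cP1, cP2, cP3, cP4, cP5, cP6, cP7, cP8, cP9, cP10]
  ring

theorem g6_4 (d : R) : (aP0 d * aP4 d + aP1 d * aP3 d + aP2 d * aP2 d + aP3 d * aP1 d + aP4 d * aP0 d) - 18 * (aP0 d * bP4 d + aP1 d * bP3 d + aP2 d * bP2 d + aP3 d * bP1 d + aP4 d * bP0 d) + 74 * (aP0 d * cP4 d + aP1 d * cP3 d + aP2 d * cP2 d + aP3 d * cP1 d + aP4 d * cP0 d) + 18 * (bP0 d * cP4 d + bP1 d * cP3 d + bP2 d * cP2 d + bP3 d * cP1 d + bP4 d * cP0 d) + (cP0 d * cP4 d + cP1 d * cP3 d + cP2 d * cP2 d + cP3 d * cP1 d + cP4 d * cP0 d) = gP4 d := by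
  simp only [gP4, aP0, aP1, aP2, aP3, aP4, aP5, aP6, aP7, aP8, aP9, aP10, bP0, bP1, bP2, bP3, bP4, bP5, bP6, bP7, bP8, bP9, bP10, cP0, cP1, cP2, cP3, cP4, cP5, cP6, cP7, cP8, cP9, cP10]
  ring

theorem g6_5 (d : R) : (aP0 d * aP5 d + aP1 d * aP4 d + aP2 d * aP3 d + aP3 d * aP2 d + aP4 d * aP1 d + aP5 d * aP0 d) - 18 * (aP0 d * bP5 d + aP1 d * bP4 d + aP2 d * bP3 d + aP3 d * bP2 d + aP4 d * bP1 d + aP5 d * bP0 d) + 74 * (aP0 d * cP5 d + aP1 d * cP4 d + aP2 d * cP3 d + aP3 d * cP2 d + aP4 d * cP1 d + aP5 d * cP0 d) + 18 * (bP0 d * cP5 d + bP1 d * cP4 d + bP2 d * cP3 d + bP3 d * cP2 d + bP4 d * cP1 d + bP5 d * cP0 d) + (cP0 d * cP5 d + cP1 d * cP4 d + cP2 d * cP3 d + cP3 d * cP2 d + cP4 d * cP1 d + cP5 d * cP0 d) = gP5 d := by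
  simp only [gP5, aP0, aP1, aP2, aP3, aP4, aP5, aP6, aP7, aP8, aP9, aP10, bP0, bP1, bP2, bP3, bP4, bP5, bP6, bP7, bP8, bP9, bP10, cP0, cP1, cP2, cP3, cP4, cP5, cP6, cP7, cP8, cP9, cP10]
  ring

theorem g6_6 (d : R) : (aP0 d * aP6 d + aP1 d * aP5 d + aP2 d * aP4 d + aP3 d * aP3 d + aP4 d * aP2 d + aP5 d * aP1 d + aP6 d * aP0 d) - 18 * (aP0 d * bP6 d + aP1 d * bP5 d + aP2 d * bP4 d + aP3 d * bP3 d + aP4 d * bP2 d + aP5 d * bP1 d + aP6 d * bP0 d) + 74 * (aP0 d * cP6 d + aP1 d * cP5 d + aP2 d * cP4 d + aP3 d * cP3 d + aP4 d * cP2 d + aP5 d * cP1 d + aP6 d * cP0 d) + 18 * (bP0 d * cP6 d + bP1 d * cP5 d + bP2 d * cP4 d + bP3 d * cP3 d + bP4 d * cP2 d + bP5 d * cP1 d + bP6 d * cP0 d) + (cP0 d * cP6 d + cP1 d * cP5 d + cP2 d * cP4 d + cP3 d * cP3 d + cP4 d * cP2 d + cP5 d * cP1 d + cP6 d * cP0 d) = gP6 d := by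
  simp only [gP6, aP0, aP1, aP2, aP3, aP4, aP5, aP6, aP7, aP8, aP9, aP10, bP0, bP1, bP2, bP3, bP4, bP5, bP6, bP7, bP8, bP9, bP10, cP0, cP1, cP2, cP3, cP4, cP5, cP6, cP7, cP8, cP9, cP10]
  ring

theorem g6_7 (d : R) : (aP0 d * aP7 d + aP1 d * aP6 d + aP2 d * aP5 d + aP3 d * aP4 d + aP4 d * aP3 d + aP5 d * aP2 d + aP6 d * aP1 d + aP7 d * aP0 d) - 18 * (aP0 d * bP7 d + aP1 d * bP6 d + aP2 d * bP5 d + aP3 d * bP4 d + aP4 d * bP3 d + aP5 d * bP2 d + aP6 d * bP1 d + aP7 d * bP0 d) + 74 * (aP0 d * cP7 d + aP1 d * cP6 d + aP2 d * cP5 d + aP3 d * cP4 d + aP4 d * cP3 d + aP5 d * cP2 d + aP6 d * cP1 d + aP7 d * cP0 d) + 18 * (bP0 d * cP7 d + bP1 d * cP6 d + bP2 d * cP5 d + bP3 d * cP4 d + bP4 d * cP3 d + bP5 d * cP2 d + bP6 d * cP1 d + bP7 d * cP0 d) + (cP0 d * cP7 d + cP1 d * cP6 d + cP2 d * cP5 d + cP3 d * cP4 d + cP4 d * cP3 d + cP5 d * cP2 d + cP6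 d * cP1 d + cP7 d * cP0 d) = gP7 d := by
  simp only [gP7, aP0, aP1, aP2, aP3, aP4, aP5, aP6, aP7, aP8, aP9, aP10, bP0, bP1, bP2, bP3, bP4, bP5, bP6, bP7, bP8, bP9, bP10, cP0, cP1, cP2, cP3, cP4, cP5, cP6, cP7, cP8, cP9, cP10]
  ring

theorem g6_8 (d : R) : (aP0 d * aP8 d + aP1 d * aP7 d + aP2 d * aP6 d + aP3 d * aP5 d + aP4 d * aP4 d + aP5 d * aP3 d + aP6 d * aP2 d + aP7 d * aP1 d + aP8 d * aP0 d) - 18 * (aP0 d * bP8 d + aP1 d * bP7 d + aP2 d * bP6 d + aP3 d * bP5 d + aP4 d * bP4 d + aP5 d * bP3 d + aP6 d * bP2 d + aP7 d * bP1 d + aP8 d * bP0 d) + 74 * (aP0 d * cP8 d + aP1 d * cP7 d + aP2 d * cP6 d + aP3 d * cP5 d + aP4 d * cP4 d + aP5 d * cP3 d + aP6 d * cP2 d + aP7 d * cP1 d + aP8 d * cP0 d) + 18 * (bP0 d * cP8 d + bP1 d * cP7 d + bP2 d * cP6 d + bP3 d * cP5 d + bP4 d * cP4 d + bP5 d * cP3 d + bP6 d * cP2 d + bP7 d * cP1 d + bP8 d * cP0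 d) + (cP0 d * cP8 d + cP1 d * cP7 d + cP2 d * cP6 d + cP3 d * cP5 d + cP4 d * cP4 d + cP5 d * cP3 d + cP6 d * cP2 d + cP7 d * cP1 d + cP8 d * cP0 d) = gP8 d := by
  simp only [gP8, aP0, aP1, aP2, aP3, aP4, aP5, aP6, aP7, aP8, aP9, aP10, bP0, bP1, bP2, bP3, bP4, bP5, bP6, bP7, bP8, bP9, bP10, cP0, cP1, cP2, cP3, cP4, cP5, cP6, cP7, cP8, cP9, cP10]
  ring

theorem g6_9 (d : R) : (aP0 d * aP9 d + aP1 d * aP8 d + aP2 d * aP7 d + aP3 d * aP6 d + aP4 d * aP5 d + aP5 d * aP4 d + aP6 d * aP3 d + aP7 d * aP2 d + aP8 d * aP1 d + aP9 d * aP0 d) - 18 * (aP0 d * bP9 d + aP1 d * bP8 d + aP2 d * bP7 d + aP3 d * bP6 d + aP4 d * bP5 d + aP5 d * bP4 d + aP6 d * bP3 d + aP7 d * bP2 d + aP8 d * bP1 d + aP9 d * bP0 d) + 74 * (aP0 d * cP9 d + aP1 d * cP8 d + aP2 d * cP7 d + aP3 d * cP6 d + aP4 d * cP5 d + aP5 d * cP4 d + aP6 d * cP3 d + aP7 d * cP2 d + aP8 d *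 cP1 d + aP9 d * cP0 d) + 18 * (bP0 d * cP9 d + bP1 d * cP8 d + bP2 d * cP7 d + bP3 d * cP6 d + bP4 d * cP5 d + bP5 d * cP4 d + bP6 d * cP3 d + bP7 d * cP2 d + bP8 d * cP1 d + bP9 d * cP0 d) + (cP0 d * cP9 d + cP1 d * cP8 d + cP2 d * cP7 d + cP3 d * cP6 d + cP4 d * cP5 d + cP5 d * cP4 d + cP6 d * cP3 d + cP7 d * cP2 d + cP8 d * cP1 d + cP9 d * cP0 d) = gP9 d := by
  simp only [gP9, aP0, aP1, aP2, aP3, aP4, aP5, aP6, aP7, aP8, aP9, aP10, bP0, bP1, bP2, bP3, bP4, bP5, bP6, bP7, bP8, bP9, bP10, cP0, cP1, cP2, cP3, cP4, cP5, cP6, cP7, cP8, cP9, cP10]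
  ring

theorem g6_10 (d : R) : (aP0 d * aP10 d + aP1 d * aP9 d + aP2 d * aP8 d + aP3 d * aP7 d + aP4 d * aP6 d + aP5 d * aP5 d + aP6 d * aP4 d + aP7 d * aP3 d + aP8 d * aP2 d + aP9 d * aP1 d + aP10 d * aP0 d) - 18 * (aP0 d * bP10 d + aP1 d * bP9 d + aP2 d * bP8 d + aP3 d * bP7 d + aP4 d * bP6 d + aP5 d * bP5 d + aP6 d * bP4 d + aP7 d * bP3 d + aP8 d * bP2 d + aP9 d * bP1 d + aP10 d * bP0 d) + 74 * (aP0 d * cP10 d + aP1 d * cP9 d + aP2 d * cP8 d + aP3 d * cP7 d + aP4 d * cP6 d + aP5 d * cP5 d + aP6 d * cP4 d + aP7 d * cP3 d + aP8 d * cP2 d + aP9 d * cP1 d + aP10 d * cP0 d) + 18 * (bP0 d * cP10 d + bP1 d * cP9 d + bP2 d * cP8 d + bP3 d * cP7 d + bP4 d * cP6 d + bP5 d * cP5 d + bP6 d * cP4 d + bP7 d * cP3 d + bP8 d * cP2 d + bP9 d * cP1 d + bP10 d * cP0 d) + (cP0 d * cP10 d + cP1 d * cP9 d + cP2 d * cP8 d + cP3 d * cP7 d + cP4 d * cP6 d + cP5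 d * cP5 d + cP6 d * cP4 d + cP7 d * cP3 d + cP8 d * cP2 d + cP9 d * cP1 d + cP10 d * cP0 d) = gP10 d := by
  simp only [gP10, aP0, aP1, aP2, aP3, aP4, aP5, aP6, aP7, aP8, aP9, aP10, bP0, bP1, bP2, bP3, bP4, bP5, bP6, bP7, bP8, bP9, bP10, cP0, cP1, cP2, cP3, cP4, cP5, cP6, cP7, cP8, cP9, cP10]
  ring

theorem g6_11 (d : R) : (aP1 d * aP10 d + aP2 d * aP9 d + aP3 d * aP8 d + aP4 d * aP7 d + aP5 d * aP6 d + aP6 d * aP5 d + aP7 d * aP4 d + aP8 d * aP3 d + aP9 d * aP2 d + aP10 d * aP1 d) - 18 * (aP1 d * bP10 d + aP2 d * bP9 d + aP3 d * bP8 d + aP4 d * bP7 d + aP5 d * bP6 d + aP6 d * bP5 d + aP7 d * bP4 d + aP8 d * bP3 d + aP9 d * bP2 d + aP10 d * bP1 d) + 74 * (aP1 d * cP10 d + aP2 d * cP9 d + aP3 d * cP8 d + aP4 d * cP7 d + aP5 d * cP6 d + aP6 d * cP5 d + aP7 d * cP4 d + aP8 d * cP3 d + aP9 d * cP2 d + aP10 d * cP1 d) + 18 * (bP1 d * cP10 d +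 bP2 d * cP9 d + bP3 d * cP8 d + bP4 d * cP7 d + bP5 d * cP6 d + bP6 d * cP5 d + bP7 d * cP4 d + bP8 d * cP3 d + bP9 d * cP2 d + bP10 d * cP1 d) + (cP1 d * cP10 d + cP2 d * cP9 d + cP3 d * cP8 d + cP4 d * cP7 d + cP5 d * cP6 d + cP6 d * cP5 d + cP7 d * cP4 d + cP8 d * cP3 d + cP9 d * cP2 d + cP10 d * cP1 d) = gP11 d := by
  simp only [gP11, aP0, aP1, aP2, aP3, aP4, aP5, aP6, aP7, aP8, aP9, aP10, bP0, bP1, bP2, bP3, bP4, bP5, bP6, bP7, bP8, bP9, bP10, cP0, cP1, cP2, cP3, cP4, cP5, cP6, cP7, cP8, cP9, cP10]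
  ring

theorem g6_12 (d : R) : (aP2 d * aP10 d + aP3 d * aP9 d + aP4 d * aP8 d + aP5 d * aP7 d + aP6 d * aP6 d + aP7 d * aP5 d + aP8 d * aP4 d + aP9 d * aP3 d + aP10 d * aP2 d) - 18 * (aP2 d * bP10 d + aP3 d * bP9 d + aP4 d * bP8 d + aP5 d * bP7 d + aP6 d * bP6 d + aP7 d * bP5 d + aP8 d * bP4 d + aP9 d * bP3 d + aP10 d * bP2 d) + 74 * (aP2 d * cP10 d + aP3 d * cP9 d + aP4 d * cP8 d + aP5 d * cP7 d + aP6 d * cP6 d + aP7 d * cP5 d + aP8 d * cP4 d + aP9 d * cP3 d + aP10 d * cP2 d) + 18 * (bP2 d * cP10 d + bP3 d * cP9 d + bP4 d * cP8 d + bP5 d * cP7 d + bP6 d * cP6 d + bP7 d * cP5 d + bP8 d * cP4 d + bP9 d * cP3 d + bP10 d * cP2 d) + (cP2 d * cP10 d + cP3 d * cP9 d + cP4 d * cP8 d + cP5 d * cP7 d + cP6 d * cP6 d + cP7 d * cP5 d + cP8 d * cP4 d + cP9 d * cP3 d + cP10 d * cP2 d) = gP12 d := by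
  simp only [gP12, aP0, aP1, aP2, aP3, aP4, aP5, aP6, aP7, aP8, aP9, aP10, bP0, bP1, bP2, bP3, bP4, bP5, bP6, bP7, bP8, bP9, bP10, cP0, cP1, cP2, cP3, cP4, cP5, cP6, cP7, cP8, cP9, cP10]
  ring

theorem g6_13 (d : R) : (aP3 d * aP10 d + aP4 d * aP9 d + aP5 d * aP8 d + aP6 d * aP7 d + aP7 d * aP6 d + aP8 d * aP5 d + aP9 d * aP4 d + aP10 d * aP3 d) - 18 * (aP3 d * bP10 d + aP4 d * bP9 d + aP5 d * bP8 d + aP6 d * bP7 d + aP7 d * bP6 d + aP8 d * bP5 d + aP9 d * bP4 d + aP10 d * bP3 d) + 74 * (aP3 d * cP10 d + aP4 d * cP9 d + aP5 d * cP8 d + aP6 d * cP7 d + aP7 d * cP6 d + aP8 d * cP5 d + aP9 d * cP4 d + aP10 d * cP3 d) + 18 * (bP3 d * cP10 d + bP4 d * cP9 d + bP5 d * cP8 d + bP6 d * cP7 d + bP7 d * cP6 d + bP8 d * cP5 d + bP9 d * cP4 d + bP10 d * cP3 d) + (cP3 d * cP10 d + cP4 d * cP9 d + cP5 d * cP8 d + cP6 d * cP7 d + cP7 d * cP6 d + cP8 d *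 cP5 d + cP9 d * cP4 d + cP10 d * cP3 d) = gP13 d := by
  simp only [gP13, aP0, aP1, aP2, aP3, aP4, aP5, aP6, aP7, aP8, aP9, aP10, bP0, bP1, bP2, bP3, bP4, bP5, bP6, bP7, bP8, bP9, bP10, cP0, cP1, cP2, cP3, cP4, cP5, cP6, cP7, cP8, cP9, cP10]
  ring

theorem g6_14 (d : R) : (aP4 d * aP10 d + aP5 d * aP9 d + aP6 d * aP8 d + aP7 d * aP7 d + aP8 d * aP6 d + aP9 d * aP5 d + aP10 d * aP4 d) - 18 * (aP4 d * bP10 d + aP5 d * bP9 d + aP6 d * bP8 d + aP7 d * bP7 d + aP8 d * bP6 d + aP9 d * bP5 d + aP10 d * bP4 d) + 74 * (aP4 d * cP10 d + aP5 d * cP9 d + aP6 d * cP8 d + aP7 d * cP7 d + aP8 d * cP6 d + aP9 d * cP5 d + aP10 d * cP4 d) + 18 * (bP4 d * cP10 d + bP5 d * cP9 d + bP6 d * cP8 d + bP7 d * cP7 d + bP8 d * cP6 d + bP9 d * cP5 d + bP10 d * cP4 d) + (cP4 d * cP10 d + cP5 d * cP9 d + cP6 d * cP8 d + cP7 d * cP7 d + cP8 d * cP6 d + cP9 d * cP5 d +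 cP10 d * cP4 d) = gP14 d := by
  simp only [gP14, aP0, aP1, aP2, aP3, aP4, aP5, aP6, aP7, aP8, aP9, aP10, bP0, bP1, bP2, bP3, bP4, bP5, bP6, bP7, bP8, bP9, bP10, cP0, cP1, cP2, cP3, cP4, cP5, cP6, cP7, cP8, cP9, cP10]
  ring

theorem g6_15 (d : R) : (aP5 d * aP10 d + aP6 d * aP9 d + aP7 d * aP8 d + aP8 d * aP7 d + aP9 d * aP6 d + aP10 d * aP5 d) - 18 * (aP5 d * bP10 d + aP6 d * bP9 d + aP7 d * bP8 d + aP8 d * bP7 d + aP9 d * bP6 d + aP10 d * bP5 d) + 74 * (aP5 d * cP10 d + aP6 d * cP9 d + aP7 d * cP8 d + aP8 d * cP7 d + aP9 d * cP6 d + aP10 d * cP5 d) + 18 * (bP5 d * cP10 d + bP6 d * cP9 d + bP7 d * cP8 d + bP8 d * cP7 d + bP9 d * cP6 d + bP10 d * cP5 d) + (cP5 d * cP10 d + cP6 d * cP9 d + cP7 d * cP8 d + cP8 d * cP7 d + cP9 d * cP6 d + cP10 d * cP5 d) = gP15 d := by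
  simp only [gP15, aP0, aP1, aP2, aP3, aP4, aP5, aP6, aP7, aP8, aP9, aP10, bP0, bP1, bP2, bP3, bP4, bP5, bP6, bP7, bP8, bP9, bP10, cP0, cP1, cP2, cP3, cP4, cP5, cP6, cP7, cP8, cP9, cP10]
  ring

theorem g6_16 (d : R) : (aP6 d * aP10 d + aP7 d * aP9 d + aP8 d * aP8 d + aP9 d * aP7 d + aP10 d * aP6 d) - 18 * (aP6 d * bP10 d + aP7 d * bP9 d + aP8 d * bP8 d + aP9 d * bP7 d + aP10 d * bP6 d) + 74 * (aP6 d * cP10 d + aP7 d * cP9 d + aP8 d * cP8 d + aP9 d * cP7 d + aP10 d * cP6 d) + 18 * (bP6 d * cP10 d + bP7 d * cP9 d + bP8 d * cP8 d + bP9 d * cP7 d + bP10 d * cP6 d) + (cP6 d * cP10 d + cP7 d * cP9 d + cP8 d * cP8 d + cP9 d * cP7 d + cP10 d * cP6 d) = gP16 d := by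
  simp only [gP16, aP0, aP1, aP2, aP3, aP4, aP5, aP6, aP7, aP8, aP9, aP10, bP0, bP1, bP2, bP3, bP4, bP5, bP6, bP7, bP8, bP9, bP10, cP0, cP1, cP2, cP3, cP4, cP5, cP6, cP7, cP8, cP9, cP10]
  ring

theorem g6_17 (d : R) : (aP7 d * aP10 d + aP8 d * aP9 d + aP9 d * aP8 d + aP10 d * aP7 d) - 18 * (aP7 d * bP10 d + aP8 d * bP9 d + aP9 d * bP8 d + aP10 d * bP7 d) + 74 * (aP7 d * cP10 d + aP8 d * cP9 d + aP9 d * cP8 d + aP10 d * cP7 d) + 18 * (bP7 d * cP10 d + bP8 d * cP9 d + bP9 d * cP8 d + bP10 d * cP7 d) + (cP7 d * cP10 d + cP8 d * cP9 d + cP9 d * cP8 d + cP10 d * cP7 d) = gP17 d := by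
  simp only [gP17, aP0, aP1, aP2, aP3, aP4, aP5, aP6, aP7, aP8, aP9, aP10, bP0, bP1, bP2, bP3, bP4, bP5, bP6, bP7, bP8, bP9, bP10, cP0, cP1, cP2, cP3, cP4, cP5, cP6, cP7, cP8, cP9, cP10]
  ring

theorem g6_18 (d : R) : (aP8 d * aP10 d + aP9 d * aP9 d + aP10 d * aP8 d) - 18 * (aP8 d * bP10 d + aP9 d * bP9 d + aP10 d * bP8 d) + 74 * (aP8 d * cP10 d + aP9 d * cP9 d + aP10 d * cP8 d) + 18 * (bP8 d * cP10 d + bP9 d * cP9 d + bP10 d * cP8 d) + (cP8 d * cP10 d + cP9 d * cP9 d + cP10 d * cP8 d) = gP18 d := by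
  simp only [gP18, aP0, aP1, aP2, aP3, aP4, aP5, aP6, aP7, aP8, aP9, aP10, bP0, bP1, bP2, bP3, bP4, bP5, bP6, bP7, bP8, bP9, bP10, cP0, cP1, cP2, cP3, cP4, cP5, cP6, cP7, cP8, cP9, cP10]
  ring

theorem g6_19 (d : R) : (aP9 d * aP10 d + aP10 d * aP9 d) - 18 * (aP9 d * bP10 d + aP10 d * bP9 d) + 74 * (aP9 d * cP10 d + aP10 d * cP9 d) + 18 * (bP9 d * cP10 d + bP10 d * cP9 d) + (cP9 d * cP10 d + cP10 d * cP9 d) = gP19 d := by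
  simp only [gP19, aP0, aP1, aP2, aP3, aP4, aP5, aP6, aP7, aP8, aP9, aP10, bP0, bP1, bP2, bP3, bP4, bP5, bP6, bP7, bP8, bP9, bP10, cP0, cP1, cP2, cP3, cP4, cP5, cP6, cP7, cP8, cP9, cP10]
  ring

theorem g6_20 (d : R) : (aP10 d * aP10 d) - 18 * (aP10 d * bP10 d) + 74 * (aP10 d * cP10 d) + 18 * (bP10 d * cP10 d) + (cP10 d * cP10 d) = gP20 d := by
  simp only [gP20, aP0, aP1, aP2, aP3, aP4, aP5, aP6, aP7, aP8, aP9, aP10, bP0, bP1, bP2, bP3, bP4, bP5, bP6, bP7, bP8, bP9, bP10, cP0, cP1, cP2, cP3, cP4, cP5, cP6, cP7, cP8, cP9, cP10]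
  ring

/-- Generic expansion of `(A + C)·G`, `A, C` of degree `≤ 10`, `G` of degree `≤ 20` in `s`. -/
theorem mul_10_20 (a0 a1 a2 a3 a4 a5 a6 a7 a8 a9 a10 c0 c1 c2 c3 c4 c5 c6 c7 c8 c9 c10 g0 g1 g2 g3 g4 g5 g6 g7 g8 g9 g10 g11 g12 g13 g14 g15 g16 g17 g18 g19 g20 s : R) :
    ((a0 + a1 * s + a2 * s^2 + a3 * s^3 + a4 * s^4 + a5 * s^5 + a6 * s^6 + a7 * s^7 + a8 * s^8 + a9 * s^9 + a10 * s^10) + (c0 + c1 * s + c2 * s^2 + c3 * s^3 + c4 * s^4 + c5 * s^5 + c6 * s^6 + c7 * s^7 + c8 * s^8 + c9 * s^9 + c10 * s^10)) * (g0 + g1 * s + g2 * s^2 + g3 * s^3 + g4 * s^4 + g5 * s^5 + g6 * s^6 + g7 * s^7 + g8 * s^8 + g9 * s^9 + g10 * s^10 + g11 * s^11 + g12 * s^12 + g13 * s^13 + g14 * s^14 + g15 * s^15 + g16 * s^16 + g17 * s^17 + g18 * s^18 + g19 * s^19 + g20 * s^20) =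
      ((a0 + c0) * g0) + ((a0 + c0) * g1 + (a1 + c1) * g0) * s + ((a0 + c0) * g2 + (a1 + c1) * g1 + (a2 + c2) * g0) * s^2 + ((a0 + c0) * g3 + (a1 + c1) * g2 + (a2 + c2) * g1 + (a3 + c3) * g0) * s^3 + ((a0 + c0) * g4 + (a1 + c1) * g3 + (a2 + c2) * g2 + (a3 + c3) * g1 + (a4 + c4) * g0) * s^4 + ((a0 + c0) * g5 + (a1 + c1) * g4 + (a2 + c2) * g3 + (a3 + c3) * g2 + (a4 + c4) * g1 + (a5 + c5) * g0) * s^5 + ((a0 + c0) * g6 + (a1 + c1) * g5 + (a2 + c2) * g4 + (a3 + c3) * g3 + (a4 + c4) * g2 + (a5 + c5) * g1 + (a6 + c6) * g0) * s^6 + ((a0 + c0) * g7 + (a1 + c1) * g6 + (a2 + c2) * g5 + (a3 + c3) * g4 + (a4 + c4) * g3 + (a5 + c5) * g2 + (a6 + c6) * g1 + (a7 + c7) * g0) * s^7 + ((a0 + c0) * g8 + (a1 + c1) * g7 + (a2 + c2) * g6 + (a3 + c3) * g5 + (a4 + c4) * g4 + (a5 + c5) * g3 + (a6 + c6) * g2 + (a7 + c7) * g1 + (a8 + c8) * g0) * s^8 + ((a0 + c0) * g9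 + (a1 + c1) * g8 + (a2 + c2) * g7 + (a3 + c3) * g6 + (a4 + c4) * g5 + (a5 + c5) * g4 + (a6 + c6) * g3 + (a7 + c7) * g2 + (a8 + c8) * g1 + (a9 + c9) * g0) * s^9 + ((a0 + c0) * g10 + (a1 + c1) * g9 + (a2 + c2) * g8 + (a3 + c3) * g7 + (a4 + c4) * g6 + (a5 + c5) * g5 + (a6 + c6) * g4 + (a7 + c7) * g3 + (a8 + c8) * g2 + (a9 + c9) * g1 + (a10 + c10) * g0) * s^10 + ((a0 + c0) * g11 + (a1 + c1) * g10 + (a2 + c2) * g9 + (a3 + c3) * g8 + (a4 + c4) * g7 + (a5 + c5) * g6 + (a6 + c6) * g5 + (a7 + c7) * g4 + (a8 + c8) * g3 + (a9 + c9) * g2 + (a10 + c10) * g1) * s^11 + ((a0 + c0) * g12 + (a1 + c1) * g11 + (a2 + c2) * g10 + (a3 + c3) * g9 + (a4 + c4) * g8 + (a5 + c5) * g7 + (a6 + c6) * g6 + (a7 + c7) * g5 + (a8 + c8) * g4 + (a9 + c9) * g3 + (a10 + c10) * g2) * s^12 + ((a0 + c0) * g13 + (a1 + c1) * g12 + (a2 + c2) * g11 + (a3 + c3) * g10 + (a4 + c4) * g9 +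 (a5 + c5) * g8 + (a6 + c6) * g7 + (a7 + c7) * g6 + (a8 + c8) * g5 + (a9 + c9) * g4 + (a10 + c10) * g3) * s^13 + ((a0 + c0) * g14 + (a1 + c1) * g13 + (a2 + c2) * g12 + (a3 + c3) * g11 + (a4 + c4) * g10 + (a5 + c5) * g9 + (a6 + c6) * g8 + (a7 + c7) * g7 + (a8 + c8) * g6 + (a9 + c9) * g5 + (a10 + c10) * g4) * s^14 + ((a0 + c0) * g15 + (a1 + c1) * g14 + (a2 + c2) * g13 + (a3 + c3) * g12 + (a4 + c4) * g11 + (a5 + c5) * g10 + (a6 + c6) * g9 + (a7 + c7) * g8 + (a8 + c8) * g7 + (a9 + c9) * g6 + (a10 + c10) * g5) * s^15 + ((a0 + c0) * g16 + (a1 + c1) * g15 + (a2 + c2) * g14 + (a3 + c3) * g13 + (a4 + c4) * g12 + (a5 + c5) * g11 + (a6 + c6) * g10 + (a7 + c7) * g9 + (a8 + c8) * g8 + (a9 + c9) * g7 + (a10 + c10) * g6) * s^16 + ((a0 + c0) * g17 + (a1 + c1) * g16 + (a2 + c2) * g15 + (a3 + c3) * g14 + (a4 + c4) * g13 + (a5 + c5) * g12 + (a6 + c6) * g11 +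 (a7 + c7) * g10 + (a8 + c8) * g9 + (a9 + c9) * g8 + (a10 + c10) * g7) * s^17 + ((a0 + c0) * g18 + (a1 + c1) * g17 + (a2 + c2) * g16 + (a3 + c3) * g15 + (a4 + c4) * g14 + (a5 + c5) * g13 + (a6 + c6) * g12 + (a7 + c7) * g11 + (a8 + c8) * g10 + (a9 + c9) * g9 + (a10 + c10) * g8) * s^18 + ((a0 + c0) * g19 + (a1 + c1) * g18 + (a2 + c2) * g17 + (a3 + c3) * g16 + (a4 + c4) * g15 + (a5 + c5) * g14 + (a6 + c6) * g13 + (a7 + c7) * g12 + (a8 + c8) * g11 + (a9 + c9) * g10 + (a10 + c10) * g9) * s^19 + ((a0 + c0) * g20 + (a1 + c1) * g19 + (a2 + c2) * g18 + (a3 + c3) * g17 + (a4 + c4) * g16 + (a5 + c5) * g15 + (a6 + c6) * g14 + (a7 + c7) * g13 + (a8 + c8) * g12 + (a9 + c9) * g11 + (a10 + c10) * g10) * s^20 + ((a1 + c1) * g20 + (a2 + c2) * g19 + (a3 + c3) * g18 + (a4 + c4) * g17 + (a5 + c5) * g16 + (a6 + c6) * g15 + (a7 + c7) * g14 + (a8 + c8) * g13 + (a9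 + c9) * g12 + (a10 + c10) * g11) * s^21 + ((a2 + c2) * g20 + (a3 + c3) * g19 + (a4 + c4) * g18 + (a5 + c5) * g17 + (a6 + c6) * g16 + (a7 + c7) * g15 + (a8 + c8) * g14 + (a9 + c9) * g13 + (a10 + c10) * g12) * s^22 + ((a3 + c3) * g20 + (a4 + c4) * g19 + (a5 + c5) * g18 + (a6 + c6) * g17 + (a7 + c7) * g16 + (a8 + c8) * g15 + (a9 + c9) * g14 + (a10 + c10) * g13) * s^23 + ((a4 + c4) * g20 + (a5 + c5) * g19 + (a6 + c6) * g18 + (a7 + c7) * g17 + (a8 + c8) * g16 + (a9 + c9) * g15 + (a10 + c10) * g14) * s^24 + ((a5 + c5) * g20 + (a6 + c6) * g19 + (a7 + c7) * g18 + (a8 + c8) * g17 + (a9 + c9) * g16 + (a10 + c10) * g15) * s^25 + ((a6 + c6) * g20 + (a7 + c7) * g19 + (a8 + c8) * g18 + (a9 + c9) * g17 + (a10 + c10) * g16) * s^26 + ((a7 + c7) * g20 + (a8 + c8) * g19 + (a9 + c9) * g18 + (a10 + c10) * g17) * s^27 + ((a8 + c8) * g20 + (a9 + c9) * g19 + (a10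 + c10) * g18) * s^28 + ((a9 + c9) * g20 + (a10 + c10) * g19) * s^29 + ((a10 + c10) * g20) * s^30 := by
  ring

theorem e6_0 (d : R) : (aP0 d + cP0 d) * gP0 d = -fam6c0 (c4T d) (c6T d) := by
  simp only [fam6c0, c4T, c6T, aP0, aP1, aP2, aP3, aP4, aP5, aP6, aP7, aP8, aP9, aP10, cP0, cP1, cP2, cP3, cP4, cP5, cP6, cP7, cP8, cP9, cP10, gP0, gP1, gP2, gP3, gP4, gP5, gP6, gP7, gP8, gP9, gP10, gP11, gP12, gP13, gP14, gP15, gP16, gP17, gP18, gP19, gP20]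
  ring

theorem e6_1 (d : R) : (aP0 d + cP0 d) * gP1 d + (aP1 d + cP1 d) * gP0 d = -fam6c1 (c4T d) (c6T d) := by
  simp only [fam6c1, c4T, c6T, aP0, aP1, aP2, aP3, aP4, aP5, aP6, aP7, aP8, aP9, aP10, cP0, cP1, cP2, cP3, cP4, cP5, cP6, cP7, cP8, cP9, cP10, gP0, gP1, gP2, gP3, gP4, gP5, gP6, gP7, gP8, gP9, gP10, gP11, gP12, gP13, gP14, gP15, gP16, gP17, gP18, gP19, gP20]
  ring

theorem e6_2 (d : R) : (aP0 d + cP0 d) * gP2 d + (aP1 d + cP1 d) * gP1 d + (aP2 d + cP2 d) * gP0 d = -fam6c2 (c4T d) (c6T d) := by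
  simp only [fam6c2, c4T, c6T, aP0, aP1, aP2, aP3, aP4, aP5, aP6, aP7, aP8, aP9, aP10, cP0, cP1, cP2, cP3, cP4, cP5, cP6, cP7, cP8, cP9, cP10, gP0, gP1, gP2, gP3, gP4, gP5, gP6, gP7, gP8, gP9, gP10, gP11, gP12, gP13, gP14, gP15, gP16, gP17, gP18, gP19, gP20]
  ring

theorem e6_3 (d : R) : (aP0 d + cP0 d) * gP3 d + (aP1 d + cP1 d) * gP2 d + (aP2 d + cP2 d) * gP1 d + (aP3 d + cP3 d) * gP0 d = -fam6c3 (c4T d) (c6T d) := by
  simp only [fam6c3, c4T, c6T, aP0, aP1, aP2, aP3, aP4, aP5, aP6, aP7, aP8, aP9, aP10, cP0, cP1, cP2, cP3, cP4, cP5, cP6, cP7, cP8, cP9, cP10, gP0, gP1, gP2, gP3, gP4, gP5, gP6, gP7, gP8, gP9, gP10, gP11, gP12, gP13, gP14, gP15, gP16, gP17, gP18, gP19, gP20]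
  ring

theorem e6_4 (d : R) : (aP0 d + cP0 d) * gP4 d + (aP1 d + cP1 d) * gP3 d + (aP2 d + cP2 d) * gP2 d + (aP3 d + cP3 d) * gP1 d + (aP4 d + cP4 d) * gP0 d = -fam6c4 (c4T d) (c6T d) := by
  simp only [fam6c4, c4T, c6T, aP0, aP1, aP2, aP3, aP4, aP5, aP6, aP7, aP8, aP9, aP10, cP0, cP1, cP2, cP3, cP4, cP5, cP6, cP7, cP8, cP9, cP10, gP0, gP1, gP2, gP3, gP4, gP5, gP6, gP7, gP8, gP9, gP10, gP11, gP12, gP13, gP14, gP15, gP16, gP17, gP18, gP19, gP20]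
  ring

theorem e6_5 (d : R) : (aP0 d + cP0 d) * gP5 d + (aP1 d + cP1 d) * gP4 d + (aP2 d + cP2 d) * gP3 d + (aP3 d + cP3 d) * gP2 d + (aP4 d + cP4 d) * gP1 d + (aP5 d + cP5 d) * gP0 d = -fam6c5 (c4T d) (c6T d) := by
  simp only [fam6c5, c4T, c6T, aP0, aP1, aP2, aP3, aP4, aP5, aP6, aP7, aP8, aP9, aP10, cP0, cP1, cP2, cP3, cP4, cP5, cP6, cP7, cP8, cP9, cP10, gP0, gP1, gP2, gP3, gP4, gP5, gP6, gP7, gP8, gP9, gP10, gP11, gP12, gP13, gP14, gP15, gP16, gP17, gP18, gP19, gP20]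
  ring

theorem e6_6 (d : R) : (aP0 d + cP0 d) * gP6 d + (aP1 d + cP1 d) * gP5 d + (aP2 d + cP2 d) * gP4 d + (aP3 d + cP3 d) * gP3 d + (aP4 d + cP4 d) * gP2 d + (aP5 d + cP5 d) * gP1 d + (aP6 d + cP6 d) * gP0 d = -fam6c6 (c4T d) (c6T d) := by
  simp only [fam6c6, c4T, c6T, aP0, aP1, aP2, aP3, aP4, aP5, aP6, aP7, aP8, aP9, aP10, cP0, cP1, cP2, cP3, cP4, cP5, cP6, cP7, cP8, cP9, cP10, gP0, gP1, gP2, gP3, gP4, gP5, gP6, gP7, gP8, gP9, gP10, gP11, gP12, gP13, gP14, gP15, gP16, gP17, gP18, gP19, gP20]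
  ring

theorem e6_7 (d : R) : (aP0 d + cP0 d) * gP7 d + (aP1 d + cP1 d) * gP6 d + (aP2 d + cP2 d) * gP5 d + (aP3 d + cP3 d) * gP4 d + (aP4 d + cP4 d) * gP3 d + (aP5 d + cP5 d) * gP2 d + (aP6 d + cP6 d) * gP1 d + (aP7 d + cP7 d) * gP0 d = -fam6c7 (c4T d) (c6T d) := by
  simp only [fam6c7, c4T, c6T, aP0, aP1, aP2, aP3, aP4, aP5, aP6, aP7, aP8, aP9, aP10, cP0, cP1, cP2, cP3, cP4, cP5, cP6, cP7, cP8, cP9, cP10, gP0, gP1, gP2, gP3, gP4, gP5, gP6, gP7, gP8, gP9, gP10, gP11, gP12, gP13, gP14, gP15, gP16, gP17, gP18, gP19, gP20]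
  ring

theorem e6_8 (d : R) : (aP0 d + cP0 d) * gP8 d + (aP1 d + cP1 d) * gP7 d + (aP2 d + cP2 d) * gP6 d + (aP3 d + cP3 d) * gP5 d + (aP4 d + cP4 d) * gP4 d + (aP5 d + cP5 d) * gP3 d + (aP6 d + cP6 d) * gP2 d + (aP7 d + cP7 d) * gP1 d + (aP8 d + cP8 d) * gP0 d = -fam6c8 (c4T d) (c6T d) := by
  simp only [fam6c8, c4T, c6T, aP0, aP1, aP2, aP3, aP4, aP5, aP6, aP7, aP8, aP9, aP10, cP0, cP1, cP2, cP3, cP4, cP5, cP6, cP7, cP8, cP9, cP10, gP0, gP1, gP2, gP3, gP4, gP5, gP6, gP7, gP8, gP9, gP10, gP11, gP12, gP13, gP14, gP15, gP16, gP17, gP18, gP19, gP20]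
  ring

theorem e6_9 (d : R) : (aP0 d + cP0 d) * gP9 d + (aP1 d + cP1 d) * gP8 d + (aP2 d + cP2 d) * gP7 d + (aP3 d + cP3 d) * gP6 d + (aP4 d + cP4 d) * gP5 d + (aP5 d + cP5 d) * gP4 d + (aP6 d + cP6 d) * gP3 d + (aP7 d + cP7 d) * gP2 d + (aP8 d + cP8 d) * gP1 d + (aP9 d + cP9 d) * gP0 d = -fam6c9 (c4T d) (c6T d) := by
  simp only [fam6c9, c4T, c6T, aP0, aP1, aP2, aP3, aP4, aP5, aP6, aP7, aP8, aP9, aP10, cP0, cP1, cP2, cP3, cP4, cP5, cP6, cP7, cP8, cP9, cP10, gP0, gP1, gP2, gP3, gP4, gP5, gP6, gP7, gP8, gP9, gP10, gP11, gP12, gP13, gP14, gP15, gP16, gP17, gP18, gP19, gP20]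
  ring

theorem e6_10 (d : R) : (aP0 d + cP0 d) * gP10 d + (aP1 d + cP1 d) * gP9 d + (aP2 d + cP2 d) * gP8 d + (aP3 d + cP3 d) * gP7 d + (aP4 d + cP4 d) * gP6 d + (aP5 d + cP5 d) * gP5 d + (aP6 d + cP6 d) * gP4 d + (aP7 d + cP7 d) * gP3 d + (aP8 d + cP8 d) * gP2 d + (aP9 d + cP9 d) * gP1 d + (aP10 d + cP10 d) * gP0 d = -fam6c10 (c4T d) (c6T d) := by
  simp only [fam6c10, c4T, c6T, aP0, aP1, aP2, aP3, aP4, aP5, aP6, aP7, aP8, aP9, aP10, cP0, cP1, cP2, cP3, cP4, cP5, cP6, cP7, cP8, cP9, cP10, gP0, gP1, gP2, gP3, gP4, gP5, gP6, gP7, gP8, gP9, gP10, gP11, gP12, gP13, gP14, gP15, gP16, gP17, gP18, gP19, gP20]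
  ring

theorem e6_11 (d : R) : (aP0 d + cP0 d) * gP11 d + (aP1 d + cP1 d) * gP10 d + (aP2 d + cP2 d) * gP9 d + (aP3 d + cP3 d) * gP8 d + (aP4 d + cP4 d) * gP7 d + (aP5 d + cP5 d) * gP6 d + (aP6 d + cP6 d) * gP5 d + (aP7 d + cP7 d) * gP4 d + (aP8 d + cP8 d) * gP3 d + (aP9 d + cP9 d) * gP2 d + (aP10 d + cP10 d) * gP1 d = -fam6c11 (c4T d) (c6T d) := by
  simp only [fam6c11, c4T, c6T, aP0, aP1, aP2, aP3, aP4, aP5, aP6, aP7, aP8, aP9, aP10, cP0, cP1, cP2, cP3, cP4, cP5, cP6, cP7, cP8, cP9, cP10, gP0, gP1, gP2, gP3, gP4, gP5, gP6, gP7, gP8, gP9, gP10, gP11, gP12, gP13, gP14, gP15, gP16, gP17, gP18, gP19, gP20]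
  ring

theorem e6_12 (d : R) : (aP0 d + cP0 d) * gP12 d + (aP1 d + cP1 d) * gP11 d + (aP2 d + cP2 d) * gP10 d + (aP3 d + cP3 d) * gP9 d + (aP4 d + cP4 d) * gP8 d + (aP5 d + cP5 d) * gP7 d + (aP6 d + cP6 d) * gP6 d + (aP7 d + cP7 d) * gP5 d + (aP8 d + cP8 d) * gP4 d + (aP9 d + cP9 d) * gP3 d + (aP10 d + cP10 d) * gP2 d = -fam6c12 (c4T d) (c6T d) := by
  simp only [fam6c12, c4T, c6T, aP0, aP1, aP2, aP3, aP4, aP5, aP6, aP7, aP8, aP9, aP10, cP0, cP1, cP2, cP3, cP4, cP5, cP6, cP7, cP8, cP9, cP10, gP0, gP1, gP2, gP3, gP4, gP5, gP6, gP7, gP8, gP9, gP10, gP11, gP12, gP13, gP14, gP15, gP16, gP17, gP18, gP19, gP20]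
  ring

theorem e6_13 (d : R) : (aP0 d + cP0 d) * gP13 d + (aP1 d + cP1 d) * gP12 d + (aP2 d + cP2 d) * gP11 d + (aP3 d + cP3 d) * gP10 d + (aP4 d + cP4 d) * gP9 d + (aP5 d + cP5 d) * gP8 d + (aP6 d + cP6 d) * gP7 d + (aP7 d + cP7 d) * gP6 d + (aP8 d + cP8 d) * gP5 d + (aP9 d + cP9 d) * gP4 d + (aP10 d + cP10 d) * gP3 d = -fam6c13 (c4T d) (c6T d) := by
  simp only [fam6c13, c4T, c6T, aP0, aP1, aP2, aP3, aP4, aP5, aP6, aP7, aP8, aP9, aP10, cP0, cP1, cP2, cP3, cP4, cP5, cP6, cP7, cP8, cP9, cP10, gP0, gP1, gP2, gP3, gP4, gP5, gP6, gP7, gP8, gP9, gP10, gP11, gP12, gP13, gP14, gP15, gP16, gP17, gP18, gP19, gP20]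
  ring

theorem e6_14 (d : R) : (aP0 d + cP0 d) * gP14 d + (aP1 d + cP1 d) * gP13 d + (aP2 d + cP2 d) * gP12 d + (aP3 d + cP3 d) * gP11 d + (aP4 d + cP4 d) * gP10 d + (aP5 d + cP5 d) * gP9 d + (aP6 d + cP6 d) * gP8 d + (aP7 d + cP7 d) * gP7 d + (aP8 d + cP8 d) * gP6 d + (aP9 d + cP9 d) * gP5 d + (aP10 d + cP10 d) * gP4 d = -fam6c14 (c4T d) (c6T d) := by
  simp only [fam6c14, c4T, c6T, aP0, aP1, aP2, aP3, aP4, aP5, aP6, aP7, aP8, aP9, aP10, cP0, cP1, cP2, cP3, cP4, cP5, cP6, cP7, cP8, cP9, cP10, gP0, gP1, gP2, gP3, gP4, gP5, gP6, gP7, gP8, gP9, gP10, gP11, gP12, gP13, gP14, gP15, gP16, gP17, gP18, gP19, gP20]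
  ring

theorem e6_15 (d : R) : (aP0 d + cP0 d) * gP15 d + (aP1 d + cP1 d) * gP14 d + (aP2 d + cP2 d) * gP13 d + (aP3 d + cP3 d) * gP12 d + (aP4 d + cP4 d) * gP11 d + (aP5 d + cP5 d) * gP10 d + (aP6 d + cP6 d) * gP9 d + (aP7 d + cP7 d) * gP8 d + (aP8 d + cP8 d) * gP7 d + (aP9 d + cP9 d) * gP6 d + (aP10 d + cP10 d) * gP5 d = -fam6c15 (c4T d) (c6T d) := by
  simp only [fam6c15, c4T, c6T, aP0, aP1, aP2, aP3, aP4, aP5, aP6, aP7, aP8, aP9, aP10, cP0, cP1, cP2, cP3, cP4, cP5, cP6, cP7, cP8, cP9, cP10, gP0, gP1, gP2, gP3, gP4, gP5, gP6, gP7, gP8, gP9, gP10, gP11, gP12, gP13, gP14, gP15, gP16, gP17, gP18, gP19, gP20]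
  ring

theorem e6_16 (d : R) : (aP0 d + cP0 d) * gP16 d + (aP1 d + cP1 d) * gP15 d + (aP2 d + cP2 d) * gP14 d + (aP3 d + cP3 d) * gP13 d + (aP4 d + cP4 d) * gP12 d + (aP5 d + cP5 d) * gP11 d + (aP6 d + cP6 d) * gP10 d + (aP7 d + cP7 d) * gP9 d + (aP8 d + cP8 d) * gP8 d + (aP9 d + cP9 d) * gP7 d + (aP10 d + cP10 d) * gP6 d = -fam6c16 (c4T d) (c6T d) := by
  simp only [fam6c16, c4T, c6T, aP0, aP1, aP2, aP3, aP4, aP5, aP6, aP7, aP8, aP9, aP10, cP0, cP1, cP2, cP3, cP4, cP5, cP6, cP7, cP8, cP9, cP10, gP0, gP1, gP2, gP3, gP4, gP5, gP6, gP7, gP8, gP9, gP10, gP11, gP12, gP13, gP14, gP15, gP16, gP17, gP18, gP19, gP20]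
  ring

theorem e6_17 (d : R) : (aP0 d + cP0 d) * gP17 d + (aP1 d + cP1 d) * gP16 d + (aP2 d + cP2 d) * gP15 d + (aP3 d + cP3 d) * gP14 d + (aP4 d + cP4 d) * gP13 d + (aP5 d + cP5 d) * gP12 d + (aP6 d + cP6 d) * gP11 d + (aP7 d + cP7 d) * gP10 d + (aP8 d + cP8 d) * gP9 d + (aP9 d + cP9 d) * gP8 d + (aP10 d + cP10 d) * gP7 d = -fam6c17 (c4T d) (c6T d) := by
  simp only [fam6c17, c4T, c6T, aP0, aP1, aP2, aP3, aP4, aP5, aP6, aP7, aP8, aP9, aP10, cP0, cP1, cP2, cP3, cP4, cP5, cP6, cP7, cP8, cP9, cP10, gP0, gP1, gP2, gP3, gP4, gP5, gP6, gP7, gP8, gP9, gP10, gP11, gP12, gP13, gP14, gP15, gP16, gP17, gP18, gP19, gP20]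
  ring

theorem e6_18 (d : R) : (aP0 d + cP0 d) * gP18 d + (aP1 d + cP1 d) * gP17 d + (aP2 d + cP2 d) * gP16 d + (aP3 d + cP3 d) * gP15 d + (aP4 d + cP4 d) * gP14 d + (aP5 d + cP5 d) * gP13 d + (aP6 d + cP6 d) * gP12 d + (aP7 d + cP7 d) * gP11 d + (aP8 d + cP8 d) * gP10 d + (aP9 d + cP9 d) * gP9 d + (aP10 d + cP10 d) * gP8 d = -fam6c18 (c4T d) (c6T d) := by
  simp only [fam6c18, c4T, c6T, aP0, aP1, aP2, aP3, aP4, aP5, aP6, aP7, aP8, aP9, aP10, cP0, cP1, cP2, cP3, cP4, cP5, cP6, cP7, cP8, cP9, cP10, gP0, gP1, gP2, gP3, gP4, gP5, gP6, gP7, gP8, gP9, gP10, gP11, gP12, gP13, gP14, gP15, gP16, gP17, gP18, gP19, gP20]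
  ring

theorem e6_19 (d : R) : (aP0 d + cP0 d) * gP19 d + (aP1 d + cP1 d) * gP18 d + (aP2 d + cP2 d) * gP17 d + (aP3 d + cP3 d) * gP16 d + (aP4 d + cP4 d) * gP15 d + (aP5 d + cP5 d) * gP14 d + (aP6 d + cP6 d) * gP13 d + (aP7 d + cP7 d) * gP12 d + (aP8 d + cP8 d) * gP11 d + (aP9 d + cP9 d) * gP10 d + (aP10 d + cP10 d) * gP9 d = -fam6c19 (c4T d) (c6T d) := by
  simp only [fam6c19, c4T, c6T, aP0, aP1, aP2, aP3, aP4, aP5, aP6, aP7, aP8, aP9, aP10, cP0, cP1, cP2, cP3, cP4, cP5, cP6, cP7, cP8, cP9, cP10, gP0, gP1, gP2, gP3, gP4, gP5, gP6, gP7, gP8, gP9, gP10, gP11, gP12, gP13, gP14, gP15, gP16, gP17, gP18, gP19, gP20]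
  ring

theorem e6_20 (d : R) : (aP0 d + cP0 d) * gP20 d + (aP1 d + cP1 d) * gP19 d + (aP2 d + cP2 d) * gP18 d + (aP3 d + cP3 d) * gP17 d + (aP4 d + cP4 d) * gP16 d + (aP5 d + cP5 d) * gP15 d + (aP6 d + cP6 d) * gP14 d + (aP7 d + cP7 d) * gP13 d + (aP8 d + cP8 d) * gP12 d + (aP9 d + cP9 d) * gP11 d + (aP10 d + cP10 d) * gP10 d = -fam6c20 (c4T d) (c6T d) := by
  simp only [fam6c20, c4T, c6T, aP0, aP1, aP2, aP3, aP4, aP5, aP6, aP7, aP8, aP9, aP10, cP0, cP1, cP2, cP3, cP4, cP5, cP6, cP7, cP8, cP9, cP10, gP0, gP1, gP2, gP3, gP4, gP5, gP6, gP7, gP8, gP9, gP10, gP11, gP12, gP13, gP14, gP15, gP16, gP17, gP18, gP19, gP20]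
  ring

theorem e6_21 (d : R) : (aP1 d + cP1 d) * gP20 d + (aP2 d + cP2 d) * gP19 d + (aP3 d + cP3 d) * gP18 d + (aP4 d + cP4 d) * gP17 d + (aP5 d + cP5 d) * gP16 d + (aP6 d + cP6 d) * gP15 d + (aP7 d + cP7 d) * gP14 d + (aP8 d + cP8 d) * gP13 d + (aP9 d + cP9 d) * gP12 d + (aP10 d + cP10 d) * gP11 d = -fam6c21 (c4T d) (c6T d) := by
  simp only [fam6c21, c4T, c6T, aP0, aP1, aP2, aP3, aP4, aP5, aP6, aP7, aP8, aP9, aP10, cP0, cP1, cP2, cP3, cP4, cP5, cP6, cP7, cP8, cP9, cP10, gP0, gP1, gP2, gP3, gP4, gP5, gP6, gP7, gP8, gP9, gP10, gP11, gP12, gP13, gP14, gP15, gP16, gP17, gP18, gP19, gP20]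
  ring

theorem e6_22 (d : R) : (aP2 d + cP2 d) * gP20 d + (aP3 d + cP3 d) * gP19 d + (aP4 d + cP4 d) * gP18 d + (aP5 d + cP5 d) * gP17 d + (aP6 d + cP6 d) * gP16 d + (aP7 d + cP7 d) * gP15 d + (aP8 d + cP8 d) * gP14 d + (aP9 d + cP9 d) * gP13 d + (aP10 d + cP10 d) * gP12 d = -fam6c22 (c4T d) (c6T d) := by
  simp only [fam6c22, c4T, c6T, aP0, aP1, aP2, aP3, aP4, aP5, aP6, aP7, aP8, aP9, aP10, cP0, cP1, cP2, cP3, cP4, cP5, cP6, cP7, cP8, cP9, cP10, gP0, gP1, gP2, gP3, gP4, gP5, gP6, gP7, gP8, gP9, gP10, gP11, gP12, gP13, gP14, gP15, gP16, gP17, gP18, gP19, gP20]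
  ring

theorem e6_23 (d : R) : (aP3 d + cP3 d) * gP20 d + (aP4 d + cP4 d) * gP19 d + (aP5 d + cP5 d) * gP18 d + (aP6 d + cP6 d) * gP17 d + (aP7 d + cP7 d) * gP16 d + (aP8 d + cP8 d) * gP15 d + (aP9 d + cP9 d) * gP14 d + (aP10 d + cP10 d) * gP13 d = -fam6c23 (c4T d) (c6T d) := by
  simp only [fam6c23, c4T, c6T, aP0, aP1, aP2, aP3, aP4, aP5, aP6, aP7, aP8, aP9, aP10, cP0, cP1, cP2, cP3, cP4, cP5, cP6, cP7, cP8, cP9, cP10, gP0, gP1, gP2, gP3, gP4, gP5, gP6, gP7, gP8, gP9, gP10, gP11, gP12, gP13, gP14, gP15, gP16, gP17, gP18, gP19, gP20]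
  ring

theorem e6_24 (d : R) : (aP4 d + cP4 d) * gP20 d + (aP5 d + cP5 d) * gP19 d + (aP6 d + cP6 d) * gP18 d + (aP7 d + cP7 d) * gP17 d + (aP8 d + cP8 d) * gP16 d + (aP9 d + cP9 d) * gP15 d + (aP10 d + cP10 d) * gP14 d = -fam6c24 (c4T d) (c6T d) := by
  simp only [fam6c24, c4T, c6T, aP0, aP1, aP2, aP3, aP4, aP5, aP6, aP7, aP8, aP9, aP10, cP0, cP1, cP2, cP3, cP4, cP5, cP6, cP7, cP8, cP9, cP10, gP0, gP1, gP2, gP3, gP4, gP5, gP6, gP7, gP8, gP9, gP10, gP11, gP12, gP13, gP14, gP15, gP16, gP17, gP18, gP19, gP20]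
  ring

theorem e6_25 (d : R) : (aP5 d + cP5 d) * gP20 d + (aP6 d + cP6 d) * gP19 d + (aP7 d + cP7 d) * gP18 d + (aP8 d + cP8 d) * gP17 d + (aP9 d + cP9 d) * gP16 d + (aP10 d + cP10 d) * gP15 d = -fam6c25 (c4T d) (c6T d) := by
  simp only [fam6c25, c4T, c6T, aP0, aP1, aP2, aP3, aP4, aP5, aP6, aP7, aP8, aP9, aP10, cP0, cP1, cP2, cP3, cP4, cP5, cP6, cP7, cP8, cP9, cP10, gP0, gP1, gP2, gP3, gP4, gP5, gP6, gP7, gP8, gP9, gP10, gP11, gP12, gP13, gP14, gP15, gP16, gP17, gP18, gP19, gP20]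
  ring

theorem e6_26 (d : R) : (aP6 d + cP6 d) * gP20 d + (aP7 d + cP7 d) * gP19 d + (aP8 d + cP8 d) * gP18 d + (aP9 d + cP9 d) * gP17 d + (aP10 d + cP10 d) * gP16 d = -fam6c26 (c4T d) (c6T d) := by
  simp only [fam6c26, c4T, c6T, aP0, aP1, aP2, aP3, aP4, aP5, aP6, aP7, aP8, aP9, aP10, cP0, cP1, cP2, cP3, cP4, cP5, cP6, cP7, cP8, cP9, cP10, gP0, gP1, gP2, gP3, gP4, gP5, gP6, gP7, gP8, gP9, gP10, gP11, gP12, gP13, gP14, gP15, gP16, gP17, gP18, gP19, gP20]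
  ring

theorem e6_27 (d : R) : (aP7 d + cP7 d) * gP20 d + (aP8 d + cP8 d) * gP19 d + (aP9 d + cP9 d) * gP18 d + (aP10 d + cP10 d) * gP17 d = -fam6c27 (c4T d) (c6T d) := by
  simp only [fam6c27, c4T, c6T, aP0, aP1, aP2, aP3, aP4, aP5, aP6, aP7, aP8, aP9, aP10, cP0, cP1, cP2, cP3, cP4, cP5, cP6, cP7, cP8, cP9, cP10, gP0, gP1, gP2, gP3, gP4, gP5, gP6, gP7, gP8, gP9, gP10, gP11, gP12, gP13, gP14, gP15, gP16, gP17, gP18, gP19, gP20]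
  ring

theorem e6_28 (d : R) : (aP8 d + cP8 d) * gP20 d + (aP9 d + cP9 d) * gP19 d + (aP10 d + cP10 d) * gP18 d = -fam6c28 (c4T d) (c6T d) := by
  simp only [fam6c28, c4T, c6T, aP0, aP1, aP2, aP3, aP4, aP5, aP6, aP7, aP8, aP9, aP10, cP0, cP1, cP2, cP3, cP4, cP5, cP6, cP7, cP8, cP9, cP10, gP0, gP1, gP2, gP3, gP4, gP5, gP6, gP7, gP8, gP9, gP10, gP11, gP12, gP13, gP14, gP15, gP16, gP17, gP18, gP19, gP20]
  ring

theorem e6_29 (d : R) : (aP9 d + cP9 d) * gP20 d + (aP10 d + cP10 d) * gP19 d = -fam6c29 (c4T d) (c6T d) := by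
  simp only [fam6c29, c4T, c6T, aP0, aP1, aP2, aP3, aP4, aP5, aP6, aP7, aP8, aP9, aP10, cP0, cP1, cP2, cP3, cP4, cP5, cP6, cP7, cP8, cP9, cP10, gP0, gP1, gP2, gP3, gP4, gP5, gP6, gP7, gP8, gP9, gP10, gP11, gP12, gP13, gP14, gP15, gP16, gP17, gP18, gP19, gP20]
  ring

theorem e6_30 (d : R) : (aP10 d + cP10 d) * gP20 d = -fam6c30 (c4T d) (c6T d) := by
  simp only [fam6c30, c4T, c6T, aP0, aP1, aP2, aP3, aP4, aP5, aP6, aP7, aP8, aP9, aP10, cP0, cP1, cP2, cP3, cP4, cP5, cP6, cP7, cP8, cP9, cP10, gP0, gP1, gP2, gP3, gP4, gP5, gP6, gP7, gP8, gP9, gP10, gP11, gP12, gP13, gP14, gP15, gP16, gP17, gP18, gP19, gP20]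
  ring

theorem C4form_as (n m : R) : C4form n m =
    (n * n) * (n * n) - 12 * ((n * n) * (n * m)) + 14 * ((n * n) * (m * m)) + 12 * ((n * m) * (m * m))
      + (m * m) * (m * m) := by
  unfold C4form; ring

theorem C6form_as (n m : R) : C6form n m =
    -((n * n + m * m) * ((n * n) * (n * n) - 18 * ((n * n) * (n * m)) + 74 * ((n * n) * (m * m))
      + 18 * ((n * m) * (m * m)) + (m * m) * (m * m))) := by
  unfold C6form; ring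

/-- **First core identity of the family in the Tate chart.** -/
theorem fam4_tate_B (d s : R) : fam4 (c4T d) (c6T d) s = C4form (famN d s) (famD d s) := by
  rw [C4form_as, famN_sq, famN_mul_famD, famD_sq, comb4, e4_0, e4_1, e4_2, e4_3, e4_4, e4_5, e4_6, e4_7, e4_8, e4_9, e4_10, e4_11, e4_12, e4_13, e4_14, e4_15, e4_16, e4_17, e4_18, e4_19, e4_20]
  rfl

/-- **Second core identity of the family in the Tate chart.** -/
theorem fam6_tate_B (d s : R) : fam6 (c4T d) (c6T d) s = C6form (famN d s) (famD d s) := by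
  rw [C6form_as, famN_sq, famN_mul_famD, famD_sq, comb6, g6_0, g6_1, g6_2, g6_3, g6_4, g6_5, g6_6, g6_7, g6_8, g6_9, g6_10, g6_11, g6_12, g6_13, g6_14, g6_15, g6_16, g6_17, g6_18, g6_19, g6_20, mul_10_20, e6_0, e6_1, e6_2, e6_3, e6_4, e6_5, e6_6, e6_7, e6_8, e6_9, e6_10, e6_11, e6_12, e6_13, e6_14, e6_15, e6_16, e6_17, e6_18, e6_19, e6_20, e6_21, e6_22, e6_23, e6_24, e6_25, e6_26, e6_27, e6_28, e6_29, e6_30]
  unfold fam6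
  ring

end Fermat.Agent.S52.TateIdB
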