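import Mathlib
import Fermat.Agent.S52.TateFam
import Fermat.Agent.S52.GlueArith

/-!
# S52 / the two Tate-chart identities of the 5-congruent family (C-file, light proof by grid evaluation)

`fam4 (c4T d) (c6T d) s = C4form (famN d s) (famD d s)` and the `c6`-analogue, over any
commutative ring.  Memory-light proof: both sides are polynomials in `(d, s)` over `ℤ` of bounded
degree; they agree on an integer grid (checked by kernel evaluation), hence are equal in
`ℤ[X][X]` by two rounds of Lagrange uniqueness, hence in every commutative ring.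
-/

set_option autoImplicit false

namespace Fermat.Agent.S52.TateFamIdC

open Fermat.Agent.S52.Tate

namespace FamId

open Polynomial
open Fermat.Agent.S52.GlueArith

/-- Two polynomials of degree `≤ n` over a domain of characteristic zero that agree at
`0, 1, …, n` are equal. -/
theorem eq_of_natCast_grid {A : Type*} [CommRing A] [IsDomain A] [CharZero A] (p q : A[X])
    (n : ℕ) (hp : p.natDegree ≤ n) (hq : q.natDegree ≤ n)
    (h : ∀ i, i < n + 1 → p.eval (i : A) = q.eval (i : A)) : p = q := by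
  classical
  let s : Finset A := (Finset.range (n + 1)).image (fun i : ℕ => (i : A))
  have hs : s.card = n + 1 := by
    rw [Finset.card_image_of_injective _ Nat.cast_injective, Finset.card_range]
  refine eq_of_degrees_lt_of_eval_finset_eq s ?_ ?_ ?_
  · rw [hs]
    exact lt_of_le_of_lt degree_le_natDegree (by exact_mod_cast Nat.lt_succ_of_le hp)
  · rw [hs]
    exact lt_of_le_of_lt degree_le_natDegree (by exact_mod_cast Nat.lt_succ_of_le hq)
  · intro x hx
    obtain ⟨i, hi, rfl⟩ := Finset.mem_image.mp hx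
    exact h i (Finset.mem_range.mp hi)

set_option maxRecDepth 100000 in
/-- Kernel-checked grid for the `c4`-identity. -/
theorem grid4 : ∀ s0 < 21, ∀ d0 < 45,
    fam4 (c4T ((d0 : ℕ) : ℤ)) (c6T ((d0 : ℕ) : ℤ)) ((s0 : ℕ) : ℤ)
      = C4form (famN ((d0 : ℕ) : ℤ) ((s0 : ℕ) : ℤ)) (famD ((d0 : ℕ) : ℤ) ((s0 : ℕ) : ℤ)) := by
  decide +kernel

local notation "dA" => (C (X : ℤ[X]) : ℤ[X][X])
local notation "sA" => (X : ℤ[X][X])

/-- The `c4`-identity in `ℤ[X][X]` (inner variable `d`, outer variable `s`). -/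
theorem fam4_poly :
    fam4 (c4T dA) (c6T dA) sA = C4form (famN dA sA) (famD dA sA) := by
  refine eq_of_natCast_grid _ _ 20 ?_ ?_ ?_
  · unfold fam4 fam4c0 fam4c1 fam4c2 fam4c3 fam4c4 fam4c5 fam4c6 fam4c7 fam4c8 fam4c9 fam4c10
      fam4c11 fam4c12 fam4c13 fam4c14 fam4c15 fam4c16 fam4c17 fam4c18 fam4c19 fam4c20 c4T c6T
    compute_degree
  · unfold C4form famN famD famNc0 famNc1 famNc2 famNc3 famNc4 famNc5 famDc0 famDc1 famDc2
      famDc3 famDc4 famDc5
    compute_degree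
  · intro i hi
    have e1 : eval ((i : ℕ) : ℤ[X]) (fam4 (c4T dA) (c6T dA) sA)
        = fam4 (c4T (X : ℤ[X])) (c6T X) ((i : ℕ) : ℤ[X]) := by
      have h := map_fam4 (evalRingHom ((i : ℕ) : ℤ[X])) (c4T dA) (c6T dA) sA
      simpa [map_c4T, map_c6T] using h
    have e2 : eval ((i : ℕ) : ℤ[X]) (C4form (famN dA sA) (famD dA sA))
        = C4form (famN (X : ℤ[X]) ((i : ℕ) : ℤ[X])) (famD X ((i : ℕ) : ℤ[X])) := by
      have h := map_C4form (evalRingHom ((i : ℕ) : ℤ[X])) (famN dA sA) (famD dA sA)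
      simpa [map_famN, map_famD] using h
    rw [e1, e2]
    refine eq_of_natCast_grid _ _ 44 ?_ ?_ ?_
    · unfold fam4 fam4c0 fam4c1 fam4c2 fam4c3 fam4c4 fam4c5 fam4c6 fam4c7 fam4c8 fam4c9 fam4c10
        fam4c11 fam4c12 fam4c13 fam4c14 fam4c15 fam4c16 fam4c17 fam4c18 fam4c19 fam4c20 c4T c6T
      compute_degree
    · unfold C4form famN famD famNc0 famNc1 famNc2 famNc3 famNc4 famNc5 famDc0 famDc1 famDc2
        famDc3 famDc4 famDc5
      compute_degree
    · intro j hj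
      have e3 : eval ((j : ℕ) : ℤ) (fam4 (c4T (X : ℤ[X])) (c6T X) ((i : ℕ) : ℤ[X]))
          = fam4 (c4T ((j : ℕ) : ℤ)) (c6T ((j : ℕ) : ℤ)) ((i : ℕ) : ℤ) := by
        have h := map_fam4 (evalRingHom ((j : ℕ) : ℤ)) (c4T (X : ℤ[X])) (c6T X) ((i : ℕ) : ℤ[X])
        simpa [map_c4T, map_c6T] using h
      have e4 : eval ((j : ℕ) : ℤ) (C4form (famN (X : ℤ[X]) ((i : ℕ) : ℤ[X])) (famD X ((i : ℕ) : ℤ[X])))
          = C4form (famN ((j : ℕ) : ℤ) ((i : ℕ) : ℤ)) (famD ((j : ℕ) : ℤ) ((i : ℕ) : ℤ)) := by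
        have h := map_C4form (evalRingHom ((j : ℕ) : ℤ)) (famN (X : ℤ[X]) ((i : ℕ) : ℤ[X]))
          (famD X ((i : ℕ) : ℤ[X]))
        simpa [map_famN, map_famD] using h
      rw [e3, e4]
      exact grid4 i hi j hj

set_option maxRecDepth 100000 in
/-- Kernel-checked grid for the `c6`-identity. -/
theorem grid6 : ∀ s0 < 31, ∀ d0 < 67,
    fam6 (c4T ((d0 : ℕ) : ℤ)) (c6T ((d0 : ℕ) : ℤ)) ((s0 : ℕ) : ℤ)
      = C6form (famN ((d0 : ℕ) : ℤ) ((s0 : ℕ) : ℤ)) (famD ((d0 : ℕ) : ℤ) ((s0 : ℕ) : ℤ)) := by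
  decide +kernel

/-- The `c6`-identity in `ℤ[X][X]` (inner variable `d`, outer variable `s`). -/
theorem fam6_poly :
    fam6 (c4T dA) (c6T dA) sA = C6form (famN dA sA) (famD dA sA) := by
  refine eq_of_natCast_grid _ _ 30 ?_ ?_ ?_
  · unfold fam6 fam6c0 fam6c1 fam6c2 fam6c3 fam6c4 fam6c5 fam6c6 fam6c7 fam6c8 fam6c9 fam6c10
      fam6c11 fam6c12 fam6c13 fam6c14 fam6c15 fam6c16 fam6c17 fam6c18 fam6c19 fam6c20 fam6c21
      fam6c22 fam6c23 fam6c24 fam6c25 fam6c26 fam6c27 fam6c28 fam6c29 fam6c30 c4T c6T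
    compute_degree
  · unfold C6form famN famD famNc0 famNc1 famNc2 famNc3 famNc4 famNc5 famDc0 famDc1 famDc2
      famDc3 famDc4 famDc5
    compute_degree
  · intro i hi
    have e1 : eval ((i : ℕ) : ℤ[X]) (fam6 (c4T dA) (c6T dA) sA)
        = fam6 (c4T (X : ℤ[X])) (c6T X) ((i : ℕ) : ℤ[X]) := by
      have h := map_fam6 (evalRingHom ((i : ℕ) : ℤ[X])) (c4T dA) (c6T dA) sA
      simpa [map_c4T, map_c6T] using h
    have e2 : eval ((i : ℕ) : ℤ[X]) (C6form (famN dA sA) (famD dA sA))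
        = C6form (famN (X : ℤ[X]) ((i : ℕ) : ℤ[X])) (famD X ((i : ℕ) : ℤ[X])) := by
      have h := map_C6form (evalRingHom ((i : ℕ) : ℤ[X])) (famN dA sA) (famD dA sA)
      simpa [map_famN, map_famD] using h
    rw [e1, e2]
    refine eq_of_natCast_grid _ _ 66 ?_ ?_ ?_
    · unfold fam6 fam6c0 fam6c1 fam6c2 fam6c3 fam6c4 fam6c5 fam6c6 fam6c7 fam6c8 fam6c9 fam6c10
        fam6c11 fam6c12 fam6c13 fam6c14 fam6c15 fam6c16 fam6c17 fam6c18 fam6c19 fam6c20 fam6c21
        fam6c22 fam6c23 fam6c24 fam6c25 fam6c26 fam6c27 fam6c28 fam6c29 fam6c30 c4T c6T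
      compute_degree
    · unfold C6form famN famD famNc0 famNc1 famNc2 famNc3 famNc4 famNc5 famDc0 famDc1 famDc2
        famDc3 famDc4 famDc5
      compute_degree
    · intro j hj
      have e3 : eval ((j : ℕ) : ℤ) (fam6 (c4T (X : ℤ[X])) (c6T X) ((i : ℕ) : ℤ[X]))
          = fam6 (c4T ((j : ℕ) : ℤ)) (c6T ((j : ℕ) : ℤ)) ((i : ℕ) : ℤ) := by
        have h := map_fam6 (evalRingHom ((j : ℕ) : ℤ)) (c4T (X : ℤ[X])) (c6T X) ((i : ℕ) : ℤ[X])
        simpa [map_c4T, map_c6T] using h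
      have e4 : eval ((j : ℕ) : ℤ) (C6form (famN (X : ℤ[X]) ((i : ℕ) : ℤ[X])) (famD X ((i : ℕ) : ℤ[X])))
          = C6form (famN ((j : ℕ) : ℤ) ((i : ℕ) : ℤ)) (famD ((j : ℕ) : ℤ) ((i : ℕ) : ℤ)) := by
        have h := map_C6form (evalRingHom ((j : ℕ) : ℤ)) (famN (X : ℤ[X]) ((i : ℕ) : ℤ[X]))
          (famD X ((i : ℕ) : ℤ[X]))
        simpa [map_famN, map_famD] using h
      rw [e3, e4]
      exact grid6 i hi j hj

end FamId

variable {R : Type*} [CommRing R]

open Polynomial Fermat.Agent.S52.GlueArith in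
theorem fam4_tate (d s : R) : fam4 (c4T d) (c6T d) s = C4form (famN d s) (famD d s) := by
  have h := congrArg (eval₂RingHom (eval₂RingHom (Int.castRingHom R) d) s) FamId.fam4_poly
  rw [map_fam4, map_c4T, map_c6T, map_C4form, map_famN, map_famD] at h
  simpa using h

open Polynomial Fermat.Agent.S52.GlueArith in
theorem fam6_tate (d s : R) : fam6 (c4T d) (c6T d) s = C6form (famN d s) (famD d s) := by
  have h := congrArg (eval₂RingHom (eval₂RingHom (Int.castRingHom R) d) s) FamId.fam6_poly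
  rw [map_fam6, map_c4T, map_c6T, map_C6form, map_famN, map_famD] at h
  simpa using h

end Fermat.Agent.S52.TateFamIdC
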